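import Mathlib
import Fermat.Agent.S36.HorizAdapter
import Fermat.Agent.S34.HauptU.Plug
import Fermat.Agent.S36.Haupt4.LevelQ
import Fermat.Agent.S35.DescendSwap
import Fermat.Agent.S44.L.AltDescW

/-!
# PROGRAM MR (S44), strand L, row ALT.8b: the horizontal hypothesis for the descended `f_*`

`M` a level with `4 ∣ M`, `q` a prime, `q ∤ M`, `Ks ⊆ ℚ̄` ANY intermediate field whose valuation
ring `OE A Ks` is a discrete valuation ring (no unramifiedness, no Eisenstein hypothesis),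
`α u₄ = alphaHom M q Ks (u4E M Ks h4)` the coordinate of the two charts of level `M q`,
`w = Plug.wHom M q Ks hq hqM` the swap.

* `upF_wHom` : extension of constants intertwines `Plug.wHom` and `ToricSwap.wAL`
  (`InvFun.upF` form of `Plug.upE_wE`);
* `divBy_wHom` : `m ∣ div (upF f) → m ∣ div (upF (w f))`;
* `horiz_desc` : for `fs ∈ LE (M q) Ks` nonzero with `m ∣ div (upF fs)`:
  `HorizAdapter.Horiz πs m t k` for `t ∈ {α u₄, (α u₄)⁻¹}` and `k ∈ {fs, w fs}` - the literal of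
  the row `(R3) HorizStatement` of the NZ contract and of `DESC f_*` of the SLOPE contract;
* `exists_desc_horiz` : the combined exit on `AltDescW.exists_desc_LE` (weak shape
  `P.p • R = 0`, `FixBy P A R b`): the class of `ι R` at level `M p` has a representative
  `fs ∈ LE (M p) (K ⊔ ℚ⟮b⟯)`, `K` a number field fixed by inertia, `OE A (K ⊔ ℚ⟮b⟯)` a discrete
  valuation ring, with `p ∣ div` for `fs` and `w fs` and the four `Horiz` statements.
-/

set_option autoImplicit false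
set_option linter.unusedSectionVars false
set_option linter.style.haveILetI false
set_option synthInstance.maxHeartbeats 400000
set_option maxHeartbeats 1000000

open WeierstrassCurve WeierstrassCurve.Affine WeierstrassCurve.Affine.Point
open HahnSeries ModularCurve AlgebraicCurve

noncomputable section

namespace Fermat.Agent.S44.L.Alt.DescHoriz

open Fermat.Agent.S18.K1Defs Fermat.Agent.S18.K1Main Fermat.Agent.S30 Fermat.Agent.S30.E4
open Fermat.Agent.S34.TwoPrimesRank Fermat.Agent.S34.HauptU.Plug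
open Fermat.Agent.S36.Haupt4 Fermat.Agent.S36.HorizAdapter

local notation "Qb" => AlgebraicClosure ℚ
local notation "GQb" => (AlgebraicClosure ℚ ≃ₐ[ℚ] AlgebraicClosure ℚ)

section Level

variable (M q : ℕ) [NeZero M] [NeZero q]

/-- Extension of constants intertwines `Plug.wHom` and `ToricSwap.wAL` (`InvFun.upF` form). -/
theorem upF_wHom (E : IntermediateField ℚ Qb) (hq : q.Prime) (hqM : ¬ q ∣ M)
    (f : LE (M * q) E) :
    Fermat.Agent.S36.InvFun.upF (M * q) E (wHom M q E hq hqM f) =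
      Fermat.Agent.S34.ToricSwap.wAL M q hq hqM (Fermat.Agent.S36.InvFun.upF (M * q) E f) :=
  Fermat.Agent.S34.HauptU.Plug.upE_wE M q E hq hqM f

/-- `m ∣ div` is stable under the swap `w_E`. -/
theorem divBy_wHom (E : IntermediateField ℚ Qb) (hq : q.Prime) (hqM : ¬ q ∣ M) {m : ℕ}
    (f : LE (M * q) E)
    (hdiv : E4.DivBy (M * q) m (Fermat.Agent.S36.InvFun.upF (M * q) E f)) :
    E4.DivBy (M * q) m (Fermat.Agent.S36.InvFun.upF (M * q) E (wHom M q E hq hqM f)) := by
  rw [upF_wHom M q E hq hqM f]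
  exact Fermat.Agent.S35.DescendSwap.divBy_algEquiv
    (Fermat.Agent.S34.ToricSwap.wAL M q hq hqM) hdiv

/-- **ALT.8b.**  The horizontal hypothesis on both charts of `α u₄`, for `fs` and `w fs`. -/
theorem horiz_desc (A : ValuationSubring Qb) (Ks : IntermediateField ℚ Qb)
    [IsDiscreteValuationRing (OE A Ks)] (hq : q.Prime) (hqM : ¬ q ∣ M) (h4 : 4 ∣ M)
    (πs : OE A Ks) (hπs : Irreducible πs) (m : ℕ) (fs : LE (M * q) Ks) (hfs : fs ≠ 0)
    (hdiv : E4.DivBy (M * q) m (Fermat.Agent.S36.InvFun.upF (M * q) Ks fs)) :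
    letI := algebraOL (OE A Ks) Ks (LE (M * q) Ks)
    Horiz πs m (alphaHom M q Ks (u4E M Ks h4)) fs ∧
      Horiz πs m (alphaHom M q Ks (u4E M Ks h4))⁻¹ fs ∧
      Horiz πs m (alphaHom M q Ks (u4E M Ks h4)) (wHom M q Ks hq hqM fs) ∧
      Horiz πs m (alphaHom M q Ks (u4E M Ks h4))⁻¹ (wHom M q Ks hq hqM fs) := by
  letI := algebraOL (OE A Ks) Ks (LE (M * q) Ks)
  haveI := isScalarTower_OL (OE A Ks) Ks (LE (M * q) Ks)
  haveI := LevelQ.finiteDimensional_alpha_u4E M q Ks h4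
  have hu := LevelQ.transcendental_alpha_u4E M q Ks h4
  have hw0 : wHom M q Ks hq hqM fs ≠ 0 := by
    intro h0
    exact hfs ((wHom M q Ks hq hqM).injective (h0.trans (_root_.map_zero _).symm))
  have h1 := horiz_both_of_divBy (M * q) Ks πs hπs (alphaHom M q Ks (u4E M Ks h4)) hu m fs
    hfs hdiv
  have h2 := horiz_both_of_divBy (M * q) Ks πs hπs (alphaHom M q Ks (u4E M Ks h4)) hu m
    (wHom M q Ks hq hqM fs) hw0 (divBy_wHom M q Ks hq hqM fs hdiv)
  exact ⟨h1.1, h1.2, h2.1, h2.2⟩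

end Level

section Desc

open Fermat.Agent.S30.Producer Fermat.Agent.S44.Contract Fermat.Agent.S44.L.Top
open Fermat.Agent.S44.L.AltDescW (FixBy)
open Fermat.Agent.S37.LevelPull (lvl)

variable {P : FreyPackage} {N' : ℕ} [NeZero N'] [NeZero P.p] {W : WeierstrassCurve ℤ}
  {ι : (P.freyCurve⁄Qb).Point → FN (N' * P.p)} {A : ValuationSubring Qb}
  {R : (P.freyCurve⁄Qb).Point} {b : Qb}

/-- **ALT.8 (DESC), combined weak exit.**  Under the weak shape (`P.p • R = 0`, `FixBy P A R b`),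
at every level `M p` with `4 ∣ M`, `p ∤ M`, `N' p ∣ M p`: the class of `ι R` has a representative
`fs` over `K ⊔ ℚ⟮b⟯` (`K` a number field fixed by the inertia group of `A`, containing `K₀`),
`OE A (K ⊔ ℚ⟮b⟯)` is a discrete valuation ring, `p ∣ div fs`, `p ∣ div (w fs)`, and the
horizontal hypothesis holds on both charts of `α u₄` for `fs` and `w fs`. -/
theorem exists_desc_horiz (hι : IsNewEmb P N' W ι) (hR : P.p • R = 0) (hfix : FixBy P A R b)
    (hA : A.LiesOverPrime P.p) {M : ℕ} [NeZero M] (hpM : ¬ P.p ∣ M) (h4 : 4 ∣ M)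
    (hM : N' * P.p ∣ M * P.p) (K₀ : IntermediateField ℚ Qb) [FiniteDimensional ℚ K₀]
    (hK₀ : ∀ τ ∈ A.inertiaSubgroupIn ℚ, ∀ x ∈ K₀, τ x = x) :
    ∃ (K : IntermediateField ℚ Qb)
      (fs : LE (M * P.p) ↥(K ⊔ IntermediateField.adjoin ℚ ({b} : Set Qb))) (h : Fb (M * P.p)),
      FiniteDimensional ℚ K ∧ K₀ ≤ K ∧ (∀ τ ∈ A.inertiaSubgroupIn ℚ, ∀ x ∈ K, τ x = x) ∧
      FiniteDimensional ℚ ↥(K ⊔ IntermediateField.adjoin ℚ ({b} : Set Qb)) ∧
      IsDiscreteValuationRing (OE A (K ⊔ IntermediateField.adjoin ℚ ({b} : Set Qb))) ∧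
      fs ≠ 0 ∧ h ≠ 0 ∧
      lvl hM (ι R) = Fermat.Agent.S36.InvFun.upF (M * P.p) _ fs * h ^ P.p ∧
      DivBy (M * P.p) P.p (Fermat.Agent.S36.InvFun.upF (M * P.p) _ fs) ∧
      DivBy (M * P.p) P.p (Fermat.Agent.S36.InvFun.upF (M * P.p) _
        (wHom M P.p (K ⊔ IntermediateField.adjoin ℚ ({b} : Set Qb)) P.pp hpM fs)) ∧
      ∀ (_ : IsDiscreteValuationRing (OE A (K ⊔ IntermediateField.adjoin ℚ ({b} : Set Qb))))
        (πs : OE A (K ⊔ IntermediateField.adjoin ℚ ({b} : Set Qb))), Irreducible πs →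
        letI := algebraOL (OE A (K ⊔ IntermediateField.adjoin ℚ ({b} : Set Qb)))
          ↥(K ⊔ IntermediateField.adjoin ℚ ({b} : Set Qb))
          (LE (M * P.p) ↥(K ⊔ IntermediateField.adjoin ℚ ({b} : Set Qb)))
        Horiz πs P.p (alphaHom M P.p (K ⊔ IntermediateField.adjoin ℚ ({b} : Set Qb))
            (u4E M (K ⊔ IntermediateField.adjoin ℚ ({b} : Set Qb)) h4)) fs ∧
          Horiz πs P.p (alphaHom M P.p (K ⊔ IntermediateField.adjoin ℚ ({b} : Set Qb))
            (u4E M (K ⊔ IntermediateField.adjoin ℚ ({b} : Set Qb)) h4))⁻¹ fs ∧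
          Horiz πs P.p (alphaHom M P.p (K ⊔ IntermediateField.adjoin ℚ ({b} : Set Qb))
            (u4E M (K ⊔ IntermediateField.adjoin ℚ ({b} : Set Qb)) h4))
            (wHom M P.p (K ⊔ IntermediateField.adjoin ℚ ({b} : Set Qb)) P.pp hpM fs) ∧
          Horiz πs P.p (alphaHom M P.p (K ⊔ IntermediateField.adjoin ℚ ({b} : Set Qb))
            (u4E M (K ⊔ IntermediateField.adjoin ℚ ({b} : Set Qb)) h4))⁻¹
            (wHom M P.p (K ⊔ IntermediateField.adjoin ℚ ({b} : Set Qb)) P.pp hpM fs) := by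
  obtain ⟨K, fs, h, hKfin, hK₀K, hKfix, hfs, hh, hfe, hdiv⟩ :=
    Fermat.Agent.S44.L.AltDescW.exists_desc_LE hι hR hfix hM K₀ hK₀
  haveI := hKfin
  haveI : FiniteDimensional ℚ ↥(IntermediateField.adjoin ℚ ({b} : Set Qb)) :=
    IntermediateField.adjoin.finiteDimensional
      (Fermat.Agent.S30.GaussDescent.isAlgebraic_rat_Qb.isAlgebraic b).isIntegral
  have hfinS : FiniteDimensional ℚ ↥(K ⊔ IntermediateField.adjoin ℚ ({b} : Set Qb)) :=
    IntermediateField.finiteDimensional_sup K _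
  haveI := hfinS
  have hdvr : IsDiscreteValuationRing (OE A (K ⊔ IntermediateField.adjoin ℚ ({b} : Set Qb))) :=
    Fermat.Agent.S30.GaussDescent.isDiscreteValuationRing_OE A _ P.pp hA
  refine ⟨K, fs, h, hKfin, hK₀K, hKfix, hfinS, hdvr, hfs, hh, hfe, hdiv,
    divBy_wHom M P.p _ P.pp hpM fs hdiv, ?_⟩
  intro inst πs hπs
  exact horiz_desc M P.p A _ P.pp hpM h4 πs hπs P.p fs hfs hdiv

end Desc

end Fermat.Agent.S44.L.Alt.DescHoriz
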