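import Mathlib
import Fermat.Agent.S19.Cech.BCChart
import Fermat.Agent.S19.Cech.LaurentBC
import Fermat.Agent.S34.HauptU.Plug
import Fermat.Agent.S34.TwoPrimesGauss
import Fermat.Agent.S36.Haupt4.Horiz
import Fermat.Agent.S44.L.FirstOrder

/-!
# S44 (Mazur–Ribet), strand L, cover-free twin (ALT.3): the seam `L_s / L`

`K ≤ Ks` intermediate fields of `ℚ̄ / ℚ` (in the application `K` is a number field inside the
inertia field and `Ks = K(b)` the Eisenstein extension with uniformiser `πs`),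
`L = LE N K`, `Ls = LE N Ks` the level-`N` function fields, `O = OE A K`, `Os = OE A Ks`.
The coefficient extension `L → Ls` is `BCChart.lvl N h` (Program FG, on main).  This file records
its compatibilities, at four levels:

* **field level** : `lvl` commutes with the `q`-expansion embedding (`sigmaHom_lvl`), with
  `upE` (`upE_lvl`), with `α` and `β` (`lvl_alphaHom`, `lvl_beta`), with the Atkin–Lehner swap
  (`lvl_wHom`), and fixes the coordinates `u₄` (`lvl_u4E`); the swap fixes constants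
  (`wHom_algebraMap_field`).
* **power basis** : if `1, π, …, π^(p-1)` span `Ks` over `K` (and are independent), they span
  `Ls` over `lvl L` (and are independent): `exists_powerCoords`, `powerCoords_unique`,
  `exists_powerBasis`; level-free corollary `isFractionRing_adjoin` :
  `Frac (B[π]) = Ls` for every localisation `B` of a ring with fraction field `L`.
* **Gauss level** : `coeffMap_mem_V`, `red_coeffMap` (base change of the Gauss ring and of its
  reduction), `exists_base_series` (a base element is a quotient of series over the base, the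
  hypothesis shape of `FirstOrder.dV_eq_zero_of_base`), `dV_coeffMap_eq_zero`.
* **chart level** : `chartBC : Chart O u →+* Chart Os (lvl u)` and the compatibility of the
  three reductions `redHom`, `redInf`, `redZero` with it.
-/

set_option autoImplicit false
set_option linter.style.haveILetI false
set_option linter.unusedSectionVars false
set_option linter.unusedVariables false
set_option synthInstance.maxHeartbeats 400000
set_option maxHeartbeats 1000000

noncomputable section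

open Polynomial IntermediateField ModularCurve

namespace Fermat.Agent.S44.L.Alt.SeamField

open Fermat.Agent.S18.K1Defs Fermat.Agent.S18.K1Main Fermat.Agent.S30
open Fermat.Agent.S36.CycloBase Fermat.Agent.S19.Cech.BCChart
open Fermat.Agent.S34.TwoPrimesRank Fermat.Agent.S34.HauptU.Plug Fermat.Agent.S34.TwoPrimesGauss
open Fermat.Agent.S34.Modular.SwapE Fermat.Agent.S36.Haupt4

local notation "Qb" => AlgebraicClosure ℚ

/-! ### Field level -/

section Field

variable {K Ks : IntermediateField ℚ Qb} (h : K ≤ Ks)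

/-- The coefficient extension is injective. -/
theorem lvl_injective (N : ℕ) : Function.Injective (lvl N h) := (lvl N h).injective

/-- `σs ∘ lvl = (coefficientwise inclusion) ∘ σ`. -/
theorem sigmaHom_lvl (N : ℕ) (x : LE N K) :
    sigmaHom N Ks (lvl N h x)
      = coeffMap (IntermediateField.inclusion h : K →+* Ks) (sigmaHom N K x) := rfl

/-- `lvl` is compatible with the extension of coefficients to `ℚ̄`. -/
theorem upE_lvl (N : ℕ) (x : LE N K) : upE N Ks (lvl N h x) = upE N K x := by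
  apply Subtype.ext
  rw [coe_upE, coe_upE, coe_lvl, coeffMap_coeffMap]
  exact coeffMap_congr (RingHom.ext fun _ => rfl) _

/-- `lvl` commutes with `α`. -/
theorem lvl_alphaHom (M ℓ : ℕ) [NeZero M] [NeZero ℓ] (x : LE M K) :
    lvl (M * ℓ) h (alphaHom M ℓ K x) = alphaHom M ℓ Ks (lvl M h x) := by
  apply Subtype.ext
  rw [coe_lvl]
  show coeffMap _ ((heckeAlphaBar K M ℓ x : LE (M * ℓ) K) : LaurentSeries K)
    = ((heckeAlphaBar Ks M ℓ (lvl M h x) : LE (M * ℓ) Ks) : LaurentSeries Ks)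
  rw [coe_heckeAlphaBar, coe_heckeAlphaBar, coe_lvl]

/-- `lvl (α u) = α us` from `lvl u = us`. -/
theorem lvl_alpha_eq (M ℓ : ℕ) [NeZero M] [NeZero ℓ] {u : LE M K} {us : LE M Ks}
    (hu : lvl M h u = us) : lvl (M * ℓ) h (alphaHom M ℓ K u) = alphaHom M ℓ Ks us := by
  rw [lvl_alphaHom, hu]

/-- `lvl` commutes with `β`. -/
theorem lvl_beta (M ℓ : ℕ) [NeZero M] [NeZero ℓ] (x : LE M K) :
    lvl (M * ℓ) h (heckeBetaBar K M ℓ x) = heckeBetaBar Ks M ℓ (lvl M h x) := by
  apply Subtype.ext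
  rw [coe_lvl, coe_heckeBetaBar, coe_heckeBetaBar, coe_lvl]
  exact ModularCurve.coeffMap_qExpand _ _ _

/-- `lvl` commutes with the Atkin–Lehner swap. -/
theorem lvl_wHom (M ℓ : ℕ) [NeZero M] [NeZero ℓ] (hℓ : ℓ.Prime) (hℓM : ¬ ℓ ∣ M)
    (z : LE (M * ℓ) K) :
    lvl (M * ℓ) h (wHom M ℓ K hℓ hℓM z) = wHom M ℓ Ks hℓ hℓM (lvl (M * ℓ) h z) := by
  apply upE_injective (M * ℓ) Ks
  rw [upE_lvl, wHom_apply, wHom_apply, upE_wE, upE_wE, upE_lvl]

/-- The swap fixes the constants. -/
theorem wHom_algebraMap_field (M ℓ : ℕ) [NeZero M] [NeZero ℓ] (E : IntermediateField ℚ Qb)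
    (hℓ : ℓ.Prime) (hℓM : ¬ ℓ ∣ M) (c : E) :
    wHom M ℓ E hℓ hℓM (algebraMap E (LE (M * ℓ) E) c) = algebraMap E (LE (M * ℓ) E) c :=
  (wE M ℓ E hℓ hℓM).commutes c

/-- `lvl` fixes the coordinate `u₄`. -/
theorem lvl_u4E (M : ℕ) [NeZero M] (h4 : 4 ∣ M) : lvl M h (u4E M K h4) = u4E M Ks h4 := by
  apply Subtype.ext
  rw [coe_lvl, coe_u4E, coe_u4E]
  exact coeffMap_u4 _

/-- `lvl (α u₄) = α u₄`. -/
theorem lvl_alpha_u4E (M ℓ : ℕ) [NeZero M] [NeZero ℓ] (h4 : 4 ∣ M) :
    lvl (M * ℓ) h (alphaHom M ℓ K (u4E M K h4)) = alphaHom M ℓ Ks (u4E M Ks h4) :=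
  lvl_alpha_eq h M ℓ (lvl_u4E h M h4)

/-- `lvl` on the constants of the valuation rings. -/
theorem lvl_algebraMap_OE (A : ValuationSubring Qb) (N : ℕ) (a : OE A K) :
    letI := algebraOL (OE A K) K (LE N K)
    letI := algebraOL (OE A Ks) Ks (LE N Ks)
    lvl N h (algebraMap (OE A K) (LE N K) a) = algebraMap (OE A Ks) (LE N Ks) (inclOE A h a) :=
  lvl_algebraMap N h (a : K)

end Field

/-! ### The power basis `1, π, …, π^(p-1)` of `Ls / L` -/

section Coords

variable {K Ks : IntermediateField ℚ Qb} (h : K ≤ Ks)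

/-- The coercion to `ℚ̄` of a `π`-power sum. -/
theorem coe_sum_pow (π : Ks) (p : ℕ) (c : Fin p → K) :
    ((∑ j : Fin p, π ^ (j : ℕ) * IntermediateField.inclusion h (c j) : Ks) : Qb)
      = ∑ j : Fin p, (π : Qb) ^ (j : ℕ) * ((c j : K) : Qb) := by
  have h1 := map_sum (algebraMap Ks Qb)
    (fun j : Fin p => π ^ (j : ℕ) * IntermediateField.inclusion h (c j)) Finset.univ
  exact h1

/-- Number level adapter: the `Finset.range` form of the spanning hypothesis
(the `hexp` of `KummerBase`). -/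
theorem hspan_of_range (π : Ks) (p : ℕ)
    (hexp : ∀ y ∈ Ks, ∃ c : ℕ → K, y = ∑ i ∈ Finset.range p, ((c i : K) : Qb) * (π : Qb) ^ i) :
    ∀ x : Ks, ∃ c : Fin p → K, x = ∑ j : Fin p, π ^ (j : ℕ) * IntermediateField.inclusion h (c j) := by
  intro x
  obtain ⟨c, hx⟩ := hexp (x : Qb) x.2
  refine ⟨fun j => c j, Subtype.ext ?_⟩
  rw [coe_sum_pow, hx, ← Fin.sum_univ_eq_sum_range (fun i => ((c i : K) : Qb) * (π : Qb) ^ i) p]
  exact Finset.sum_congr rfl fun j _ => mul_comm _ _

/-- Number level adapter: the polynomial form of the spanning hypothesis. -/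
theorem hspan_of_poly (π : Ks) (p : ℕ)
    (hpoly : ∀ x ∈ Ks, ∃ P : Qb[X], (∀ i, P.coeff i ∈ K) ∧ P.natDegree < p ∧
      P.eval (π : Qb) = x) :
    ∀ x : Ks, ∃ c : Fin p → K, x = ∑ j : Fin p, π ^ (j : ℕ) * IntermediateField.inclusion h (c j) := by
  refine hspan_of_range h π p fun y hy => ?_
  obtain ⟨P, hP, hdeg, hx⟩ := hpoly y hy
  exact ⟨fun i => ⟨P.coeff i, hP i⟩, by rw [← hx, Polynomial.eval_eq_sum_range' hdeg]⟩

/-- Number level adapter: the `Finset.range` form of the independence hypothesis. -/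
theorem hind_of_range (π : Ks) (p : ℕ)
    (hzero : ∀ a : ℕ → Qb, (∀ i, a i ∈ K) →
      ∑ i ∈ Finset.range p, a i * (π : Qb) ^ i = 0 → ∀ i < p, a i = 0) :
    ∀ c : Fin p → K, ∑ j : Fin p, π ^ (j : ℕ) * IntermediateField.inclusion h (c j) = 0 →
      ∀ j, c j = 0 := by
  intro c hc j
  let a : ℕ → Qb := fun i => if hi : i < p then ((c ⟨i, hi⟩ : K) : Qb) else 0
  have ha : ∀ i, a i ∈ K := by
    intro i
    by_cases hi : i < p
    · simp only [a, dif_pos hi]; exact (c ⟨i, hi⟩).2
    · simp only [a, dif_neg hi]; exact K.zero_mem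
  have h1 : ∑ i ∈ Finset.range p, a i * (π : Qb) ^ i = 0 := by
    have h2 := coe_sum_pow h π p c
    rw [hc] at h2
    rw [← Fin.sum_univ_eq_sum_range (fun i => a i * (π : Qb) ^ i) p]
    have h3 : ((0 : Ks) : Qb) = 0 := rfl
    rw [← h3, h2]
    refine Finset.sum_congr rfl fun j _ => ?_
    simp only [a, dif_pos j.2, Fin.eta]
    exact mul_comm _ _
  have h4 := hzero a ha h1 j j.2
  simp only [a, dif_pos j.2, Fin.eta] at h4
  exact Subtype.ext h4

/-- **`Ls = ⊕ π^j · lvl L`, spanning.** -/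
theorem exists_powerCoords (N : ℕ) (π : Ks) (p : ℕ)
    (hspan : ∀ x : Ks, ∃ c : Fin p → K, x = ∑ j : Fin p, π ^ (j : ℕ) * IntermediateField.inclusion h (c j))
    (x : LE N Ks) :
    ∃ c : Fin p → LE N K, x = ∑ j : Fin p, algebraMap Ks (LE N Ks) π ^ (j : ℕ) * lvl N h (c j) := by
  obtain ⟨c, hc, hx⟩ := Fermat.Agent.S19.Cech.LaurentBC.exists_coords N h
    (fun j : Fin p => π ^ (j : ℕ)) hspan (x : LaurentSeries Ks) x.2
  refine ⟨fun j => ⟨c j, hc j⟩, Subtype.ext ?_⟩
  rw [hx, AddSubmonoidClass.coe_finsetSum]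
  refine Finset.sum_congr rfl fun j _ => ?_
  rw [← map_pow]
  rfl

/-- **`Ls = ⊕ π^j · lvl L`, uniqueness.** -/
theorem powerCoords_unique (N : ℕ) (π : Ks) (p : ℕ)
    (hind : ∀ c : Fin p → K, ∑ j : Fin p, π ^ (j : ℕ) * IntermediateField.inclusion h (c j) = 0 →
      ∀ j, c j = 0)
    (c : Fin p → LE N K)
    (hc : ∑ j : Fin p, algebraMap Ks (LE N Ks) π ^ (j : ℕ) * lvl N h (c j) = 0) : ∀ j, c j = 0 := by
  intro j
  have h1 : ∑ j : Fin p, algebraMap Ks (LaurentSeries Ks) (π ^ (j : ℕ))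
      * coeffMap (IntermediateField.inclusion h : K →+* Ks) ((c j : LE N K) : LaurentSeries K)
        = 0 := by
    have h2 := congrArg (fun z : LE N Ks => (z : LaurentSeries Ks)) hc
    simp only [AddSubmonoidClass.coe_finsetSum] at h2
    have h3 : ((0 : LE N Ks) : LaurentSeries Ks) = 0 := rfl
    rw [h3] at h2
    rw [← h2]
    refine Finset.sum_congr rfl fun j _ => ?_
    rw [← map_pow]
    rfl
  exact Subtype.ext (Fermat.Agent.S19.Cech.LaurentBC.coords_unique h
    (fun j : Fin p => π ^ (j : ℕ)) hind (fun j => ((c j : LE N K) : LaurentSeries K)) h1 j)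

/-- **The power basis of `Ls / L`** (`L` acting through `lvl`), with generator `π`. -/
theorem exists_powerBasis (N : ℕ) (π : Ks) (p : ℕ)
    (hspan : ∀ x : Ks, ∃ c : Fin p → K, x = ∑ j : Fin p, π ^ (j : ℕ) * IntermediateField.inclusion h (c j))
    (hind : ∀ c : Fin p → K, ∑ j : Fin p, π ^ (j : ℕ) * IntermediateField.inclusion h (c j) = 0 →
      ∀ j, c j = 0) :
    letI := (lvl N h).toAlgebra
    ∃ B : PowerBasis (LE N K) (LE N Ks), B.gen = algebraMap Ks (LE N Ks) π ∧ B.dim = p := by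
  letI := (lvl N h).toAlgebra
  let v : Fin p → LE N Ks := fun j => algebraMap Ks (LE N Ks) π ^ (j : ℕ)
  have hsmul : ∀ (g : LE N K) (y : LE N Ks), g • y = y * lvl N h g := fun g y => by
    rw [Algebra.smul_def, mul_comm]
    rfl
  have hli : LinearIndependent (LE N K) v := by
    rw [Fintype.linearIndependent_iff]
    intro g hg j
    refine powerCoords_unique h N π p hind g ?_ j
    rw [← hg]
    exact Finset.sum_congr rfl fun j _ => (hsmul _ _).symm
  have hsp : ⊤ ≤ Submodule.span (LE N K) (Set.range v) := by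
    intro x _
    obtain ⟨c, hc⟩ := exists_powerCoords h N π p hspan x
    rw [hc]
    refine Submodule.sum_mem _ fun j _ => ?_
    rw [← hsmul]
    exact Submodule.smul_mem _ _ (Submodule.subset_span ⟨j, rfl⟩)
  exact ⟨{ gen := algebraMap Ks (LE N Ks) π
           dim := p
           basis := Module.Basis.mk hli hsp
           basis_eq_pow := fun i => Module.Basis.mk_apply hli hsp i }, rfl, rfl⟩

end Coords

/-- **Level-free: `Frac (B[π]) = Ls`.**  `C` a domain with fraction field `L`, `Ls / L` a field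
extension spanned by the powers `π^j`, `j < p`, of one element, `B` any `C`-algebra acting on
`Ls` compatibly (a localisation of `C` in the application): `Ls` is the fraction field of the
subalgebra `B[π]`. -/
theorem isFractionRing_adjoin {C L Ls B : Type*} [CommRing C] [Field L] [Algebra C L]
    [IsFractionRing C L] [Field Ls] [Algebra L Ls] [Algebra C Ls] [IsScalarTower C L Ls]
    [CommRing B] [Algebra C B] [Algebra B Ls] [IsScalarTower C B Ls] (π : Ls) (p : ℕ)
    (hspan : ∀ x : Ls, ∃ c : Fin p → L, x = ∑ j : Fin p, π ^ (j : ℕ) * algebraMap L Ls (c j)) :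
    IsFractionRing (Algebra.adjoin B {π}) Ls := by
  classical
  haveI : FaithfulSMul (Algebra.adjoin B {π}) Ls :=
    (faithfulSMul_iff_algebraMap_injective _ _).mpr Subtype.val_injective
  haveI : Nontrivial C := (algebraMap C L).domain_nontrivial
  refine IsFractionRing.of_field (R := Algebra.adjoin B {π}) (K := Ls) fun x => ?_
  obtain ⟨c, hc⟩ := hspan x
  obtain ⟨b, hb⟩ := IsLocalization.exist_integer_multiples (nonZeroDivisors C) Finset.univ c
  choose a ha using fun j => hb j (Finset.mem_univ j)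
  have hb0 : algebraMap C Ls (b : C) ≠ 0 := by
    rw [IsScalarTower.algebraMap_apply C L Ls]
    exact (_root_.map_ne_zero _).mpr ((_root_.map_ne_zero_iff _ (IsFractionRing.injective C L)).mpr
      (nonZeroDivisors.ne_zero b.2))
  have hπ : π ∈ Algebra.adjoin B {π} := Algebra.subset_adjoin (Set.mem_singleton π)
  have hnum : ∑ j : Fin p, π ^ (j : ℕ) * algebraMap B Ls (algebraMap C B (a j)) ∈ Algebra.adjoin B {π} :=
    Subalgebra.sum_mem _ fun j _ => Subalgebra.mul_mem _ (Subalgebra.pow_mem _ hπ _)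
      (Subalgebra.algebraMap_mem _ _)
  refine ⟨⟨_, hnum⟩, ⟨algebraMap B Ls (algebraMap C B (b : C)), Subalgebra.algebraMap_mem _ _⟩, ?_⟩
  show x = (∑ j : Fin p, π ^ (j : ℕ) * algebraMap B Ls (algebraMap C B (a j)))
    / algebraMap B Ls (algebraMap C B (b : C))
  rw [← IsScalarTower.algebraMap_apply C B Ls, eq_div_iff hb0, hc, Finset.sum_mul]
  refine Finset.sum_congr rfl fun j _ => ?_
  rw [← IsScalarTower.algebraMap_apply C B Ls, IsScalarTower.algebraMap_apply C L Ls (a j), ha j,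
    Algebra.smul_def, map_mul, IsScalarTower.algebraMap_apply C L Ls (b : C)]
  ring

/-! ### Gauss level -/

section Gauss

variable (A : ValuationSubring Qb) {K Ks : IntermediateField ℚ Qb} (h : K ≤ Ks)
  [IsDiscreteValuationRing (OE A K)] [IsDiscreteValuationRing (OE A Ks)]

/-- Coefficientwise maps along field homomorphisms are injective. -/
theorem coeffMap_injective_field {F F' : Type*} [Field F] [Field F'] (φ : F →+* F') :
    Function.Injective (coeffMap φ) := by
  intro x y hxy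
  ext n
  apply φ.injective
  have := congrArg (fun t : LaurentSeries F' => t.coeff n) hxy
  simpa using this

/-- `ι_s ∘ (coefficientwise inclOE) = (coefficientwise inclusion) ∘ ι`. -/
theorem iota_inclOE (a : LaurentSeries (OE A K)) :
    GaussDVR.iota (OE A Ks) Ks (coeffMap (inclOE A h) a)
      = coeffMap (IntermediateField.inclusion h : K →+* Ks) (GaussDVR.iota (OE A K) K a) := by
  show coeffMap (algebraMap (OE A Ks) Ks) (coeffMap (inclOE A h) a)
    = coeffMap (IntermediateField.inclusion h : K →+* Ks) (coeffMap (algebraMap (OE A K) K) a)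
  rw [coeffMap_coeffMap, coeffMap_coeffMap]
  exact coeffMap_congr (RingHom.ext fun _ => rfl) a

/-- `ρ_s ∘ (coefficientwise inclOE) = (residue field map) ∘ ρ`. -/
theorem rho_inclOE (a : LaurentSeries (OE A K)) :
    GaussDVR.rho (OE A Ks) (coeffMap (inclOE A h) a)
      = coeffMap (IsLocalRing.ResidueField.map (inclOE A h)) (GaussDVR.rho (OE A K) a) := by
  show coeffMap (IsLocalRing.residue (OE A Ks)) (coeffMap (inclOE A h) a)
    = coeffMap (IsLocalRing.ResidueField.map (inclOE A h))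
        (coeffMap (IsLocalRing.residue (OE A K)) a)
  rw [coeffMap_coeffMap, coeffMap_coeffMap]
  exact coeffMap_congr (RingHom.ext fun _ => rfl) a

/-- **Base series.**  The coefficient extension of an element of the Gauss ring of the base is
a quotient of two series over the base, with denominator a Gauss unit: the hypothesis shape of
`FirstOrder.dV_eq_zero_of_base` (`φ := inclOE A h`). -/
theorem exists_base_series_of_mem {x : LaurentSeries K} (hx : x ∈ GaussDVR.V (OE A K) K) :
    ∃ a b : LaurentSeries (OE A K),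
      GaussDVR.rho (OE A K) b ≠ 0 ∧ x * GaussDVR.iota (OE A K) K b = GaussDVR.iota (OE A K) K a ∧
      GaussDVR.rho (OE A Ks) (coeffMap (inclOE A h) b) ≠ 0 ∧
      coeffMap (IntermediateField.inclusion h : K →+* Ks) x
        * GaussDVR.iota (OE A Ks) Ks (coeffMap (inclOE A h) b)
        = GaussDVR.iota (OE A Ks) Ks (coeffMap (inclOE A h) a) := by
  obtain ⟨a, b, hb, hab⟩ := (GaussDVR.mem_V (OE A K) K).mp hx
  refine ⟨a, b, hb, hab, ?_, ?_⟩
  · rw [rho_inclOE]
    exact fun h0 => hb (coeffMap_injective_field _ (h0.trans (map_zero _).symm))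
  · rw [iota_inclOE, iota_inclOE, ← map_mul, hab]

/-- The coefficient extension maps the Gauss ring of `O` into the Gauss ring of `Os`. -/
theorem coeffMap_mem_V {x : LaurentSeries K} (hx : x ∈ GaussDVR.V (OE A K) K) :
    coeffMap (IntermediateField.inclusion h : K →+* Ks) x ∈ GaussDVR.V (OE A Ks) Ks := by
  obtain ⟨a, b, -, -, hb, hab⟩ := exists_base_series_of_mem A h hx
  exact ⟨_, _, hb, hab⟩

/-- ... compatibly with the reductions. -/
theorem red_coeffMap {x : LaurentSeries K} (hx : x ∈ GaussDVR.V (OE A K) K) :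
    GaussDVR.red (OE A Ks) Ks ⟨coeffMap (IntermediateField.inclusion h : K →+* Ks) x,
        coeffMap_mem_V A h hx⟩
      = coeffMap (IsLocalRing.ResidueField.map (inclOE A h))
          (GaussDVR.red (OE A K) K ⟨x, hx⟩) := by
  obtain ⟨a, b, hb0, hab0, hb, hab⟩ := exists_base_series_of_mem A h hx
  have h1 := GaussDVR.red_eq (OE A Ks) Ks
    ⟨coeffMap (IntermediateField.inclusion h : K →+* Ks) x, coeffMap_mem_V A h hx⟩
    (coeffMap (inclOE A h) a) (coeffMap (inclOE A h) b) hb hab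
  have h2 := GaussDVR.red_eq (OE A K) K ⟨x, hx⟩ a b hb0 hab0
  rw [h1, h2, rho_inclOE, rho_inclOE]
  exact (map_div₀ (coeffMap (IsLocalRing.ResidueField.map (inclOE A h))) _ _).symm

/-- **`dV` kills the base.** -/
theorem dV_coeffMap_eq_zero {ϖs : OE A Ks} {D : OE A Ks → IsLocalRing.ResidueField (OE A Ks)}
    (hD : FirstOrder.IsFirstOrder (IsLocalRing.residue (OE A Ks)) ϖs D)
    (hbase : ∀ a : OE A K, D (inclOE A h a) = 0)
    {x : LaurentSeries K} (hx : x ∈ GaussDVR.V (OE A K) K) :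
    FirstOrder.dV (OE A Ks) Ks hD
      ⟨coeffMap (IntermediateField.inclusion h : K →+* Ks) x, coeffMap_mem_V A h hx⟩ = 0 := by
  obtain ⟨a, b, -, -, hb, hab⟩ := exists_base_series_of_mem A h hx
  exact FirstOrder.dV_eq_zero_of_base (OE A Ks) Ks hD (inclOE A h) hbase _ a b hb hab

/-- `exists_base_series_of_mem` at the function field: `σs (lvl l)` for `σ l` Gauss-integral. -/
theorem exists_base_series (N : ℕ) (l : LE N K)
    (hl : sigmaHom N K l ∈ GaussDVR.V (OE A K) K) :
    ∃ a b : LaurentSeries (OE A K),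
      GaussDVR.rho (OE A Ks) (coeffMap (inclOE A h) b) ≠ 0 ∧
      sigmaHom N Ks (lvl N h l) * GaussDVR.iota (OE A Ks) Ks (coeffMap (inclOE A h) b)
        = GaussDVR.iota (OE A Ks) Ks (coeffMap (inclOE A h) a) := by
  obtain ⟨a, b, -, -, hb, hab⟩ := exists_base_series_of_mem A h hl
  exact ⟨a, b, hb, hab⟩

/-- `σs (lvl l)` is Gauss-integral over `Os` when `σ l` is over `O`. -/
theorem sigmaHom_lvl_mem_V (N : ℕ) (l : LE N K)
    (hl : sigmaHom N K l ∈ GaussDVR.V (OE A K) K) :
    sigmaHom N Ks (lvl N h l) ∈ GaussDVR.V (OE A Ks) Ks :=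
  coeffMap_mem_V A h hl

/-- The reduction of `σs (lvl l)` is the image of the reduction of `σ l`. -/
theorem red_sigmaHom_lvl (N : ℕ) (l : LE N K)
    (hl : sigmaHom N K l ∈ GaussDVR.V (OE A K) K) :
    GaussDVR.red (OE A Ks) Ks ⟨sigmaHom N Ks (lvl N h l), sigmaHom_lvl_mem_V A h N l hl⟩
      = coeffMap (IsLocalRing.ResidueField.map (inclOE A h))
          (GaussDVR.red (OE A K) K ⟨sigmaHom N K l, hl⟩) :=
  red_coeffMap A h hl

/-- `dV (σs (lvl l)) = 0`. -/
theorem dV_sigmaHom_lvl {ϖs : OE A Ks} {D : OE A Ks → IsLocalRing.ResidueField (OE A Ks)}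
    (hD : FirstOrder.IsFirstOrder (IsLocalRing.residue (OE A Ks)) ϖs D)
    (hbase : ∀ a : OE A K, D (inclOE A h a) = 0) (N : ℕ) (l : LE N K)
    (hl : sigmaHom N K l ∈ GaussDVR.V (OE A K) K) :
    FirstOrder.dV (OE A Ks) Ks hD
      ⟨sigmaHom N Ks (lvl N h l), sigmaHom_lvl_mem_V A h N l hl⟩ = 0 :=
  dV_coeffMap_eq_zero A h hD hbase hl

end Gauss

/-! ### Chart level -/

section ChartBC

variable (A : ValuationSubring Qb) {K Ks : IntermediateField ℚ Qb} (h : K ≤ Ks)
  [IsDiscreteValuationRing (OE A K)] [IsDiscreteValuationRing (OE A Ks)]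

/-- Integrality over `O[u]` passes to integrality over `Os[lvl u]`. -/
theorem isIntegral_lvl (N : ℕ) (u x : LE N K) :
    letI := algebraOL (OE A K) K (LE N K)
    letI := algebraOL (OE A Ks) Ks (LE N Ks)
    IsIntegral (Algebra.adjoin (OE A K) {u}) x →
      IsIntegral (Algebra.adjoin (OE A Ks) {lvl N h u}) (lvl N h x) := by
  letI := algebraOL (OE A K) K (LE N K)
  letI := algebraOL (OE A Ks) Ks (LE N Ks)
  intro hx
  rw [isIntegral_adjoin_iff] at hx ⊢
  obtain ⟨q, hq, hqx⟩ := hx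
  have hcomp : (((aeval (lvl N h u) : (OE A Ks)[X] →ₐ[OE A Ks] LE N Ks) :
      (OE A Ks)[X] →+* LE N Ks)).comp (Polynomial.mapRingHom (inclOE A h))
      = (lvl N h).comp ((aeval u : (OE A K)[X] →ₐ[OE A K] LE N K) : (OE A K)[X] →+* LE N K) := by
    refine Polynomial.ringHom_ext (fun r => ?_) ?_
    · simp only [RingHom.comp_apply, Polynomial.coe_mapRingHom, Polynomial.map_C,
        AlgHom.coe_toRingHom, aeval_C]
      exact (lvl_algebraMap N h (r : K)).symm
    · simp only [RingHom.comp_apply, Polynomial.coe_mapRingHom, Polynomial.map_X,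
        AlgHom.coe_toRingHom, aeval_X]
  refine ⟨q.map (Polynomial.mapRingHom (inclOE A h)), hq.map _, ?_⟩
  rw [eval₂_map, hcomp, ← Polynomial.hom_eval₂, hqx, map_zero]

/-- **The base change of chart rings** `Chart O u → Chart Os us` (`us = lvl u`), induced by
`lvl`. -/
def chartBC (N : ℕ) (u : LE N K) (us : LE N Ks) (hu : lvl N h u = us) :
    letI := algebraOL (OE A K) K (LE N K)
    letI := algebraOL (OE A Ks) Ks (LE N Ks)
    Chart (OE A K) u →+* Chart (OE A Ks) us :=
  letI := algebraOL (OE A K) K (LE N K)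
  letI := algebraOL (OE A Ks) Ks (LE N Ks)
  { toFun := fun x => ⟨lvl N h (x : LE N K), hu ▸ isIntegral_lvl A h N u (x : LE N K) x.2⟩
    map_one' := Subtype.ext (map_one (lvl N h))
    map_mul' := fun _ _ => Subtype.ext (map_mul (lvl N h) _ _)
    map_zero' := Subtype.ext (map_zero (lvl N h))
    map_add' := fun _ _ => Subtype.ext (map_add (lvl N h) _ _) }

theorem coe_chartBC (N : ℕ) (u : LE N K) (us : LE N Ks) (hu : lvl N h u = us) :
    letI := algebraOL (OE A K) K (LE N K)
    letI := algebraOL (OE A Ks) Ks (LE N Ks)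
    ∀ c : Chart (OE A K) u,
      ((chartBC A h N u us hu c : Chart (OE A Ks) us) : LE N Ks) = lvl N h (c : LE N K) :=
  fun _ => rfl

theorem chartBC_injective (N : ℕ) (u : LE N K) (us : LE N Ks) (hu : lvl N h u = us) :
    Function.Injective (chartBC A h N u us hu) := by
  letI := algebraOL (OE A K) K (LE N K)
  letI := algebraOL (OE A Ks) Ks (LE N Ks)
  intro x y hxy
  exact Subtype.ext ((lvl N h).injective
    (congrArg (fun z : Chart (OE A Ks) us => (z : LE N Ks)) hxy))

/-- `chartBC` on the constants. -/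
theorem chartBC_piC (N : ℕ) (u : LE N K) (us : LE N Ks) (hu : lvl N h u = us) (ϖ : OE A K) :
    letI := algebraOL (OE A K) K (LE N K)
    letI := algebraOL (OE A Ks) Ks (LE N Ks)
    chartBC A h N u us hu (piC u ϖ) = piC us (inclOE A h ϖ) := by
  letI := algebraOL (OE A K) K (LE N K)
  letI := algebraOL (OE A Ks) Ks (LE N Ks)
  exact Subtype.ext (lvl_algebraMap N h (ϖ : K))

/-- **Reduction and base change** (`redHom` form): the reduction over `Os` of `chartBC c` is
the image of the reduction over `O` of `c` under the map of residue fields. -/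
theorem redHom_chartBC (N : ℕ) [NeZero N] (ϖ : OE A K) (hϖ : Irreducible ϖ)
    (πs : OE A Ks) (hπs : Irreducible πs) (u : LE N K) (us : LE N Ks) (hu : lvl N h u = us)
    (U : LaurentSeries (OE A K)) (hσu : sigmaHom N K u = GaussDVR.iota (OE A K) K U)
    (Us : LaurentSeries (OE A Ks)) (hσus : sigmaHom N Ks us = GaussDVR.iota (OE A Ks) Ks Us) :
    letI := algebraOL (OE A K) K (LE N K)
    letI := algebraOL (OE A Ks) Ks (LE N Ks)
    haveI := isScalarTower_OL (OE A K) K (LE N K)
    haveI := isScalarTower_OL (OE A Ks) Ks (LE N Ks)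
    ∀ c : Chart (OE A K) u,
      redHom (sigmaHom N Ks) (sigmaHom_algebraMap N Ks) πs hπs (sigmaHom_mem_fracField N Ks A)
          us Us hσus (chartBC A h N u us hu c)
        = coeffMap (IsLocalRing.ResidueField.map (inclOE A h))
            (redHom (sigmaHom N K) (sigmaHom_algebraMap N K) ϖ hϖ (sigmaHom_mem_fracField N K A)
              u U hσu c) := by
  letI := algebraOL (OE A K) K (LE N K)
  letI := algebraOL (OE A Ks) Ks (LE N Ks)
  haveI := isScalarTower_OL (OE A K) K (LE N K)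
  haveI := isScalarTower_OL (OE A Ks) Ks (LE N Ks)
  intro c
  exact red_coeffMap A h
    (sigma_mem_V (sigmaHom N K) (sigmaHom_algebraMap N K) ϖ hϖ (sigmaHom_mem_fracField N K A)
      u U hσu c.2)

/-- **`redInf` and base change.** -/
theorem redInf_chartBC (M ℓ : ℕ) [NeZero M] [NeZero ℓ] (ϖ : OE A K) (hϖ : Irreducible ϖ)
    (πs : OE A Ks) (hπs : Irreducible πs) (u' : LE M K) (us' : LE M Ks) (hu' : lvl M h u' = us')
    (U : LaurentSeries (OE A K))
    (hσu : sigmaHom (M * ℓ) K (alphaHom M ℓ K u') = GaussDVR.iota (OE A K) K U)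
    (Us : LaurentSeries (OE A Ks))
    (hσus : sigmaHom (M * ℓ) Ks (alphaHom M ℓ Ks us') = GaussDVR.iota (OE A Ks) Ks Us) :
    letI := algebraOL (OE A K) K (LE (M * ℓ) K)
    letI := algebraOL (OE A Ks) Ks (LE (M * ℓ) Ks)
    haveI := isScalarTower_OL (OE A K) K (LE (M * ℓ) K)
    haveI := isScalarTower_OL (OE A Ks) Ks (LE (M * ℓ) Ks)
    ∀ c : Chart (OE A K) (alphaHom M ℓ K u'),
      redInf πs hπs (alphaHom M ℓ Ks) (sigmaHom (M * ℓ) Ks) (sigmaHom_algebraMap (M * ℓ) Ks)
          (sigmaHom_mem_fracField (M * ℓ) Ks A) us' Us hσus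
          (chartBC A h (M * ℓ) (alphaHom M ℓ K u') (alphaHom M ℓ Ks us')
            (lvl_alpha_eq h M ℓ hu') c)
        = coeffMap (IsLocalRing.ResidueField.map (inclOE A h))
            (redInf ϖ hϖ (alphaHom M ℓ K) (sigmaHom (M * ℓ) K) (sigmaHom_algebraMap (M * ℓ) K)
              (sigmaHom_mem_fracField (M * ℓ) K A) u' U hσu c) :=
  redHom_chartBC A h (M * ℓ) ϖ hϖ πs hπs (alphaHom M ℓ K u') (alphaHom M ℓ Ks us')
    (lvl_alpha_eq h M ℓ hu') U hσu Us hσus

/-- **`redZero` and base change.** -/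
theorem redZero_chartBC (M ℓ : ℕ) [NeZero M] [NeZero ℓ] (hℓ : ℓ.Prime) (hℓM : ¬ ℓ ∣ M)
    (ϖ : OE A K) (hϖ : Irreducible ϖ)
    (πs : OE A Ks) (hπs : Irreducible πs) (u' : LE M K) (us' : LE M Ks) (hu' : lvl M h u' = us')
    (U : LaurentSeries (OE A K))
    (hσu : sigmaHom (M * ℓ) K (alphaHom M ℓ K u') = GaussDVR.iota (OE A K) K U)
    (Us : LaurentSeries (OE A Ks))
    (hσus : sigmaHom (M * ℓ) Ks (alphaHom M ℓ Ks us') = GaussDVR.iota (OE A Ks) Ks Us) :
    letI := algebraOL (OE A K) K (LE (M * ℓ) K)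
    letI := algebraOL (OE A Ks) Ks (LE (M * ℓ) Ks)
    haveI := isScalarTower_OL (OE A K) K (LE (M * ℓ) K)
    haveI := isScalarTower_OL (OE A Ks) Ks (LE (M * ℓ) Ks)
    ∀ c : Chart (OE A K) (alphaHom M ℓ K u'),
      redZero πs hπs (alphaHom M ℓ Ks) (sigmaHom (M * ℓ) Ks) (sigmaHom_algebraMap (M * ℓ) Ks)
          (sigmaHom_mem_fracField (M * ℓ) Ks A) us' Us hσus
          (wHom M ℓ Ks hℓ hℓM) (wHom_algebraMap M ℓ Ks hℓ hℓM) ℓ
          (sigmaHom_wHom_alpha M ℓ Ks hℓ hℓM)
          (chartBC A h (M * ℓ) (alphaHom M ℓ K u') (alphaHom M ℓ Ks us')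
            (lvl_alpha_eq h M ℓ hu') c)
        = coeffMap (IsLocalRing.ResidueField.map (inclOE A h))
            (redZero ϖ hϖ (alphaHom M ℓ K) (sigmaHom (M * ℓ) K) (sigmaHom_algebraMap (M * ℓ) K)
              (sigmaHom_mem_fracField (M * ℓ) K A) u' U hσu
              (wHom M ℓ K hℓ hℓM) (wHom_algebraMap M ℓ K hℓ hℓM) ℓ
              (sigmaHom_wHom_alpha M ℓ K hℓ hℓM) c) := by
  letI := algebraOL (OE A K) K (LE (M * ℓ) K)
  letI := algebraOL (OE A Ks) Ks (LE (M * ℓ) Ks)
  haveI := isScalarTower_OL (OE A K) K (LE (M * ℓ) K)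
  haveI := isScalarTower_OL (OE A Ks) Ks (LE (M * ℓ) Ks)
  intro c
  have hmem : sigmaHom (M * ℓ) K (wHom M ℓ K hℓ hℓM (c : LE (M * ℓ) K))
      ∈ GaussDVR.V (OE A K) K :=
    sigma_mem_V ((sigmaHom (M * ℓ) K).comp (wHom M ℓ K hℓ hℓM : LE (M * ℓ) K →+* LE (M * ℓ) K))
      (sigmaW_O (sigmaHom (M * ℓ) K) (sigmaHom_algebraMap (M * ℓ) K) (wHom M ℓ K hℓ hℓM)
        (wHom_algebraMap M ℓ K hℓ hℓM)) ϖ hϖ
      (fun x => sigmaHom_mem_fracField (M * ℓ) K A (wHom M ℓ K hℓ hℓM x))
      (alphaHom M ℓ K u') (qExpand (OE A K) ℓ U)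
      (sigmaW_u (alphaHom M ℓ K) (sigmaHom (M * ℓ) K) u' U hσu (wHom M ℓ K hℓ hℓM) ℓ
        (sigmaHom_wHom_alpha M ℓ K hℓ hℓM)) c.2
  have key := red_coeffMap A h hmem
  show GaussDVR.red (OE A Ks) Ks _ = coeffMap _ (GaussDVR.red (OE A K) K _)
  refine Eq.trans ?_ key
  congr 1
  apply Subtype.ext
  show sigmaHom (M * ℓ) Ks (wHom M ℓ Ks hℓ hℓM (lvl (M * ℓ) h (c : LE (M * ℓ) K))) = _
  rw [← lvl_wHom]
  rfl

end ChartBC

end Fermat.Agent.S44.L.Alt.SeamField
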