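/-
PROGRAM MR (S44), strand L, cover-free ALT route — adapter (helper206; deal helper61 #7194 (7)).

GAUSS-REDUCTION ALGEBRA OF `p`-TH POWERS, level-free.

`O` a discrete valuation ring with uniformiser `ϖ`, `E` a field over `O`, `V = GaussDVR.V O E`
the Gauss ring inside `E((q))`, `red : V → k((q))` its reduction, `𝔲 = C ϖ` the uniformiser of
`V`, `Frac = GaussDVR.fracField O E`.

* `exists_zpow_mul`    : every nonzero `x ∈ Frac` is `𝔲 ^ k * z` (`k : ℤ`) with `z` a Gauss unit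
  (`red z ≠ 0`);
* `zpow_mul_inj`       : the exponent `k` and the unit `z` are unique;
* `eq_of_zpow_mul_eq`  : **the general form.**  `𝔲 ^ n * x = 𝔲 ^ m * y * z ^ p` with `x`, `y`
  Gauss units and `z ∈ Frac` ⟹ `z = 𝔲 ^ k * z'`, `z'` a Gauss unit, `n = m + p k` and
  `red x = red y * (red z') ^ p`;
* `exists_of_eq_zpow_mul_pow` : the case `n = 0` (`p k + m = 0`);
* `dvd_of_eq_zpow_mul_pow`    : `p ∣ m` there;
* `exists_of_eq_pow_mul_pow`  : the same with a natural exponent `m`;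
* `exists_of_eq_mul_pow`, `mem_of_eq_mul_pow` : the case `n = m = 0`: **a `p`-th root in `Frac`
  of a quotient of Gauss units is a Gauss unit**, and `red x = red y * (red z) ^ p`.
-/
import Mathlib
import Fermat.Agent.S30.GaussDVR

set_option autoImplicit false

open ModularCurve

noncomputable section

namespace Fermat.Agent.S44.L.Alt.RedPow

open Fermat.Agent.S30 Fermat.Agent.S30.GaussDVR

variable {O : Type*} (E : Type*) [CommRing O] [IsDomain O] [IsDiscreteValuationRing O] [Field E]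
  [Algebra O E] [FaithfulSMul O E] (ϖ : O) (hϖ : Irreducible ϖ)

include hϖ

/-- **Normal form**: a nonzero element of the fraction field is `𝔲 ^ k` times a Gauss unit. -/
theorem exists_zpow_mul {x : LaurentSeries E} (hx : x ∈ fracField O E) (hx0 : x ≠ 0) :
    ∃ (k : ℤ) (z : V O E), red O E z ≠ 0 ∧
      x = ((unif E ϖ : V O E) : LaurentSeries E) ^ k * (z : LaurentSeries E) := by
  obtain ⟨i, k, y, hy, h⟩ := exists_unit_pow E ϖ hϖ x hx hx0
  have hu : ((unif E ϖ : V O E) : LaurentSeries E) ≠ 0 := coe_unif_ne_zero E ϖ hϖ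
  refine ⟨(i : ℤ) - k, y, hy, ?_⟩
  rw [eq_comm, zpow_sub₀ hu, zpow_natCast, zpow_natCast, div_mul_eq_mul_div,
    div_eq_iff (pow_ne_zero k hu)]
  exact h.symm

/-- Half of the uniqueness of the normal form. -/
theorem le_of_zpow_mul_eq {k k' : ℤ} {z z' : V O E} (hz : red O E z ≠ 0)
    (h : ((unif E ϖ : V O E) : LaurentSeries E) ^ k * (z : LaurentSeries E)
      = ((unif E ϖ : V O E) : LaurentSeries E) ^ k' * (z' : LaurentSeries E)) : k' ≤ k := by
  by_contra hlt
  have hu : ((unif E ϖ : V O E) : LaurentSeries E) ≠ 0 := coe_unif_ne_zero E ϖ hϖ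
  obtain ⟨d, hd⟩ : ∃ d : ℕ, k' = k + ((d + 1 : ℕ) : ℤ) := ⟨(k' - k - 1).toNat, by push_cast; omega⟩
  have h1 : (z : LaurentSeries E)
      = ((unif E ϖ : V O E) : LaurentSeries E) ^ (d + 1) * (z' : LaurentSeries E) := by
    rw [hd, zpow_add₀ hu, zpow_natCast, mul_assoc] at h
    exact mul_left_cancel₀ (zpow_ne_zero k hu) h
  have h3 : z = unif E ϖ ^ (d + 1) * z' := Subtype.ext (by
    rw [Subring.coe_mul, Subring.coe_pow]; exact h1)
  apply hz
  rw [h3, map_mul, map_pow, red_unif E ϖ hϖ, zero_pow (Nat.succ_ne_zero d), zero_mul]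

/-- **Uniqueness of the normal form.** -/
theorem zpow_mul_inj {k k' : ℤ} {z z' : V O E} (hz : red O E z ≠ 0) (hz' : red O E z' ≠ 0)
    (h : ((unif E ϖ : V O E) : LaurentSeries E) ^ k * (z : LaurentSeries E)
      = ((unif E ϖ : V O E) : LaurentSeries E) ^ k' * (z' : LaurentSeries E)) :
    k = k' ∧ z = z' := by
  have hu : ((unif E ϖ : V O E) : LaurentSeries E) ≠ 0 := coe_unif_ne_zero E ϖ hϖ
  have hk : k = k' :=
    le_antisymm (le_of_zpow_mul_eq E ϖ hϖ hz' h.symm) (le_of_zpow_mul_eq E ϖ hϖ hz h)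
  subst hk
  exact ⟨rfl, Subtype.ext (mul_left_cancel₀ (zpow_ne_zero k hu) h)⟩

/-- **The general form.**  If `𝔲 ^ n * x = 𝔲 ^ m * y * z ^ p` with `x`, `y` Gauss units and `z`
in the fraction field, then `z = 𝔲 ^ k * z'` with `z'` a Gauss unit, `n = m + p k`, and
`red x = red y * (red z') ^ p`. -/
theorem eq_of_zpow_mul_eq {p : ℕ} (hp : p ≠ 0) {n m : ℤ} {x y : V O E}
    (hx : red O E x ≠ 0) (hy : red O E y ≠ 0) {z : LaurentSeries E} (hz : z ∈ fracField O E)
    (h : ((unif E ϖ : V O E) : LaurentSeries E) ^ n * (x : LaurentSeries E)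
      = ((unif E ϖ : V O E) : LaurentSeries E) ^ m * (y : LaurentSeries E) * z ^ p) :
    ∃ (k : ℤ) (z' : V O E), red O E z' ≠ 0 ∧
      z = ((unif E ϖ : V O E) : LaurentSeries E) ^ k * (z' : LaurentSeries E) ∧
      n = m + p * k ∧ red O E x = red O E y * red O E z' ^ p := by
  have hu : ((unif E ϖ : V O E) : LaurentSeries E) ≠ 0 := coe_unif_ne_zero E ϖ hϖ
  have hx0 : (x : LaurentSeries E) ≠ 0 := fun h0 =>
    hx (by rw [show x = 0 from Subtype.ext h0, map_zero])
  have hz0 : z ≠ 0 := by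
    rintro rfl
    rw [zero_pow hp, mul_zero] at h
    exact mul_ne_zero (zpow_ne_zero n hu) hx0 h
  obtain ⟨k, z', hz', rfl⟩ := exists_zpow_mul E ϖ hϖ hz hz0
  have h1 : ((unif E ϖ : V O E) : LaurentSeries E) ^ n * (x : LaurentSeries E)
      = ((unif E ϖ : V O E) : LaurentSeries E) ^ (m + p * k)
        * ((y * z' ^ p : V O E) : LaurentSeries E) := by
    rw [h, Subring.coe_mul, Subring.coe_pow, mul_pow, mul_comm (p : ℤ) k, zpow_add₀ hu,
      zpow_mul, zpow_natCast]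
    ring
  have hyz : red O E (y * z' ^ p) ≠ 0 := by
    rw [map_mul, map_pow]
    exact mul_ne_zero hy (pow_ne_zero p hz')
  obtain ⟨h2, h3⟩ := zpow_mul_inj E ϖ hϖ hx hyz h1
  exact ⟨k, z', hz', rfl, h2, by rw [h3, map_mul, map_pow]⟩

/-- **The case `n = 0`.**  `x = 𝔲 ^ m * y * z ^ p` with `x`, `y` Gauss units: `z = 𝔲 ^ k * z'`
with `z'` a Gauss unit, `p k + m = 0` and `red x = red y * (red z') ^ p`. -/
theorem exists_of_eq_zpow_mul_pow {p : ℕ} (hp : p ≠ 0) {m : ℤ} {x y : V O E}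
    (hx : red O E x ≠ 0) (hy : red O E y ≠ 0) {z : LaurentSeries E} (hz : z ∈ fracField O E)
    (h : (x : LaurentSeries E)
      = ((unif E ϖ : V O E) : LaurentSeries E) ^ m * (y : LaurentSeries E) * z ^ p) :
    ∃ (k : ℤ) (z' : V O E), red O E z' ≠ 0 ∧
      z = ((unif E ϖ : V O E) : LaurentSeries E) ^ k * (z' : LaurentSeries E) ∧
      (p : ℤ) * k + m = 0 ∧ red O E x = red O E y * red O E z' ^ p := by
  have h' : ((unif E ϖ : V O E) : LaurentSeries E) ^ (0 : ℤ) * (x : LaurentSeries E)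
      = ((unif E ϖ : V O E) : LaurentSeries E) ^ m * (y : LaurentSeries E) * z ^ p := by
    rw [zpow_zero, one_mul, h]
  obtain ⟨k, z', hz', hzz, hk, hred⟩ := eq_of_zpow_mul_eq E ϖ hϖ hp hx hy hz h'
  exact ⟨k, z', hz', hzz, by omega, hred⟩

/-- In `x = 𝔲 ^ m * y * z ^ p` with `x`, `y` Gauss units, `p` divides `m`. -/
theorem dvd_of_eq_zpow_mul_pow {p : ℕ} (hp : p ≠ 0) {m : ℤ} {x y : V O E}
    (hx : red O E x ≠ 0) (hy : red O E y ≠ 0) {z : LaurentSeries E} (hz : z ∈ fracField O E)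
    (h : (x : LaurentSeries E)
      = ((unif E ϖ : V O E) : LaurentSeries E) ^ m * (y : LaurentSeries E) * z ^ p) :
    (p : ℤ) ∣ m := by
  obtain ⟨k, -, -, -, hk, -⟩ := exists_of_eq_zpow_mul_pow E ϖ hϖ hp hx hy hz h
  exact ⟨-k, by linarith⟩

/-- **A `p`-th root in the fraction field of a quotient of Gauss units is a Gauss unit**
(case `n = m = 0`): `x = y * z ^ p` with `x`, `y` Gauss units and `z` in the fraction field
gives `z ∈ V`, `red z ≠ 0` and `red x = red y * (red z) ^ p`. -/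
theorem exists_of_eq_mul_pow {p : ℕ} (hp : p ≠ 0) {x y : V O E}
    (hx : red O E x ≠ 0) (hy : red O E y ≠ 0) {z : LaurentSeries E} (hz : z ∈ fracField O E)
    (h : (x : LaurentSeries E) = (y : LaurentSeries E) * z ^ p) :
    ∃ z' : V O E, (z' : LaurentSeries E) = z ∧ red O E z' ≠ 0 ∧
      red O E x = red O E y * red O E z' ^ p := by
  have h' : (x : LaurentSeries E)
      = ((unif E ϖ : V O E) : LaurentSeries E) ^ (0 : ℤ) * (y : LaurentSeries E) * z ^ p := by
    rw [zpow_zero, one_mul, h]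
  obtain ⟨k, z', hz', hzz, hk, hred⟩ := exists_of_eq_zpow_mul_pow E ϖ hϖ hp hx hy hz h'
  have hk0 : k = 0 := by
    have hp' : (p : ℤ) ≠ 0 := by exact_mod_cast hp
    rcases mul_eq_zero.mp (by linarith : (p : ℤ) * k = 0) with h0 | h0
    · exact absurd h0 hp'
    · exact h0
  refine ⟨z', ?_, hz', hred⟩
  rw [hzz, hk0, zpow_zero, one_mul]

/-- Membership form of `exists_of_eq_mul_pow`. -/
theorem mem_of_eq_mul_pow {p : ℕ} (hp : p ≠ 0) {x y : V O E}
    (hx : red O E x ≠ 0) (hy : red O E y ≠ 0) {z : LaurentSeries E} (hz : z ∈ fracField O E)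
    (h : (x : LaurentSeries E) = (y : LaurentSeries E) * z ^ p) : z ∈ V O E := by
  obtain ⟨z', rfl, -, -⟩ := exists_of_eq_mul_pow E ϖ hϖ hp hx hy hz h
  exact z'.2

/-- `exists_of_eq_zpow_mul_pow` with a natural exponent `m` of the uniformiser. -/
theorem exists_of_eq_pow_mul_pow {p : ℕ} (hp : p ≠ 0) {m : ℕ} {x y : V O E}
    (hx : red O E x ≠ 0) (hy : red O E y ≠ 0) {z : LaurentSeries E} (hz : z ∈ fracField O E)
    (h : (x : LaurentSeries E)
      = ((unif E ϖ : V O E) : LaurentSeries E) ^ m * (y : LaurentSeries E) * z ^ p) :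
    ∃ (k : ℤ) (z' : V O E), red O E z' ≠ 0 ∧
      z = ((unif E ϖ : V O E) : LaurentSeries E) ^ k * (z' : LaurentSeries E) ∧
      (p : ℤ) * k + m = 0 ∧ red O E x = red O E y * red O E z' ^ p := by
  refine exists_of_eq_zpow_mul_pow E ϖ hϖ hp hx hy hz ?_
  rw [zpow_natCast]
  exact h

end Fermat.Agent.S44.L.Alt.RedPow
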