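import Mathlib
import Fermat.Agent.S30.GaussDVR
import Fermat.Agent.S44.L.FirstOrder

/-!
# PROGRAM MR (S44), strand L, cover-free ALT for SLOPE, row ALT.5: the level-free core (helper192)

Vocabulary: `S30/GaussDVR` (`V`, `red`, `unif`, `fracField`) and `S44/L/FirstOrder` (`dV`).

* `eval_first_order` : for `W = w₀ (1 + c π) + π² g`, a ring hom `r` and an `r`-derivation `d`
  with `d w₀ = d c = 0`, `d π = 1`, `r π = 0`: `r W = r w₀` and `d W = r w₀ * r c`.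
* `baseV` : base change of Gauss rings `V O K₀ → V Os Ks` along `O → Os`, `K₀ → Ks`
  (`red_baseV`, `dV_baseV` : base elements have `dV = 0`).
* `exists_decomp` : a product `W · ϖ^m · (ϖ^n T)^j · Ξ^p` is `ϖ^N · v` with `v` a Gauss unit,
  `dV v / red v = red c + j • (dV T / red T)`, `red v = red w₀ · (red T)^j · h^p`.
* `side_of_normal_form` : the same for `τ x`, `x` given by the normal form of `NodeNF` /
  `SmoothNF` over a chart ring `C` localised at `y`, `τ : Ls → Ks((q))` a `q`-expansion.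
* `node_alt_core` : the statements (N a), (N b), (N c) of ALT POST #2 at a node.
* `smooth_alt_core` : the statements (S a), (S b) at a smooth point.
-/

set_option autoImplicit false
set_option linter.unusedSectionVars false
set_option linter.unusedVariables false

open ModularCurve

noncomputable section

namespace Fermat.Agent.S44.L.Alt.NodeAltCore

open Fermat.Agent.S30 Fermat.Agent.S44.L.FirstOrder

/-! ### Part A: first-order evaluation -/

/-- **First-order evaluation.**  `W = w₀ (1 + c π) + π² g`; `r` a ring hom, `d` an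
`r`-derivation with `d (φ w₀) = d (φ c) = 0`, `d (φ π) = 1`, `r (φ π) = 0`.  Then
`r (φ W) = r (φ w₀)` and `d (φ W) = r (φ w₀) * r (φ c)`. -/
theorem eval_first_order {A V k : Type*} [CommRing A] [CommRing V] [CommRing k]
    (φ : A →+* V) (r : V →+* k) (d : V → k)
    (hadd : ∀ x y, d (x + y) = d x + d y)
    (hmul : ∀ x y, d (x * y) = r x * d y + d x * r y)
    {w₀ c π g : A} (hw₀ : d (φ w₀) = 0) (hc : d (φ c) = 0) (hπd : d (φ π) = 1)
    (hπr : r (φ π) = 0) :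
    r (φ (w₀ * (1 + c * π) + π ^ 2 * g)) = r (φ w₀) ∧
      d (φ (w₀ * (1 + c * π) + π ^ 2 * g)) = r (φ w₀) * r (φ c) := by
  have h1 : d 1 = 0 := by
    have h := hmul 1 1
    rw [mul_one, map_one, one_mul, mul_one] at h
    linear_combination (-1 : k) * h
  constructor
  · simp only [map_add, map_mul, map_one, map_pow, hπr]
    ring
  · simp only [map_add, map_mul, map_one, pow_two, hadd, hmul, h1, hw₀, hc, hπd, hπr]
    ring

/-! ### Part B: base change of Gauss rings -/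

section Base

variable {O K₀ Os Ks : Type*} [CommRing O] [IsDomain O] [IsDiscreteValuationRing O] [Field K₀]
  [Algebra O K₀] [FaithfulSMul O K₀]
  [CommRing Os] [IsDomain Os] [IsDiscreteValuationRing Os] [Field Ks] [Algebra Os Ks]
  [FaithfulSMul Os Ks]
  (φ : O →+* Os) [IsLocalHom φ] (ψ : K₀ →+* Ks)
  (hφψ : ∀ a : O, ψ (algebraMap O K₀ a) = algebraMap Os Ks (φ a))

/-- The map of residue fields, coefficientwise on Laurent series. -/
abbrev resL : LaurentSeries (IsLocalRing.ResidueField O) →+*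
    LaurentSeries (IsLocalRing.ResidueField Os) :=
  coeffMap (IsLocalRing.ResidueField.map φ)

theorem resL_injective : Function.Injective (resL φ) := by
  intro a b hab
  ext n
  have h := congrArg (fun x => x.coeff n) hab
  simp only [coeffMap_coeff] at h
  exact (IsLocalRing.ResidueField.map φ).injective h

theorem resL_ne_zero {a : LaurentSeries (IsLocalRing.ResidueField O)} (ha : a ≠ 0) :
    resL φ a ≠ 0 :=
  fun h0 => ha (resL_injective φ (by rw [h0, map_zero]))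

include hφψ in
theorem coeffMap_iota (a : LaurentSeries O) :
    coeffMap ψ (GaussDVR.iota O K₀ a) = GaussDVR.iota Os Ks (coeffMap φ a) := by
  ext n
  simp only [coeffMap_coeff]
  exact hφψ _

theorem rho_coeffMap (a : LaurentSeries O) :
    GaussDVR.rho Os (coeffMap φ a) = resL φ (GaussDVR.rho O a) := by
  ext n
  simp only [coeffMap_coeff]
  exact (IsLocalRing.ResidueField.map_residue φ _).symm

include hφψ in
theorem coeffMap_mem_V {X : LaurentSeries K₀} (hX : X ∈ GaussDVR.V O K₀) :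
    coeffMap ψ X ∈ GaussDVR.V Os Ks := by
  obtain ⟨a, b, hb, h⟩ := hX
  refine ⟨coeffMap φ a, coeffMap φ b, ?_, ?_⟩
  · rw [rho_coeffMap]
    exact resL_ne_zero φ hb
  · rw [← coeffMap_iota φ ψ hφψ, ← coeffMap_iota φ ψ hφψ, ← map_mul, h]

/-- Base change of the Gauss ring along `O → Os`, `K₀ → Ks`. -/
def baseV : GaussDVR.V O K₀ →+* GaussDVR.V Os Ks :=
  ((coeffMap ψ).comp (GaussDVR.V O K₀).subtype).codRestrict (GaussDVR.V Os Ks)
    (fun X => coeffMap_mem_V φ ψ hφψ X.2)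

theorem coe_baseV (X : GaussDVR.V O K₀) :
    ((baseV φ ψ hφψ X : GaussDVR.V Os Ks) : LaurentSeries Ks)
      = coeffMap ψ (X : LaurentSeries K₀) := rfl

theorem red_baseV (X : GaussDVR.V O K₀) :
    GaussDVR.red Os Ks (baseV φ ψ hφψ X) = resL φ (GaussDVR.red O K₀ X) := by
  obtain ⟨a, b, hb, h⟩ := (GaussDVR.mem_V O K₀).mp X.2
  have hb' : GaussDVR.rho Os (coeffMap φ b) ≠ 0 := by
    rw [rho_coeffMap]
    exact resL_ne_zero φ hb
  rw [GaussDVR.red_eq Os Ks _ (coeffMap φ a) (coeffMap φ b) hb'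
      (by rw [coe_baseV, ← coeffMap_iota φ ψ hφψ, ← coeffMap_iota φ ψ hφψ, ← map_mul, h]),
    GaussDVR.red_eq O K₀ X a b hb h, rho_coeffMap, rho_coeffMap, map_div₀]

/-- Base elements are killed by the first-order derivation. -/
theorem dV_baseV {ϖs : Os} {D : Os → IsLocalRing.ResidueField Os}
    (h : IsFirstOrder (IsLocalRing.residue Os) ϖs D) (hD : ∀ a : O, D (φ a) = 0)
    (X : GaussDVR.V O K₀) : dV Os Ks h (baseV φ ψ hφψ X) = 0 := by
  obtain ⟨a, b, hb, hX⟩ := (GaussDVR.mem_V O K₀).mp X.2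
  have hb' : GaussDVR.rho Os (coeffMap φ b) ≠ 0 := by
    rw [rho_coeffMap]
    exact resL_ne_zero φ hb
  exact dV_eq_zero_of_base Os Ks h φ hD _ a b hb'
    (by rw [coe_baseV, ← coeffMap_iota φ ψ hφψ, ← coeffMap_iota φ ψ hφψ, ← map_mul, hX])

end Base

/-! ### Part C: Gauss units -/

section Units

variable {O E : Type*} [CommRing O] [IsDomain O] [IsDiscreteValuationRing O] [Field E]
  [Algebra O E] [FaithfulSMul O E] {ϖ : O} {D : O → IsLocalRing.ResidueField O}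
  (h : IsFirstOrder (IsLocalRing.residue O) ϖ D)

theorem coe_ne_zero_of_red {x : GaussDVR.V O E} (hx : GaussDVR.red O E x ≠ 0) :
    (x : LaurentSeries E) ≠ 0 := by
  intro h0
  apply hx
  have : x = 0 := Subtype.ext h0
  rw [this, map_zero]

/-- The inverse of a Gauss unit. -/
def invV (x : GaussDVR.V O E) (hx : GaussDVR.red O E x ≠ 0) : GaussDVR.V O E :=
  ⟨(x : LaurentSeries E)⁻¹, GaussDVR.inv_mem O E x hx⟩

theorem coe_invV (x : GaussDVR.V O E) (hx : GaussDVR.red O E x ≠ 0) :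
    ((invV x hx : GaussDVR.V O E) : LaurentSeries E) = (x : LaurentSeries E)⁻¹ := rfl

theorem mul_invV (x : GaussDVR.V O E) (hx : GaussDVR.red O E x ≠ 0) : x * invV x hx = 1 :=
  Subtype.ext (mul_inv_cancel₀ (coe_ne_zero_of_red hx))

theorem red_invV (x : GaussDVR.V O E) (hx : GaussDVR.red O E x ≠ 0) :
    GaussDVR.red O E (invV x hx) = (GaussDVR.red O E x)⁻¹ := by
  have h1 := congrArg (GaussDVR.red O E) (mul_invV x hx)
  rw [map_mul, map_one] at h1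
  exact eq_inv_of_mul_eq_one_right h1

theorem red_invV_ne_zero (x : GaussDVR.V O E) (hx : GaussDVR.red O E x ≠ 0) :
    GaussDVR.red O E (invV x hx) ≠ 0 := by
  rw [red_invV]
  exact inv_ne_zero hx

theorem dV_one : dV O E h 1 = 0 := by
  have h1 := dV_mul O E h 1 1
  rw [mul_one, map_one, one_mul, mul_one] at h1
  linear_combination (-1 : LaurentSeries (IsLocalRing.ResidueField O)) * h1

/-- The logarithmic derivative of the inverse. -/
theorem lrho_invV (x : GaussDVR.V O E) (hx : GaussDVR.red O E x ≠ 0) :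
    dV O E h (invV x hx) / GaussDVR.red O E (invV x hx)
      = -(dV O E h x / GaussDVR.red O E x) := by
  have h1 := dV_div_mul O E h x (invV x hx) hx (red_invV_ne_zero x hx)
  rw [mul_invV, dV_one, zero_div] at h1
  linear_combination -h1

theorem dV_invV_eq_zero (x : GaussDVR.V O E) (hx : GaussDVR.red O E x ≠ 0)
    (hd : dV O E h x = 0) : dV O E h (invV x hx) = 0 := by
  have h1 := lrho_invV h x hx
  rw [hd, zero_div, neg_zero, div_eq_zero_iff] at h1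
  exact h1.resolve_right (red_invV_ne_zero x hx)

theorem lrho_pow (x : GaussDVR.V O E) (hx : GaussDVR.red O E x ≠ 0) (n : ℕ) :
    dV O E h (x ^ n) / GaussDVR.red O E (x ^ n) = n • (dV O E h x / GaussDVR.red O E x) := by
  induction n with
  | zero => rw [pow_zero, dV_one, zero_div, zero_smul]
  | succ n ih =>
    have hxn : GaussDVR.red O E (x ^ n) ≠ 0 := by
      rw [map_pow]
      exact pow_ne_zero _ hx
    rw [pow_succ, dV_div_mul O E h _ _ hxn hx, ih, succ_nsmul]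

/-- Integer powers of a Gauss unit. -/
theorem exists_zpow (x : GaussDVR.V O E) (hx : GaussDVR.red O E x ≠ 0) (j : ℤ) :
    ∃ z : GaussDVR.V O E, (z : LaurentSeries E) = (x : LaurentSeries E) ^ j ∧
      GaussDVR.red O E z = GaussDVR.red O E x ^ j ∧
      dV O E h z / GaussDVR.red O E z = j • (dV O E h x / GaussDVR.red O E x) := by
  cases j with
  | ofNat n =>
    refine ⟨x ^ n, ?_, ?_, ?_⟩
    · rw [Int.ofNat_eq_natCast, zpow_natCast]
      rfl
    · rw [Int.ofNat_eq_natCast, zpow_natCast, map_pow]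
    · rw [Int.ofNat_eq_natCast, natCast_zsmul]
      exact lrho_pow h x hx n
  | negSucc n =>
    refine ⟨invV x hx ^ (n + 1), ?_, ?_, ?_⟩
    · rw [zpow_negSucc, ← inv_pow]
      rfl
    · rw [zpow_negSucc, map_pow, red_invV, inv_pow]
    · rw [lrho_pow h _ (red_invV_ne_zero x hx), lrho_invV h x hx, negSucc_zsmul, smul_neg]

end Units

/-! ### Part D: decomposition of a product -/

section Decomp

variable {O E : Type*} [CommRing O] [IsDomain O] [IsDiscreteValuationRing O] [Field E]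
  [Algebra O E] [FaithfulSMul O E] {ϖ : O} {D : O → IsLocalRing.ResidueField O}
  (h : IsFirstOrder (IsLocalRing.residue O) ϖ D)

theorem dV_unif : dV O E h (GaussDVR.unif E ϖ) = 1 := by
  show dV O E h (GaussDVR.ofInt O E (HahnSeries.C ϖ)) = 1
  rw [dV_ofInt, dHat_C, h.map_unif, map_one]

theorem zpow_aux {F : Type*} [Field F] {u : F} (hu : u ≠ 0) (m n p : ℕ) (j e : ℤ) :
    u ^ m * (u ^ n) ^ j * (u ^ e) ^ p = u ^ ((m : ℤ) + n * j + e * p) := by
  rw [← zpow_natCast u m, ← zpow_natCast u n, ← zpow_mul, ← zpow_natCast (u ^ e) p, ← zpow_mul,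
    ← zpow_add₀ hu, ← zpow_add₀ hu]

/-- **Decomposition.**  `X = W · ϖ^m · (ϖ^n T)^j · Ξ^p` with
`W = W₀ (1 + C₀ ϖ) + ϖ² G`, `W₀, C₀` killed by `dV`, `W₀, T` Gauss units, `Ξ ≠ 0` in the
fraction field.  Then `X = ϖ^N · v` with `v` a Gauss unit,
`dV v = red v * (red C₀ + j • (dV T / red T))` and `red v = red W₀ * (red T)^j * h^p`. -/
theorem exists_decomp (hϖ : Irreducible ϖ) {p : ℕ}
    (hp : (p : IsLocalRing.ResidueField O) = 0)
    (W₀ C₀ G T : GaussDVR.V O E)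
    (hW₀ : dV O E h W₀ = 0) (hC₀ : dV O E h C₀ = 0)
    (hW₀r : GaussDVR.red O E W₀ ≠ 0) (hT : GaussDVR.red O E T ≠ 0)
    (n m : ℕ) (j : ℤ) (Ξ X : LaurentSeries E) (hΞ : Ξ ∈ GaussDVR.fracField O E) (hΞ0 : Ξ ≠ 0)
    (hX : X = ((W₀ : LaurentSeries E)
          * (1 + (C₀ : LaurentSeries E) * ((GaussDVR.unif E ϖ : GaussDVR.V O E) : LaurentSeries E))
          + ((GaussDVR.unif E ϖ : GaussDVR.V O E) : LaurentSeries E) ^ 2 * (G : LaurentSeries E))
        * ((GaussDVR.unif E ϖ : GaussDVR.V O E) : LaurentSeries E) ^ m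
        * (((GaussDVR.unif E ϖ : GaussDVR.V O E) : LaurentSeries E) ^ n * (T : LaurentSeries E)) ^ j
        * Ξ ^ p) :
    ∃ (v : GaussDVR.V O E) (N : ℤ) (hh : LaurentSeries (IsLocalRing.ResidueField O)),
      GaussDVR.red O E v ≠ 0 ∧
      X = ((GaussDVR.unif E ϖ : GaussDVR.V O E) : LaurentSeries E) ^ N * (v : LaurentSeries E) ∧
      dV O E h v = GaussDVR.red O E v
        * (GaussDVR.red O E C₀ + j • (dV O E h T / GaussDVR.red O E T)) ∧
      GaussDVR.red O E v = GaussDVR.red O E W₀ * GaussDVR.red O E T ^ j * hh ^ p := by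
  set u : LaurentSeries E := ((GaussDVR.unif E ϖ : GaussDVR.V O E) : LaurentSeries E) with hu_def
  have hu : u ≠ 0 := GaussDVR.coe_unif_ne_zero E ϖ hϖ
  -- the first-order unit
  set W : GaussDVR.V O E := W₀ * (1 + C₀ * GaussDVR.unif E ϖ) + GaussDVR.unif E ϖ ^ 2 * G with hW
  obtain ⟨hWr, hWd⟩ := eval_first_order (RingHom.id (GaussDVR.V O E)) (GaussDVR.red O E)
    (dV O E h) (dV_add O E h) (dV_mul O E h) (w₀ := W₀) (c := C₀) (π := GaussDVR.unif E ϖ) (g := G)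
    hW₀ hC₀ (dV_unif h) (GaussDVR.red_unif E ϖ hϖ)
  simp only [RingHom.id_apply] at hWr hWd
  have hWr' : GaussDVR.red O E W = GaussDVR.red O E W₀ := hWr
  have hWd' : dV O E h W = GaussDVR.red O E W₀ * GaussDVR.red O E C₀ := hWd
  have hWne : GaussDVR.red O E W ≠ 0 := by rw [hWr']; exact hW₀r
  -- the p-th power part
  obtain ⟨i, k, vξ, hvξ, hΞeq⟩ := GaussDVR.exists_unit_pow E ϖ hϖ Ξ hΞ hΞ0
  have hΞ' : Ξ = u ^ ((i : ℤ) - k) * (vξ : LaurentSeries E) := by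
    rw [zpow_sub₀ hu, zpow_natCast, zpow_natCast, div_mul_eq_mul_div, eq_div_iff (pow_ne_zero k hu)]
    exact hΞeq
  -- the power of `T`
  obtain ⟨Tj, hTjc, hTjr, hTjd⟩ := exists_zpow h T hT j
  have hTjne : GaussDVR.red O E Tj ≠ 0 := by rw [hTjr]; exact zpow_ne_zero _ hT
  have hvp : GaussDVR.red O E (vξ ^ p) ≠ 0 := by rw [map_pow]; exact pow_ne_zero _ hvξ
  have hWT : GaussDVR.red O E (W * Tj) ≠ 0 := by rw [map_mul]; exact mul_ne_zero hWne hTjne
  refine ⟨W * Tj * vξ ^ p, (m : ℤ) + n * j + ((i : ℤ) - k) * p, GaussDVR.red O E vξ, ?_, ?_, ?_, ?_⟩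
  · rw [map_mul]
    exact mul_ne_zero hWT hvp
  · rw [hX, ← zpow_aux hu m n p j ((i : ℤ) - k), hΞ', mul_zpow, mul_pow]
    have e1 : ((W * Tj * vξ ^ p : GaussDVR.V O E) : LaurentSeries E)
        = (W : LaurentSeries E) * (T : LaurentSeries E) ^ j * (vξ : LaurentSeries E) ^ p := by
      rw [Subring.coe_mul, Subring.coe_mul, hTjc]
      rfl
    have e2 : (W : LaurentSeries E) = (W₀ : LaurentSeries E) * (1 + (C₀ : LaurentSeries E) * u)
        + u ^ 2 * (G : LaurentSeries E) := rfl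
    rw [e1, e2]
    ring
  · have hl : dV O E h (W * Tj * vξ ^ p) / GaussDVR.red O E (W * Tj * vξ ^ p)
        = GaussDVR.red O E C₀ + j • (dV O E h T / GaussDVR.red O E T) := by
      rw [dV_div_mul O E h _ _ hWT hvp, dV_div_mul O E h _ _ hWne hTjne, hTjd, lrho_pow h vξ hvξ,
        hWd', hWr', mul_div_cancel_left₀ _ hW₀r]
      have hp0 : (p : LaurentSeries (IsLocalRing.ResidueField O)) = 0 := by
        rw [← map_natCast (HahnSeries.C : IsLocalRing.ResidueField O →+* _) p, hp, map_zero]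
      rw [nsmul_eq_mul, hp0, zero_mul, add_zero]
    have hne : GaussDVR.red O E (W * Tj * vξ ^ p) ≠ 0 := by
      rw [map_mul]
      exact mul_ne_zero hWT hvp
    rw [← hl, mul_div_cancel₀ _ hne]
  · rw [map_mul, map_mul, map_pow, hWr', hTjr]

end Decomp

/-! ### Part E: the normal form under a `q`-expansion -/

section Core

variable {O K₀ Os Ks : Type*} [CommRing O] [IsDomain O] [IsDiscreteValuationRing O] [Field K₀]
  [Algebra O K₀] [FaithfulSMul O K₀]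
  [CommRing Os] [IsDomain Os] [IsDiscreteValuationRing Os] [Field Ks] [Algebra Os Ks]
  [FaithfulSMul Os Ks]
  (φ : O →+* Os) [IsLocalHom φ] (ψ : K₀ →+* Ks)
  (hφψ : ∀ a : O, ψ (algebraMap O K₀ a) = algebraMap Os Ks (φ a))
  {ϖs : Os} {D : Os → IsLocalRing.ResidueField Os}
  (h : IsFirstOrder (IsLocalRing.residue Os) ϖs D) (hϖs : Irreducible ϖs)
  (hD : ∀ a : O, D (φ a) = 0) {p : ℕ} (hp : (p : IsLocalRing.ResidueField Os) = 0)
  {C : Type*} [CommRing C] (y : Ideal C)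
  {Ls : Type*} [Field Ls] (jC : C →+* Ls) (πs : Ls)

include hφψ hD hϖs hp

/-- **One side of the normal form.**  `τ : Ls → Ks((q))` a `q`-expansion with values in the
fraction field of the Gauss ring, `T' : C → V O K₀` the (base) `q`-expansion of the chart ring
with `τ ∘ jC = base change ∘ T'`, `τ πs = ϖs`, and `τ t = ϖs^n · T` with `T` a Gauss unit.
For `x = (a₀/b₀ (1 + (c₁/s₁) πs) + πs² g) πs^m t^j ξ^p` (`a₀, b₀, s₁ ∉ y`):
`τ x = ϖs^N v`, `v` a Gauss unit, with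
`dV v · red s₁ = red v · (red c₁ + j • (dV T / red T · red s₁))` and
`red v · red b₀ = red a₀ · (red T)^j · h^p`. -/
theorem side_of_normal_form
    (T' : C →+* GaussDVR.V O K₀) (τ : Ls →+* LaurentSeries Ks)
    (hτfrac : ∀ x : Ls, τ x ∈ GaussDVR.fracField Os Ks)
    (hτj : ∀ c : C, τ (jC c) = coeffMap ψ ((T' c : GaussDVR.V O K₀) : LaurentSeries K₀))
    (hτπ : τ πs = ((GaussDVR.unif Ks ϖs : GaussDVR.V Os Ks) : LaurentSeries Ks))
    (hker : ∀ s : C, s ∉ y → GaussDVR.red O K₀ (T' s) ≠ 0)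
    (a₀ b₀ c₁ s₁ : C) (ha₀ : a₀ ∉ y) (hb₀ : b₀ ∉ y) (hs₁ : s₁ ∉ y)
    (g ξ : Ls) (hg : τ g ∈ GaussDVR.V Os Ks) (hξ : ξ ≠ 0) (m : ℕ) (j : ℤ)
    (t : Ls) (n : ℕ) (T : GaussDVR.V Os Ks) (hT : GaussDVR.red Os Ks T ≠ 0)
    (ht : τ t = ((GaussDVR.unif Ks ϖs : GaussDVR.V Os Ks) : LaurentSeries Ks) ^ n
      * (T : LaurentSeries Ks))
    (x : Ls)
    (hx : x = (jC a₀ / jC b₀ * (1 + jC c₁ / jC s₁ * πs) + πs ^ 2 * g) * πs ^ m * t ^ j * ξ ^ p) :
    ∃ (v : GaussDVR.V Os Ks) (N : ℤ) (hh : LaurentSeries (IsLocalRing.ResidueField Os)),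
      GaussDVR.red Os Ks v ≠ 0 ∧
      τ x = ((GaussDVR.unif Ks ϖs : GaussDVR.V Os Ks) : LaurentSeries Ks) ^ N
        * (v : LaurentSeries Ks) ∧
      dV Os Ks h v * resL φ (GaussDVR.red O K₀ (T' s₁))
        = GaussDVR.red Os Ks v * (resL φ (GaussDVR.red O K₀ (T' c₁))
          + j • (dV Os Ks h T / GaussDVR.red Os Ks T * resL φ (GaussDVR.red O K₀ (T' s₁)))) ∧
      GaussDVR.red Os Ks v * resL φ (GaussDVR.red O K₀ (T' b₀))
        = resL φ (GaussDVR.red O K₀ (T' a₀)) * GaussDVR.red Os Ks T ^ j * hh ^ p := by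
  -- the base elements
  have hB : ∀ s : C, s ∉ y → GaussDVR.red Os Ks (baseV φ ψ hφψ (T' s)) ≠ 0 := by
    intro s hs
    rw [red_baseV]
    exact resL_ne_zero φ (hker s hs)
  set W₀ : GaussDVR.V Os Ks := baseV φ ψ hφψ (T' a₀) * invV (baseV φ ψ hφψ (T' b₀)) (hB b₀ hb₀)
    with hW₀def
  set C₀ : GaussDVR.V Os Ks := baseV φ ψ hφψ (T' c₁) * invV (baseV φ ψ hφψ (T' s₁)) (hB s₁ hs₁)
    with hC₀def
  have hW₀d : dV Os Ks h W₀ = 0 := by
    rw [hW₀def, dV_mul, dV_baseV φ ψ hφψ h hD, dV_invV_eq_zero h _ _ (dV_baseV φ ψ hφψ h hD _),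
      mul_zero, zero_mul, add_zero]
  have hC₀d : dV Os Ks h C₀ = 0 := by
    rw [hC₀def, dV_mul, dV_baseV φ ψ hφψ h hD, dV_invV_eq_zero h _ _ (dV_baseV φ ψ hφψ h hD _),
      mul_zero, zero_mul, add_zero]
  have hW₀red : GaussDVR.red Os Ks W₀
      = resL φ (GaussDVR.red O K₀ (T' a₀)) / resL φ (GaussDVR.red O K₀ (T' b₀)) := by
    rw [hW₀def, map_mul, red_invV, red_baseV, red_baseV, div_eq_mul_inv]
  have hC₀red : GaussDVR.red Os Ks C₀
      = resL φ (GaussDVR.red O K₀ (T' c₁)) / resL φ (GaussDVR.red O K₀ (T' s₁)) := by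
    rw [hC₀def, map_mul, red_invV, red_baseV, red_baseV, div_eq_mul_inv]
  have hb₀ne : resL φ (GaussDVR.red O K₀ (T' b₀)) ≠ 0 := resL_ne_zero φ (hker b₀ hb₀)
  have hs₁ne : resL φ (GaussDVR.red O K₀ (T' s₁)) ≠ 0 := resL_ne_zero φ (hker s₁ hs₁)
  have ha₀ne : resL φ (GaussDVR.red O K₀ (T' a₀)) ≠ 0 := resL_ne_zero φ (hker a₀ ha₀)
  have hW₀r : GaussDVR.red Os Ks W₀ ≠ 0 := by
    rw [hW₀red]
    exact div_ne_zero ha₀ne hb₀ne
  have hτξ : τ ξ ≠ 0 := (map_ne_zero τ).mpr hξ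
  have hX : τ x = ((W₀ : LaurentSeries Ks)
          * (1 + (C₀ : LaurentSeries Ks)
            * ((GaussDVR.unif Ks ϖs : GaussDVR.V Os Ks) : LaurentSeries Ks))
          + ((GaussDVR.unif Ks ϖs : GaussDVR.V Os Ks) : LaurentSeries Ks) ^ 2
            * ((⟨τ g, hg⟩ : GaussDVR.V Os Ks) : LaurentSeries Ks))
        * ((GaussDVR.unif Ks ϖs : GaussDVR.V Os Ks) : LaurentSeries Ks) ^ m
        * (((GaussDVR.unif Ks ϖs : GaussDVR.V Os Ks) : LaurentSeries Ks) ^ n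
          * (T : LaurentSeries Ks)) ^ j
        * τ ξ ^ p := by
    have e1 : (W₀ : LaurentSeries Ks) = τ (jC a₀) / τ (jC b₀) := by
      rw [hW₀def, Subring.coe_mul, coe_invV, coe_baseV, coe_baseV, hτj, hτj, div_eq_mul_inv]
    have e2 : (C₀ : LaurentSeries Ks) = τ (jC c₁) / τ (jC s₁) := by
      rw [hC₀def, Subring.coe_mul, coe_invV, coe_baseV, coe_baseV, hτj, hτj, div_eq_mul_inv]
    rw [hx, e1, e2, ← ht, ← hτπ]
    simp only [map_mul, map_add, map_one, map_pow, map_div₀, map_zpow₀]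
  obtain ⟨v, N, hh, hv, hvX, hvd, hvr⟩ := exists_decomp h hϖs hp W₀ C₀ ⟨τ g, hg⟩ T hW₀d hC₀d hW₀r hT
    n m j (τ ξ) (τ x) (hτfrac ξ) hτξ hX
  refine ⟨v, N, hh, hv, hvX, ?_, ?_⟩
  · rw [hvd, hC₀red, zsmul_eq_mul, zsmul_eq_mul]
    field_simp
  · rw [hvr, hW₀red]
    field_simp

/-- **(S a), (S b): the smooth point.**  For
`x = (a₀/b₀ (1 + (c₁/s₁) πs) + πs² g) πs^m ξ^p`: `σs x = ϖs^N v` with `v` a Gauss unit,
`dV v · red s₁ = red v · red c₁` (so `ρ_∞ x = red c₁ / red s₁`) and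
`red v · red b₀ = red a₀ · h^p`. -/
theorem smooth_alt_core
    (Tinf : C →+* GaussDVR.V O K₀) (σs : Ls →+* LaurentSeries Ks)
    (hσfrac : ∀ x : Ls, σs x ∈ GaussDVR.fracField Os Ks)
    (hσj : ∀ c : C, σs (jC c) = coeffMap ψ ((Tinf c : GaussDVR.V O K₀) : LaurentSeries K₀))
    (hσπ : σs πs = ((GaussDVR.unif Ks ϖs : GaussDVR.V Os Ks) : LaurentSeries Ks))
    (hker : ∀ s : C, s ∉ y → GaussDVR.red O K₀ (Tinf s) ≠ 0)
    (a₀ b₀ c₁ s₁ : C) (ha₀ : a₀ ∉ y) (hb₀ : b₀ ∉ y) (hs₁ : s₁ ∉ y)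
    (g ξ : Ls) (hg : σs g ∈ GaussDVR.V Os Ks) (hξ : ξ ≠ 0) (m : ℕ) (x : Ls)
    (hx : x = (jC a₀ / jC b₀ * (1 + jC c₁ / jC s₁ * πs) + πs ^ 2 * g) * πs ^ m * ξ ^ p) :
    ∃ (v : GaussDVR.V Os Ks) (N : ℤ) (hh : LaurentSeries (IsLocalRing.ResidueField Os)),
      GaussDVR.red Os Ks v ≠ 0 ∧
      σs x = ((GaussDVR.unif Ks ϖs : GaussDVR.V Os Ks) : LaurentSeries Ks) ^ N
        * (v : LaurentSeries Ks) ∧
      dV Os Ks h v * resL φ (GaussDVR.red O K₀ (Tinf s₁))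
        = GaussDVR.red Os Ks v * resL φ (GaussDVR.red O K₀ (Tinf c₁)) ∧
      GaussDVR.red Os Ks v * resL φ (GaussDVR.red O K₀ (Tinf b₀))
        = resL φ (GaussDVR.red O K₀ (Tinf a₀)) * hh ^ p := by
  have h1 : GaussDVR.red Os Ks (1 : GaussDVR.V Os Ks) ≠ 0 := by
    rw [map_one]
    exact one_ne_zero
  obtain ⟨v, N, hh, hv, hvX, hvd, hvr⟩ := side_of_normal_form φ ψ hφψ h hϖs hD hp y jC πs Tinf σs
    hσfrac hσj hσπ hker a₀ b₀ c₁ s₁ ha₀ hb₀ hs₁ g ξ hg hξ m 0 1 0 1 h1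
    (by rw [map_one, pow_zero, one_mul]; rfl) x (by rw [hx, zpow_zero, mul_one])
  refine ⟨v, N, hh, hv, hvX, ?_, ?_⟩
  · rw [hvd, zero_smul, add_zero]
  · rw [hvr, zpow_zero, mul_one]

/-- **(N a), (N b), (N c): the node.**  `t₁ t₂ = ϖ g₀` in the chart ring (`g₀ ∉ y`), `Tinf`, `Tzero`
the `q`-expansions at the two components (`σs ∘ jC`, `σs ∘ ws ∘ jC` after base change), `t₂` a
Gauss unit at `∞`, `t₁` a Gauss unit at `0`, `φ ϖ = ε ϖs^n` with `D ε = e₁ · r ε`.  For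
`x = (a₀/b₀ (1 + (c₁/s₁) πs) + πs² g) πs^m t₂^j ξ^p`:

* `σs x = ϖs^N v`, `dV v · red_∞ s₁ = red v · red_∞ c₁`, and
  `red v · red_∞ b₀ = red_∞ a₀ · (red_∞ t₂)^j · h^p`;
* `σs (ws x) = ϖs^N' v'`,
  `dV v' · red_0 s₁ = red v' · (red_0 c₁ + j • (e₁ · red_0 s₁))`. -/
theorem node_alt_core
    (Tinf Tzero : C →+* GaussDVR.V O K₀) (σs : Ls →+* LaurentSeries Ks) (ws : Ls →+* Ls)
    (hσfrac : ∀ x : Ls, σs x ∈ GaussDVR.fracField Os Ks)
    (hσj : ∀ c : C, σs (jC c) = coeffMap ψ ((Tinf c : GaussDVR.V O K₀) : LaurentSeries K₀))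
    (hσwj : ∀ c : C, σs (ws (jC c)) = coeffMap ψ ((Tzero c : GaussDVR.V O K₀) : LaurentSeries K₀))
    (hσπ : σs πs = ((GaussDVR.unif Ks ϖs : GaussDVR.V Os Ks) : LaurentSeries Ks))
    (hwπ : ws πs = πs)
    (hkerInf : ∀ s : C, s ∉ y → GaussDVR.red O K₀ (Tinf s) ≠ 0)
    (hker0 : ∀ s : C, s ∉ y → GaussDVR.red O K₀ (Tzero s) ≠ 0)
    (t₁ t₂ g₀ ϖC : C) (hnode : t₁ * t₂ = ϖC * g₀) (hg₀ : g₀ ∉ y)
    (ht₂ : GaussDVR.red O K₀ (Tinf t₂) ≠ 0) (ht₁ : GaussDVR.red O K₀ (Tzero t₁) ≠ 0)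
    (ϖ : O) (hϖC : ((Tzero ϖC : GaussDVR.V O K₀) : LaurentSeries K₀)
      = HahnSeries.C (algebraMap O K₀ ϖ))
    (ε : Os) (n : ℕ) (hε : φ ϖ = ε * ϖs ^ n) (hεr : IsLocalRing.residue Os ε ≠ 0)
    (e₁ : IsLocalRing.ResidueField Os) (he₁ : D ε = e₁ * IsLocalRing.residue Os ε)
    (a₀ b₀ c₁ s₁ : C) (ha₀ : a₀ ∉ y) (hb₀ : b₀ ∉ y) (hs₁ : s₁ ∉ y)
    (g ξ : Ls) (hg : σs g ∈ GaussDVR.V Os Ks) (hg' : σs (ws g) ∈ GaussDVR.V Os Ks) (hξ : ξ ≠ 0)
    (m : ℕ) (j : ℤ) (x : Ls)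
    (hx : x = (jC a₀ / jC b₀ * (1 + jC c₁ / jC s₁ * πs) + πs ^ 2 * g) * πs ^ m * jC t₂ ^ j
      * ξ ^ p) :
    (∃ (v : GaussDVR.V Os Ks) (N : ℤ) (hh : LaurentSeries (IsLocalRing.ResidueField Os)),
      GaussDVR.red Os Ks v ≠ 0 ∧
      σs x = ((GaussDVR.unif Ks ϖs : GaussDVR.V Os Ks) : LaurentSeries Ks) ^ N
        * (v : LaurentSeries Ks) ∧
      dV Os Ks h v * resL φ (GaussDVR.red O K₀ (Tinf s₁))
        = GaussDVR.red Os Ks v * resL φ (GaussDVR.red O K₀ (Tinf c₁)) ∧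
      GaussDVR.red Os Ks v * resL φ (GaussDVR.red O K₀ (Tinf b₀))
        = resL φ (GaussDVR.red O K₀ (Tinf a₀)) * resL φ (GaussDVR.red O K₀ (Tinf t₂)) ^ j
          * hh ^ p) ∧
    (∃ (v' : GaussDVR.V Os Ks) (N' : ℤ),
      GaussDVR.red Os Ks v' ≠ 0 ∧
      σs (ws x) = ((GaussDVR.unif Ks ϖs : GaussDVR.V Os Ks) : LaurentSeries Ks) ^ N'
        * (v' : LaurentSeries Ks) ∧
      dV Os Ks h v' * resL φ (GaussDVR.red O K₀ (Tzero s₁))
        = GaussDVR.red Os Ks v' * (resL φ (GaussDVR.red O K₀ (Tzero c₁))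
          + j • (HahnSeries.C e₁ * resL φ (GaussDVR.red O K₀ (Tzero s₁))))) := by
  constructor
  · -- the `∞`-side: `t₂` is a base Gauss unit
    have hT : GaussDVR.red Os Ks (baseV φ ψ hφψ (Tinf t₂)) ≠ 0 := by
      rw [red_baseV]
      exact resL_ne_zero φ ht₂
    obtain ⟨v, N, hh, hv, hvX, hvd, hvr⟩ := side_of_normal_form φ ψ hφψ h hϖs hD hp y jC πs Tinf σs
      hσfrac hσj hσπ hkerInf a₀ b₀ c₁ s₁ ha₀ hb₀ hs₁ g ξ hg hξ m j (jC t₂) 0
      (baseV φ ψ hφψ (Tinf t₂)) hT (by rw [pow_zero, one_mul, hσj, coe_baseV]) x hx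
    refine ⟨v, N, hh, hv, hvX, ?_, ?_⟩
    · rw [hvd, dV_baseV φ ψ hφψ h hD, zero_div, zero_mul, smul_zero, add_zero]
    · rw [hvr, red_baseV]
  · -- the `0`-side: `w t₂ = ϖ · (w g₀) / (w t₁)`
    have hB1 : GaussDVR.red Os Ks (baseV φ ψ hφψ (Tzero t₁)) ≠ 0 := by
      rw [red_baseV]
      exact resL_ne_zero φ ht₁
    have hBg : GaussDVR.red Os Ks (baseV φ ψ hφψ (Tzero g₀)) ≠ 0 := by
      rw [red_baseV]
      exact resL_ne_zero φ (hker0 g₀ hg₀)
    set Eε : GaussDVR.V Os Ks := GaussDVR.ofInt Os Ks (HahnSeries.C ε) with hEε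
    have hEεr : GaussDVR.red Os Ks Eε = HahnSeries.C (IsLocalRing.residue Os ε) := by
      rw [hEε, GaussDVR.red_ofInt, GaussDVR.rho_C]
    have hEεd : dV Os Ks h Eε = HahnSeries.C (D ε) := by
      rw [hEε, dV_ofInt, dHat_C]
    have hEεne : GaussDVR.red Os Ks Eε ≠ 0 := by
      rw [hEεr]
      exact HahnSeries.C_ne_zero hεr
    set T : GaussDVR.V Os Ks :=
      Eε * baseV φ ψ hφψ (Tzero g₀) * invV (baseV φ ψ hφψ (Tzero t₁)) hB1 with hTdef
    have hEg : GaussDVR.red Os Ks (Eε * baseV φ ψ hφψ (Tzero g₀)) ≠ 0 := by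
      rw [map_mul]
      exact mul_ne_zero hEεne hBg
    have hT : GaussDVR.red Os Ks T ≠ 0 := by
      rw [hTdef, map_mul]
      exact mul_ne_zero hEg (red_invV_ne_zero _ hB1)
    have hTl : dV Os Ks h T / GaussDVR.red Os Ks T = HahnSeries.C e₁ := by
      rw [hTdef, dV_div_mul Os Ks h _ _ hEg (red_invV_ne_zero _ hB1),
        dV_div_mul Os Ks h _ _ hEεne hBg, dV_baseV φ ψ hφψ h hD,
        dV_invV_eq_zero h _ hB1 (dV_baseV φ ψ hφψ h hD _), zero_div, zero_div, add_zero, add_zero,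
        hEεd, hEεr, he₁, map_mul, mul_div_assoc, div_self (HahnSeries.C_ne_zero hεr), mul_one]
    -- `σs (ws (jC t₂)) = ϖs^n · T`
    have hu : ((GaussDVR.unif Ks ϖs : GaussDVR.V Os Ks) : LaurentSeries Ks) ≠ 0 :=
      GaussDVR.coe_unif_ne_zero Ks ϖs hϖs
    have ht : (σs.comp ws) (jC t₂)
        = ((GaussDVR.unif Ks ϖs : GaussDVR.V Os Ks) : LaurentSeries Ks) ^ n
          * (T : LaurentSeries Ks) := by
      have e1 : coeffMap ψ ((Tzero t₁ : GaussDVR.V O K₀) : LaurentSeries K₀)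
          * coeffMap ψ ((Tzero t₂ : GaussDVR.V O K₀) : LaurentSeries K₀)
          = coeffMap ψ ((Tzero ϖC : GaussDVR.V O K₀) : LaurentSeries K₀)
            * coeffMap ψ ((Tzero g₀ : GaussDVR.V O K₀) : LaurentSeries K₀) := by
        rw [← map_mul, ← map_mul, ← Subring.coe_mul, ← Subring.coe_mul, ← map_mul, ← map_mul,
          hnode]
      have e2 : coeffMap ψ ((Tzero ϖC : GaussDVR.V O K₀) : LaurentSeries K₀)
          = ((GaussDVR.unif Ks ϖs : GaussDVR.V Os Ks) : LaurentSeries Ks) ^ n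
            * (Eε : LaurentSeries Ks) := by
        rw [hϖC, HahnSeries.C_apply, coeffMap_single, hφψ, hε, GaussDVR.coe_unif, hEε,
          GaussDVR.coe_ofInt, GaussDVR.iota_C, ← map_pow, ← map_mul, ← map_pow, ← map_mul,
          HahnSeries.C_apply, mul_comm]
      have h1ne : coeffMap ψ ((Tzero t₁ : GaussDVR.V O K₀) : LaurentSeries K₀) ≠ 0 :=
        coe_ne_zero_of_red hB1
      rw [RingHom.comp_apply, hσwj, hTdef, Subring.coe_mul, Subring.coe_mul, coe_invV, coe_baseV,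
        coe_baseV, eq_comm]
      rw [← mul_assoc, ← mul_assoc, ← e2, ← e1]
      field_simp
    have hτfrac : ∀ z : Ls, (σs.comp ws) z ∈ GaussDVR.fracField Os Ks := fun z => hσfrac (ws z)
    obtain ⟨v, N, hh, hv, hvX, hvd, hvr⟩ := side_of_normal_form φ ψ hφψ h hϖs hD hp y jC πs Tzero
      (σs.comp ws) hτfrac hσwj (by rw [RingHom.comp_apply, hwπ, hσπ]) hker0 a₀ b₀ c₁ s₁ ha₀ hb₀
      hs₁ g ξ hg' hξ m j (jC t₂) n T hT ht x hx
    refine ⟨v, N, hv, hvX, ?_⟩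
    rw [hvd, hTl]

end Core

end Fermat.Agent.S44.L.Alt.NodeAltCore
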