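import Mathlib
import Fermat.Agent.S44.L.CentreChart
import Fermat.Agent.S44.L.Alt.NodeAltCore

/-!
# PROGRAM MR (S44), strand L, cover-free ALT route for (L.SLOPE), row ALT.6 (helper67):
# the bridge from the `κ_s((q))`-level exits of `Alt/NodeAlt` to the `ρ`-clauses of `Alt/Rho`

`A` a valuation subring of `ℚ̄`, `K ≤ Ks` two number fields with `O = OE A K`, `Os = OE A Ks`
discrete valuation rings, `φ : O → Os` a local homomorphism compatible with the inclusions into
`A` (`inclOA A Ks (φ a) = inclOA A K a`; instance: `φ = CycloBase.inclOE A h`).  The exits of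
`Alt/NodeAlt` (`node_alt_isRho`, `smooth_alt_isRho`) speak about series `ρ ∈ κ_s((q))` and the
reductions `rK c ∈ κ_O((q))` of a chart through `resL φ`; `Rho.RhoForms` wants elements of the
reduced function field `redField M A ⊆ κ_A((q))` and a chart map `r : C → redField M A` with
`(r c : κ_A((q))) = kmap A K (rK c)` (`CentreChart.coe_rInf`, `CentreChartZero.coe_rZero`).

* `exists_eq_map_of_C_mul_eq` : a constant series `C e` with `C e * φ(S) = φ(T)`, `S ≠ 0`, has
  `e` in the image of `φ` (leading coefficients).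
* `mem_constSub_of_frac` : **(RH-1, the (CONST) clause of `RhoForms`)** an element `ρ` of the
  reduced function field which is a constant series and a fraction `ρ * r s = r c`, `r s ≠ 0`, of a
  chart defined over `K` lies in `CentreChart.constSub M A K`.
* `resMap_map`, `kmap_resL` : `kmap A Ks ∘ resL φ = kmap A K`.
* `exists_coe_eq_kmap` : a series `ρ ∈ κ_s((q))` with one fraction representation
  `ρ * resL φ (rK s) = resL φ (rK c)`, `r s ≠ 0`, is (through `kmap A Ks`) an element of
  `redField M A`.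
* `mul_eq_of_resL` : the (REG) / (N b) clause `ρ' * r s = r c`.
* `mul_eq_add_of_resL` : the (N c) clause `ρ' * r₂ s = r₂ c + j • (e₁' * r₂ s)`.
* `exists_const_elem` : the constant `e₁' ∈ constSub M A K` with series `C (resMap A Ks e₁)`,
  `e₁ = residue (φ e)`, `e ∈ O`; nonzero if `e₁ ≠ 0`.
* `mem_constSub_of_resL` : (CONST) for such a `ρ'`.
* `exists_rho_of_points`, `reg_of_point`, `node_of_point` : the global element from the pointwise
  exits (the predicate `P` is `RhoGauss.IsRho h (σs x)`, unique by `IsRho.unique`).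
-/

set_option autoImplicit false
set_option linter.unusedSectionVars false
set_option linter.unusedVariables false
set_option linter.style.haveILetI false

open ModularCurve

noncomputable section

namespace Fermat.Agent.S44.L.Alt.RhoBridge

open Fermat.Agent.S18.K1Defs Fermat.Agent.S18.K1Top Fermat.Agent.S18.Wiring Fermat.Agent.S30
open Fermat.Agent.S44.Contract Fermat.Agent.S44.L.RedTransfer Fermat.Agent.S44.L.CentreChart
open Fermat.Agent.S44.L.Alt.NodeAltCore

local notation "Qb" => AlgebraicClosure ℚ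

/-! ### Part 1: leading coefficients -/

/-- A constant series `C e` with `C e * φ(S) = φ(T)`, `S ≠ 0`, has `e` in the image of `φ`. -/
theorem exists_eq_map_of_C_mul_eq {k κ : Type*} [Field k] [Field κ] (φ : k →+* κ) (e : κ)
    (S T : LaurentSeries k) (hS : S ≠ 0)
    (h : HahnSeries.C e * coeffMap φ S = coeffMap φ T) : ∃ x : k, e = φ x := by
  obtain ⟨n, hn⟩ : ∃ n : ℤ, S.coeff n ≠ 0 := by
    by_contra hcon
    push Not at hcon
    exact hS (HahnSeries.ext (funext hcon))
  have h1 := congrArg (fun z : LaurentSeries κ => z.coeff n) h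
  simp only [coeffMap_coeff] at h1
  rw [HahnSeries.C_mul_eq_smul, HahnSeries.coeff_smul, smul_eq_mul, coeffMap_coeff] at h1
  refine ⟨T.coeff n / S.coeff n, ?_⟩
  rw [map_div₀, ← h1, mul_div_cancel_right₀ _ ((map_ne_zero φ).mpr hn)]

/-! ### Part 2: (CONST) -/

variable (M : ℕ) [NeZero M] (A : ValuationSubring Qb) (K : IntermediateField ℚ Qb)
  [IsDiscreteValuationRing (OE A K)]

/-- **(RH-1), the (CONST) clause of `Rho.RhoForms`.**  An element of the reduced function field
which is a constant series and a fraction `ρ * r s = r c`, `r s ≠ 0`, of a chart whose reductions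
have coefficients in the residue field of `O = A ∩ K`, lies in `constSub M A K`. -/
theorem mem_constSub_of_frac {C : Type*} [CommRing C] (r : C →+* redField M A)
    (rK : C → LaurentSeries (IsLocalRing.ResidueField (OE A K)))
    (hr : ∀ c : C, ((r c : redField M A) : LaurentSeries (IsLocalRing.ResidueField A))
      = kmap A K (rK c))
    (ρ : redField M A) (e : IsLocalRing.ResidueField A)
    (hρ : ((ρ : redField M A) : LaurentSeries (IsLocalRing.ResidueField A)) = HahnSeries.C e)
    (c s : C) (hs : r s ≠ 0) (h : ρ * r s = r c) : ρ ∈ constSub M A K := by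
  have hs' : rK s ≠ 0 := by
    intro h0
    apply hs
    apply Subtype.ext
    rw [hr, h0, map_zero]
    rfl
  have h1 : HahnSeries.C e * kmap A K (rK s) = kmap A K (rK c) := by
    rw [← hρ, ← hr, ← hr]
    exact congrArg (fun t : redField M A =>
      (t : LaurentSeries (IsLocalRing.ResidueField A))) h
  obtain ⟨x, hx⟩ := exists_eq_map_of_C_mul_eq (resMap A K) e (rK s) (rK c) hs' h1
  exact (mem_constSub_iff M A K ρ).mpr ⟨x, by rw [hρ, hx]⟩

/-! ### Part 3: from `κ_s((q))` to the reduced function field -/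

variable (Ks : IntermediateField ℚ Qb) [IsDiscreteValuationRing (OE A Ks)]
  (φ : OE A K →+* OE A Ks) [IsLocalHom φ]
  (hφ : ∀ a : OE A K, inclOA A Ks (φ a) = inclOA A K a)

include hφ in
theorem resMap_map (x : IsLocalRing.ResidueField (OE A K)) :
    resMap A Ks (IsLocalRing.ResidueField.map φ x) = resMap A K x := by
  obtain ⟨a, rfl⟩ := IsLocalRing.residue_surjective x
  rw [IsLocalRing.ResidueField.map_residue, resMap_residue, resMap_residue, hφ]

include hφ in
/-- `kmap A Ks ∘ resL φ = kmap A K`. -/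
theorem kmap_resL (z : LaurentSeries (IsLocalRing.ResidueField (OE A K))) :
    kmap A Ks (resL φ z) = kmap A K z := by
  ext n
  exact resMap_map A K Ks φ hφ (z.coeff n)

section Chart

variable {C : Type*} [CommRing C] (r : C →+* redField M A)
  (rK : C → LaurentSeries (IsLocalRing.ResidueField (OE A K)))
  (hr : ∀ c : C, ((r c : redField M A) : LaurentSeries (IsLocalRing.ResidueField A))
    = kmap A K (rK c))

include hφ hr in
/-- A series of `κ_s((q))` with one fraction representation on the chart is, through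
`kmap A Ks`, an element of the reduced function field. -/
theorem exists_coe_eq_kmap (ρ : LaurentSeries (IsLocalRing.ResidueField (OE A Ks))) (c s : C)
    (hs : r s ≠ 0) (h : ρ * resL φ (rK s) = resL φ (rK c)) :
    ∃ ρ' : redField M A,
      ((ρ' : redField M A) : LaurentSeries (IsLocalRing.ResidueField A)) = kmap A Ks ρ := by
  refine ⟨r c / r s, ?_⟩
  have hs' : ((r s : redField M A) : LaurentSeries (IsLocalRing.ResidueField A)) ≠ 0 :=
    fun h0 => hs (Subtype.ext h0)
  have h1 := congrArg (kmap A Ks) h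
  rw [map_mul, kmap_resL A K Ks φ hφ, kmap_resL A K Ks φ hφ, ← hr, ← hr] at h1
  rw [Subfield.coe_div, div_eq_iff hs']
  exact h1.symm

include hφ hr in
/-- **The (REG) / (N b) clause**: `ρ' * r s = r c`. -/
theorem mul_eq_of_resL (ρ : LaurentSeries (IsLocalRing.ResidueField (OE A Ks)))
    (ρ' : redField M A)
    (hρ' : ((ρ' : redField M A) : LaurentSeries (IsLocalRing.ResidueField A)) = kmap A Ks ρ)
    (c s : C) (h : ρ * resL φ (rK s) = resL φ (rK c)) : ρ' * r s = r c := by
  apply Subtype.ext
  have h1 := congrArg (kmap A Ks) h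
  rw [map_mul, kmap_resL A K Ks φ hφ, kmap_resL A K Ks φ hφ, ← hr, ← hr, ← hρ'] at h1
  exact h1

include hφ hr in
/-- **The (N c) clause**: `ρ' * r₂ s = r₂ c + j • (e₁' * r₂ s)`. -/
theorem mul_eq_add_of_resL (ρ : LaurentSeries (IsLocalRing.ResidueField (OE A Ks)))
    (ρ' : redField M A)
    (hρ' : ((ρ' : redField M A) : LaurentSeries (IsLocalRing.ResidueField A)) = kmap A Ks ρ)
    (e₁ : IsLocalRing.ResidueField (OE A Ks)) (e₁' : redField M A)
    (he₁ : ((e₁' : redField M A) : LaurentSeries (IsLocalRing.ResidueField A))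
      = HahnSeries.C (resMap A Ks e₁))
    (j : ℤ) (c s : C)
    (h : ρ * resL φ (rK s) = resL φ (rK c) + j • (HahnSeries.C e₁ * resL φ (rK s))) :
    ρ' * r s = r c + j • (e₁' * r s) := by
  apply Subtype.ext
  have h1 := congrArg (kmap A Ks) h
  have h2 : kmap A Ks (HahnSeries.C e₁) = HahnSeries.C (resMap A Ks e₁) := coeffMap_C _ _
  rw [map_mul, map_add, map_zsmul, map_mul, kmap_resL A K Ks φ hφ, kmap_resL A K Ks φ hφ,
    ← hr, ← hr, ← hρ', h2, ← he₁] at h1
  exact h1

include hφ hr in
/-- **(CONST)** for the element attached to a series of `κ_s((q))`. -/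
theorem mem_constSub_of_resL (ρ : LaurentSeries (IsLocalRing.ResidueField (OE A Ks)))
    (ρ' : redField M A)
    (hρ' : ((ρ' : redField M A) : LaurentSeries (IsLocalRing.ResidueField A)) = kmap A Ks ρ)
    (c s : C) (hs : r s ≠ 0) (h : ρ * resL φ (rK s) = resL φ (rK c))
    (hconst : ∃ e : IsLocalRing.ResidueField A,
      ((ρ' : redField M A) : LaurentSeries (IsLocalRing.ResidueField A)) = HahnSeries.C e) :
    ρ' ∈ constSub M A K := by
  obtain ⟨e, he⟩ := hconst
  exact mem_constSub_of_frac M A K r rK hr ρ' e he c s hs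
    (mul_eq_of_resL M A K Ks φ hφ r rK hr ρ ρ' hρ' c s h)

/-! ### Part 4: the global element from the pointwise exits -/

include hφ hr in
/-- (REG) at one point, from the pointwise exit: `P` is a predicate with at most one solution
(`RhoGauss.IsRho h X`). -/
theorem reg_of_point (P : LaurentSeries (IsLocalRing.ResidueField (OE A Ks)) → Prop)
    (hP : ∀ ρ₁ ρ₂, P ρ₁ → P ρ₂ → ρ₁ = ρ₂)
    (ρ : LaurentSeries (IsLocalRing.ResidueField (OE A Ks))) (hρ : P ρ) (ρ' : redField M A)
    (hρ' : ((ρ' : redField M A) : LaurentSeries (IsLocalRing.ResidueField A)) = kmap A Ks ρ)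
    (y : Ideal C)
    (hpt : ∃ (c s : C) (ρ₀ : LaurentSeries (IsLocalRing.ResidueField (OE A Ks))), s ∉ y ∧ P ρ₀ ∧
      ρ₀ * resL φ (rK s) = resL φ (rK c)) :
    ∃ c s : C, s ∉ y ∧ ρ' * r s = r c := by
  obtain ⟨c, s, ρ₀, hs, hρ₀, h⟩ := hpt
  obtain rfl := hP ρ₀ ρ hρ₀ hρ
  exact ⟨c, s, hs, mul_eq_of_resL M A K Ks φ hφ r rK hr ρ₀ ρ' hρ' c s h⟩

include hφ hr in
/-- **The global element**: from the pointwise exits at the maximal ideals above `ker r`, a series
`ρ` with `P ρ`, its element `ρ'` of the reduced function field, (REG) on the chart and (CONST). -/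
theorem exists_rho_of_points (P : LaurentSeries (IsLocalRing.ResidueField (OE A Ks)) → Prop)
    (hP : ∀ ρ₁ ρ₂, P ρ₁ → P ρ₂ → ρ₁ = ρ₂)
    (hpt : ∀ y : Ideal C, y.IsMaximal → RingHom.ker r ≤ y →
      ∃ (c s : C) (ρ₀ : LaurentSeries (IsLocalRing.ResidueField (OE A Ks))), s ∉ y ∧ P ρ₀ ∧
        ρ₀ * resL φ (rK s) = resL φ (rK c)) :
    ∃ (ρ : LaurentSeries (IsLocalRing.ResidueField (OE A Ks))) (ρ' : redField M A), P ρ ∧
      ((ρ' : redField M A) : LaurentSeries (IsLocalRing.ResidueField A)) = kmap A Ks ρ ∧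
      (∀ y : Ideal C, y.IsMaximal → RingHom.ker r ≤ y → ∃ c s : C, s ∉ y ∧ ρ' * r s = r c) ∧
      ((∃ e : IsLocalRing.ResidueField A,
        ((ρ' : redField M A) : LaurentSeries (IsLocalRing.ResidueField A)) = HahnSeries.C e) →
          ρ' ∈ constSub M A K) := by
  have hne : RingHom.ker r ≠ ⊤ := RingHom.ker_ne_top r
  obtain ⟨y₀, hy₀max, hy₀⟩ := Ideal.exists_le_maximal (RingHom.ker r) hne
  obtain ⟨c₀, s₀, ρ, hs₀, hρ, h₀⟩ := hpt y₀ hy₀max hy₀
  have hs₀' : r s₀ ≠ 0 := fun h0 => hs₀ (hy₀ (RingHom.mem_ker.mpr h0))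
  obtain ⟨ρ', hρ'⟩ := exists_coe_eq_kmap M A K Ks φ hφ r rK hr ρ c₀ s₀ hs₀' h₀
  refine ⟨ρ, ρ', hρ, hρ', fun y hmax hker => ?_, fun hconst => ?_⟩
  · exact reg_of_point M A K Ks φ hφ r rK hr P hP ρ hρ ρ' hρ' y (hpt y hmax hker)
  · exact mem_constSub_of_resL M A K Ks φ hφ r rK hr ρ ρ' hρ' c₀ s₀ hs₀' h₀ hconst

end Chart

include hφ in
/-- **The constant `e₁`**: for `e ∈ O`, the element of `constSub M A K` with series
`C (resMap A Ks (residue (φ e)))`; it is nonzero if the residue of `φ e` is. -/
theorem exists_const_elem (e : OE A K) :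
    ∃ e₁' ∈ constSub M A K,
      ((e₁' : redField M A) : LaurentSeries (IsLocalRing.ResidueField A))
        = HahnSeries.C (resMap A Ks (IsLocalRing.residue (OE A Ks) (φ e))) ∧
      (IsLocalRing.residue (OE A Ks) (φ e) ≠ 0 → e₁' ≠ 0) := by
  obtain ⟨s, hs, hse⟩ := le_constSub M A K e
  have h1 : ((s : redField M A) : LaurentSeries (IsLocalRing.ResidueField A))
      = HahnSeries.C (resMap A Ks (IsLocalRing.residue (OE A Ks) (φ e))) := by
    rw [hse, resMap_residue, hφ]
  refine ⟨s, hs, h1, fun hne h0 => hne ?_⟩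
  have h2 : (HahnSeries.C (resMap A Ks (IsLocalRing.residue (OE A Ks) (φ e))) :
      LaurentSeries (IsLocalRing.ResidueField A)) = 0 := by
    rw [← h1, h0]
    rfl
  have h3 := (map_eq_zero_iff _ HahnSeries.C_injective).mp h2
  exact (map_eq_zero (resMap A Ks)).mp h3

end Fermat.Agent.S44.L.Alt.RhoBridge
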