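import Mathlib
import Fermat.Agent.S44.L.Slope.Loc
import Fermat.Agent.S44.L.EisDichRed
import Fermat.Agent.S44.L.NZ.Bricks

/-!
# PROGRAM MR (S44), strand L, cover-free ALT route for (L.SLOPE): the gate file (v1)

Statement-level file (helper61, SLOPE chain owner) with a compiled assembly ending in
`Slope.Loc.SlopeLocStatement`, hence in `Slope.Cut.SlopeMStatement`.

`NodeForms p M A h4 f D̄` is the conclusion of `Slope.Loc.SlopeLocStatement` (two charts
`r : C → redField M A`, `r' : C' → redField M A` of the reduced curve of level `M`, `4 ∣ M`, with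
their constants `κ₀`) in which the slope `δ` is replaced by its SOURCE: one pair `e ≠ 0`, `d` of
elements of the residue field `κ` of `A`, bound before the point clauses, such that at every
non-cuspidal closed point `y` of the finite chart

* (SMOOTH) `f = unit_y · h^p` and `D̄ = unit_y · h'^p`, or
* (NODE)   `f = unit_y · τ^j · h^p`, `D̄ = unit_y · τ^12 · h'^p` and `j · e = d` in `κ`

(the same `τ` for `f` and `D̄`), and `f = unit_y · h^p` at the cuspidal closed points of both
charts.

* `SlopeNodeEisStatement`   : `NodeForms` in the EISENSTEIN case of the dichotomy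
  `EisDich.eisDich` (`NZ.Bricks.IsEis P A b`: `π = b / c - 1` a uniformiser of a totally ramified
  extension of degree `p` of the unramified base).  Here `e = e₁` (the first-order constant of
  `p = η π^p`) and `d = ρ_0 - ρ_∞` (the constants of the first-order invariant `ρ` on the two
  components): the exits of the rows (N a b c), (S a b), (K), (Δ), EIS-at-centres, DESC.
* `SlopeNodeSplitStatement` : `NodeForms` for an inertia-fixed point `R` (with `b` inertia-fixed):
  unramified base, node formula `ι R = unit · t₁^(a_∞) t₂^(a_0) ξ^p`; here `e = 1`,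
  `d = a_0 - a_∞`.
* `NodeForms.shift` : `NodeForms` is stable under `f ↦ f · c^p`.
* `slopeLocStatement_of_bricks : RedStatement → SlopeNodeEisStatement → SlopeNodeSplitStatement →
  Slope.Loc.SlopeLocStatement` (the dichotomy; in the split case the shift `R ↦ R - i T` by
  `EisDichRed.red_R_split`, constants being `p`-th powers; `δ` from `(e, d)`).
* `slopeMStatement_of_bricks : .. → Slope.Cut.SlopeMStatement`.
-/

set_option autoImplicit false
set_option linter.style.haveILetI false

open WeierstrassCurve WeierstrassCurve.Affine WeierstrassCurve.Affine.Point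
open HahnSeries ModularCurve AlgebraicCurve

namespace Fermat.Agent.S44.L.Alt.Bricks

open Fermat.Agent.S30 Fermat.Agent.S30.Producer Fermat.Agent.S44.Contract
open Fermat.Agent.S44.L.Top Fermat.Agent.S44.L.TopProof2 Fermat.Agent.S44.L
open Fermat.Agent.S44.L.Slope

local notation "Qb" => AlgebraicClosure ℚ
local notation "GQb" => (AlgebraicClosure ℚ ≃ₐ[ℚ] AlgebraicClosure ℚ)

/-- **The chart-level node forms** of a function `f` and of `D̄` on the reduced curve of level
`M` (`4 ∣ M`): the conclusion of `Slope.Loc.SlopeLocStatement` with the slope given by its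
source `j · e = d` in the residue field of `A`. -/
def NodeForms (p M : ℕ) [NeZero M] (A : ValuationSubring Qb) (h4 : 4 ∣ M)
    (f Db : redField M A) : Prop :=
  ∃ (κ₀ : Subfield (redField M A)) (C : Type) (_ : CommRing C) (r : C →+* redField M A)
    (C' : Type) (_ : CommRing C') (r' : C' →+* redField M A)
    (e d : IsLocalRing.ResidueField A), e ≠ 0 ∧
    (∀ s ∈ κ₀, ∃ c : IsLocalRing.ResidueField A,
      ((s : redField M A) : LaurentSeries (IsLocalRing.ResidueField A)) = HahnSeries.C c) ∧
    -- the finite chart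
    (∀ s ∈ κ₀, ∃ c : C, r c = s) ∧ (∃ c : C, r c = CentreU4.ub M A h4) ∧
    (∀ c : C, IsIntegral ↥(Algebra.adjoin κ₀ {CentreU4.ub M A h4}) (r c)) ∧
    -- the chart at infinity
    (∀ s ∈ κ₀, ∃ c : C', r' c = s) ∧ (∃ c : C', r' c = (CentreU4.ub M A h4)⁻¹) ∧
    (∀ c : C', IsIntegral ↥(Algebra.adjoin κ₀ {(CentreU4.ub M A h4)⁻¹}) (r' c)) ∧
    -- (FIN) non-cuspidal closed points of the finite chart: smooth point or node
    (∀ y : Ideal C, y.IsMaximal → RingHom.ker r ≤ y →
      (∀ c : C, r c = CentreU4.ub M A h4 → c ∉ y) →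
      (∀ c : C, r c = CentreU4.ub M A h4 + 16 → c ∉ y) →
      (∃ h h' : redField M A, Loc.UnitAt r y f (h ^ p) ∧ Loc.UnitAt r y Db (h' ^ p)) ∨
      (∃ (τ h h' : redField M A) (j : ℤ), τ ≠ 0 ∧
        (j : IsLocalRing.ResidueField A) * e = d ∧
        Loc.UnitAt r y f (τ ^ j * h ^ p) ∧ Loc.UnitAt r y Db (τ ^ (12 : ℤ) * h' ^ p))) ∧
    -- (CUSP) the cusps `0`, `-16` of the `u₄`-line
    (∀ y : Ideal C, y.IsMaximal → RingHom.ker r ≤ y →
      ((∀ c : C, r c = CentreU4.ub M A h4 → c ∈ y) ∨
        (∀ c : C, r c = CentreU4.ub M A h4 + 16 → c ∈ y)) →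
      ∃ h : redField M A, Loc.UnitAt r y f (h ^ p)) ∧
    -- (INF) the cusp `∞` of the `u₄`-line
    (∀ y : Ideal C', y.IsMaximal → RingHom.ker r' ≤ y →
      (∀ c : C', r' c = (CentreU4.ub M A h4)⁻¹ → c ∈ y) →
      ∃ h : redField M A, Loc.UnitAt r' y f (h ^ p))

/-- **(SLOPE.NODE), Eisenstein case.**  For an `EShape` datum whose Kummer generator `b` is of
Eisenstein type, a `p`-new embedding and a reduction `f` of `ι R` in the reduced field of level
`M = 4 N'`: the chart-level node forms of `f` and `D̄ = Δ̄ (Δ̄^p)⁻¹`. -/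
def SlopeNodeEisStatement : Prop :=
  ∀ (P : FreyPackage) (N' M : ℕ) [NeZero N'] [NeZero M] [NeZero P.p] (W : WeierstrassCurve ℤ)
    (h4 : 4 ∣ M), M = 4 * N' → ¬ P.p ∣ N' → Squarefree N' →
    ∀ A : ValuationSubring Qb, A.LiesOverPrime P.p →
    ∀ ι : (P.freyCurve⁄Qb).Point → FN (N' * P.p), IsNewEmb P N' W ι →
    ∀ (T R : (P.freyCurve⁄Qb).Point) (ζ b : Qb), EShapeData P A T R ζ b →
    NZ.Bricks.IsEis P A b →
    ∀ f Db : redField M A,
      RedAt (N' * P.p) A (ι R) (f : LaurentSeries (IsLocalRing.ResidueField A)) →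
      (Db : LaurentSeries (IsLocalRing.ResidueField A))
        = EisFormal.deltaL (IsLocalRing.ResidueField A)
          * (EisFormal.deltaL (IsLocalRing.ResidueField A) ^ P.p)⁻¹ →
      NodeForms P.p M A h4 f Db

/-- **(SLOPE.NODE), split case.**  The same for an `EShape` datum with `b` and `R` fixed by the
inertia group. -/
def SlopeNodeSplitStatement : Prop :=
  ∀ (P : FreyPackage) (N' M : ℕ) [NeZero N'] [NeZero M] [NeZero P.p] (W : WeierstrassCurve ℤ)
    (h4 : 4 ∣ M), M = 4 * N' → ¬ P.p ∣ N' → Squarefree N' →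
    ∀ A : ValuationSubring Qb, A.LiesOverPrime P.p →
    ∀ ι : (P.freyCurve⁄Qb).Point → FN (N' * P.p), IsNewEmb P N' W ι →
    ∀ (T R : (P.freyCurve⁄Qb).Point) (ζ b : Qb), EShapeData P A T R ζ b →
    (∀ σ : GQb, σ ∈ A.inertiaSubgroupIn ℚ → σ b = b) →
    (∀ σ : GQb, σ ∈ A.inertiaSubgroupIn ℚ → σ • R = R) →
    ∀ f Db : redField M A,
      RedAt (N' * P.p) A (ι R) (f : LaurentSeries (IsLocalRing.ResidueField A)) →
      (Db : LaurentSeries (IsLocalRing.ResidueField A))
        = EisFormal.deltaL (IsLocalRing.ResidueField A)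
          * (EisFormal.deltaL (IsLocalRing.ResidueField A) ^ P.p)⁻¹ →
      NodeForms P.p M A h4 f Db

/-! ### The assembly -/

/-- `f = unit_y · g` is stable under multiplication of both sides. -/
theorem unitAt_mul_right {k : Type*} [Field k] {C : Type*} [CommRing C] {r : C →+* k}
    {y : Ideal C} {f g : k} (h : Loc.UnitAt r y f g) (x : k) :
    Loc.UnitAt r y (f * x) (g * x) := by
  obtain ⟨a, b, ha, hb, hf⟩ := h
  exact ⟨a, b, ha, hb, by rw [mul_right_comm, hf, mul_assoc]⟩

/-- `NodeForms` is stable under `f ↦ f · c^p`. -/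
theorem NodeForms.shift {p M : ℕ} [NeZero M] {A : ValuationSubring Qb} {h4 : 4 ∣ M}
    {f Db : redField M A} (H : NodeForms p M A h4 f Db) (c : redField M A) :
    NodeForms p M A h4 (f * c ^ p) Db := by
  obtain ⟨κ₀, C, instC, r, C', instC', r', e, d, he, hκ₀, hκr, hur, hint, hκr', hur', hint',
    hfin, hcusp, hinf⟩ := H
  refine ⟨κ₀, C, instC, r, C', instC', r', e, d, he, hκ₀, hκr, hur, hint, hκr', hur', hint',
    ?_, ?_, ?_⟩
  · intro y hmax hker hU hU16
    rcases hfin y hmax hker hU hU16 with ⟨h, h', hf, hD⟩ | ⟨τ, h, h', j, hτ, hj, hf, hD⟩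
    · refine Or.inl ⟨h * c, h', ?_, hD⟩
      rw [mul_pow]
      exact unitAt_mul_right hf _
    · refine Or.inr ⟨τ, h * c, h', j, hτ, hj, ?_, hD⟩
      rw [mul_pow, ← mul_assoc]
      exact unitAt_mul_right hf _
  · intro y hmax hker hc
    obtain ⟨h, hf⟩ := hcusp y hmax hker hc
    refine ⟨h * c, ?_⟩
    rw [mul_pow]
    exact unitAt_mul_right hf _
  · intro y hmax hker hc
    obtain ⟨h, hf⟩ := hinf y hmax hker hc
    refine ⟨h * c, ?_⟩
    rw [mul_pow]
    exact unitAt_mul_right hf _

/-- `redField N' A ≤ redField (4 * N') A`. -/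
theorem redField_le_four (N' : ℕ) [NeZero N'] (A : ValuationSubring Qb) :
    redField N' A ≤ redField (4 * N') A := by
  haveI : NeZero (2 * N') := ⟨by have := NeZero.ne N'; omega⟩
  have h42 : 4 * N' = 2 * (2 * N') := by ring
  rw [h42]
  exact (Cut.redField_le_two N' A).trans (Cut.redField_le_two (2 * N') A)

/-- **`Slope.Loc.SlopeLocStatement` from the two cases of the dichotomy.** -/
theorem slopeLocStatement_of_bricks (hRed : RedStatement) (hEis : SlopeNodeEisStatement)
    (hSplit : SlopeNodeSplitStatement) : Loc.SlopeLocStatement := by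
  intro P N' M _ _ _ W h4 hM hpN' hsq A hA ι hι T R ζ b hdata f Db hf hDb
  have hp : P.p.Prime := P.pp
  haveI : CharP (IsLocalRing.ResidueField A) P.p := Kappa.charP_residueField hp hA
  have H : NodeForms P.p M A h4 f Db := by
    rcases EisDich.eisDich P A hA T R ζ b hdata with ⟨i, b₀, -, hb₀, hfix, hdata'⟩ | hE
    · -- the split case: shift to the inertia-fixed point `R - i T`
      have hpR' : P.p • (R - i • T) = 0 := hdata'.2.1
      have hx0 : ι (R - i • T) ≠ 0 := hι.ne_zero _ hpR'
      obtain ⟨f₁, hf₁⟩ := hRed P.p N' hp P.hp5 hpN' A hA (ι (R - i • T)) hx0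
      have hle : redField N' A ≤ redField M A := by
        rw [hM]
        exact redField_le_four N' A
      obtain ⟨e, h, he, hfe⟩ := EisDichRed.red_R_split hι hA hdata (redField N' A)
        (fun x hx => hRed P.p N' hp P.hp5 hpN' A hA x hx) i hf hf₁
      haveI : IsAlgClosed (IsLocalRing.ResidueField A) :=
        Fermat.Agent.S41.NonEis.Basics.isAlgClosed_residueField A
      obtain ⟨e', he'⟩ := IsAlgClosed.exists_pow_nat_eq e hp.pos
      have H' := hSplit P N' M W h4 hM hpN' hsq A hA ι hι T (R - i • T) ζ b₀ hdata' hb₀ hfix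
        ⟨f₁, hle f₁.2⟩ Db hf₁ hDb
      have hc : (HahnSeries.C e' : LaurentSeries (IsLocalRing.ResidueField A)) ∈ redField M A :=
        TopLemmas.C_mem_redField M A e'
      have hC : (HahnSeries.C e' : LaurentSeries (IsLocalRing.ResidueField A)) ^ P.p
          = HahnSeries.C e := by
        rw [← map_pow, he']
      have hfeq : f = (⟨f₁, hle f₁.2⟩ : redField M A)
          * ((⟨HahnSeries.C e', hc⟩ : redField M A) * ⟨h, hle h.2⟩) ^ P.p := by
        apply Subtype.ext
        show (f : LaurentSeries (IsLocalRing.ResidueField A))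
          = (f₁ : LaurentSeries (IsLocalRing.ResidueField A))
            * (HahnSeries.C e' * (h : LaurentSeries (IsLocalRing.ResidueField A))) ^ P.p
        rw [hfe, mul_pow, hC]
        ring
      rw [hfeq]
      exact H'.shift _
    · exact hEis P N' M W h4 hM hpN' hsq A hA ι hι T R ζ b hdata hE f Db hf hDb
  -- from the node forms to the local forms: the slope `δ`
  obtain ⟨κ₀, C, instC, r, C', instC', r', e, d, he, hκ₀, hκr, hur, hint, hκr', hur', hint',
    hfin, hcusp, hinf⟩ := H
  obtain ⟨δ, hδ⟩ : ∃ δ : ℤ, ∀ j : ℤ, (j : IsLocalRing.ResidueField A) * e = d →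
      (P.p : ℤ) ∣ j - δ := by
    by_cases hex : ∃ j₀ : ℤ, (j₀ : IsLocalRing.ResidueField A) * e = d
    · obtain ⟨j₀, hj₀⟩ := hex
      refine ⟨j₀, fun j hj => ?_⟩
      have h1 : ((j - j₀ : ℤ) : IsLocalRing.ResidueField A) = 0 := by
        have h2 : ((j - j₀ : ℤ) : IsLocalRing.ResidueField A) * e = 0 := by
          push_cast
          rw [sub_mul, hj, hj₀, sub_self]
        exact (mul_eq_zero.mp h2).resolve_right he
      exact (CharP.intCast_eq_zero_iff (IsLocalRing.ResidueField A) P.p (j - j₀)).mp h1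
    · exact ⟨0, fun j hj => (hex ⟨j, hj⟩).elim⟩
  refine ⟨κ₀, C, instC, r, C', instC', r', δ, hκ₀, hκr, hur, hint, hκr', hur', hint', ?_,
    hcusp, hinf⟩
  intro y hmax hker hU hU16
  rcases hfin y hmax hker hU hU16 with ⟨h, h', hf', hD⟩ | ⟨τ, h, h', j, hτ, hj, hf', hD⟩
  · refine ⟨1, h, h', 0, 0, one_ne_zero, ?_, ?_, ?_⟩
    · rw [mul_zero, mul_zero, sub_zero]
      exact dvd_zero _
    · rw [zpow_zero, one_mul]
      exact hf'
    · rw [zpow_zero, one_mul]
      exact hD
  · refine ⟨τ, h, h', j, 12, hτ, ?_, hf', hD⟩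
    have h12 : 12 * j - δ * 12 = 12 * (j - δ) := by ring
    rw [h12]
    exact Dvd.dvd.mul_left (hδ j hj) 12

/-- **`Slope.Cut.SlopeMStatement` from the two cases of the dichotomy.** -/
theorem slopeMStatement_of_bricks (hRed : RedStatement) (hEis : SlopeNodeEisStatement)
    (hSplit : SlopeNodeSplitStatement) : Cut.SlopeMStatement :=
  Loc.slopeMStatement_of_loc (slopeLocStatement_of_bricks hRed hEis hSplit)

end Fermat.Agent.S44.L.Alt.Bricks
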