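import Mathlib
import Fermat.Agent.S44.L.Alt.Bricks
import Fermat.Agent.S44.L.NZ.OneCase

/-!
# PROGRAM MR (S44), strand L, (L.SLOPE): ONE CASE — the split case of the node forms is an
instance of the Eisenstein case in its weak form

(helper88; SLOPE twin of `NZ/OneCase`.)  The Eisenstein-case rows of the cover-free route
(DESC, Horiz, NODE-ALT / SMOOTH-ALT, CONST, (Δ), EIS-at-centres) use of an `EShapeData` datum
only `P.p • R = 0` and `AltDescW.FixBy P A R b`.  A point fixed by the whole inertia group has
the weak shape for the dummy Eisenstein generator `b' = (1 + p)^(1/p)` (`NZ.OneCase.exists_isEis`).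

* `SlopeNodeEisWStatement` : `Bricks.SlopeNodeEisStatement` with `EShapeData P A T R ζ b` replaced
  by `P.p • R = 0` and `FixBy P A R b`.  THIS is the Prop the E-level assembly should prove.
* `slopeMStatement_of_w : RedStatement → SlopeNodeEisWStatement → Slope.Cut.SlopeMStatement` —
  `SlopeNodeSplitStatement` is no longer a hypothesis: no unramified twin (ALT.10) is needed.
-/

set_option autoImplicit false

open WeierstrassCurve WeierstrassCurve.Affine WeierstrassCurve.Affine.Point
open HahnSeries ModularCurve AlgebraicCurve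

namespace Fermat.Agent.S44.L.Alt.OneCase

open Fermat.Agent.S30 Fermat.Agent.S30.Producer Fermat.Agent.S44.Contract
open Fermat.Agent.S44.L.Top Fermat.Agent.S44.L.TopProof2 Fermat.Agent.S44.L
open Fermat.Agent.S44.L.Slope Fermat.Agent.S44.L.Alt.Bricks
open Fermat.Agent.S44.L.AltDescW (FixBy)

local notation "Qb" => AlgebraicClosure ℚ
local notation "GQb" => (AlgebraicClosure ℚ ≃ₐ[ℚ] AlgebraicClosure ℚ)

/-- **(SLOPE.NODE), Eisenstein case, weak form.**  For a `p`-torsion point `R` fixed by the
stabiliser of `b` in the inertia group, `b` of Eisenstein type, a `p`-new embedding and a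
reduction `f` of `ι R` in the reduced field of level `M = 4 N'`: the chart-level node forms of
`f` and `D̄ = Δ̄ (Δ̄^p)⁻¹`. -/
def SlopeNodeEisWStatement : Prop :=
  ∀ (P : FreyPackage) (N' M : ℕ) [NeZero N'] [NeZero M] [NeZero P.p] (W : WeierstrassCurve ℤ)
    (h4 : 4 ∣ M), M = 4 * N' → ¬ P.p ∣ N' → Squarefree N' →
    ∀ A : ValuationSubring Qb, A.LiesOverPrime P.p →
    ∀ ι : (P.freyCurve⁄Qb).Point → FN (N' * P.p), IsNewEmb P N' W ι →
    ∀ (R : (P.freyCurve⁄Qb).Point) (b : Qb), P.p • R = 0 → FixBy P A R b →
    NZ.Bricks.IsEis P A b →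
    ∀ f Db : redField M A,
      RedAt (N' * P.p) A (ι R) (f : LaurentSeries (IsLocalRing.ResidueField A)) →
      (Db : LaurentSeries (IsLocalRing.ResidueField A))
        = EisFormal.deltaL (IsLocalRing.ResidueField A)
          * (EisFormal.deltaL (IsLocalRing.ResidueField A) ^ P.p)⁻¹ →
      NodeForms P.p M A h4 f Db

/-- The Eisenstein case of `Alt/Bricks` from the weak statement. -/
theorem slopeNodeEisStatement_of_w (h : SlopeNodeEisWStatement) : SlopeNodeEisStatement := by
  intro P N' M _ _ _ W h4 hM hpN' hsq A hA ι hι T R ζ b hE heis f Db hf hDb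
  exact h P N' M W h4 hM hpN' hsq A hA ι hι R b hE.2.1 (AltDescW.fixBy_of_eShapeData hE) heis
    f Db hf hDb

/-- **The split case of `Alt/Bricks` from the weak Eisenstein statement**: a point fixed by the
whole inertia group is fixed by the stabiliser of the dummy generator. -/
theorem slopeNodeSplitStatement_of_w (h : SlopeNodeEisWStatement) : SlopeNodeSplitStatement := by
  intro P N' M _ _ _ W h4 hM hpN' hsq A hA ι hι T R ζ b hE _ hfixR f Db hf hDb
  obtain ⟨b', hb'⟩ := NZ.OneCase.exists_isEis P A hA
  exact h P N' M W h4 hM hpN' hsq A hA ι hι R b' hE.2.1 (AltDescW.fixBy_of_fixed hfixR b') hb'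
    f Db hf hDb

/-- **`Slope.Loc.SlopeLocStatement` from the weak Eisenstein statement alone.** -/
theorem slopeLocStatement_of_w (hRed : RedStatement) (h : SlopeNodeEisWStatement) :
    Loc.SlopeLocStatement :=
  slopeLocStatement_of_bricks hRed (slopeNodeEisStatement_of_w h)
    (slopeNodeSplitStatement_of_w h)

/-- **`Slope.Cut.SlopeMStatement` from the weak Eisenstein statement alone.** -/
theorem slopeMStatement_of_w (hRed : RedStatement) (h : SlopeNodeEisWStatement) :
    Cut.SlopeMStatement :=
  Loc.slopeMStatement_of_loc (slopeLocStatement_of_w hRed h)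

end Fermat.Agent.S44.L.Alt.OneCase
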