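import Mathlib
import Fermat.Agent.S44.L.Alt.OneCase
import Fermat.Agent.S44.L.ConstRed

/-!
# PROGRAM MR (S44), strand L, cover-free ALT route for (L.SLOPE): constancy (K) and slope (Δ)
# at the chart level (gate file v2, below `Alt/Bricks`)

Statement-level file (helper61, SLOPE chain owner) with a compiled assembly ending in
`Alt.OneCase.SlopeNodeEisWStatement`, hence in `Slope.Cut.SlopeMStatement`.  No `E`-level
vocabulary: everything is stated in the reduced function field `k = redField M A` and on abstract charts.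

`RhoForms p M A h4 f D̄` : there are the two charts `r : C → k`, `r' : C' → k` of
`Bricks.NodeForms` (constants `κ₀`), a second reduction `r₂ : C → k` of the finite chart (the
reduction along the OTHER component, read in `k`; its kernel marks the nodes: `ker r₂ ≤ y`), two
elements `ρ₁, ρ₂ ∈ k` (the first-order invariants `ρ_∞(f_*)`, `ρ_∞(w f_*) = ρ_0(f_*)`) and a
nonzero constant `e₁ ∈ κ₀` such that

* (CONST) every constant of `κ₀` has a common lift under `r` and `r₂`; if `ρᵢ` is a constant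
  series, it lies in `κ₀`;
* (REG) `ρ₁` and `ρ₂` are regular at every closed point of the component of `r`: `ρ = r c / r s`,
  `s ∉ y`, at every maximal `y ⊇ ker r` of the finite chart and at every maximal `y ⊇ ker r'` of
  the chart at infinity containing the coordinate  [rows (N b), (S b)];
* (FIN) at a non-cuspidal maximal `y ⊇ ker r`: either `f = unit_y h^p`, `D̄ = unit_y h'^p`
  [(S a) + EIS], or `y` is a node (`ker r₂ ≤ y`) with
  `ρ₁ · r s = r c`, `ρ₂ · r₂ s = r₂ c + j (e₁ · r₂ s)`, `f = unit_y τ^j h^p`,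
  `D̄ = unit_y τ^12 h'^p`  [(N a), (N b), (N c) with ONE pair `(c, s)`, + EIS];
* (CUSP), (INF) as in `Bricks.NodeForms`.

Compiled here:

* `exists_const_of_regular` : **(K)** an element of `k` which is regular at every closed point
  of both charts is a constant series (`ConstRed.exists_eq_C_of_forall_mem` + the centre seam).
* `RhoForms.nodeForms` : **(K) + (Δ)** `RhoForms → Bricks.NodeForms` with `e = e₁`,
  `d = ρ₂ - ρ₁`.
* `SlopeRhoEisWStatement` (the ONE open `Prop` of the SLOPE chain at this level),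
  `slopeNodeEisWStatement_of_rho`, `slopeMStatement_of_rho`.
-/

set_option autoImplicit false
set_option linter.style.haveILetI false

open WeierstrassCurve WeierstrassCurve.Affine WeierstrassCurve.Affine.Point
open HahnSeries ModularCurve AlgebraicCurve

namespace Fermat.Agent.S44.L.Alt.Rho

open Fermat.Agent.S30 Fermat.Agent.S30.Producer Fermat.Agent.S44.Contract
open Fermat.Agent.S44.L.Top Fermat.Agent.S44.L.TopProof2 Fermat.Agent.S44.L
open Fermat.Agent.S44.L.Slope

local notation "Qb" => AlgebraicClosure ℚ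

/-- **The chart-level first-order forms** of a function `f` and of `D̄` on the reduced curve of
level `M` (`4 ∣ M`). -/
def RhoForms (p M : ℕ) [NeZero M] (A : ValuationSubring Qb) (h4 : 4 ∣ M)
    (f Db : redField M A) : Prop :=
  ∃ (κ₀ : Subfield (redField M A)) (C : Type) (_ : CommRing C) (r r₂ : C →+* redField M A)
    (C' : Type) (_ : CommRing C') (r' : C' →+* redField M A) (ρ₁ ρ₂ e₁ : redField M A),
    (∀ s ∈ κ₀, ∃ c : IsLocalRing.ResidueField A,
      ((s : redField M A) : LaurentSeries (IsLocalRing.ResidueField A)) = HahnSeries.C c) ∧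
    -- the finite chart, with its two reductions
    (∀ s ∈ κ₀, ∃ c : C, r c = s ∧ r₂ c = s) ∧ (∃ c : C, r c = CentreU4.ub M A h4) ∧
    (∀ c : C, IsIntegral ↥(Algebra.adjoin κ₀ {CentreU4.ub M A h4}) (r c)) ∧
    -- the chart at infinity
    (∀ s ∈ κ₀, ∃ c : C', r' c = s) ∧ (∃ c : C', r' c = (CentreU4.ub M A h4)⁻¹) ∧
    (∀ c : C', IsIntegral ↥(Algebra.adjoin κ₀ {(CentreU4.ub M A h4)⁻¹}) (r' c)) ∧
    -- (CONST)
    e₁ ∈ κ₀ ∧ e₁ ≠ 0 ∧
    ((∃ c : IsLocalRing.ResidueField A,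
      ((ρ₁ : redField M A) : LaurentSeries (IsLocalRing.ResidueField A)) = HahnSeries.C c) →
        ρ₁ ∈ κ₀) ∧
    ((∃ c : IsLocalRing.ResidueField A,
      ((ρ₂ : redField M A) : LaurentSeries (IsLocalRing.ResidueField A)) = HahnSeries.C c) →
        ρ₂ ∈ κ₀) ∧
    -- (REG) `ρ₁`, `ρ₂` are regular at the closed points of both charts
    (∀ y : Ideal C, y.IsMaximal → RingHom.ker r ≤ y → ∃ c s : C, s ∉ y ∧ ρ₁ * r s = r c) ∧
    (∀ y : Ideal C, y.IsMaximal → RingHom.ker r ≤ y → ∃ c s : C, s ∉ y ∧ ρ₂ * r s = r c) ∧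
    (∀ y : Ideal C', y.IsMaximal → RingHom.ker r' ≤ y →
      (∀ c : C', r' c = (CentreU4.ub M A h4)⁻¹ → c ∈ y) →
      ∃ c s : C', s ∉ y ∧ ρ₁ * r' s = r' c) ∧
    (∀ y : Ideal C', y.IsMaximal → RingHom.ker r' ≤ y →
      (∀ c : C', r' c = (CentreU4.ub M A h4)⁻¹ → c ∈ y) →
      ∃ c s : C', s ∉ y ∧ ρ₂ * r' s = r' c) ∧
    -- (FIN) non-cuspidal closed points of the finite chart: smooth point or node
    (∀ y : Ideal C, y.IsMaximal → RingHom.ker r ≤ y →
      (∀ c : C, r c = CentreU4.ub M A h4 → c ∉ y) →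
      (∀ c : C, r c = CentreU4.ub M A h4 + 16 → c ∉ y) →
      (∃ h h' : redField M A, Loc.UnitAt r y f (h ^ p) ∧ Loc.UnitAt r y Db (h' ^ p)) ∨
      (RingHom.ker r₂ ≤ y ∧ ∃ (τ h h' : redField M A) (j : ℤ) (c s : C), τ ≠ 0 ∧ s ∉ y ∧
        ρ₁ * r s = r c ∧ ρ₂ * r₂ s = r₂ c + j • (e₁ * r₂ s) ∧
        Loc.UnitAt r y f (τ ^ j * h ^ p) ∧ Loc.UnitAt r y Db (τ ^ (12 : ℤ) * h' ^ p))) ∧
    -- (CUSP) the cusps `0`, `-16` of the `u₄`-line
    (∀ y : Ideal C, y.IsMaximal → RingHom.ker r ≤ y →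
      ((∀ c : C, r c = CentreU4.ub M A h4 → c ∈ y) ∨
        (∀ c : C, r c = CentreU4.ub M A h4 + 16 → c ∈ y)) →
      ∃ h : redField M A, Loc.UnitAt r y f (h ^ p)) ∧
    -- (INF) the cusp `∞` of the `u₄`-line
    (∀ y : Ideal C', y.IsMaximal → RingHom.ker r' ≤ y →
      (∀ c : C', r' c = (CentreU4.ub M A h4)⁻¹ → c ∈ y) →
      ∃ h : redField M A, Loc.UnitAt r' y f (h ^ p))

/-! ### (K): constancy -/

/-- **(K)** An element of the reduced function field which is regular at every closed point of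
the finite chart and at every closed point over `∞` of the chart at infinity is a constant
series. -/
theorem exists_const_of_regular {p M : ℕ} [NeZero M] {A : ValuationSubring Qb} (hp : p.Prime)
    (hA : A.LiesOverPrime p) (h4 : 4 ∣ M) (κ₀ : Subfield (redField M A))
    (hκ₀ : ∀ s ∈ κ₀, ∃ e : IsLocalRing.ResidueField A,
      ((s : redField M A) : LaurentSeries (IsLocalRing.ResidueField A)) = HahnSeries.C e)
    {C : Type*} [CommRing C] (r : C →+* redField M A) (hκr : ∀ s ∈ κ₀, ∃ c : C, r c = s)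
    (hur : ∃ c : C, r c = CentreU4.ub M A h4)
    (hint : ∀ c : C, IsIntegral ↥(Algebra.adjoin κ₀ {CentreU4.ub M A h4}) (r c))
    {C' : Type*} [CommRing C'] (r' : C' →+* redField M A)
    (hκr' : ∀ s ∈ κ₀, ∃ c : C', r' c = s) (hur' : ∃ c : C', r' c = (CentreU4.ub M A h4)⁻¹)
    (hint' : ∀ c : C', IsIntegral ↥(Algebra.adjoin κ₀ {(CentreU4.ub M A h4)⁻¹}) (r' c))
    (ρ : redField M A)
    (hreg : ∀ y : Ideal C, y.IsMaximal → RingHom.ker r ≤ y → ∃ c s : C, s ∉ y ∧ ρ * r s = r c)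
    (hreg' : ∀ y : Ideal C', y.IsMaximal → RingHom.ker r' ≤ y →
      (∀ c : C', r' c = (CentreU4.ub M A h4)⁻¹ → c ∈ y) →
      ∃ c s : C', s ∉ y ∧ ρ * r' s = r' c) :
    ∃ e : IsLocalRing.ResidueField A,
      ((ρ : redField M A) : LaurentSeries (IsLocalRing.ResidueField A)) = HahnSeries.C e := by
  refine ConstRed.exists_eq_C_of_forall_mem M A ρ (fun w => ?_)
  by_cases htop : w = ⊤
  · rw [htop]
    trivial
  by_cases hu : CentreU4.ub M A h4 ∈ w
  · obtain ⟨y, hmax, hker, h1, h2, -⟩ := Centre.exists_centre κ₀ (CentreU4.ub M A h4)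
      (CentreU4.halg_ub hp hA h4 κ₀) w (fun s hs => CentreU4.const_mem hp hA w s (hκ₀ s hs)) hu
      htop r hκr hur hint
    obtain ⟨c, s, hs, hρ⟩ := hreg y hmax hker
    have hs0 : r s ≠ 0 := fun h0 => hs (hker h0)
    have hρ' : ρ = r c * (r s)⁻¹ := (eq_mul_inv_iff_mul_eq₀ hs0).mpr hρ
    rw [hρ']
    exact w.mul_mem _ _ (h1 c) (h2 s hs)
  · obtain ⟨y, hmax, hker, h1, h2, -, hc⟩ :=
      CentreU4.exists_centre_inf hp hA h4 κ₀ hκ₀ w hu r' hκr' hur' hint'
    obtain ⟨c, s, hs, hρ⟩ := hreg' y hmax hker hc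
    have hs0 : r' s ≠ 0 := fun h0 => hs (hker h0)
    have hρ' : ρ = r' c * (r' s)⁻¹ := (eq_mul_inv_iff_mul_eq₀ hs0).mpr hρ
    rw [hρ']
    exact w.mul_mem _ _ (h1 c) (h2 s hs)

/-! ### (K) + (Δ): from the first-order forms to the node forms -/

/-- **(K) + (Δ).**  The first-order forms give the node forms, with `e = e₁` and
`d = ρ₂ - ρ₁`. -/
theorem RhoForms.nodeForms {p M : ℕ} [NeZero M] {A : ValuationSubring Qb} (hp : p.Prime)
    (hA : A.LiesOverPrime p) {h4 : 4 ∣ M} {f Db : redField M A}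
    (H : RhoForms p M A h4 f Db) : Bricks.NodeForms p M A h4 f Db := by
  obtain ⟨κ₀, C, instC, r, r₂, C', instC', r', ρ₁, ρ₂, e₁, hκ₀, hκr, hur, hint, hκr', hur',
    hint', he₁, he₁0, hρ₁κ, hρ₂κ, hreg₁, hreg₂, hreg₁', hreg₂', hfin, hcusp, hinf⟩ := H
  have hκr1 : ∀ s ∈ κ₀, ∃ c : C, r c = s := fun s hs => by
    obtain ⟨c, hc, -⟩ := hκr s hs
    exact ⟨c, hc⟩
  -- (K)
  have hK₁ : ρ₁ ∈ κ₀ := hρ₁κ (exists_const_of_regular hp hA h4 κ₀ hκ₀ r hκr1 hur hint r' hκr'
    hur' hint' ρ₁ hreg₁ hreg₁')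
  have hK₂ : ρ₂ ∈ κ₀ := hρ₂κ (exists_const_of_regular hp hA h4 κ₀ hκ₀ r hκr1 hur hint r' hκr'
    hur' hint' ρ₂ hreg₂ hreg₂')
  obtain ⟨ε, hε⟩ := hκ₀ e₁ he₁
  obtain ⟨a₁, ha₁⟩ := hκ₀ ρ₁ hK₁
  obtain ⟨a₂, ha₂⟩ := hκ₀ ρ₂ hK₂
  have hε0 : ε ≠ 0 := by
    rintro rfl
    apply he₁0
    apply Subtype.ext
    rw [hε, _root_.map_zero]
    rfl
  refine ⟨κ₀, C, instC, r, C', instC', r', ε, a₂ - a₁, hε0, hκ₀, hκr1, hur, hint, hκr', hur',
    hint', ?_, hcusp, hinf⟩
  intro y hmax hker hU hU16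
  rcases hfin y hmax hker hU hU16 with hs | ⟨hker₂, τ, h, h', j, c, s, hτ, hs, hb, hc, hf, hD⟩
  · exact Or.inl hs
  · refine Or.inr ⟨τ, h, h', j, hτ, ?_, hf, hD⟩
    -- (Δ): common lifts of the three constants
    obtain ⟨A₁, hA₁, -⟩ := hκr ρ₁ hK₁
    obtain ⟨A₂, hA₂, hA₂'⟩ := hκr ρ₂ hK₂
    obtain ⟨E, hE, hE'⟩ := hκr e₁ he₁
    have hy : y.IsPrime := hmax.isPrime
    have h1 : A₁ * s - c ∈ y := hker (by
      rw [RingHom.mem_ker, map_sub, map_mul, hA₁, hb, sub_self])
    have h2 : A₂ * s - c - (j : C) * (E * s) ∈ y := hker₂ (by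
      rw [RingHom.mem_ker, map_sub, map_sub, map_mul, map_mul, map_mul, map_intCast, hA₂', hE',
        hc, zsmul_eq_mul]
      ring)
    have h3 : (A₁ - A₂ + (j : C) * E) * s ∈ y := by
      have e3 : (A₁ - A₂ + (j : C) * E) * s
          = (A₁ * s - c) - (A₂ * s - c - (j : C) * (E * s)) := by ring
      rw [e3]
      exact y.sub_mem h1 h2
    have h4' : A₁ - A₂ + (j : C) * E ∈ y := (hy.mem_or_mem h3).resolve_right hs
    -- a constant in `y` vanishes
    have hx : ρ₁ - ρ₂ + (j : redField M A) * e₁ = 0 := by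
      by_contra hne
      have hmem : ρ₁ - ρ₂ + (j : redField M A) * e₁ ∈ κ₀ :=
        κ₀.add_mem (κ₀.sub_mem hK₁ hK₂) (κ₀.mul_mem (intCast_mem κ₀ j) he₁)
      obtain ⟨c', hc'⟩ := hκr1 _ (κ₀.inv_mem hmem)
      have h5 : (A₁ - A₂ + (j : C) * E) * c' - 1 ∈ y := hker (by
        rw [RingHom.mem_ker, map_sub, map_mul, map_add, map_sub, map_mul, map_intCast, hA₁, hA₂,
          hE, hc', map_one, mul_inv_cancel₀ hne, sub_self])
      have h6 : (1 : C) ∈ y := by
        have h7 := y.sub_mem (y.mul_mem_right c' h4') h5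
        rwa [sub_sub_cancel] at h7
      exact hmax.ne_top ((Ideal.eq_top_iff_one y).mpr h6)
    -- read in the residue field of `A`
    have hx' : (ρ₁ : LaurentSeries (IsLocalRing.ResidueField A))
        - (ρ₂ : LaurentSeries (IsLocalRing.ResidueField A))
        + ((j : ℤ) : LaurentSeries (IsLocalRing.ResidueField A))
          * (e₁ : LaurentSeries (IsLocalRing.ResidueField A)) = 0 := by
      have h8 := congrArg (fun t : redField M A =>
        (t : LaurentSeries (IsLocalRing.ResidueField A))) hx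
      exact h8
    rw [ha₁, ha₂, hε] at hx'
    have hco : (HahnSeries.C (a₁ - a₂ + (j : IsLocalRing.ResidueField A) * ε) :
        LaurentSeries (IsLocalRing.ResidueField A)) = 0 := by
      rw [map_add, map_sub, map_mul, map_intCast]
      exact hx'
    have h9 : a₁ - a₂ + (j : IsLocalRing.ResidueField A) * ε = 0 :=
      (map_eq_zero_iff _ HahnSeries.C_injective).mp hco
    linear_combination h9

/-! ### The Eisenstein case (weak form: ONE CASE) -/

/-- **(SLOPE.RHO), Eisenstein case, weak form.**  For a `p`-torsion point `R` fixed by the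
stabiliser of `b` in the inertia group, `b` of Eisenstein type, a `p`-new embedding and a
reduction `f` of `ι R` in the reduced field of level `M = 4 N'`: the chart-level first-order
forms of `f` and `D̄ = Δ̄ (Δ̄^p)⁻¹`.  (Binders of `OneCase.SlopeNodeEisWStatement` verbatim.) -/
def SlopeRhoEisWStatement : Prop :=
  ∀ (P : FreyPackage) (N' M : ℕ) [NeZero N'] [NeZero M] [NeZero P.p] (W : WeierstrassCurve ℤ)
    (h4 : 4 ∣ M), M = 4 * N' → ¬ P.p ∣ N' → Squarefree N' →
    ∀ A : ValuationSubring Qb, A.LiesOverPrime P.p →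
    ∀ ι : (P.freyCurve⁄Qb).Point → FN (N' * P.p), IsNewEmb P N' W ι →
    ∀ (R : (P.freyCurve⁄Qb).Point) (b : Qb), P.p • R = 0 → AltDescW.FixBy P A R b →
    NZ.Bricks.IsEis P A b →
    ∀ f Db : redField M A,
      RedAt (N' * P.p) A (ι R) (f : LaurentSeries (IsLocalRing.ResidueField A)) →
      (Db : LaurentSeries (IsLocalRing.ResidueField A))
        = EisFormal.deltaL (IsLocalRing.ResidueField A)
          * (EisFormal.deltaL (IsLocalRing.ResidueField A) ^ P.p)⁻¹ →
      RhoForms P.p M A h4 f Db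

/-- **`OneCase.SlopeNodeEisWStatement` from the first-order forms.** -/
theorem slopeNodeEisWStatement_of_rho (h : SlopeRhoEisWStatement) :
    OneCase.SlopeNodeEisWStatement := by
  intro P N' M _ _ _ W h4 hM hpN' hsq A hA ι hι R b hR hfix heis f Db hf hDb
  exact (h P N' M W h4 hM hpN' hsq A hA ι hι R b hR hfix heis f Db hf hDb).nodeForms P.pp hA

/-- **The SLOPE chain down to `Slope.Cut.SlopeMStatement`.** -/
theorem slopeMStatement_of_rho (hRed : RedStatement) (h : SlopeRhoEisWStatement) :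
    Cut.SlopeMStatement :=
  OneCase.slopeMStatement_of_w hRed (slopeNodeEisWStatement_of_rho h)

end Fermat.Agent.S44.L.Alt.Rho
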