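import Mathlib
import Fermat.Agent.S44.L.Alt.Rho
import Fermat.Agent.S34.TwoPrimesGauss

/-!
# PROGRAM MR (S44), strand L, cover-free ALT route for (L.SLOPE): `RhoForms` from series
# identities on two chart rings (the seam between `Alt/Rho` and the `E`-level rows)

Statement-level seam (helper61, SLOPE chain owner), `k`-level only: `k = redField M A`,
`𝕃 = κ((q))`, `κ` the residue field of `A`.  The `E`-level rows (NODE-ALT / SMOOTH-ALT for `x` and
for `w x`, RedLink, the `D̄`-forms) produce, at every closed point `y` of the two chart rings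
`Chart O u`, `Chart O' u'`, identities in `𝕃` between

* `Fx, Gx` : the Gauss reduction of `x` at infinity and its first-order companion
  (`ρ₁ = Gx / Fx`), `Fw, Gw` : the same for `w x` (`ρ₂ = Gw / Fw`),
* the values `r c`, `r₂ c`, `r' c` of the chart reductions,
* `G₀` with `f = Fx · G₀ ^ p` (RedLink).

`rhoForms_of_series` turns them into `Rho.RhoForms p M A h4 f D̄`: it defines `ρ₁, ρ₂ ∈ k`
(from one closed point), proves that the `p`-th roots which are a priori series lie in `k`
(`Loc.mem_redField_of_pow_mem`), and that the node parameter `r t` is nonzero (from `D̄ ≠ 0`).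
The chart rings are abstract `Chart O u` (pattern of `Alt/ChartSeam`), so that at the concrete
charts the instance arguments match syntactically.
-/

set_option autoImplicit false
set_option linter.unusedSectionVars false
set_option linter.unusedVariables false
set_option linter.style.haveILetI false

open WeierstrassCurve WeierstrassCurve.Affine WeierstrassCurve.Affine.Point
open HahnSeries ModularCurve AlgebraicCurve

namespace Fermat.Agent.S44.L.Alt.RhoSeries

open Fermat.Agent.S30 Fermat.Agent.S30.Producer Fermat.Agent.S44.Contract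
open Fermat.Agent.S44.L.Top Fermat.Agent.S44.L.TopProof2 Fermat.Agent.S44.L
open Fermat.Agent.S44.L.Slope Fermat.Agent.S34.TwoPrimesGauss

local notation "Qb" => AlgebraicClosure ℚ

/-- **A series `p`-th root lies in the reduced field.**  From `f = Fx · G₀ ^ p` and
`Fx · r b = r a · T · H ^ p` (`a, b ∉ y`, `T ≠ 0` in `k`): `f = unit_y · T · h ^ p` with
`h = H · G₀ ∈ k`. -/
theorem exists_unitAt_of_series {p M : ℕ} [NeZero M] {A : ValuationSubring Qb} (hp : p.Prime)
    (hA : A.LiesOverPrime p) {f : redField M A} {C : Type*} [CommRing C]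
    (ρ : C →+* redField M A) (y : Ideal C) (hker : RingHom.ker ρ ≤ y)
    (Fx G₀ H : LaurentSeries (IsLocalRing.ResidueField A))
    (hfG : ((f : redField M A) : LaurentSeries (IsLocalRing.ResidueField A)) = Fx * G₀ ^ p)
    (a b : C) (ha : a ∉ y) (hb : b ∉ y) (T : redField M A) (hT : T ≠ 0)
    (h2 : Fx * ((ρ b : redField M A) : LaurentSeries (IsLocalRing.ResidueField A)) =
      ((ρ a : redField M A) : LaurentSeries (IsLocalRing.ResidueField A)) *
        ((T : redField M A) : LaurentSeries (IsLocalRing.ResidueField A)) * H ^ p) :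
    ∃ h : redField M A, Loc.UnitAt ρ y f (T * h ^ p) := by
  have ha0 : ρ a ≠ 0 := fun h0 => ha (hker h0)
  have hne : ((ρ a : redField M A) : LaurentSeries (IsLocalRing.ResidueField A)) *
      ((T : redField M A) : LaurentSeries (IsLocalRing.ResidueField A)) ≠ 0 := by
    intro h0
    exact mul_ne_zero ha0 hT (Subtype.ext h0)
  have key : (H * G₀) ^ p =
      ((f * ρ b * (ρ a * T)⁻¹ : redField M A) :
        LaurentSeries (IsLocalRing.ResidueField A)) := by
    show (H * G₀) ^ p = ((f : redField M A) : LaurentSeries (IsLocalRing.ResidueField A)) *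
      ((ρ b : redField M A) : LaurentSeries (IsLocalRing.ResidueField A)) *
      (((ρ a : redField M A) : LaurentSeries (IsLocalRing.ResidueField A)) *
        ((T : redField M A) : LaurentSeries (IsLocalRing.ResidueField A)))⁻¹
    rw [eq_mul_inv_iff_mul_eq₀ hne, hfG]
    calc (H * G₀) ^ p * (((ρ a : redField M A) : LaurentSeries (IsLocalRing.ResidueField A)) *
          ((T : redField M A) : LaurentSeries (IsLocalRing.ResidueField A)))
        = ((ρ a : redField M A) : LaurentSeries (IsLocalRing.ResidueField A)) *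
          ((T : redField M A) : LaurentSeries (IsLocalRing.ResidueField A)) * H ^ p * G₀ ^ p := by
          ring
      _ = Fx * ((ρ b : redField M A) : LaurentSeries (IsLocalRing.ResidueField A)) * G₀ ^ p := by
          rw [h2]
      _ = Fx * G₀ ^ p * ((ρ b : redField M A) : LaurentSeries (IsLocalRing.ResidueField A)) := by
          ring
  have hmem : H * G₀ ∈ redField M A :=
    Loc.mem_redField_of_pow_mem hp hA _ (by rw [key]; exact SetLike.coe_mem _)
  refine ⟨⟨H * G₀, hmem⟩, a, b, ha, hb, Subtype.ext ?_⟩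
  show ((f : redField M A) : LaurentSeries (IsLocalRing.ResidueField A)) *
      ((ρ b : redField M A) : LaurentSeries (IsLocalRing.ResidueField A)) =
    ((ρ a : redField M A) : LaurentSeries (IsLocalRing.ResidueField A)) *
      (((T : redField M A) : LaurentSeries (IsLocalRing.ResidueField A)) * (H * G₀) ^ p)
  rw [hfG]
  calc Fx * G₀ ^ p * ((ρ b : redField M A) : LaurentSeries (IsLocalRing.ResidueField A))
      = Fx * ((ρ b : redField M A) : LaurentSeries (IsLocalRing.ResidueField A)) * G₀ ^ p := by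
        ring
    _ = ((ρ a : redField M A) : LaurentSeries (IsLocalRing.ResidueField A)) *
        ((T : redField M A) : LaurentSeries (IsLocalRing.ResidueField A)) * H ^ p * G₀ ^ p := by
        rw [h2]
    _ = ((ρ a : redField M A) : LaurentSeries (IsLocalRing.ResidueField A)) *
        (((T : redField M A) : LaurentSeries (IsLocalRing.ResidueField A)) * (H * G₀) ^ p) := by
        ring

/-- The same with `T = 1`: `f = unit_y · h ^ p`. -/
theorem exists_unitAt_of_series_one {p M : ℕ} [NeZero M] {A : ValuationSubring Qb}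
    (hp : p.Prime) (hA : A.LiesOverPrime p) {f : redField M A} {C : Type*} [CommRing C]
    (ρ : C →+* redField M A) (y : Ideal C) (hker : RingHom.ker ρ ≤ y)
    (Fx G₀ H : LaurentSeries (IsLocalRing.ResidueField A))
    (hfG : ((f : redField M A) : LaurentSeries (IsLocalRing.ResidueField A)) = Fx * G₀ ^ p)
    (a b : C) (ha : a ∉ y) (hb : b ∉ y)
    (h2 : Fx * ((ρ b : redField M A) : LaurentSeries (IsLocalRing.ResidueField A)) =
      ((ρ a : redField M A) : LaurentSeries (IsLocalRing.ResidueField A)) * H ^ p) :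
    ∃ h : redField M A, Loc.UnitAt ρ y f (h ^ p) := by
  obtain ⟨h, hu⟩ := exists_unitAt_of_series hp hA ρ y hker Fx G₀ H hfG a b ha hb 1 one_ne_zero
    (by
      show Fx * ((ρ b : redField M A) : LaurentSeries (IsLocalRing.ResidueField A)) =
        ((ρ a : redField M A) : LaurentSeries (IsLocalRing.ResidueField A)) * 1 * H ^ p
      rw [mul_one]
      exact h2)
  refine ⟨h, ?_⟩
  rwa [one_mul] at hu

/-- **`RhoForms` from series identities on the two chart rings.** -/
theorem rhoForms_of_series {p M : ℕ} [NeZero M] {A : ValuationSubring Qb} (hp : p.Prime)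
    (hA : A.LiesOverPrime p) {h4 : 4 ∣ M} {f Db : redField M A} (hDb0 : Db ≠ 0)
    {O L : Type} [CommRing O] [Field L] [Algebra O L] (u : L)
    (r r₂ : Chart O u →+* redField M A)
    {O' L' : Type} [CommRing O'] [Field L'] [Algebra O' L'] (u' : L')
    (r' : Chart O' u' →+* redField M A)
    (κ₀ : Subfield (redField M A))
    (hκ₀ : ∀ s ∈ κ₀, ∃ c : IsLocalRing.ResidueField A,
      ((s : redField M A) : LaurentSeries (IsLocalRing.ResidueField A)) = HahnSeries.C c)
    (hκr : ∀ s ∈ κ₀, ∃ c : Chart O u, r c = s ∧ r₂ c = s)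
    (hur : ∃ c : Chart O u, r c = CentreU4.ub M A h4)
    (hint : ∀ c : Chart O u, IsIntegral ↥(Algebra.adjoin κ₀ {CentreU4.ub M A h4}) (r c))
    (hκr' : ∀ s ∈ κ₀, ∃ c : Chart O' u', r' c = s)
    (hur' : ∃ c : Chart O' u', r' c = (CentreU4.ub M A h4)⁻¹)
    (hint' : ∀ c : Chart O' u',
      IsIntegral ↥(Algebra.adjoin κ₀ {(CentreU4.ub M A h4)⁻¹}) (r' c))
    (e₁ : redField M A) (he₁ : e₁ ∈ κ₀) (he₁0 : e₁ ≠ 0)
    (hconst : ∀ ρ : redField M A, (∃ e : IsLocalRing.ResidueField A,
        ((ρ : redField M A) : LaurentSeries (IsLocalRing.ResidueField A)) = HahnSeries.C e) →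
      ∀ c s : Chart O u, r s ≠ 0 → ρ * r s = r c → ρ ∈ κ₀)
    (t : Chart O u)
    (Fx Gx Fw Gw G₀ : LaurentSeries (IsLocalRing.ResidueField A)) (hFx : Fx ≠ 0) (hFw : Fw ≠ 0)
    (hfG : ((f : redField M A) : LaurentSeries (IsLocalRing.ResidueField A)) = Fx * G₀ ^ p)
    (hnode : ∀ y : Ideal (Chart O u), y.IsMaximal → RingHom.ker r ≤ y → RingHom.ker r₂ ≤ y →
      ∃ (j : ℤ) (a b c s : Chart O u) (H : LaurentSeries (IsLocalRing.ResidueField A)),
        a ∉ y ∧ b ∉ y ∧ s ∉ y ∧
        Gx * ((r s : redField M A) : LaurentSeries (IsLocalRing.ResidueField A)) =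
          Fx * ((r c : redField M A) : LaurentSeries (IsLocalRing.ResidueField A)) ∧
        Fx * ((r b : redField M A) : LaurentSeries (IsLocalRing.ResidueField A)) =
          ((r a : redField M A) : LaurentSeries (IsLocalRing.ResidueField A)) *
            ((r t : redField M A) : LaurentSeries (IsLocalRing.ResidueField A)) ^ j * H ^ p ∧
        Gw * ((r₂ s : redField M A) : LaurentSeries (IsLocalRing.ResidueField A)) =
          Fw * (((r₂ c : redField M A) : LaurentSeries (IsLocalRing.ResidueField A)) +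
            j • (((e₁ : redField M A) : LaurentSeries (IsLocalRing.ResidueField A)) *
              ((r₂ s : redField M A) : LaurentSeries (IsLocalRing.ResidueField A)))))
    (hsmooth : ∀ y : Ideal (Chart O u), y.IsMaximal → RingHom.ker r ≤ y →
      ¬ RingHom.ker r₂ ≤ y →
      ∃ (a b c s : Chart O u) (H : LaurentSeries (IsLocalRing.ResidueField A)),
        a ∉ y ∧ b ∉ y ∧ s ∉ y ∧
        Gx * ((r s : redField M A) : LaurentSeries (IsLocalRing.ResidueField A)) =
          Fx * ((r c : redField M A) : LaurentSeries (IsLocalRing.ResidueField A)) ∧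
        Fx * ((r b : redField M A) : LaurentSeries (IsLocalRing.ResidueField A)) =
          ((r a : redField M A) : LaurentSeries (IsLocalRing.ResidueField A)) * H ^ p)
    (hregw : ∀ y : Ideal (Chart O u), y.IsMaximal → RingHom.ker r ≤ y →
      ∃ c s : Chart O u, s ∉ y ∧
        Gw * ((r s : redField M A) : LaurentSeries (IsLocalRing.ResidueField A)) =
          Fw * ((r c : redField M A) : LaurentSeries (IsLocalRing.ResidueField A)))
    (hinf : ∀ y : Ideal (Chart O' u'), y.IsMaximal → RingHom.ker r' ≤ y →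
      (∀ c : Chart O' u', r' c = (CentreU4.ub M A h4)⁻¹ → c ∈ y) →
      ∃ (a b c s : Chart O' u') (H : LaurentSeries (IsLocalRing.ResidueField A)),
        a ∉ y ∧ b ∉ y ∧ s ∉ y ∧
        Gx * ((r' s : redField M A) : LaurentSeries (IsLocalRing.ResidueField A)) =
          Fx * ((r' c : redField M A) : LaurentSeries (IsLocalRing.ResidueField A)) ∧
        Fx * ((r' b : redField M A) : LaurentSeries (IsLocalRing.ResidueField A)) =
          ((r' a : redField M A) : LaurentSeries (IsLocalRing.ResidueField A)) * H ^ p)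
    (hinfw : ∀ y : Ideal (Chart O' u'), y.IsMaximal → RingHom.ker r' ≤ y →
      (∀ c : Chart O' u', r' c = (CentreU4.ub M A h4)⁻¹ → c ∈ y) →
      ∃ c s : Chart O' u', s ∉ y ∧
        Gw * ((r' s : redField M A) : LaurentSeries (IsLocalRing.ResidueField A)) =
          Fw * ((r' c : redField M A) : LaurentSeries (IsLocalRing.ResidueField A)))
    (hcusp : ∀ y : Ideal (Chart O u), y.IsMaximal → RingHom.ker r ≤ y →
      ((∀ c : Chart O u, r c = CentreU4.ub M A h4 → c ∈ y) ∨
        (∀ c : Chart O u, r c = CentreU4.ub M A h4 + 16 → c ∈ y)) →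
      ¬ RingHom.ker r₂ ≤ y)
    (hDnode : ∀ y : Ideal (Chart O u), y.IsMaximal → RingHom.ker r ≤ y → RingHom.ker r₂ ≤ y →
      (∀ c : Chart O u, r c = CentreU4.ub M A h4 → c ∉ y) →
      (∀ c : Chart O u, r c = CentreU4.ub M A h4 + 16 → c ∉ y) →
      ∃ h' : redField M A, Loc.UnitAt r y Db (r t ^ (12 : ℤ) * h' ^ p))
    (hDsmooth : ∀ y : Ideal (Chart O u), y.IsMaximal → RingHom.ker r ≤ y →
      ¬ RingHom.ker r₂ ≤ y →
      (∀ c : Chart O u, r c = CentreU4.ub M A h4 → c ∉ y) →
      (∀ c : Chart O u, r c = CentreU4.ub M A h4 + 16 → c ∉ y) →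
      ∃ h' : redField M A, Loc.UnitAt r y Db (h' ^ p)) :
    Rho.RhoForms p M A h4 f Db := by
  classical
  -- a closed point of the finite chart
  obtain ⟨y₀, hy₀max, hy₀⟩ := Ideal.exists_le_maximal _ (RingHom.ker_ne_top r)
  -- `ρ₂`
  obtain ⟨c₂, s₂, hs₂, hw₂⟩ := hregw y₀ hy₀max hy₀
  have hs₂0 : r s₂ ≠ 0 := fun h0 => hs₂ (hy₀ h0)
  -- `ρ₁`
  have hx₁ : ∃ c s : Chart O u, s ∉ y₀ ∧
      Gx * ((r s : redField M A) : LaurentSeries (IsLocalRing.ResidueField A)) =
        Fx * ((r c : redField M A) : LaurentSeries (IsLocalRing.ResidueField A)) := by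
    by_cases hk : RingHom.ker r₂ ≤ y₀
    · obtain ⟨j, a, b, c, s, H, -, -, hs, h1, -, -⟩ := hnode y₀ hy₀max hy₀ hk
      exact ⟨c, s, hs, h1⟩
    · obtain ⟨a, b, c, s, H, -, -, hs, h1, -⟩ := hsmooth y₀ hy₀max hy₀ hk
      exact ⟨c, s, hs, h1⟩
  obtain ⟨c₁, s₁, hs₁, hw₁⟩ := hx₁
  have hs₁0 : r s₁ ≠ 0 := fun h0 => hs₁ (hy₀ h0)
  have hs₁' : ((r s₁ : redField M A) : LaurentSeries (IsLocalRing.ResidueField A)) ≠ 0 :=
    fun h0 => hs₁0 (Subtype.ext h0)
  have hs₂' : ((r s₂ : redField M A) : LaurentSeries (IsLocalRing.ResidueField A)) ≠ 0 :=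
    fun h0 => hs₂0 (Subtype.ext h0)
  -- the series identities `Gx = Fx * ρ₁`, `Gw = Fw * ρ₂`
  have hGx : Gx = Fx * ((r c₁ * (r s₁)⁻¹ : redField M A) :
      LaurentSeries (IsLocalRing.ResidueField A)) := by
    show Gx = Fx * (((r c₁ : redField M A) : LaurentSeries (IsLocalRing.ResidueField A)) *
      ((r s₁ : redField M A) : LaurentSeries (IsLocalRing.ResidueField A))⁻¹)
    rw [← mul_assoc, ← hw₁, mul_assoc, mul_inv_cancel₀ hs₁', mul_one]
  have hGw : Gw = Fw * ((r c₂ * (r s₂)⁻¹ : redField M A) :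
      LaurentSeries (IsLocalRing.ResidueField A)) := by
    show Gw = Fw * (((r c₂ : redField M A) : LaurentSeries (IsLocalRing.ResidueField A)) *
      ((r s₂ : redField M A) : LaurentSeries (IsLocalRing.ResidueField A))⁻¹)
    rw [← mul_assoc, ← hw₂, mul_assoc, mul_inv_cancel₀ hs₂', mul_one]
  have keyx : ∀ X Y : LaurentSeries (IsLocalRing.ResidueField A), Gx * X = Fx * Y →
      ((r c₁ * (r s₁)⁻¹ : redField M A) : LaurentSeries (IsLocalRing.ResidueField A)) * X = Y :=
    fun X Y h => mul_left_cancel₀ hFx (by rw [← mul_assoc, ← hGx]; exact h)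
  have keyw : ∀ X Y : LaurentSeries (IsLocalRing.ResidueField A), Gw * X = Fw * Y →
      ((r c₂ * (r s₂)⁻¹ : redField M A) : LaurentSeries (IsLocalRing.ResidueField A)) * X = Y :=
    fun X Y h => mul_left_cancel₀ hFw (by rw [← mul_assoc, ← hGw]; exact h)
  refine ⟨κ₀, Chart O u, inferInstance, r, r₂, Chart O' u', inferInstance, r',
    r c₁ * (r s₁)⁻¹, r c₂ * (r s₂)⁻¹, e₁, hκ₀, hκr, hur, hint, hκr', hur', hint', he₁, he₁0,
    ?_, ?_, ?_, ?_, ?_, ?_, ?_, ?_, ?_⟩
  · -- `ρ₁` constant ⟹ `ρ₁ ∈ κ₀`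
    intro hρ
    exact hconst _ hρ c₁ s₁ hs₁0 (inv_mul_cancel_right₀ hs₁0 (r c₁))
  · -- `ρ₂` constant ⟹ `ρ₂ ∈ κ₀`
    intro hρ
    exact hconst _ hρ c₂ s₂ hs₂0 (inv_mul_cancel_right₀ hs₂0 (r c₂))
  · -- (REG) `ρ₁`, finite chart
    intro y hmax hker
    by_cases hk : RingHom.ker r₂ ≤ y
    · obtain ⟨j, a, b, c, s, H, -, -, hs, h1, -, -⟩ := hnode y hmax hker hk
      exact ⟨c, s, hs, Subtype.ext (keyx _ _ h1)⟩
    · obtain ⟨a, b, c, s, H, -, -, hs, h1, -⟩ := hsmooth y hmax hker hk
      exact ⟨c, s, hs, Subtype.ext (keyx _ _ h1)⟩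
  · -- (REG) `ρ₂`, finite chart
    intro y hmax hker
    obtain ⟨c, s, hs, h1⟩ := hregw y hmax hker
    exact ⟨c, s, hs, Subtype.ext (keyw _ _ h1)⟩
  · -- (REG) `ρ₁`, chart at infinity
    intro y hmax hker hc
    obtain ⟨a, b, c, s, H, -, -, hs, h1, -⟩ := hinf y hmax hker hc
    exact ⟨c, s, hs, Subtype.ext (keyx _ _ h1)⟩
  · -- (REG) `ρ₂`, chart at infinity
    intro y hmax hker hc
    obtain ⟨c, s, hs, h1⟩ := hinfw y hmax hker hc
    exact ⟨c, s, hs, Subtype.ext (keyw _ _ h1)⟩
  · -- (FIN)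
    intro y hmax hker hU hU16
    by_cases hk : RingHom.ker r₂ ≤ y
    · right
      obtain ⟨j, a, b, c, s, H, ha, hb, hs, h1, h2, h3⟩ := hnode y hmax hker hk
      obtain ⟨h', hD⟩ := hDnode y hmax hker hk hU hU16
      have hτ : r t ≠ 0 := by
        intro h0
        obtain ⟨a', b', ha', hb', hD'⟩ := hD
        rw [h0, zero_zpow _ (by norm_num), zero_mul, mul_zero] at hD'
        rcases mul_eq_zero.mp hD' with h | h
        · exact hDb0 h
        · exact hb' (hker h)
      obtain ⟨h, hu⟩ := exists_unitAt_of_series hp hA r y hker Fx G₀ H hfG a b ha hb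
        (r t ^ j) (zpow_ne_zero j hτ) h2
      exact ⟨hk, r t, h, h', j, c, s, hτ, hs, Subtype.ext (keyx _ _ h1),
        Subtype.ext (keyw _ _ h3), hu, hD⟩
    · left
      obtain ⟨a, b, c, s, H, ha, hb, hs, h1, h2⟩ := hsmooth y hmax hker hk
      obtain ⟨h', hD⟩ := hDsmooth y hmax hker hk hU hU16
      obtain ⟨h, hu⟩ := exists_unitAt_of_series_one hp hA r y hker Fx G₀ H hfG a b ha hb h2
      exact ⟨h, h', hu, hD⟩
  · -- (CUSP)
    intro y hmax hker hc
    have hk := hcusp y hmax hker hc
    obtain ⟨a, b, c, s, H, ha, hb, hs, h1, h2⟩ := hsmooth y hmax hker hk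
    exact exists_unitAt_of_series_one hp hA r y hker Fx G₀ H hfG a b ha hb h2
  · -- (INF)
    intro y hmax hker hc
    obtain ⟨a, b, c, s, H, ha, hb, hs, h1, h2⟩ := hinf y hmax hker hc
    exact exists_unitAt_of_series_one hp hA r' y hker Fx G₀ H hfG a b ha hb h2

end Fermat.Agent.S44.L.Alt.RhoSeries
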