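import Mathlib
import Fermat.Agent.S44.L.Alt.RhoSeries
import Fermat.Agent.S44.L.Alt.RhoBridge
import Fermat.Agent.S44.L.Alt.DescHoriz
import Fermat.Agent.S44.L.Alt.RedPow
import Fermat.Agent.S44.L.KummerInst
import Fermat.Agent.S44.L.HRedU4
import Fermat.Agent.S44.L.CentreChartZero
import Fermat.Agent.S44.L.NodeC1InstCusp
import Fermat.Agent.S36.StableBase
import Fermat.Agent.S36.HorizAdapter

/-!
# PROGRAM MR (S44), strand L, cover-free ALT route for (L.SLOPE): the `E`-level rows below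
# `Alt.Rho.SlopeRhoEisWStatement` and the `E`-level assembly

Statement-level file (helper61, SLOPE chain owner) with a compiled assembly.

Notation: `p = P.p`, `M = 4 N'`, `K` a number field fixed by the inertia group of `A` containing a
primitive `M`-th root of unity and the `c`, `w` of `IsEis`; `Ks = CycloBase.cyclo K b = K ⊔ ℚ(b)`,
`O = OE A K`, `Os = OE A Ks`, `φ = CycloBase.inclOE A h : O → Os`; charts of level `M p` over `O`:
`CU = Chart O (α u₄)` with `rI = redInf`, `rZ = redZero` (the terms of `NodeC1Inst.node_u4_OE`),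
`t₂ = U - V ^ p`, and `CS = Chart O (α u₄⁻¹)` with `rS = redInf` (the term of
`CentreChartU4.coe_rInf4Inf`).

* `XForms … x` : (rows NODE-ALT / SMOOTH-ALT, literal of `Alt/NodeAltU4`, `Alt/NodeAltS4` at the
  `OE` instance) for `x ∈ LE (M p) Ks`: under the horizontal hypothesis on the finite chart, the
  forms (N a), (N b), (N c) at every closed point on both components and (S a), (S b) at every
  closed point on the `∞`-component only; under the horizontal hypothesis on the chart at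
  infinity, (S a), (S b) at the closed points over `u₄ = ∞`.
* `XFormsStatement` : in the Eisenstein situation there are a uniformiser `ϖs` of `Os`, a
  first-order derivation `D` and a constant `a₁ ∈ O` with nonzero residue such that `XForms`
  (with `e₁ = residue (φ a₁)`) holds for every `x ≠ 0`.
* `DForms … D̄`, `DFormsStatement` : (row EIS-at-centres) `D̄ = unit_y` at the non-cuspidal
  smooth points and `D̄ = unit_y · (r t₂) ^ 12` at the nodes of the finite chart.
* `RedLinkStatement` : (row RedLink) `f = red(fs) · G ^ p`, `G` a series.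
* `rhoForms_of_forms` : the assembly at a fixed context (`Alt/RhoSeries.rhoForms_of_series`).
* `slopeRhoEisWStatement_of_rows :
    XFormsStatement → DFormsStatement → RedLinkStatement → Rho.SlopeRhoEisWStatement`.
-/

set_option autoImplicit false
set_option linter.unusedSectionVars false
set_option linter.unusedVariables false
set_option linter.style.haveILetI false
set_option synthInstance.maxHeartbeats 400000
set_option maxHeartbeats 1000000

open WeierstrassCurve WeierstrassCurve.Affine WeierstrassCurve.Affine.Point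
open HahnSeries ModularCurve AlgebraicCurve Polynomial

noncomputable section

namespace Fermat.Agent.S44.L.Alt.BricksE

open Fermat.Agent.S30 Fermat.Agent.S30.Producer Fermat.Agent.S30.E4 Fermat.Agent.S44.Contract
open Fermat.Agent.S44.L.Top Fermat.Agent.S44.L
open Fermat.Agent.S34 Fermat.Agent.S34.TwoPrimesGauss Fermat.Agent.S30.Model
open Fermat.Agent.S18.K1Defs Fermat.Agent.S18.K1Main Fermat.Agent.S18.K1Top
open Fermat.Agent.S34.TwoPrimesRank Fermat.Agent.S34.HauptU.Plug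
open Fermat.Agent.S36.Haupt4 Fermat.Agent.S36.LevelQInstAlt
open Fermat.Agent.S36 Fermat.Agent.S36.HorizAdapter
open Fermat.Agent.S44.L.RedTransfer Fermat.Agent.S44.L.CentreChart
open Fermat.Agent.S44.L.CentreChartU4 Fermat.Agent.S44.L.CentreChartZero
open Fermat.Agent.S44.L.FirstOrder Fermat.Agent.S44.L.Alt.NodeAltCore
open Fermat.Agent.S44.L.Slope

local notation "GQb" => (AlgebraicClosure ℚ ≃ₐ[ℚ] AlgebraicClosure ℚ)

/-! ### Transport `κ_s((q)) → κ_A((q))` on an abstract chart -/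

section Transport

variable (M : ℕ) [NeZero M] (A : ValuationSubring Qb) (K : IntermediateField ℚ Qb)
  [IsDiscreteValuationRing (OE A K)] (Ks : IntermediateField ℚ Qb)
  [IsDiscreteValuationRing (OE A Ks)] (φ : OE A K →+* OE A Ks) [IsLocalHom φ]
  (hφ : ∀ a : OE A K, inclOA A Ks (φ a) = inclOA A K a)
  {C : Type*} [CommRing C] (r : C →+* redField M A)
  (rK : C → LaurentSeries (IsLocalRing.ResidueField (OE A K)))
  (hr : ∀ c : C, ((r c : redField M A) : LaurentSeries (IsLocalRing.ResidueField A))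
    = kmap A K (rK c))

include hφ hr in
/-- Transport of `X * rK s = Y * rK c`. -/
theorem tr_reg (X Y : LaurentSeries (IsLocalRing.ResidueField (OE A Ks))) (c s : C)
    (h : X * resL φ (rK s) = Y * resL φ (rK c)) :
    kmap A Ks X * ((r s : redField M A) : LaurentSeries (IsLocalRing.ResidueField A)) =
      kmap A Ks Y * ((r c : redField M A) : LaurentSeries (IsLocalRing.ResidueField A)) := by
  have h1 := congrArg (kmap A Ks) h
  rw [map_mul, map_mul, RhoBridge.kmap_resL A K Ks φ hφ, RhoBridge.kmap_resL A K Ks φ hφ,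
    ← hr, ← hr] at h1
  exact h1

include hφ hr in
/-- Transport of `X * rK b = rK a * rK t ^ j * hh ^ p`. -/
theorem tr_pow (X : LaurentSeries (IsLocalRing.ResidueField (OE A Ks))) (a b t : C) (j : ℤ)
    (hh : LaurentSeries (IsLocalRing.ResidueField (OE A Ks))) (p : ℕ)
    (h : X * resL φ (rK b) = resL φ (rK a) * resL φ (rK t) ^ j * hh ^ p) :
    kmap A Ks X * ((r b : redField M A) : LaurentSeries (IsLocalRing.ResidueField A)) =
      ((r a : redField M A) : LaurentSeries (IsLocalRing.ResidueField A)) *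
        ((r t : redField M A) : LaurentSeries (IsLocalRing.ResidueField A)) ^ j *
        (kmap A Ks hh) ^ p := by
  have h1 := congrArg (kmap A Ks) h
  rw [map_mul, map_mul, map_mul, map_zpow₀, map_pow, RhoBridge.kmap_resL A K Ks φ hφ,
    RhoBridge.kmap_resL A K Ks φ hφ, RhoBridge.kmap_resL A K Ks φ hφ, ← hr, ← hr, ← hr] at h1
  exact h1

include hφ hr in
/-- Transport of `X * rK b = rK a * hh ^ p`. -/
theorem tr_pow_one (X : LaurentSeries (IsLocalRing.ResidueField (OE A Ks))) (a b : C)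
    (hh : LaurentSeries (IsLocalRing.ResidueField (OE A Ks))) (p : ℕ)
    (h : X * resL φ (rK b) = resL φ (rK a) * hh ^ p) :
    kmap A Ks X * ((r b : redField M A) : LaurentSeries (IsLocalRing.ResidueField A)) =
      ((r a : redField M A) : LaurentSeries (IsLocalRing.ResidueField A)) *
        (kmap A Ks hh) ^ p := by
  have h1 := congrArg (kmap A Ks) h
  rw [map_mul, map_mul, map_pow, RhoBridge.kmap_resL A K Ks φ hφ,
    RhoBridge.kmap_resL A K Ks φ hφ, ← hr, ← hr] at h1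
  exact h1

include hφ hr in
/-- Transport of `X * rK s = Y * (rK c + j • (C e₁ * rK s))`. -/
theorem tr_node (X Y : LaurentSeries (IsLocalRing.ResidueField (OE A Ks)))
    (e₁ : IsLocalRing.ResidueField (OE A Ks)) (e₁' : redField M A)
    (he₁ : ((e₁' : redField M A) : LaurentSeries (IsLocalRing.ResidueField A))
      = HahnSeries.C (resMap A Ks e₁))
    (j : ℤ) (c s : C)
    (h : X * resL φ (rK s) = Y * (resL φ (rK c) + j • (HahnSeries.C e₁ * resL φ (rK s)))) :
    kmap A Ks X * ((r s : redField M A) : LaurentSeries (IsLocalRing.ResidueField A)) =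
      kmap A Ks Y * (((r c : redField M A) : LaurentSeries (IsLocalRing.ResidueField A)) +
        j • (((e₁' : redField M A) : LaurentSeries (IsLocalRing.ResidueField A)) *
          ((r s : redField M A) : LaurentSeries (IsLocalRing.ResidueField A)))) := by
  have h1 := congrArg (kmap A Ks) h
  have h2 : kmap A Ks (HahnSeries.C e₁) = HahnSeries.C (resMap A Ks e₁) :=
    Fermat.Agent.S18.Wiring.coeffMap_C _ _
  rw [map_mul, map_mul, map_add, map_zsmul, map_mul, RhoBridge.kmap_resL A K Ks φ hφ,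
    RhoBridge.kmap_resL A K Ks φ hφ, ← hr, ← hr, h2, ← he₁] at h1
  exact h1

end Transport

/-! ### The rows -/

section Forms

variable (A : ValuationSubring Qb) (M p : ℕ) [NeZero M] [NeZero p]
  (hp : p.Prime) (hodd : p ≠ 2) (hpM : ¬ p ∣ M) (h4 : 4 ∣ M)
  (K : IntermediateField ℚ Qb) [IsDiscreteValuationRing (OE A K)]
  (h2 : IsUnit (2 : OE A K)) (π : OE A K) (hπ : Irreducible π)
  (Ks : IntermediateField ℚ Qb) (h : K ≤ Ks) [IsDiscreteValuationRing (OE A Ks)]

local notation "CU" => Chart (OE A K) (alphaHom M p K (u4E M K h4))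
local notation "rI" => redInf π hπ (alphaHom M p K) (sigmaHom (M * p) K)
  (sigmaHom_algebraMap (M * p) K) (sigmaHom_mem_fracField (M * p) K A) (u4E M K h4)
  (u4 (OE A K)) (hσu_u4 M p K h4)
local notation "rZ" => redZero π hπ (alphaHom M p K) (sigmaHom (M * p) K)
  (sigmaHom_algebraMap (M * p) K) (sigmaHom_mem_fracField (M * p) K A) (u4E M K h4)
  (u4 (OE A K)) (hσu_u4 M p K h4)
  (wHom M p K hp hpM) (wHom_algebraMap M p K hp hpM) p (sigmaHom_wHom_alpha M p K hp hpM)
local notation "uC" => incl (alphaHom M p K) (alphaHom_algebraMap M p K) (u4E M K h4)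
  (polyChart (u4E M K h4) Polynomial.X)
local notation "vC" => Fermat.Agent.S34.Modular.ChartZero.wChart (alphaHom M p K) (u4E M K h4)
  (wHom M p K hp hpM) (wHom_algebraMap M p K hp hpM) (wHom_wHom M p K hp hpM)
  (hwu_u4 M p K h2 hp hodd hpM h4)
  (incl (alphaHom M p K) (alphaHom_algebraMap M p K) (u4E M K h4)
    (polyChart (u4E M K h4) Polynomial.X))
local notation "CS" => Chart (OE A K) (alphaHom M p K (u4E M K h4)⁻¹)
local notation "rS" => redInf π hπ (alphaHom M p K) (sigmaHom (M * p) K)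
  (sigmaHom_algebraMap (M * p) K) (sigmaHom_mem_fracField (M * p) K A) (u4E M K h4)⁻¹
  (HauptU.E.posO (OE A K) Fermat.Agent.S36.SqChart.Coord4.s4Z)
  (Fermat.Agent.S36.SqChart.Coord4.hσ1u_s4 M K p h4)
local notation "tS" => incl (alphaHom M p K) (alphaHom_algebraMap M p K) (u4E M K h4)⁻¹
  (polyChart (u4E M K h4)⁻¹ Polynomial.X)

/-- **The forms (N a b c) / (S a b) of `x ∈ LE (M p) Ks`** at the closed points of the two
charts of level `M p` over `O = OE A K` (literal of `Alt/NodeAltU4.node_alt_u4`,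
`smooth_alt_inf_u4` and `Alt/NodeAltS4.smooth_alt_inf_s4` at the `OE` instance). -/
def XForms (ϖs : OE A Ks) (D : OE A Ks → IsLocalRing.ResidueField (OE A Ks))
    (hD : IsFirstOrder (IsLocalRing.residue (OE A Ks)) ϖs D)
    (e₁ : IsLocalRing.ResidueField (OE A Ks)) (x : LE (M * p) Ks) : Prop :=
  letI := algebraOL (OE A K) K (LE M K)
  letI := algebraOL (OE A K) K (LE (M * p) K)
  haveI := isScalarTower_OL (OE A K) K (LE M K)
  haveI := isScalarTower_OL (OE A K) K (LE (M * p) K)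
  letI := algebraOL (OE A Ks) Ks (LE (M * p) Ks)
  (Horiz ϖs p (alphaHom M p Ks (u4E M Ks h4)) x →
    ∀ y : Ideal CU, y.IsMaximal → RingHom.ker rI ≤ y →
      (RingHom.ker rZ ≤ y →
        ∃ (j : ℤ) (a b c s : CU), a ∉ y ∧ b ∉ y ∧ s ∉ y ∧
          (∃ (v : GaussDVR.V (OE A Ks) Ks) (N : ℤ)
              (hh : LaurentSeries (IsLocalRing.ResidueField (OE A Ks))),
            GaussDVR.red (OE A Ks) Ks v ≠ 0 ∧
            sigmaHom (M * p) Ks x =
              ((GaussDVR.unif Ks ϖs : GaussDVR.V (OE A Ks) Ks) : LaurentSeries Ks) ^ N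
                * (v : LaurentSeries Ks) ∧
            dV (OE A Ks) Ks hD v * resL (CycloBase.inclOE A h) (rI s)
              = GaussDVR.red (OE A Ks) Ks v * resL (CycloBase.inclOE A h) (rI c) ∧
            GaussDVR.red (OE A Ks) Ks v * resL (CycloBase.inclOE A h) (rI b)
              = resL (CycloBase.inclOE A h) (rI a)
                * resL (CycloBase.inclOE A h) (rI (uC - vC ^ p)) ^ j * hh ^ p) ∧
          (∃ (v' : GaussDVR.V (OE A Ks) Ks) (N' : ℤ),
            GaussDVR.red (OE A Ks) Ks v' ≠ 0 ∧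
            sigmaHom (M * p) Ks (wHom M p Ks hp hpM x) =
              ((GaussDVR.unif Ks ϖs : GaussDVR.V (OE A Ks) Ks) : LaurentSeries Ks) ^ N'
                * (v' : LaurentSeries Ks) ∧
            dV (OE A Ks) Ks hD v' * resL (CycloBase.inclOE A h) (rZ s)
              = GaussDVR.red (OE A Ks) Ks v' * (resL (CycloBase.inclOE A h) (rZ c)
                + j • (HahnSeries.C e₁ * resL (CycloBase.inclOE A h) (rZ s))))) ∧
      (¬ RingHom.ker rZ ≤ y →
        ∃ (a b c s : CU), a ∉ y ∧ b ∉ y ∧ s ∉ y ∧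
          ∃ (v : GaussDVR.V (OE A Ks) Ks) (N : ℤ)
            (hh : LaurentSeries (IsLocalRing.ResidueField (OE A Ks))),
            GaussDVR.red (OE A Ks) Ks v ≠ 0 ∧
            sigmaHom (M * p) Ks x =
              ((GaussDVR.unif Ks ϖs : GaussDVR.V (OE A Ks) Ks) : LaurentSeries Ks) ^ N
                * (v : LaurentSeries Ks) ∧
            dV (OE A Ks) Ks hD v * resL (CycloBase.inclOE A h) (rI s)
              = GaussDVR.red (OE A Ks) Ks v * resL (CycloBase.inclOE A h) (rI c) ∧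
            GaussDVR.red (OE A Ks) Ks v * resL (CycloBase.inclOE A h) (rI b)
              = resL (CycloBase.inclOE A h) (rI a) * hh ^ p)) ∧
  (Horiz ϖs p (alphaHom M p Ks (u4E M Ks h4))⁻¹ x →
    ∀ y : Ideal CS, y.IsMaximal → RingHom.ker rS ≤ y → tS ∈ y →
      ∃ (a b c s : CS), a ∉ y ∧ b ∉ y ∧ s ∉ y ∧
        ∃ (v : GaussDVR.V (OE A Ks) Ks) (N : ℤ)
          (hh : LaurentSeries (IsLocalRing.ResidueField (OE A Ks))),
          GaussDVR.red (OE A Ks) Ks v ≠ 0 ∧
          sigmaHom (M * p) Ks x =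
            ((GaussDVR.unif Ks ϖs : GaussDVR.V (OE A Ks) Ks) : LaurentSeries Ks) ^ N
              * (v : LaurentSeries Ks) ∧
          dV (OE A Ks) Ks hD v * resL (CycloBase.inclOE A h) (rS s)
            = GaussDVR.red (OE A Ks) Ks v * resL (CycloBase.inclOE A h) (rS c) ∧
          GaussDVR.red (OE A Ks) Ks v * resL (CycloBase.inclOE A h) (rS b)
            = resL (CycloBase.inclOE A h) (rS a) * hh ^ p)

/-- **The forms of `D̄`** at the non-cuspidal closed points of the finite chart: a unit at the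
smooth points, a unit times `(r t₂) ^ 12` at the nodes. -/
def DForms [Fact p.Prime] (hA : A.LiesOverPrime p) (hred : HRed M p A K)
    (Db : redField M A) : Prop :=
  letI := algebraOL (OE A K) K (LE M K)
  letI := algebraOL (OE A K) K (LE (M * p) K)
  haveI := isScalarTower_OL (OE A K) K (LE M K)
  haveI := isScalarTower_OL (OE A K) K (LE (M * p) K)
  ∀ y : Ideal CU, y.IsMaximal → RingHom.ker (rInf4 M p A K hA hred π hπ h4) ≤ y →
    (∀ c : CU, rInf4 M p A K hA hred π hπ h4 c = CentreU4.ub M A h4 → c ∉ y) →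
    (∀ c : CU, rInf4 M p A K hA hred π hπ h4 c = CentreU4.ub M A h4 + 16 → c ∉ y) →
    (¬ RingHom.ker rZ ≤ y → Loc.UnitAt (rInf4 M p A K hA hred π hπ h4) y Db (1 ^ p)) ∧
    (RingHom.ker rZ ≤ y →
      Loc.UnitAt (rInf4 M p A K hA hred π hπ h4) y Db
        (rInf4 M p A K hA hred π hπ h4 (uC - vC ^ p) ^ (12 : ℤ) * 1 ^ p))

/-! ### The assembly at a fixed context -/

/-- **`RhoForms` from the rows at a fixed context**: `K` unramified with its two charts,
`Ks ⊇ K` with uniformiser `ϖs` and first-order derivation `D`, `x ∈ LE (M p) Ks` with the four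
horizontal hypotheses, the forms of `x` and of `w x`, the forms of `D̄` and the RedLink for `x`. -/
theorem rhoForms_of_forms [Fact p.Prime] (hA : A.LiesOverPrime p) [FiniteDimensional ℚ K]
    (z : Qb) (hz : IsPrimitiveRoot z M) (hzK : z ∈ K) (hred : HRed M p A K)
    (ϖs : OE A Ks) (hϖs : Irreducible ϖs)
    (D : OE A Ks → IsLocalRing.ResidueField (OE A Ks))
    (hD : IsFirstOrder (IsLocalRing.residue (OE A Ks)) ϖs D)
    (a₁ : OE A K) (ha₁ : IsLocalRing.residue (OE A Ks) (CycloBase.inclOE A h a₁) ≠ 0)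
    (x : LE (M * p) Ks) (hx : x ≠ 0)
    (hX : XForms A M p hp hodd hpM h4 K h2 π hπ Ks h ϖs D hD
      (IsLocalRing.residue (OE A Ks) (CycloBase.inclOE A h a₁)) x)
    (hW : XForms A M p hp hodd hpM h4 K h2 π hπ Ks h ϖs D hD
      (IsLocalRing.residue (OE A Ks) (CycloBase.inclOE A h a₁)) (wHom M p Ks hp hpM x))
    (hH : letI := algebraOL (OE A Ks) Ks (LE (M * p) Ks)
      Horiz ϖs p (alphaHom M p Ks (u4E M Ks h4)) x ∧
      Horiz ϖs p (alphaHom M p Ks (u4E M Ks h4))⁻¹ x ∧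
      Horiz ϖs p (alphaHom M p Ks (u4E M Ks h4)) (wHom M p Ks hp hpM x) ∧
      Horiz ϖs p (alphaHom M p Ks (u4E M Ks h4))⁻¹ (wHom M p Ks hp hpM x))
    (f Db : redField M A) (hDb0 : Db ≠ 0)
    (hDF : DForms A M p hp hodd hpM h4 K h2 π hπ hA hred Db)
    (hRL : ∀ (v : GaussDVR.V (OE A Ks) Ks) (n : ℤ), GaussDVR.red (OE A Ks) Ks v ≠ 0 →
      sigmaHom (M * p) Ks x =
        ((GaussDVR.unif Ks ϖs : GaussDVR.V (OE A Ks) Ks) : LaurentSeries Ks) ^ n
          * (v : LaurentSeries Ks) →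
      ∃ G : LaurentSeries (IsLocalRing.ResidueField A), G ≠ 0 ∧
        ((f : redField M A) : LaurentSeries (IsLocalRing.ResidueField A))
          = kmap A Ks (GaussDVR.red (OE A Ks) Ks v) * G ^ p) :
    Rho.RhoForms p M A h4 f Db := by
  classical
  letI := algebraOL (OE A K) K (LE M K)
  letI := algebraOL (OE A K) K (LE (M * p) K)
  haveI := isScalarTower_OL (OE A K) K (LE M K)
  haveI := isScalarTower_OL (OE A K) K (LE (M * p) K)
  letI := algebraOL (OE A Ks) Ks (LE (M * p) Ks)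
  have hφ : ∀ a : OE A K, inclOA A Ks (CycloBase.inclOE A h a) = inclOA A K a := fun a => rfl
  -- the forms
  obtain ⟨hXfin, hXinf⟩ := hX
  obtain ⟨hWfin, hWinf⟩ := hW
  obtain ⟨hH1, hH2, hH3, hH4⟩ := hH
  have hXf := hXfin hH1
  have hXi := hXinf hH2
  have hWf := hWfin hH3
  have hWi := hWinf hH4
  -- the two Gauss decompositions
  have hx' : wHom M p Ks hp hpM x ≠ 0 := fun h0 =>
    hx ((wHom M p Ks hp hpM).injective (h0.trans (_root_.map_zero _).symm))
  obtain ⟨N₁, v₁, hv₁, hσ₁⟩ := RedPow.exists_zpow_mul Ks ϖs hϖs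
    (sigmaHom_mem_fracField (M * p) Ks A x)
    (fun h0 => hx ((sigmaHom (M * p) Ks).injective (h0.trans (_root_.map_zero _).symm)))
  obtain ⟨N₂, v₂, hv₂, hσ₂⟩ := RedPow.exists_zpow_mul Ks ϖs hϖs
    (sigmaHom_mem_fracField (M * p) Ks A (wHom M p Ks hp hpM x))
    (fun h0 => hx' ((sigmaHom (M * p) Ks).injective (h0.trans (_root_.map_zero _).symm)))
  obtain ⟨G₀, hG₀, hfG⟩ := hRL v₁ N₁ hv₁ hσ₁
  obtain ⟨e₁', he₁'mem, he₁'coe, he₁'ne⟩ :=
    RhoBridge.exists_const_elem M A K Ks (CycloBase.inclOE A h) hφ a₁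
  have hFx : kmap A Ks (GaussDVR.red (OE A Ks) Ks v₁) ≠ 0 := fun h0 =>
    hv₁ (kmap_injective A Ks (h0.trans (_root_.map_zero _).symm))
  have hFw : kmap A Ks (GaussDVR.red (OE A Ks) Ks v₂) ≠ 0 := fun h0 =>
    hv₂ (kmap_injective A Ks (h0.trans (_root_.map_zero _).symm))
  -- the chart reductions
  have hrI := coe_rInf4 M p A K hA hred π hπ h4
  have hrZ := coe_rZero4 M p A K hA hred π hπ h4 hp hpM
  have hrS := coe_rInf4Inf M p A K hA hred π hπ h4
  have hkI := ker_rInf4 M p A K hA hred π hπ h4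
  have hkZ := ker_rZero4 M p A K hA hred π hπ h4 hp hpM
  have hkS := ker_rInf4Inf M p A K hA hred π hπ h4
  have huC : rInf4 M p A K hA hred π hπ h4 uC = CentreU4.ub M A h4 :=
    Subtype.ext (rInf4_uC M p A K hA hred π hπ h4)
  have htS : rInf4Inf M p A K hA hred π hπ h4 tS = (CentreU4.ub M A h4)⁻¹ :=
    Subtype.ext (rInf4Inf_tC M p A K hA hred π hπ h4)
  refine RhoSeries.rhoForms_of_series hp hA hDb0 (alphaHom M p K (u4E M K h4))
    (rInf4 M p A K hA hred π hπ h4) (rZero4 M p A K hA hred π hπ h4 hp hpM)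
    (alphaHom M p K (u4E M K h4)⁻¹) (rInf4Inf M p A K hA hred π hπ h4)
    (constSub M A K)
    (fun s hs => by
      obtain ⟨x, hx⟩ := constSub_le M A K s hs
      exact ⟨_, hx⟩)
    (hκr4_both M p A K hA hred π hπ h4 hp hpM _ (constSub_le M A K))
    (hur4 M p A K hA hred π hπ h4 _ (CentreU4.coe_ub M A h4))
    (hint4 M p A K hA hred π hπ h4 _ (le_constSub M A K) _ (CentreU4.coe_ub M A h4))
    (hκr4Inf M p A K hA hred π hπ h4 _ (constSub_le M A K))
    (hur4Inf M p A K hA hred π hπ h4 _ (CentreU4.coe_ub M A h4))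
    (hint4Inf M p A K hA hred π hπ h4 _ (le_constSub M A K) _ (CentreU4.coe_ub M A h4))
    e₁' he₁'mem (he₁'ne ha₁) ?_ (uC - vC ^ p)
    (kmap A Ks (GaussDVR.red (OE A Ks) Ks v₁)) (kmap A Ks (dV (OE A Ks) Ks hD v₁))
    (kmap A Ks (GaussDVR.red (OE A Ks) Ks v₂)) (kmap A Ks (dV (OE A Ks) Ks hD v₂))
    G₀ hFx hFw hfG ?_ ?_ ?_ ?_ ?_ ?_ ?_ ?_
  · -- (CONST)
    rintro ρ ⟨e, he⟩ c s hs hcs
    exact RhoBridge.mem_constSub_of_frac M A K (rInf4 M p A K hA hred π hπ h4)
      (fun c => rI c) hrI ρ e he c s hs hcs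
  · -- nodes
    intro y hmax hker hk
    have hq2 := (hXf y hmax (hkI.ge.trans hker)).1 (hkZ.ge.trans hk)
    obtain ⟨j, a, b, c, s, ha, hb, hs, ⟨v, N, hh, hv, hσ, e1, e2⟩, ⟨v', N', hv', hσ', e3⟩⟩ := hq2
    have hq3 := RedPow.zpow_mul_inj Ks ϖs hϖs hv₁ hv (hσ₁.symm.trans hσ)
    obtain ⟨-, rfl⟩ := hq3
    have hq4 := RedPow.zpow_mul_inj Ks ϖs hϖs hv₂ hv' (hσ₂.symm.trans hσ')
    obtain ⟨-, rfl⟩ := hq4
    exact ⟨j, a, b, c, s, kmap A Ks hh, ha, hb, hs,
      tr_reg M A K Ks (CycloBase.inclOE A h) hφ (rInf4 M p A K hA hred π hπ h4)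
        (fun c => rI c) hrI _ _ c s e1,
      tr_pow M A K Ks (CycloBase.inclOE A h) hφ (rInf4 M p A K hA hred π hπ h4)
        (fun c => rI c) hrI _ a b (uC - vC ^ p) j hh p e2,
      tr_node M A K Ks (CycloBase.inclOE A h) hφ (rZero4 M p A K hA hred π hπ h4 hp hpM)
        (fun c => rZ c) hrZ _ _ _ e₁' he₁'coe j c s e3⟩
  · -- smooth points of the finite chart
    intro y hmax hker hk
    have hq5 := (hXf y hmax (hkI.ge.trans hker)).2 (fun h' => hk (hkZ.le.trans h'))
    obtain ⟨a, b, c, s, ha, hb, hs, v, N, hh, hv, hσ, e1, e2⟩ := hq5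
    have hq6 := RedPow.zpow_mul_inj Ks ϖs hϖs hv₁ hv (hσ₁.symm.trans hσ)
    obtain ⟨-, rfl⟩ := hq6
    exact ⟨a, b, c, s, kmap A Ks hh, ha, hb, hs,
      tr_reg M A K Ks (CycloBase.inclOE A h) hφ (rInf4 M p A K hA hred π hπ h4)
        (fun c => rI c) hrI _ _ c s e1,
      tr_pow_one M A K Ks (CycloBase.inclOE A h) hφ (rInf4 M p A K hA hred π hπ h4)
        (fun c => rI c) hrI _ a b hh p e2⟩
  · -- (REG) for `w x`, finite chart
    intro y hmax hker
    by_cases hk : RingHom.ker rZ ≤ y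
    · have hq13 := (hWf y hmax (hkI.ge.trans hker)).1 hk
      obtain ⟨j, a, b, c, s, ha, hb, hs, ⟨v, N, hh, hv, hσ, e1, e2⟩, -⟩ := hq13
      have hq7 := RedPow.zpow_mul_inj Ks ϖs hϖs hv₂ hv (hσ₂.symm.trans hσ)
      obtain ⟨-, rfl⟩ := hq7
      exact ⟨c, s, hs, tr_reg M A K Ks (CycloBase.inclOE A h) hφ
        (rInf4 M p A K hA hred π hπ h4) (fun c => rI c) hrI _ _ c s e1⟩
    · have hq14 := (hWf y hmax (hkI.ge.trans hker)).2 hk
      obtain ⟨a, b, c, s, ha, hb, hs, v, N, hh, hv, hσ, e1, e2⟩ := hq14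
      have hq8 := RedPow.zpow_mul_inj Ks ϖs hϖs hv₂ hv (hσ₂.symm.trans hσ)
      obtain ⟨-, rfl⟩ := hq8
      exact ⟨c, s, hs, tr_reg M A K Ks (CycloBase.inclOE A h) hφ
        (rInf4 M p A K hA hred π hπ h4) (fun c => rI c) hrI _ _ c s e1⟩
  · -- the chart at infinity, `x`
    intro y hmax hker hc
    have hq9 := hXi y hmax (hkS.ge.trans hker) (hc _ htS)
    obtain ⟨a, b, c, s, ha, hb, hs, v, N, hh, hv, hσ, e1, e2⟩ := hq9
    have hq10 := RedPow.zpow_mul_inj Ks ϖs hϖs hv₁ hv (hσ₁.symm.trans hσ)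
    obtain ⟨-, rfl⟩ := hq10
    exact ⟨a, b, c, s, kmap A Ks hh, ha, hb, hs,
      tr_reg M A K Ks (CycloBase.inclOE A h) hφ (rInf4Inf M p A K hA hred π hπ h4)
        (fun c => rS c) hrS _ _ c s e1,
      tr_pow_one M A K Ks (CycloBase.inclOE A h) hφ (rInf4Inf M p A K hA hred π hπ h4)
        (fun c => rS c) hrS _ a b hh p e2⟩
  · -- the chart at infinity, `w x`
    intro y hmax hker hc
    have hq11 := hWi y hmax (hkS.ge.trans hker) (hc _ htS)
    obtain ⟨a, b, c, s, ha, hb, hs, v, N, hh, hv, hσ, e1, e2⟩ := hq11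
    have hq12 := RedPow.zpow_mul_inj Ks ϖs hϖs hv₂ hv (hσ₂.symm.trans hσ)
    obtain ⟨-, rfl⟩ := hq12
    exact ⟨c, s, hs, tr_reg M A K Ks (CycloBase.inclOE A h) hφ
      (rInf4Inf M p A K hA hred π hπ h4) (fun c => rS c) hrS _ _ c s e1⟩
  · -- the finite cusps are not nodes
    intro y hmax hker hc hk
    have hcc : uC ∈ y ∨ uC + 16 ∈ y :=
      hc.imp (fun h' => h' _ huC) (fun h' => h' _ (by rw [map_add, huC, map_ofNat]))
    exact (Fermat.Agent.S44.L.NodeC1InstCusp.cusp_inf_u4_OE A M p hp hodd hpM h4 hA K z hz hzK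
      h2 π hπ y hmax (hkI.ge.trans hker) hcc).1 (hkZ.ge.trans hk)
  · -- `D̄` at the nodes
    intro y hmax hker hk hU hU16
    exact ⟨1, (hDF y hmax hker hU hU16).2 (hkZ.ge.trans hk)⟩
  · -- `D̄` at the smooth points
    intro y hmax hker hk hU hU16
    exact ⟨1, (hDF y hmax hker hU hU16).1 (fun h' => hk (hkZ.le.trans h'))⟩

end Forms

/-- **(FE.1, NODE-ALT / SMOOTH-ALT at the `OE` instance.)**  In the Eisenstein situation
(`K` a number field fixed by inertia, `c, w ∈ K` units, `(b / c) ^ p = 1 + p w`,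
`|b / c - 1| ^ p = |p|`), with `Ks = K(b)`: a uniformiser `ϖs` of `Os`, a first-order derivation
`D` and a constant `a₁ ∈ O` with nonzero residue such that `XForms` (at `π = p`,
`e₁ = residue (φ a₁)`) holds for every nonzero `x ∈ LE (M p) Ks`. -/
def XFormsStatement : Prop :=
  ∀ (A : ValuationSubring Qb) (M p : ℕ) [NeZero M] [NeZero p] (hp : p.Prime) (hodd : p ≠ 2)
    (hpM : ¬ p ∣ M) (h4 : 4 ∣ M) (hA : A.LiesOverPrime p)
    (K : IntermediateField ℚ Qb) [FiniteDimensional ℚ K] [IsDiscreteValuationRing (OE A K)]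
    (hK : A.inertiaSubgroupIn ℚ ≤ K.fixingSubgroup)
    (z : Qb) (hz : IsPrimitiveRoot z M) (hzK : z ∈ K) (h2 : IsUnit (2 : OE A K))
    (hπ : Irreducible ((p : ℕ) : OE A K))
    (b c w : Qb) (hcK : c ∈ K) (hc : A.valuation c = 1) (hwK : w ∈ K) (hw : A.valuation w = 1)
    (hbc : (b / c) ^ p = 1 + (p : Qb) * w)
    (hval : A.valuation (b / c - 1) ^ p = A.valuation (p : Qb))
    [IsDiscreteValuationRing (OE A (CycloBase.cyclo K b))],
    ∃ (ϖs : OE A (CycloBase.cyclo K b))
      (D : OE A (CycloBase.cyclo K b) → IsLocalRing.ResidueField (OE A (CycloBase.cyclo K b)))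
      (hD : IsFirstOrder (IsLocalRing.residue (OE A (CycloBase.cyclo K b))) ϖs D)
      (a₁ : OE A K),
      Irreducible ϖs ∧
      IsLocalRing.residue (OE A (CycloBase.cyclo K b))
        (CycloBase.inclOE A (CycloBase.le_cyclo K b) a₁) ≠ 0 ∧
      ∀ x : LE (M * p) (CycloBase.cyclo K b), x ≠ 0 →
        XForms A M p hp hodd hpM h4 K h2 ((p : ℕ) : OE A K) hπ (CycloBase.cyclo K b)
          (CycloBase.le_cyclo K b) ϖs D hD
          (IsLocalRing.residue (OE A (CycloBase.cyclo K b))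
            (CycloBase.inclOE A (CycloBase.le_cyclo K b) a₁)) x

/-- **(FE.3, EIS at the centres.)**  The forms of `D̄ = Δ̄ (Δ̄ ^ p)⁻¹` on the finite chart over an
unramified base. -/
def DFormsStatement : Prop :=
  ∀ (A : ValuationSubring Qb) (M p : ℕ) [NeZero M] [NeZero p] (hp : p.Prime) (hodd : p ≠ 2)
    (hpM : ¬ p ∣ M) (h4 : 4 ∣ M) (hA : A.LiesOverPrime p)
    (K : IntermediateField ℚ Qb) [FiniteDimensional ℚ K] [IsDiscreteValuationRing (OE A K)]
    (z : Qb) (hz : IsPrimitiveRoot z M) (hzK : z ∈ K) (h2 : IsUnit (2 : OE A K))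
    (π : OE A K) (hπ : Irreducible π) (e : OE A K) (he : IsUnit e)
    (hpe : ((p : ℕ) : OE A K) = π * e) [Fact p.Prime] (hred : HRed M p A K) (h3 : 3 < p)
    (Db : redField M A),
    ((Db : redField M A) : LaurentSeries (IsLocalRing.ResidueField A))
      = EisFormal.deltaL (IsLocalRing.ResidueField A)
        * (EisFormal.deltaL (IsLocalRing.ResidueField A) ^ p)⁻¹ →
    DForms A M p hp hodd hpM h4 K h2 π hπ hA hred Db

/-- **(FE.2, RedLink.)**  If `x₀` of level `N` reduces to `f` and, at level `M p`, is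
`upF fs * hh ^ p` with `σ fs = ϖs ^ n * v`, `v` a Gauss unit over `Os`, then `f` is the Gauss
reduction of `v` times a `p`-th power of a series. -/
def RedLinkStatement : Prop :=
  ∀ (p M N : ℕ) [NeZero M] [NeZero N] [NeZero p] (hp : p.Prime) (A : ValuationSubring Qb)
    (hA : A.LiesOverPrime p) (Ks : IntermediateField ℚ Qb)
    [IsDiscreteValuationRing (OE A Ks)] (ϖs : OE A Ks) (hϖs : Irreducible ϖs)
    (hN : N ∣ M * p) (x₀ : FN N) (fs : LE (M * p) Ks) (hh : Fb (M * p)) (hh0 : hh ≠ 0)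
    (hlvl : Fermat.Agent.S37.LevelPull.lvl hN x₀ = InvFun.upF (M * p) Ks fs * hh ^ p)
    (f : LaurentSeries (IsLocalRing.ResidueField A)) (hf : RedAt N A x₀ f)
    (v : GaussDVR.V (OE A Ks) Ks) (n : ℤ) (hv : GaussDVR.red (OE A Ks) Ks v ≠ 0)
    (hσ : sigmaHom (M * p) Ks fs =
      ((GaussDVR.unif Ks ϖs : GaussDVR.V (OE A Ks) Ks) : LaurentSeries Ks) ^ n
        * (v : LaurentSeries Ks)),
    ∃ G : LaurentSeries (IsLocalRing.ResidueField A), G ≠ 0 ∧
      f = kmap A Ks (GaussDVR.red (OE A Ks) Ks v) * G ^ p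

/-! ### The context and the assembly -/

/-- `DescHoriz.exists_desc_horiz` with `K ⊔ ℚ(b)` written `CycloBase.cyclo K b`. -/
theorem exists_desc_cyclo {P : FreyPackage} {N' : ℕ} [NeZero N'] [NeZero P.p]
    {W : WeierstrassCurve ℤ} {ι : (P.freyCurve⁄Qb).Point → FN (N' * P.p)}
    {A : ValuationSubring Qb} {R : (P.freyCurve⁄Qb).Point} {b : Qb}
    (hι : IsNewEmb P N' W ι) (hR : P.p • R = 0) (hfix : AltDescW.FixBy P A R b)
    (hA : A.LiesOverPrime P.p) {M : ℕ} [NeZero M] (hpM : ¬ P.p ∣ M) (h4 : 4 ∣ M)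
    (hM : N' * P.p ∣ M * P.p) (K₀ : IntermediateField ℚ Qb) [FiniteDimensional ℚ K₀]
    (hK₀ : ∀ τ ∈ A.inertiaSubgroupIn ℚ, ∀ x ∈ K₀, τ x = x) :
    ∃ (K : IntermediateField ℚ Qb) (fs : LE (M * P.p) (CycloBase.cyclo K b))
      (hh : Fb (M * P.p)),
      FiniteDimensional ℚ K ∧ K₀ ≤ K ∧ (∀ τ ∈ A.inertiaSubgroupIn ℚ, ∀ x ∈ K, τ x = x) ∧
      IsDiscreteValuationRing (OE A (CycloBase.cyclo K b)) ∧ fs ≠ 0 ∧ hh ≠ 0 ∧
      Fermat.Agent.S37.LevelPull.lvl hM (ι R)
        = InvFun.upF (M * P.p) (CycloBase.cyclo K b) fs * hh ^ P.p ∧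
      ∀ (_ : IsDiscreteValuationRing (OE A (CycloBase.cyclo K b)))
        (πs : OE A (CycloBase.cyclo K b)), Irreducible πs →
        letI := algebraOL (OE A (CycloBase.cyclo K b)) (CycloBase.cyclo K b)
          (LE (M * P.p) (CycloBase.cyclo K b))
        Horiz πs P.p (alphaHom M P.p (CycloBase.cyclo K b)
            (u4E M (CycloBase.cyclo K b) h4)) fs ∧
          Horiz πs P.p (alphaHom M P.p (CycloBase.cyclo K b)
            (u4E M (CycloBase.cyclo K b) h4))⁻¹ fs ∧
          Horiz πs P.p (alphaHom M P.p (CycloBase.cyclo K b)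
            (u4E M (CycloBase.cyclo K b) h4))
            (wHom M P.p (CycloBase.cyclo K b) P.pp hpM fs) ∧
          Horiz πs P.p (alphaHom M P.p (CycloBase.cyclo K b)
            (u4E M (CycloBase.cyclo K b) h4))⁻¹
            (wHom M P.p (CycloBase.cyclo K b) P.pp hpM fs) := by
  obtain ⟨K, fs, hh, hKfin, hK₀K, hKfix, hKsfin, hdvr, hfs, hhh, hfe, hdiv, hdivw, hhor⟩ :=
    DescHoriz.exists_desc_horiz hι hR hfix hA hpM h4 hM K₀ hK₀
  exact ⟨K, fs, hh, hKfin, hK₀K, hKfix, hdvr, hfs, hhh, hfe, hhor⟩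

/-- **`Rho.SlopeRhoEisWStatement` from the three `E`-level rows.** -/
theorem slopeRhoEisWStatement_of_rows (hX : XFormsStatement) (hDF : DFormsStatement)
    (hRL : RedLinkStatement) : Rho.SlopeRhoEisWStatement := by
  classical
  intro P N' M _ _ _ W h4 hM hpN' hsq A hA ι hι R b hR hfix heis f Db hf hDb
  obtain ⟨c, w, hcfix, hcval, hwfix, hwval, hbc, hval⟩ := heis
  have hp : P.p.Prime := P.pp
  have hp5 : 5 ≤ P.p := P.hp5
  have hodd : P.p ≠ 2 := by omega
  have h3 : 3 < P.p := by omega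
  have hpM : ¬ P.p ∣ M := by
    rw [hM]
    intro hdvd
    rcases (Nat.Prime.dvd_mul hp).mp hdvd with h' | h'
    · have := Nat.le_of_dvd (by norm_num) h'
      omega
    · exact hpN' h'
  haveI : Fact P.p.Prime := ⟨hp⟩
  -- a primitive `M`-th root of unity, fixed by inertia
  haveI : NeZero ((M : ℕ) : Qb) := ⟨Nat.cast_ne_zero.mpr (NeZero.ne M)⟩
  obtain ⟨z, hz⟩ := HasEnoughRootsOfUnity.exists_primitiveRoot Qb M
  have hzfix : ∀ τ ∈ A.inertiaSubgroupIn ℚ, τ z = z :=
    UnramBase.rootOfUnity_fixed A hp hA hpM hz.pow_eq_one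
  obtain ⟨K₀, hK₀fin, hK₀fix, -, hK₀S⟩ :=
    StableBase.exists_stable_field A ({z, c, w} : Finset Qb) (by
      intro s hs τ hτ
      simp only [Finset.mem_insert, Finset.mem_singleton] at hs
      rcases hs with rfl | rfl | rfl
      · exact hzfix τ hτ
      · exact hcfix τ hτ
      · exact hwfix τ hτ)
  haveI := hK₀fin
  have hMdvd : N' * P.p ∣ M * P.p := by
    rw [hM]
    exact ⟨4, by ring⟩
  -- DESC + Horiz
  obtain ⟨K, fs, hh, hKfin, hK₀K, hKfix, hdvrs, hfs0, hh0, hlvl, hhor⟩ :=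
    exists_desc_cyclo hι hR hfix hA hpM h4 hMdvd K₀ (fun τ hτ x hx => hK₀fix τ hτ x hx)
  haveI := hKfin
  have hzK : z ∈ K := hK₀K (hK₀S z (by simp))
  have hcK : c ∈ K := hK₀K (hK₀S c (by simp))
  have hwK : w ∈ K := hK₀K (hK₀S w (by simp))
  have hKle : A.inertiaSubgroupIn ℚ ≤ K.fixingSubgroup :=
    UnramBase.le_fixingSubgroup_of_forall _ K hKfix
  haveI : IsDiscreteValuationRing (OE A K) :=
    GaussDescent.isDiscreteValuationRing_OE A K hp hA
  haveI : IsDiscreteValuationRing (OE A (CycloBase.cyclo K b)) := hdvrs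
  have hπ : Irreducible ((P.p : ℕ) : OE A K) := UnramBase.irreducible_natCast_OE A K hp hA hKle
  have h2 : IsUnit (2 : OE A K) := by
    have h := Fermat.Agent.S18.K1Main.isUnit_natCast_OE A K hA 2
      ((Nat.coprime_primes Nat.prime_two hp).mpr (Ne.symm hodd))
    exact_mod_cast h
  have hred : HRed M P.p A K := HRedU4.hred_u4' A M P.p hp hodd hpM h4 hA K z hz hzK
  -- the rows
  obtain ⟨ϖs, D, hD, a₁, hϖs, ha₁, hXf⟩ :=
    hX A M P.p hp hodd hpM h4 hA K hKle z hz hzK h2 hπ b c w hcK hcval hwK hwval hbc hval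
  have hH := hhor hdvrs ϖs hϖs
  have hwfs0 : wHom M P.p (CycloBase.cyclo K b) hp hpM fs ≠ 0 := fun h0 =>
    hfs0 ((wHom M P.p (CycloBase.cyclo K b) hp hpM).injective
      (h0.trans (_root_.map_zero _).symm))
  have hDb0 : Db ≠ 0 := by
    intro h0
    have h1 : ((Db : redField M A) : LaurentSeries (IsLocalRing.ResidueField A)) = 0 := by
      rw [h0]
      rfl
    rw [hDb] at h1
    exact mul_ne_zero EisFormal.deltaL_ne_zero
      (inv_ne_zero (pow_ne_zero _ EisFormal.deltaL_ne_zero)) h1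
  exact rhoForms_of_forms A M P.p hp hodd hpM h4 K h2 ((P.p : ℕ) : OE A K) hπ
    (CycloBase.cyclo K b) (CycloBase.le_cyclo K b) hA z hz hzK hred ϖs hϖs D hD a₁ ha₁ fs hfs0
    (hXf fs hfs0) (hXf _ hwfs0) hH f Db hDb0
    (hDF A M P.p hp hodd hpM h4 hA K z hz hzK h2 ((P.p : ℕ) : OE A K) hπ 1 isUnit_one
      (mul_one _).symm hred h3 Db hDb)
    (fun v n hv hσ => hRL P.p M (N' * P.p) hp A hA (CycloBase.cyclo K b) ϖs hϖs hMdvd (ι R)
      fs hh hh0 hlvl _ hf v n hv hσ)

end Fermat.Agent.S44.L.Alt.BricksE
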