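import Mathlib
import Fermat.Agent.S44.L.RedTransfer
import Fermat.Agent.S44.L.TopLemmas
import Fermat.Agent.S44.L.NormRed
import Fermat.Agent.S36.InvFun
import Fermat.Agent.S36.CycloBase
import Fermat.Agent.S37.LevelPull
import Fermat.Agent.S34.HauptU.Plug
import Fermat.Agent.S44.L.Alt.NodeAltCore
import Fermat.Agent.S41.NonEis.Basics

/-!
# PROGRAM MR (S44), strand L, cover-free ALT route, row FE.2: the reduction bridge

The Props of the SLOPE chain give the function `f` of the reduced field only through the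
`ℚ̄`-level reduction `Top.RedAt (N' p) A (ι R) f`.  The `E`-level rows speak about the Gauss
reduction `GaussDVR.red (OE A E) E v` of the descended representative `f_*` over a number field
`E` (`σ f_* = unif ^ n · v`), in `κ_E((q))`.  This file links the two.

* `redAt_upF` : `x ∈ LE N E` with `σ x = unif ^ n · v`, `red v ≠ 0`:
  `RedAt N A (upF x) (kmap (red v))`.
* `redAt_lvl` : `RedAt` does not see the level.
* `eq_of_desc` : if `lvl x₀ = upF f_* · h ^ p` (DESC), `RedAt x₀ f`, `RedAt h g₀` and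
  `σ f_* = unif ^ n · v`, `red v ≠ 0`, then `f = C e · (kmap (red v) · g₀ ^ p)`, `e ≠ 0`.
* `redLink` : **FE.2** the same with the constant and the reduction of `h` absorbed:
  `∃ G ≠ 0, f = kmap (red v) · G ^ p` (`G` a series; no `RedStatement`).
* `kmap_coeffMap_map`, `kmap_resL` : **(k1)** `kmap_{E'} ∘ resL = kmap_E` for `E ≤ E'`.
-/

set_option autoImplicit false
set_option linter.unusedSectionVars false
set_option linter.style.haveILetI false

open ModularCurve HahnSeries

noncomputable section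

namespace Fermat.Agent.S44.L.Alt.RedBridge

open Fermat.Agent.S30 Fermat.Agent.S30.Producer
open Fermat.Agent.S18.K1Defs Fermat.Agent.S18.K1Top
open Fermat.Agent.S34.HauptU.Plug
open Fermat.Agent.S44.Contract Fermat.Agent.S44.L.Top Fermat.Agent.S44.L
open Fermat.Agent.S44.L.RedTransfer

local notation "Qb" => AlgebraicClosure ℚ

/-! ### The `ℚ̄`-level reduction of an `E`-level function -/

section B1

/-- The reduction of a Gauss-integral series of the function field with nonzero Gauss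
reduction. -/
theorem redAt_of_mem_V (N ℓ : ℕ) [NeZero N] [Fact ℓ.Prime] (A : ValuationSubring Qb)
    (hA : A.LiesOverPrime ℓ) (E : IntermediateField ℚ Qb) [IsDiscreteValuationRing (OE A E)]
    (z : LaurentSeries E) (hz : z ∈ GaussDVR.V (OE A E) E)
    (hzN : GaussDescent.up E z ∈ E4.Fb N)
    (hred : GaussDVR.red (OE A E) E ⟨z, hz⟩ ≠ 0) :
    RedAt N A (⟨GaussDescent.up E z, hzN⟩ : FN N)
      (kmap A E (GaussDVR.red (OE A E) E ⟨z, hz⟩)) := by
  obtain ⟨P, Q, -, -, hQr, h⟩ := exists_frac_of_mem_V A E N ℓ hA z hz hzN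
  have hk := kmap_red_mul A E z hz P Q h
  have hk0 : kmap A E (GaussDVR.red (OE A E) E ⟨z, hz⟩) ≠ 0 := fun h0 =>
    hred (kmap_injective A E (by rw [h0, map_zero]))
  have hPr : Congr.red A P ≠ 0 := by
    rw [← hk]
    exact mul_ne_zero hk0 hQr
  refine ⟨1, P, Q, one_ne_zero, hPr, hQr, ?_, hk⟩
  rw [map_one, one_mul]
  exact h

/-- The reduction of `x ∈ LE N E` with `σ x = unif ^ n · v`, `red v ≠ 0`. -/
theorem redAt_upF (N ℓ : ℕ) [NeZero N] [Fact ℓ.Prime] (A : ValuationSubring Qb)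
    (hA : A.LiesOverPrime ℓ) (E : IntermediateField ℚ Qb) [IsDiscreteValuationRing (OE A E)]
    (ϖ : OE A E) (hϖ : Irreducible ϖ) (x : LE N E)
    (v : GaussDVR.V (OE A E) E) (n : ℤ) (hv : GaussDVR.red (OE A E) E v ≠ 0)
    (hx : sigmaHom N E x
      = ((GaussDVR.unif E ϖ : GaussDVR.V (OE A E) E) : LaurentSeries E) ^ n
        * (v : LaurentSeries E)) :
    RedAt N A (Fermat.Agent.S36.InvFun.upF N E x)
      (kmap A E (GaussDVR.red (OE A E) E v)) := by
  -- the constant
  have hc0 : ((algebraMap (OE A E) E ϖ : E) : Qb) ≠ 0 := by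
    intro h0
    apply hϖ.ne_zero
    have h1 : (algebraMap (OE A E) E ϖ : E) = 0 := by
      apply Subtype.ext
      exact h0
    exact Subtype.ext h1
  set c₀ : Qb := ((algebraMap (OE A E) E ϖ : E) : Qb) with hc₀
  have hup_unif : GaussDescent.up E
      ((GaussDVR.unif E ϖ : GaussDVR.V (OE A E) E) : LaurentSeries E) = HahnSeries.C c₀ := by
    rw [GaussDVR.coe_unif]
    exact Fermat.Agent.S18.Wiring.coeffMap_C (algebraMap E Qb) _
  have hxup : ((Fermat.Agent.S36.InvFun.upF N E x : E4.Fb N) : LaurentSeries Qb)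
      = HahnSeries.C c₀ ^ n * GaussDescent.up E (v : LaurentSeries E) := by
    rw [Fermat.Agent.S36.InvFun.coe_upF]
    have h1 : (x : LaurentSeries E)
        = ((GaussDVR.unif E ϖ : GaussDVR.V (OE A E) E) : LaurentSeries E) ^ n
          * (v : LaurentSeries E) := hx
    rw [h1]
    show GaussDescent.up E _ = _
    rw [map_mul, map_zpow₀, hup_unif]
  have hCc : (HahnSeries.C c₀ : LaurentSeries Qb) ≠ 0 := HahnSeries.C_ne_zero hc0
  have hCmem : ∀ m : ℤ, (HahnSeries.C c₀ : LaurentSeries Qb) ^ m ∈ E4.Fb N := by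
    intro m
    rw [← map_zpow₀, Fermat.Agent.S18.Wiring.C_eq_algebraMap]
    exact (E4.Fb N).algebraMap_mem _
  have hzN : GaussDescent.up E (v : LaurentSeries E) ∈ E4.Fb N := by
    have h2 : GaussDescent.up E (v : LaurentSeries E)
        = HahnSeries.C c₀ ^ (-n)
          * ((Fermat.Agent.S36.InvFun.upF N E x : E4.Fb N) : LaurentSeries Qb) := by
      rw [hxup, ← mul_assoc, ← zpow_add₀ hCc, neg_add_cancel, zpow_zero, one_mul]
    rw [h2]
    exact (E4.Fb N).mul_mem (hCmem (-n)) (Fermat.Agent.S36.InvFun.upF N E x).2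
  have hR := redAt_of_mem_V N ℓ A hA E (v : LaurentSeries E) v.2 hzN hv
  have hcn : c₀ ^ n ≠ 0 := zpow_ne_zero n hc0
  have hR2 := TopLemmas.RedAt.const_mul hcn hR
  have heq : Fermat.Agent.S36.InvFun.upF N E x
      = algebraMap Qb (FN N) (c₀ ^ n)
        * (⟨GaussDescent.up E (v : LaurentSeries E), hzN⟩ : FN N) := by
    apply Subtype.ext
    rw [hxup]
    show _ = algebraMap Qb (LaurentSeries Qb) (c₀ ^ n) * GaussDescent.up E (v : LaurentSeries E)
    rw [← Fermat.Agent.S18.Wiring.C_eq_algebraMap, map_zpow₀]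
  rw [heq]
  exact hR2

end B1

/-! ### The reduction of `ι R` through the descended representative -/

/-- `RedAt` does not see the level. -/
theorem redAt_lvl {N₀ N : ℕ} [NeZero N₀] [NeZero N] (hN : N₀ ∣ N) {A : ValuationSubring Qb}
    {x₀ : FN N₀} {f : LaurentSeries (IsLocalRing.ResidueField A)} (hf : RedAt N₀ A x₀ f) :
    RedAt N A (Fermat.Agent.S37.LevelPull.lvl hN x₀) f := by
  obtain ⟨c, U, V, hc, hU, hV, hxe, hfe⟩ := hf
  refine ⟨c, U, V, hc, hU, hV, ?_, hfe⟩
  rw [Fermat.Agent.S37.LevelPull.coe_lvl]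
  exact hxe

/-- If the class of `x₀` at level `N` is represented by `f_* ∈ LE N E`
(`lvl x₀ = upF f_* · h ^ p`), `σ f_* = unif ^ n · v` with `red v ≠ 0`, then every reduction `f`
of `x₀` is `C e · (kmap (red v) · g₀ ^ p)` for every reduction `g₀` of `h`. -/
theorem eq_of_desc (N ℓ : ℕ) [NeZero N] [Fact ℓ.Prime] (A : ValuationSubring Qb)
    (hA : A.LiesOverPrime ℓ) (E : IntermediateField ℚ Qb) [IsDiscreteValuationRing (OE A E)]
    (ϖ : OE A E) (hϖ : Irreducible ϖ) {N₀ : ℕ} [NeZero N₀] (hN : N₀ ∣ N) (x₀ : FN N₀)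
    (f : LaurentSeries (IsLocalRing.ResidueField A)) (hf : RedAt N₀ A x₀ f)
    (fs : LE N E) (h : E4.Fb N) (p : ℕ)
    (hfe : Fermat.Agent.S37.LevelPull.lvl hN x₀ = Fermat.Agent.S36.InvFun.upF N E fs * h ^ p)
    (g₀ : LaurentSeries (IsLocalRing.ResidueField A)) (hg₀ : RedAt N A h g₀)
    (v : GaussDVR.V (OE A E) E) (n : ℤ) (hv : GaussDVR.red (OE A E) E v ≠ 0)
    (hx : sigmaHom N E fs
      = ((GaussDVR.unif E ϖ : GaussDVR.V (OE A E) E) : LaurentSeries E) ^ n
        * (v : LaurentSeries E)) :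
    ∃ e : IsLocalRing.ResidueField A, e ≠ 0 ∧
      f = HahnSeries.C e * (kmap A E (GaussDVR.red (OE A E) E v) * g₀ ^ p) := by
  have h1 : RedAt N A (Fermat.Agent.S36.InvFun.upF N E fs * h ^ p)
      (kmap A E (GaussDVR.red (OE A E) E v) * g₀ ^ p) :=
    TopLemmas.RedAt.mul (redAt_upF N ℓ A hA E ϖ hϖ fs v n hv hx) (TopLemmas.RedAt.pow hg₀ p)
  have h2 : RedAt N A (Fermat.Agent.S36.InvFun.upF N E fs * h ^ p) f := by
    have h3 := redAt_lvl hN hf
    rw [hfe] at h3
    exact h3
  exact TopLemmas.RedAt.unique h2 h1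

/-! ### (k1) Residue fields in a tower -/

/-- `kmap_{E'} ∘ resL = kmap_E` for `E ≤ E'` (`resL = coeffMap` of the map of residue fields
induced by `inclOE`). -/
theorem kmap_coeffMap_map (A : ValuationSubring Qb) {K Ks : IntermediateField ℚ Qb} (h : K ≤ Ks)
    (z : LaurentSeries (IsLocalRing.ResidueField (OE A K))) :
    kmap A Ks (coeffMap (IsLocalRing.ResidueField.map
      (Fermat.Agent.S36.CycloBase.inclOE A h)) z) = kmap A K z := by
  ext n
  show resMap A Ks (IsLocalRing.ResidueField.map (Fermat.Agent.S36.CycloBase.inclOE A h)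
    (z.coeff n)) = resMap A K (z.coeff n)
  obtain ⟨x, hx⟩ := IsLocalRing.residue_surjective (z.coeff n)
  rw [← hx, IsLocalRing.ResidueField.map_residue, resMap_residue, resMap_residue]
  rfl

/-- **(k1)** The same in the vocabulary of `NodeAltCore.resL` (for `φ = inclOE A h`). -/
theorem kmap_resL (A : ValuationSubring Qb) {K Ks : IntermediateField ℚ Qb} (h : K ≤ Ks)
    [IsDiscreteValuationRing (OE A K)] [IsDiscreteValuationRing (OE A Ks)]
    (X : LaurentSeries (IsLocalRing.ResidueField (OE A K))) :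
    RedTransfer.kmap A Ks
        (Fermat.Agent.S44.L.Alt.NodeAltCore.resL (Fermat.Agent.S36.CycloBase.inclOE A h) X)
      = RedTransfer.kmap A K X :=
  kmap_coeffMap_map A h X

/-! ### FE.2 -/

section Link

open Fermat.Agent.S30.E4 Fermat.Agent.S37.LevelPull

/-- A constant of `κ` is a `p`-th power of a constant. -/
theorem exists_C_pow_eq {p : ℕ} (hp : p.Prime) (A : ValuationSubring Qb)
    (e : IsLocalRing.ResidueField A) :
    ∃ e' : IsLocalRing.ResidueField A,
      (HahnSeries.C e' : LaurentSeries (IsLocalRing.ResidueField A)) ^ p = HahnSeries.C e := by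
  haveI : IsAlgClosed (IsLocalRing.ResidueField A) :=
    Fermat.Agent.S41.NonEis.Basics.isAlgClosed_residueField A
  obtain ⟨e', he'⟩ := IsAlgClosed.exists_pow_nat_eq e hp.pos
  exact ⟨e', by rw [← map_pow, he']⟩

/-- **FE.2 (RedLink).**  If the class of `x₀` at level `M p` is represented by `fs ∈ LE (M p) Ks`
(`lvl x₀ = upF fs · hh ^ p`) and `σ fs = unif ^ n · v` with `red v ≠ 0`, then every reduction `f`
of `x₀` is `kmap (red v) · G ^ p` for a nonzero series `G`. -/
theorem redLink {p M N : ℕ} [NeZero M] [NeZero N] [NeZero p] (hp : p.Prime)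
    (A : ValuationSubring Qb) (hA : A.LiesOverPrime p) (Ks : IntermediateField ℚ Qb)
    [IsDiscreteValuationRing (OE A Ks)] (ϖs : OE A Ks) (hϖs : Irreducible ϖs)
    (hN : N ∣ M * p) (x₀ : FN N) (fs : LE (M * p) Ks) (hh : Fb (M * p)) (hh0 : hh ≠ 0)
    (hlvl : lvl hN x₀ = Fermat.Agent.S36.InvFun.upF (M * p) Ks fs * hh ^ p)
    (f : LaurentSeries (IsLocalRing.ResidueField A)) (hf : Top.RedAt N A x₀ f)
    (v : GaussDVR.V (OE A Ks) Ks) (n : ℤ) (hv : GaussDVR.red (OE A Ks) Ks v ≠ 0)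
    (hσ : sigmaHom (M * p) Ks fs
      = ((GaussDVR.unif Ks ϖs : GaussDVR.V (OE A Ks) Ks) : LaurentSeries Ks) ^ n
        * (v : LaurentSeries Ks)) :
    ∃ G : LaurentSeries (IsLocalRing.ResidueField A), G ≠ 0 ∧
      f = RedTransfer.kmap A Ks (GaussDVR.red (OE A Ks) Ks v) * G ^ p := by
  haveI : Fact p.Prime := ⟨hp⟩
  obtain ⟨g₀, hg₀⟩ := NormRed.exists_redAt A (M * p) p hA hh hh0
  obtain ⟨e, he, hfe⟩ := eq_of_desc (M * p) p A hA Ks ϖs hϖs hN x₀ f hf fs hh p hlvl g₀ hg₀ v n
    hv hσ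
  obtain ⟨e', he'⟩ := exists_C_pow_eq hp A e
  have he'0 : (HahnSeries.C e' : LaurentSeries (IsLocalRing.ResidueField A)) ≠ 0 := by
    intro h0
    rw [h0, zero_pow hp.ne_zero] at he'
    exact he ((map_eq_zero_iff _ HahnSeries.C_injective).1 he'.symm)
  refine ⟨HahnSeries.C e' * g₀, mul_ne_zero he'0 (TopLemmas.RedAt.ne_zero hg₀), ?_⟩
  rw [hfe, mul_pow, he']
  ring

end Link

end Fermat.Agent.S44.L.Alt.RedBridge
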