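import Mathlib
import Fermat.Agent.S44.L.AltChartBC
import Fermat.Agent.S44.L.HordChartLoc
import Fermat.Agent.S36.HorizAdapter
import Fermat.Agent.S36.Haupt4.LevelQ

/-!
# S44 / L, cover-free ALT twin (row ALT.2): the `hord` binder of `NodeAlt` at `B = C_y`, E-level

`HordChartLoc.hord_chart_loc` at the modular objects, in the literal shape of the binder `hord`
of `NodeAlt.node_alt` / `NodeAlt.smooth_alt` (consumer: `NodeAltInst`, helper192 #7888):
`O = OE A K`, `Os = OE A K'`, `β = lvl N h`, `C = Chart O u`, `y` a prime of `C`,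
instance-generic in `[Algebra (Localization.AtPrime y) (LE N K')]` with the compatibility `hBβ`,
exponent `m`.

* `hord_lvl_loc` : generic chart coordinate `u` (`lvl u = us`), coordinates statement as a
  hypothesis (output shape of `AltChartBC.exists_coords_u4`);
* `hord_u4` : the coordinate `α u₄` of level `M q` (binder block of `AltChartBC.exists_coords_u4`
  plus the Eisenstein relation of `ϖs`), horizontal hypothesis `HorizAdapter.Horiz`;
* `hord_u4_divBy` : the horizontal hypothesis from `E4.DivBy (M q) m (upF x)`.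

ELABORATION NOTES for E-level consumers (measured, box 121-150).
(1) Over the concrete modular types, instance search for
`Algebra (Chart (OE A K) u) (Localization.AtPrime y)` does not terminate within 400000
heartbeats (`Subalgebra.toAlgebra` is tried before `OreLocalization.instAlgebra` and opens an
expensive dead branch).  The line `attribute [local instance 100000] OreLocalization.instAlgebra`
makes it immediate and yields the same instance term as in the level-free files.
(2) Never apply a lemma that is generic in a ring `B` with `[CommRing B]` at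
`B := Localization.AtPrime y` while its instance arguments are still pending: there are two paths
to `CommSemiring (Localization.AtPrime y)` over a subalgebra (`Subalgebra.toCommSemiring` /
`Subalgebra.toCommRing`), and the unifier, faced with `Ideal (Algebra.adjoin B _)` on both sides
and instance metavariables, unfolds `Algebra.adjoin` and does not terminate (also level-free).
Give the instances explicitly first (`@lemma … (Localization.AtPrime y) inferInstance …`), as in
`HordChartLoc.hord_chart_loc`.
-/

set_option autoImplicit false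
set_option linter.unusedSectionVars false
set_option linter.unusedVariables false
set_option linter.style.haveILetI false
set_option synthInstance.maxHeartbeats 400000
set_option maxHeartbeats 1000000

open ModularCurve Polynomial

noncomputable section

namespace Fermat.Agent.S44.L.Alt.HordInstLoc

open Fermat.Agent.S18.K1Defs Fermat.Agent.S18.K1Main Fermat.Agent.S30 Fermat.Agent.S30.Model
open Fermat.Agent.S34 Fermat.Agent.S34.TwoPrimesGauss Fermat.Agent.S34.TwoPrimesRank
open Fermat.Agent.S34.HauptU.Plug Fermat.Agent.S34.HauptU.LevelMAux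
open Fermat.Agent.S36.Haupt4 Fermat.Agent.S36.CycloBase
open Fermat.Agent.Lib.ChartBaseChange Fermat.Agent.S19.Cech.BCChart

local notation "Qb" => AlgebraicClosure ℚ

attribute [local instance 100000] OreLocalization.instAlgebra

/-! ### Generic chart coordinate -/

section Generic

variable (N : ℕ) (A : ValuationSubring Qb) {K K' : IntermediateField ℚ Qb} (h : K ≤ K')
  [IsDiscreteValuationRing (OE A K)] [IsDiscreteValuationRing (OE A K')]

/-- **The `hord` binder of `NodeAlt`**, generic chart coordinate `u` with `lvl u = us`. -/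
theorem hord_lvl_loc (u : LE N K) (us : LE N K') (hlu : lvl N h u = us)
    {r : ℕ} (b : Fin r → OE A K') (ϖs : OE A K') (hbpow : ∀ j, ∃ n : ℕ, b j = ϖs ^ n)
    (hcoords :
      letI := algebraOL (OE A K) K (LE N K)
      letI := algebraOL (OE A K') K' (LE N K')
      ∀ x : LE N K', IsIntegral (Algebra.adjoin (OE A K') ({us} : Set (LE N K'))) x →
        ∃ c : Fin r → LE N K,
          (∀ j, IsIntegral (Algebra.adjoin (OE A K) ({u} : Set (LE N K))) (c j)) ∧
          x = ∑ j, algebraMap (OE A K') (LE N K') (b j) * lvl N h (c j))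
    (ϖ : OE A K) (n : ℕ) (θ : (OE A K)[X]) (hθdeg : θ.natDegree < n)
    (hθ : ϖs ^ n = inclOE A h ϖ * θ.eval₂ (inclOE A h) ϖs) :
    letI := algebraOL (OE A K) K (LE N K)
    letI := algebraOL (OE A K') K' (LE N K')
    ∀ (y : Ideal (Chart (OE A K) u)) [y.IsPrime]
      [Algebra (Localization.AtPrime y) (LE N K')]
      (hBβ : ∀ c : Chart (OE A K) u,
        algebraMap (Localization.AtPrime y) (LE N K')
          (algebraMap (Chart (OE A K) u) (Localization.AtPrime y) c) = lvl N h (c : LE N K))
      (m : ℕ) (x : LE N K'),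
      Fermat.Agent.S36.HorizAdapter.Horiz ϖs m us x →
      ∀ Q : Ideal (Algebra.adjoin (Localization.AtPrime y)
        ({algebraMap (OE A K') (LE N K') ϖs} : Set (LE N K'))),
      Q.IsPrime →
      (⟨algebraMap (OE A K') (LE N K') ϖs, Algebra.self_mem_adjoin_singleton _ _⟩ :
        Algebra.adjoin (Localization.AtPrime y)
          ({algebraMap (OE A K') (LE N K') ϖs} : Set (LE N K'))) ∉ Q →
      ∃ (a b' : Algebra.adjoin (Localization.AtPrime y)
          ({algebraMap (OE A K') (LE N K') ϖs} : Set (LE N K'))) (τ : LE N K'),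
        a ∉ Q ∧ b' ∉ Q ∧
        algebraMap (Algebra.adjoin (Localization.AtPrime y)
            ({algebraMap (OE A K') (LE N K') ϖs} : Set (LE N K'))) (LE N K') b' * x
          = algebraMap (Algebra.adjoin (Localization.AtPrime y)
            ({algebraMap (OE A K') (LE N K') ϖs} : Set (LE N K'))) (LE N K') a * τ ^ m := by
  letI := algebraOL (OE A K) K (LE N K)
  letI := algebraOL (OE A K') K' (LE N K')
  intro y hy algB hBβ m x hH
  subst hlu
  exact @Fermat.Agent.S44.L.HordChartLoc.hord_chart_loc (OE A K) (OE A K') (LE N K) (LE N K')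
    _ _ _ _ _ _ (inclOE A h) (lvl N h) (fun a => lvl_algebraMap N h (a : K)) u r b ϖs hbpow
    hcoords ϖ n θ hθdeg hθ y hy algB hBβ m x hH

end Generic

/-! ### The coordinate `α u₄` -/

section U4

variable (M q : ℕ) [NeZero M] [NeZero q] (A : ValuationSubring Qb)

/-- **The `hord` binder of `NodeAlt.node_alt` / `NodeAlt.smooth_alt` for the chart of `α u₄`**,
from the horizontal hypothesis on the big chart. -/
theorem hord_u4 (hq : q.Prime) (hodd : q ≠ 2) (hqM : ¬ q ∣ M) (h4 : 4 ∣ M)
    (hA : A.LiesOverPrime q) {K K' : IntermediateField ℚ Qb} (h : K ≤ K')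
    [FiniteDimensional ℚ K] [IsDiscreteValuationRing (OE A K)]
    [IsDiscreteValuationRing (OE A K')]
    (z : Qb) (hz : IsPrimitiveRoot z M) (hzK : z ∈ K)
    (ϖ : OE A K) (hϖ : Irreducible ϖ) (e : OE A K) (he : IsUnit e)
    (hqe : ((q : ℕ) : OE A K) = ϖ * e)
    {r : ℕ} (b : Fin r → OE A K')
    (hspanO : ∀ a : OE A K', ∃ a' : Fin r → OE A K, a = ∑ j, inclOE A h (a' j) * b j)
    (hres : ∀ a : OE A K', ∃ a' : OE A K, ¬ IsUnit (a - inclOE A h a'))
    (hindL : ∀ c : Fin r → LaurentSeries K,
      ∑ j, algebraMap K' (LaurentSeries K') ((b j : OE A K') : K') *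
        coeffMap (IntermediateField.inclusion h : K →+* K') (c j) = 0 → ∀ j, c j = 0)
    (hspanL : ∀ x : LaurentSeries K', x ∈ LE (M * q) K' → ∃ c : Fin r → LaurentSeries K,
      (∀ j, c j ∈ LE (M * q) K) ∧ x = ∑ j, algebraMap K' (LaurentSeries K') ((b j : OE A K') : K') *
        coeffMap (IntermediateField.inclusion h : K →+* K') (c j))
    (ϖs : OE A K') (hbpow : ∀ j, ∃ n : ℕ, b j = ϖs ^ n)
    (n : ℕ) (θ : (OE A K)[X]) (hθdeg : θ.natDegree < n)
    (hθ : ϖs ^ n = inclOE A h ϖ * θ.eval₂ (inclOE A h) ϖs) :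
    letI := algebraOL (OE A K) K (LE (M * q) K)
    letI := algebraOL (OE A K') K' (LE (M * q) K')
    ∀ (y : Ideal (Chart (OE A K) (alphaHom M q K (u4E M K h4)))) [y.IsPrime]
      [Algebra (Localization.AtPrime y) (LE (M * q) K')]
      (hBβ : ∀ c : Chart (OE A K) (alphaHom M q K (u4E M K h4)),
        algebraMap (Localization.AtPrime y) (LE (M * q) K')
          (algebraMap (Chart (OE A K) (alphaHom M q K (u4E M K h4))) (Localization.AtPrime y) c)
          = lvl (M * q) h (c : LE (M * q) K))
      (m : ℕ) (x : LE (M * q) K'),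
      Fermat.Agent.S36.HorizAdapter.Horiz ϖs m (alphaHom M q K' (u4E M K' h4)) x →
      ∀ Q : Ideal (Algebra.adjoin (Localization.AtPrime y)
        ({algebraMap (OE A K') (LE (M * q) K') ϖs} : Set (LE (M * q) K'))),
      Q.IsPrime →
      (⟨algebraMap (OE A K') (LE (M * q) K') ϖs, Algebra.self_mem_adjoin_singleton _ _⟩ :
        Algebra.adjoin (Localization.AtPrime y)
          ({algebraMap (OE A K') (LE (M * q) K') ϖs} : Set (LE (M * q) K'))) ∉ Q →
      ∃ (a b' : Algebra.adjoin (Localization.AtPrime y)
          ({algebraMap (OE A K') (LE (M * q) K') ϖs} : Set (LE (M * q) K')))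
          (τ : LE (M * q) K'),
        a ∉ Q ∧ b' ∉ Q ∧
        algebraMap (Algebra.adjoin (Localization.AtPrime y)
            ({algebraMap (OE A K') (LE (M * q) K') ϖs} : Set (LE (M * q) K')))
            (LE (M * q) K') b' * x
          = algebraMap (Algebra.adjoin (Localization.AtPrime y)
            ({algebraMap (OE A K') (LE (M * q) K') ϖs} : Set (LE (M * q) K')))
            (LE (M * q) K') a * τ ^ m := by
  letI := algebraOL (OE A K) K (LE (M * q) K)
  letI := algebraOL (OE A K') K' (LE (M * q) K')
  intro y hy algB hBβ m x hH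
  exact @hord_lvl_loc (M * q) A K K' h _ _ (alphaHom M q K (u4E M K h4))
    (alphaHom M q K' (u4E M K' h4)) (Fermat.Agent.S44.L.AltChartBC.lvl_alpha_u4 M q h h4)
    r b ϖs hbpow
    (Fermat.Agent.S44.L.AltChartBC.exists_coords_u4 M q A hq hodd hqM h4 hA h z hz hzK ϖ hϖ e he
      hqe b hspanO hres hindL hspanL)
    ϖ n θ hθdeg hθ y hy algB hBβ m x hH

/-- **The `hord` binder of `NodeAlt` for the chart of `α u₄`**, from `m ∣ div x` over `Qb`. -/
theorem hord_u4_divBy (hq : q.Prime) (hodd : q ≠ 2) (hqM : ¬ q ∣ M) (h4 : 4 ∣ M)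
    (hA : A.LiesOverPrime q) {K K' : IntermediateField ℚ Qb} (h : K ≤ K')
    [FiniteDimensional ℚ K] [IsDiscreteValuationRing (OE A K)]
    [IsDiscreteValuationRing (OE A K')]
    (z : Qb) (hz : IsPrimitiveRoot z M) (hzK : z ∈ K)
    (ϖ : OE A K) (hϖ : Irreducible ϖ) (e : OE A K) (he : IsUnit e)
    (hqe : ((q : ℕ) : OE A K) = ϖ * e)
    {r : ℕ} (b : Fin r → OE A K')
    (hspanO : ∀ a : OE A K', ∃ a' : Fin r → OE A K, a = ∑ j, inclOE A h (a' j) * b j)
    (hres : ∀ a : OE A K', ∃ a' : OE A K, ¬ IsUnit (a - inclOE A h a'))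
    (hindL : ∀ c : Fin r → LaurentSeries K,
      ∑ j, algebraMap K' (LaurentSeries K') ((b j : OE A K') : K') *
        coeffMap (IntermediateField.inclusion h : K →+* K') (c j) = 0 → ∀ j, c j = 0)
    (hspanL : ∀ x : LaurentSeries K', x ∈ LE (M * q) K' → ∃ c : Fin r → LaurentSeries K,
      (∀ j, c j ∈ LE (M * q) K) ∧ x = ∑ j, algebraMap K' (LaurentSeries K') ((b j : OE A K') : K') *
        coeffMap (IntermediateField.inclusion h : K →+* K') (c j))
    (ϖs : OE A K') (hϖs : Irreducible ϖs) (hbpow : ∀ j, ∃ n : ℕ, b j = ϖs ^ n)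
    (n : ℕ) (θ : (OE A K)[X]) (hθdeg : θ.natDegree < n)
    (hθ : ϖs ^ n = inclOE A h ϖ * θ.eval₂ (inclOE A h) ϖs) :
    letI := algebraOL (OE A K) K (LE (M * q) K)
    letI := algebraOL (OE A K') K' (LE (M * q) K')
    ∀ (y : Ideal (Chart (OE A K) (alphaHom M q K (u4E M K h4)))) [y.IsPrime]
      [Algebra (Localization.AtPrime y) (LE (M * q) K')]
      (hBβ : ∀ c : Chart (OE A K) (alphaHom M q K (u4E M K h4)),
        algebraMap (Localization.AtPrime y) (LE (M * q) K')
          (algebraMap (Chart (OE A K) (alphaHom M q K (u4E M K h4))) (Localization.AtPrime y) c)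
          = lvl (M * q) h (c : LE (M * q) K))
      (m : ℕ) (x : LE (M * q) K'), x ≠ 0 →
      E4.DivBy (M * q) m (Fermat.Agent.S36.InvFun.upF (M * q) K' x) →
      ∀ Q : Ideal (Algebra.adjoin (Localization.AtPrime y)
        ({algebraMap (OE A K') (LE (M * q) K') ϖs} : Set (LE (M * q) K'))),
      Q.IsPrime →
      (⟨algebraMap (OE A K') (LE (M * q) K') ϖs, Algebra.self_mem_adjoin_singleton _ _⟩ :
        Algebra.adjoin (Localization.AtPrime y)
          ({algebraMap (OE A K') (LE (M * q) K') ϖs} : Set (LE (M * q) K'))) ∉ Q →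
      ∃ (a b' : Algebra.adjoin (Localization.AtPrime y)
          ({algebraMap (OE A K') (LE (M * q) K') ϖs} : Set (LE (M * q) K')))
          (τ : LE (M * q) K'),
        a ∉ Q ∧ b' ∉ Q ∧
        algebraMap (Algebra.adjoin (Localization.AtPrime y)
            ({algebraMap (OE A K') (LE (M * q) K') ϖs} : Set (LE (M * q) K')))
            (LE (M * q) K') b' * x
          = algebraMap (Algebra.adjoin (Localization.AtPrime y)
            ({algebraMap (OE A K') (LE (M * q) K') ϖs} : Set (LE (M * q) K')))
            (LE (M * q) K') a * τ ^ m := by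
  letI := algebraOL (OE A K) K (LE (M * q) K)
  letI := algebraOL (OE A K') K' (LE (M * q) K')
  haveI := isScalarTower_OL (OE A K') K' (LE (M * q) K')
  haveI := Fermat.Agent.S36.Haupt4.LevelQ.finiteDimensional_alpha_u4E M q K' h4
  intro y hy algB hBβ m x hx hdiv
  exact @hord_u4 M q _ _ A hq hodd hqM h4 hA K K' h _ _ _ z hz hzK ϖ hϖ e he hqe r b hspanO hres
    hindL hspanL ϖs hbpow n θ hθdeg hθ y hy algB hBβ m x
    (Fermat.Agent.S36.HorizAdapter.horiz_of_divBy (M * q) K' ϖs hϖs
      (alphaHom M q K' (u4E M K' h4))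
      (Fermat.Agent.S36.Haupt4.LevelQ.transcendental_alpha_u4E M q K' h4) m x hx hdiv)

end U4

end Fermat.Agent.S44.L.Alt.HordInstLoc
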