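import Mathlib
import Fermat.Agent.S34.TwoPrimesGauss
import Fermat.Agent.S44.L.NodeLoc
import Fermat.Agent.S44.L.NodeNF
import Fermat.Agent.S44.L.SmoothNF
import Fermat.Agent.S44.L.RhoGauss
import Fermat.Agent.S44.L.Alt.NodeAltCore

/-!
# PROGRAM MR (S44), strand L, cover-free ALT for SLOPE, row ALT.5: NODE-ALT and SMOOTH-ALT
# (chart-generic form, helper192)

Vocabulary: `S34/TwoPrimesGauss` `section Chart` (`Chart O u`, `piC`, `toV`, `redHom`; `redInf`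
is `redHom` at `σ`, `redZero` is `redHom` at `σ.comp w`, by definition), `S44/L/NodeLoc`
(`Localization.AtPrime y`), `S44/L/NodeNF`, `S44/L/SmoothNF`, `S44/L/FirstOrder` (`dV`),
`S44/L/RhoGauss` (`IsRho`), `S44/L/Alt/NodeAltCore` (`resL`).

Base: `O` a discrete valuation ring with uniformiser `ϖ`, `C = Chart O u ⊆ L`, two `q`-expansions
`σ₁`, `σ₂` of `L` with reductions `r₁`, `r₂` of `C`.  Extension: `φ : O → Os`, `ψ : E → Ks`,
`Os` a discrete valuation ring with uniformiser `ϖs` and a first-order derivation `D` killing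
`φ O`; `β : L → Ls`, `σs` a `q`-expansion of `Ls`, `ws` an endomorphism of `Ls`, with
`σs ∘ β = ψ ∘ σ₁`, `σs ∘ ws ∘ β = ψ ∘ σ₂`; `πs = algebraMap Os Ls ϖs` with the Eisenstein
equation `ϖs ^ p = φ ϖ * θ(ϖs)`, `θ ∈ O[X]`, `deg θ < p`, `θ(0)` a unit; `Ls = β(L)[πs]`.
`B = C_y`, `A = B[πs] ⊆ Ls`, `x ≠ 0` in `Ls` with the hypothesis `hord` of `NodeNF` (orders
divisible by `p` at the primes of `A` not containing `πs`; row ALT.2).

* `exists_node_fraction`, `exists_smooth_fraction` : the normal forms of `NodeNF` / `SmoothNF`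
  at `B = C_y`, `A = B[πs]`, with the units and coefficients written as fractions of `C`.
* `node_alt` : (N a), (N b), (N c) of ALT POST #2 at a node `y`.
* `smooth_alt` : (S a), (S b) at a smooth point `y` of the component of `σ₁`.
* `node_alt_isRho`, `smooth_alt_isRho` : the same with `RhoGauss.IsRho`.
-/

set_option autoImplicit false
set_option linter.unusedSectionVars false
set_option linter.unusedVariables false
set_option linter.style.haveILetI false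

open ModularCurve Polynomial

noncomputable section

namespace Fermat.Agent.S44.L.Alt.NodeAlt

open Fermat.Agent.S30 Fermat.Agent.S34 Fermat.Agent.S34.TwoPrimesGauss
open Fermat.Agent.S44.L.FirstOrder Fermat.Agent.S44.L.Alt.NodeAltCore

/-! ### Part 1: the algebra over `B = C_y` -/

section Alg

variable {C L Ls : Type*} [CommRing C] [IsDomain C] [Field L] [Algebra C L] [IsFractionRing C L]
  (y : Ideal C) [y.IsPrime] [Field Ls] (β : L →+* Ls) [Algebra (Localization.AtPrime y) Ls]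
  (hBβ : ∀ c : C, algebraMap (Localization.AtPrime y) Ls
    (algebraMap C (Localization.AtPrime y) c) = β (algebraMap C L c))
  (πs : Ls)

omit [IsDomain C] y [y.IsPrime] [Algebra (Localization.AtPrime y) Ls] in
theorem beta_ne_zero {c : C} (hc : c ≠ 0) : β (algebraMap C L c) ≠ 0 :=
  (map_ne_zero β).mpr ((map_ne_zero_iff _ (IsFractionRing.injective C L)).mpr hc)

include hBβ

theorem comp_eq :
    (algebraMap (Localization.AtPrime y) Ls).comp (algebraMap C (Localization.AtPrime y))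
      = β.comp (algebraMap C L) :=
  RingHom.ext hBβ

/-- Every element of `B = C_y` is a fraction `c / s`, `s ∉ y`; units have `c ∉ y`. -/
theorem exists_frac (b : Localization.AtPrime y) :
    ∃ c s : C, s ∉ y ∧
      algebraMap (Localization.AtPrime y) Ls b = β (algebraMap C L c) / β (algebraMap C L s) ∧
      (IsUnit b → c ∉ y) := by
  obtain ⟨⟨c, s⟩, hcs⟩ := IsLocalization.surj y.primeCompl b
  have hs : (s : C) ≠ 0 := fun h0 => s.2 (h0 ▸ y.zero_mem)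
  refine ⟨c, s, s.2, ?_, ?_⟩
  · have h1 := congrArg (algebraMap (Localization.AtPrime y) Ls) hcs
    rw [map_mul, hBβ, hBβ] at h1
    rw [eq_div_iff (beta_ne_zero β hs)]
    exact h1
  · intro hb
    have hu : IsUnit (algebraMap C (Localization.AtPrime y) c) := by
      rw [← hcs]
      exact hb.mul (Fermat.Agent.S44.L.NodeLoc.isUnit_algebraMap_of_notMem y s.2)
    exact (IsLocalization.AtPrime.isUnit_to_map_iff (Localization.AtPrime y) y c).mp hu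

theorem algebraMap_loc_injective :
    Function.Injective (algebraMap (Localization.AtPrime y) Ls) := by
  rw [injective_iff_map_eq_zero]
  intro b hb
  obtain ⟨⟨c, s⟩, hcs⟩ := IsLocalization.surj y.primeCompl b
  have h1 := congrArg (algebraMap (Localization.AtPrime y) Ls) hcs
  rw [map_mul, hb, zero_mul, hBβ] at h1
  have hc : c = 0 := by
    by_contra hc
    exact beta_ne_zero β hc h1.symm
  rw [hc, map_zero] at hcs
  have hs : (s : C) ≠ 0 := fun h0 => s.2 (h0 ▸ y.zero_mem)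
  have hs' : algebraMap C (Localization.AtPrime y) (s : C) ≠ 0 := fun h0 =>
    hs (Fermat.Agent.S44.L.NodeLoc.algebraMap_injective y (by rw [h0, map_zero]))
  exact (mul_eq_zero.mp hcs).resolve_right hs'

/-- `Ls = β(L)[πs]` is the fraction field of `A = B[πs]`. -/
theorem isFractionRing_adjoin (hspan : ∀ x : Ls, ∃ P : L[X], x = P.eval₂ β πs) :
    IsFractionRing (Algebra.adjoin (Localization.AtPrime y) ({πs} : Set Ls)) Ls := by
  haveI : FaithfulSMul (Algebra.adjoin (Localization.AtPrime y) ({πs} : Set Ls)) Ls :=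
    (faithfulSMul_iff_algebraMap_injective _ _).mpr Subtype.val_injective
  refine IsFractionRing.of_field _ _ (fun z => ?_)
  obtain ⟨P, hP⟩ := hspan z
  obtain ⟨b, hbM, hb⟩ := IsLocalization.integerNormalization_spec (nonZeroDivisors C) P
  have hb0 : b ≠ 0 := nonZeroDivisors.ne_zero hbM
  have h1 : β (algebraMap C L b) * z
      = (IsLocalization.integerNormalization (nonZeroDivisors C) P).eval₂
          (β.comp (algebraMap C L)) πs := by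
    have h2 := congrArg (Polynomial.eval₂ β πs) hb
    rw [Polynomial.eval₂_map, ← IsScalarTower.algebraMap_smul L b P, Polynomial.eval₂_smul] at h2
    rw [h2, hP]
  have hmem : (IsLocalization.integerNormalization (nonZeroDivisors C) P).eval₂
      (β.comp (algebraMap C L)) πs ∈ Algebra.adjoin (Localization.AtPrime y) ({πs} : Set Ls) := by
    rw [← comp_eq y β hBβ, ← Polynomial.eval₂_map, ← Polynomial.aeval_def]
    exact Polynomial.aeval_mem_adjoin_singleton _ _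
  refine ⟨⟨_, hmem⟩, ⟨algebraMap (Localization.AtPrime y) Ls
    (algebraMap C (Localization.AtPrime y) b), Subalgebra.algebraMap_mem _ _⟩, ?_⟩
  show z = (IsLocalization.integerNormalization (nonZeroDivisors C) P).eval₂
      (β.comp (algebraMap C L)) πs
    / algebraMap (Localization.AtPrime y) Ls (algebraMap C (Localization.AtPrime y) b)
  rw [hBβ, eq_div_iff (beta_ne_zero β hb0), mul_comm, h1]

/-- **NNF at `B = C_y`, `A = B[πs]`, fraction form.**  Hypotheses: the output of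
`NodeC1.node_of_unram_pole` (`P₁ = (t₁)`, `P₂ = (t₂)`, `y = (t₁, t₂)` locally, `t₁ t₂ = ϖ g`),
the Eisenstein equation `πs ^ p = ϖ κ₀(πs)` and `hord`. -/
theorem exists_node_fraction {p : ℕ} (hp : p ≠ 0) [IsNoetherianRing (Localization.AtPrime y)]
    (P₁ P₂ : Ideal C) [P₁.IsPrime] [P₂.IsPrime] (hP₁ : P₁ ≤ y) (hP₂ : P₂ ≤ y)
    (ϖC t₁ t₂ g : C) (hϖC : ϖC ≠ 0) (hg : g ∉ y) (hmul : t₁ * t₂ = ϖC * g)
    (ht₁ : t₁ ∈ P₁) (hgen₁ : ∀ x ∈ P₁, ∃ s, s ∉ y ∧ s * x ∈ Ideal.span {t₁})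
    (ht₂ : t₂ ∈ P₂) (hgen₂ : ∀ x ∈ P₂, ∃ s, s ∉ y ∧ s * x ∈ Ideal.span {t₂})
    (hne : t₁ ∉ P₂)
    (hm : ∀ m ∈ y, ∃ s, s ∉ y ∧ s * m ∈ Ideal.span {t₁, t₂})
    (κ₀ : C[X]) (hκdeg : κ₀.natDegree < p) (hκ0 : κ₀.eval 0 ∉ y)
    (hπs : πs ^ p = β (algebraMap C L ϖC) * κ₀.eval₂ (β.comp (algebraMap C L)) πs)
    (hspan : ∀ x : Ls, ∃ P : L[X], x = P.eval₂ β πs)
    {x : Ls} (hx : x ≠ 0)
    (hord : ∀ Q : Ideal (Algebra.adjoin (Localization.AtPrime y) ({πs} : Set Ls)), Q.IsPrime →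
      (⟨πs, Algebra.self_mem_adjoin_singleton _ πs⟩ :
        Algebra.adjoin (Localization.AtPrime y) ({πs} : Set Ls)) ∉ Q →
      ∃ (a b : Algebra.adjoin (Localization.AtPrime y) ({πs} : Set Ls)) (τ : Ls),
        a ∉ Q ∧ b ∉ Q ∧
        algebraMap (Algebra.adjoin (Localization.AtPrime y) ({πs} : Set Ls)) Ls b * x
          = algebraMap (Algebra.adjoin (Localization.AtPrime y) ({πs} : Set Ls)) Ls a * τ ^ p) :
    t₂ ∉ P₁ ∧ ∃ (a₀ b₀ c₁ s₁ : C) (gg ξ : Ls) (m : ℕ) (j : ℤ), a₀ ∉ y ∧ b₀ ∉ y ∧ s₁ ∉ y ∧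
      gg ∈ Algebra.adjoin (Localization.AtPrime y) ({πs} : Set Ls) ∧ ξ ≠ 0 ∧
      x = (β (algebraMap C L a₀) / β (algebraMap C L b₀)
            * (1 + β (algebraMap C L c₁) / β (algebraMap C L s₁) * πs) + πs ^ 2 * gg)
          * πs ^ m * β (algebraMap C L t₂) ^ j * ξ ^ p := by
  classical
  obtain ⟨hpr₁, hpr₂, hna, hmax, -⟩ := Fermat.Agent.S44.L.NodeLoc.node_localization y P₁ P₂ hP₁
    hP₂ ϖC t₁ t₂ g hϖC hg hmul ht₁ hgen₁ ht₂ hgen₂ hne hm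
  have ht₂P : t₂ ∉ P₁ := by
    intro hmem
    obtain ⟨s, hs, hsx⟩ := hgen₁ t₂ hmem
    have h1 := Fermat.Agent.S44.L.NodeLoc.algebraMap_mem_span_singleton y hs hsx
    rw [Ideal.mem_span_singleton] at h1
    exact hna (hpr₁.irreducible.associated_of_dvd hpr₂.irreducible h1)
  refine ⟨ht₂P, ?_⟩
  obtain ⟨ug, hug⟩ := Fermat.Agent.S44.L.NodeLoc.isUnit_algebraMap_of_notMem y hg
  obtain ⟨κ, hκdef⟩ : ∃ κ : (Localization.AtPrime y)[X],
      κ = Polynomial.C ((ug⁻¹ : (Localization.AtPrime y)ˣ) : Localization.AtPrime y)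
        * κ₀.map (algebraMap C (Localization.AtPrime y)) := ⟨_, rfl⟩
  have hκ : κ.natDegree < p := by
    rw [hκdef]
    exact lt_of_le_of_lt ((Polynomial.natDegree_C_mul_le _ _).trans
      Polynomial.natDegree_map_le) hκdeg
  have hκ0' : IsUnit (κ.eval 0) := by
    rw [hκdef, Polynomial.eval_mul, Polynomial.eval_C, Polynomial.eval_map,
      Polynomial.eval₂_at_zero, Polynomial.coeff_zero_eq_eval_zero]
    exact (Units.isUnit _).mul (Fermat.Agent.S44.L.NodeLoc.isUnit_algebraMap_of_notMem y hκ0)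
  have hBA : Function.Injective (algebraMap (Localization.AtPrime y)
      (Algebra.adjoin (Localization.AtPrime y) ({πs} : Set Ls))) := by
    intro b b' hbb
    apply algebraMap_loc_injective y β hBβ
    exact congrArg (fun z : Algebra.adjoin (Localization.AtPrime y) ({πs} : Set Ls) => (z : Ls))
      hbb
  have hπ : (⟨πs, Algebra.self_mem_adjoin_singleton _ πs⟩ :
        Algebra.adjoin (Localization.AtPrime y) ({πs} : Set Ls)) ^ p
      = algebraMap (Localization.AtPrime y)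
          (Algebra.adjoin (Localization.AtPrime y) ({πs} : Set Ls))
          (algebraMap C (Localization.AtPrime y) t₁ * algebraMap C (Localization.AtPrime y) t₂)
        * Polynomial.aeval (⟨πs, Algebra.self_mem_adjoin_singleton _ πs⟩ :
            Algebra.adjoin (Localization.AtPrime y) ({πs} : Set Ls)) κ := by
    apply Subtype.ext
    show πs ^ p = algebraMap (Localization.AtPrime y) Ls
        (algebraMap C (Localization.AtPrime y) t₁ * algebraMap C (Localization.AtPrime y) t₂)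
      * ((Polynomial.aeval (⟨πs, Algebra.self_mem_adjoin_singleton _ πs⟩ :
            Algebra.adjoin (Localization.AtPrime y) ({πs} : Set Ls)) κ :
          Algebra.adjoin (Localization.AtPrime y) ({πs} : Set Ls)) : Ls)
    rw [Polynomial.aeval_subalgebra_coe]
    have e1 : Polynomial.aeval πs κ
        = algebraMap (Localization.AtPrime y) Ls ((ug⁻¹ : (Localization.AtPrime y)ˣ) :
            Localization.AtPrime y) * κ₀.eval₂ (β.comp (algebraMap C L)) πs := by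
      rw [hκdef, map_mul, Polynomial.aeval_C, Polynomial.aeval_def, Polynomial.eval₂_map,
        comp_eq y β hBβ]
    have e2 : algebraMap (Localization.AtPrime y) Ls (ug : Localization.AtPrime y)
        * algebraMap (Localization.AtPrime y) Ls ((ug⁻¹ : (Localization.AtPrime y)ˣ) :
            Localization.AtPrime y) = 1 := by
      rw [← map_mul, Units.mul_inv, map_one]
    have e3 : algebraMap (Localization.AtPrime y) Ls
        (algebraMap C (Localization.AtPrime y) t₁ * algebraMap C (Localization.AtPrime y) t₂)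
        = β (algebraMap C L ϖC) * algebraMap (Localization.AtPrime y) Ls
            (ug : Localization.AtPrime y) := by
      rw [← map_mul (algebraMap C (Localization.AtPrime y)), hmul,
        map_mul (algebraMap C (Localization.AtPrime y)), map_mul, hBβ ϖC, hug]
    rw [e1, e3, hπs]
    linear_combination (-(β (algebraMap C L ϖC) * κ₀.eval₂ (β.comp (algebraMap C L)) πs)) * e2
  have hgen : Algebra.adjoin (Localization.AtPrime y)
      ({(⟨πs, Algebra.self_mem_adjoin_singleton _ πs⟩ :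
        Algebra.adjoin (Localization.AtPrime y) ({πs} : Set Ls))} :
        Set (Algebra.adjoin (Localization.AtPrime y) ({πs} : Set Ls))) = ⊤ := by
    have h := Algebra.adjoin_adjoin_coe_preimage (R := Localization.AtPrime y)
      (s := ({πs} : Set Ls))
    have hset : ((↑) : Algebra.adjoin (Localization.AtPrime y) ({πs} : Set Ls) → Ls) ⁻¹'
        ({πs} : Set Ls) = {(⟨πs, Algebra.self_mem_adjoin_singleton _ πs⟩ :
        Algebra.adjoin (Localization.AtPrime y) ({πs} : Set Ls))} := by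
      ext z
      simp only [Set.mem_preimage, Set.mem_singleton_iff]
      exact ⟨fun h => Subtype.ext h, fun h => by rw [h]⟩
    rw [hset] at h
    exact h
  haveI := isFractionRing_adjoin y β hBβ πs hspan
  obtain ⟨w₀, c, g', m, j, ξ, hxe⟩ := Fermat.Agent.S44.L.NodeNF.exists_eq_first_order hp hpr₁ hpr₂
    hna hmax hκ hκ0' hBA hπ hgen hx hord
  obtain ⟨a₀, b₀, hb₀, hw₀e, ha₀⟩ := exists_frac y β hBβ (w₀ : Localization.AtPrime y)
  obtain ⟨c₁, s₁, hs₁, hce, -⟩ := exists_frac y β hBβ c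
  have hξ : ξ ≠ 0 := by
    rintro rfl
    rw [zero_pow hp, mul_zero] at hxe
    exact hx hxe
  refine ⟨a₀, b₀, c₁, s₁, (g' : Ls), ξ, m, j, ha₀ w₀.isUnit, hb₀, hs₁, g'.2, hξ, ?_⟩
  rw [hxe, ← hw₀e, ← hce, ← hBβ t₂]
  rfl

/-- **Smooth normal form at `B = C_y`, `A = B[πs]`, fraction form.**  Hypotheses: the output of
`NodeC1.smooth_inf_of_unram` (`P = (ϖ)`, `y = (ϖ, z)` locally), the Eisenstein equation and
`hord`. -/
theorem exists_smooth_fraction {p : ℕ} (hp : p ≠ 0) [IsNoetherianRing (Localization.AtPrime y)]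
    (P : Ideal C) [P.IsPrime] (hP : P ≤ y) (ϖC : C) (hϖC : ϖC ≠ 0) (hϖP : ϖC ∈ P)
    (hgen₁ : ∀ x ∈ P, ∃ s, s ∉ y ∧ s * x ∈ Ideal.span {ϖC})
    (z : C) (hz : z ∈ y) (hm : ∀ m ∈ y, ∃ s, s ∉ y ∧ s * m ∈ Ideal.span {ϖC, z})
    (κ₀ : C[X]) (hκdeg : κ₀.natDegree < p) (hκ0 : κ₀.eval 0 ∉ y)
    (hπs : πs ^ p = β (algebraMap C L ϖC) * κ₀.eval₂ (β.comp (algebraMap C L)) πs)
    (hspan : ∀ x : Ls, ∃ P : L[X], x = P.eval₂ β πs)
    {x : Ls} (hx : x ≠ 0)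
    (hord : ∀ Q : Ideal (Algebra.adjoin (Localization.AtPrime y) ({πs} : Set Ls)), Q.IsPrime →
      (⟨πs, Algebra.self_mem_adjoin_singleton _ πs⟩ :
        Algebra.adjoin (Localization.AtPrime y) ({πs} : Set Ls)) ∉ Q →
      ∃ (a b : Algebra.adjoin (Localization.AtPrime y) ({πs} : Set Ls)) (τ : Ls),
        a ∉ Q ∧ b ∉ Q ∧
        algebraMap (Algebra.adjoin (Localization.AtPrime y) ({πs} : Set Ls)) Ls b * x
          = algebraMap (Algebra.adjoin (Localization.AtPrime y) ({πs} : Set Ls)) Ls a * τ ^ p) :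
    ∃ (a₀ b₀ c₁ s₁ : C) (gg ξ : Ls) (m : ℕ), a₀ ∉ y ∧ b₀ ∉ y ∧ s₁ ∉ y ∧
      gg ∈ Algebra.adjoin (Localization.AtPrime y) ({πs} : Set Ls) ∧ ξ ≠ 0 ∧
      x = (β (algebraMap C L a₀) / β (algebraMap C L b₀)
            * (1 + β (algebraMap C L c₁) / β (algebraMap C L s₁) * πs) + πs ^ 2 * gg)
          * πs ^ m * ξ ^ p := by
  classical
  obtain ⟨hpr, hmax⟩ := Fermat.Agent.S44.L.NodeLoc.smooth_localization y P hP ϖC hϖC hϖP hgen₁
    z hz hm
  have hκ : (κ₀.map (algebraMap C (Localization.AtPrime y))).natDegree < p :=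
    lt_of_le_of_lt Polynomial.natDegree_map_le hκdeg
  have hκ0' : IsUnit ((κ₀.map (algebraMap C (Localization.AtPrime y))).eval 0) := by
    rw [Polynomial.eval_map, Polynomial.eval₂_at_zero, Polynomial.coeff_zero_eq_eval_zero]
    exact Fermat.Agent.S44.L.NodeLoc.isUnit_algebraMap_of_notMem y hκ0
  have hBA : Function.Injective (algebraMap (Localization.AtPrime y)
      (Algebra.adjoin (Localization.AtPrime y) ({πs} : Set Ls))) := by
    intro b b' hbb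
    apply algebraMap_loc_injective y β hBβ
    exact congrArg (fun z : Algebra.adjoin (Localization.AtPrime y) ({πs} : Set Ls) => (z : Ls))
      hbb
  have hπ : (⟨πs, Algebra.self_mem_adjoin_singleton _ πs⟩ :
        Algebra.adjoin (Localization.AtPrime y) ({πs} : Set Ls)) ^ p
      = algebraMap (Localization.AtPrime y)
          (Algebra.adjoin (Localization.AtPrime y) ({πs} : Set Ls))
          (algebraMap C (Localization.AtPrime y) ϖC)
        * Polynomial.aeval (⟨πs, Algebra.self_mem_adjoin_singleton _ πs⟩ :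
            Algebra.adjoin (Localization.AtPrime y) ({πs} : Set Ls))
          (κ₀.map (algebraMap C (Localization.AtPrime y))) := by
    apply Subtype.ext
    show πs ^ p = algebraMap (Localization.AtPrime y) Ls
        (algebraMap C (Localization.AtPrime y) ϖC)
      * ((Polynomial.aeval (⟨πs, Algebra.self_mem_adjoin_singleton _ πs⟩ :
            Algebra.adjoin (Localization.AtPrime y) ({πs} : Set Ls))
          (κ₀.map (algebraMap C (Localization.AtPrime y))) :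
          Algebra.adjoin (Localization.AtPrime y) ({πs} : Set Ls)) : Ls)
    rw [Polynomial.aeval_subalgebra_coe, Polynomial.aeval_def, Polynomial.eval₂_map,
      comp_eq y β hBβ, hBβ ϖC, hπs]
  have hgen : Algebra.adjoin (Localization.AtPrime y)
      ({(⟨πs, Algebra.self_mem_adjoin_singleton _ πs⟩ :
        Algebra.adjoin (Localization.AtPrime y) ({πs} : Set Ls))} :
        Set (Algebra.adjoin (Localization.AtPrime y) ({πs} : Set Ls))) = ⊤ := by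
    have h := Algebra.adjoin_adjoin_coe_preimage (R := Localization.AtPrime y)
      (s := ({πs} : Set Ls))
    have hset : ((↑) : Algebra.adjoin (Localization.AtPrime y) ({πs} : Set Ls) → Ls) ⁻¹'
        ({πs} : Set Ls) = {(⟨πs, Algebra.self_mem_adjoin_singleton _ πs⟩ :
        Algebra.adjoin (Localization.AtPrime y) ({πs} : Set Ls))} := by
      ext z
      simp only [Set.mem_preimage, Set.mem_singleton_iff]
      exact ⟨fun h => Subtype.ext h, fun h => by rw [h]⟩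
    rw [hset] at h
    exact h
  haveI := isFractionRing_adjoin y β hBβ πs hspan
  obtain ⟨w₀, c, g', m, ξ, hxe⟩ := Fermat.Agent.S44.L.SmoothNF.exists_eq_first_order_smooth hp hpr
    hmax hκ hκ0' hBA hπ hgen hx hord
  obtain ⟨a₀, b₀, hb₀, hw₀e, ha₀⟩ := exists_frac y β hBβ (w₀ : Localization.AtPrime y)
  obtain ⟨c₁, s₁, hs₁, hce, -⟩ := exists_frac y β hBβ c
  have hξ : ξ ≠ 0 := by
    rintro rfl
    rw [zero_pow hp, mul_zero] at hxe
    exact hx hxe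
  refine ⟨a₀, b₀, c₁, s₁, (g' : Ls), ξ, m, ha₀ w₀.isUnit, hb₀, hs₁, g'.2, hξ, ?_⟩
  rw [hxe, ← hw₀e, ← hce]
  rfl

end Alg

/-! ### Part 2: the Gauss level -/

section Gauss

variable {O E : Type*} [CommRing O] [IsDomain O] [IsDiscreteValuationRing O] [Field E]
  [Algebra O E] [FaithfulSMul O E] {L : Type*} [Field L] [Algebra O L]
  {Os Ks : Type*} [CommRing Os] [IsDomain Os] [IsDiscreteValuationRing Os] [Field Ks]
  [Algebra Os Ks] [FaithfulSMul Os Ks]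
  (φ : O →+* Os) [IsLocalHom φ] (ψ : E →+* Ks)
  (hφψ : ∀ a : O, ψ (algebraMap O E a) = algebraMap Os Ks (φ a))

include hφψ in
/-- A `q`-expansion `τ` of `Ls` over the base expansion `σ` is Gauss-integral on `A = B[πs]`,
`B = C_y`, as soon as `ker (redHom σ) ≤ y` and `τ πs` is Gauss-integral. -/
theorem mem_V_of_mem_adjoin (ϖ : O) (hϖ : Irreducible ϖ) (u : L)
    (σ : L →+* LaurentSeries E)
    (hσO : ∀ r : O, σ (algebraMap O L r) = HahnSeries.C (algebraMap O E r))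
    (hσfrac : ∀ x : L, σ x ∈ GaussDVR.fracField O E)
    (U : LaurentSeries O) (hσu : σ u = GaussDVR.iota O E U)
    [IsFractionRing (Chart O u) L] (y : Ideal (Chart O u)) [y.IsPrime]
    (hker : RingHom.ker (redHom σ hσO ϖ hϖ hσfrac u U hσu) ≤ y)
    {Ls : Type*} [Field Ls] (β : L →+* Ls) [Algebra (Localization.AtPrime y) Ls]
    (hBβ : ∀ c : Chart O u, algebraMap (Localization.AtPrime y) Ls
      (algebraMap (Chart O u) (Localization.AtPrime y) c) = β (c : L))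
    (τ : Ls →+* LaurentSeries Ks) (hτβ : ∀ x : L, τ (β x) = coeffMap ψ (σ x))
    (πs : Ls) (hτπ : τ πs ∈ GaussDVR.V Os Ks)
    {g : Ls} (hg : g ∈ Algebra.adjoin (Localization.AtPrime y) ({πs} : Set Ls)) :
    τ g ∈ GaussDVR.V Os Ks := by
  refine Algebra.adjoin_induction (p := fun z _ => τ z ∈ GaussDVR.V Os Ks) ?_ ?_ ?_ ?_ hg
  · intro z hz
    rw [Set.mem_singleton_iff] at hz
    rw [hz]
    exact hτπ
  · intro b
    obtain ⟨c, s, hs, hbe, -⟩ := exists_frac y β hBβ b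
    have hsr : GaussDVR.red Os Ks (baseV φ ψ hφψ (toV σ hσO ϖ hϖ hσfrac u U hσu s)) ≠ 0 := by
      rw [red_baseV]
      exact resL_ne_zero φ (fun h0 => hs (hker (RingHom.mem_ker.mpr h0)))
    have h1 := (baseV φ ψ hφψ (toV σ hσO ϖ hϖ hσfrac u U hσu c)
      * invV (baseV φ ψ hφψ (toV σ hσO ϖ hϖ hσfrac u U hσu s)) hsr).2
    have h2 : τ (algebraMap (Localization.AtPrime y) Ls b)
        = ((baseV φ ψ hφψ (toV σ hσO ϖ hϖ hσfrac u U hσu c)
          * invV (baseV φ ψ hφψ (toV σ hσO ϖ hϖ hσfrac u U hσu s)) hsr : GaussDVR.V Os Ks) :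
            LaurentSeries Ks) := by
      rw [hbe, map_div₀, Subring.coe_mul, coe_invV, coe_baseV, coe_baseV, div_eq_mul_inv]
      show τ (β (c : L)) * (τ (β (s : L)))⁻¹ = _
      rw [hτβ, hτβ]
      rfl
    rw [h2]
    exact h1
  · intro a b _ _ ha hb
    rw [map_add]
    exact Subring.add_mem _ ha hb
  · intro a b _ _ ha hb
    rw [map_mul]
    exact Subring.mul_mem _ ha hb

/-- A normal form `X = ϖ ^ N * v` gives `ρ(X) = dV v / red v`. -/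
theorem isRho_of_zpow {O E : Type*} [CommRing O] [IsDomain O] [IsDiscreteValuationRing O]
    [Field E] [Algebra O E] [FaithfulSMul O E] {ϖ : O} {D : O → IsLocalRing.ResidueField O}
    (h : IsFirstOrder (IsLocalRing.residue O) ϖ D) (hϖ : Irreducible ϖ)
    {X : LaurentSeries E} {N : ℤ} {v : GaussDVR.V O E} (hv : GaussDVR.red O E v ≠ 0)
    (hX : X = ((GaussDVR.unif E ϖ : GaussDVR.V O E) : LaurentSeries E) ^ N
      * (v : LaurentSeries E)) :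
    Fermat.Agent.S44.L.RhoGauss.IsRho h X (dV O E h v / GaussDVR.red O E v) := by
  have hu : ((GaussDVR.unif E ϖ : GaussDVR.V O E) : LaurentSeries E) ≠ 0 :=
    GaussDVR.coe_unif_ne_zero E ϖ hϖ
  refine ⟨N.toNat, (-N).toNat, v, hv, ?_, div_mul_cancel₀ _ hv⟩
  have hN : N + ((-N).toNat : ℤ) = (N.toNat : ℤ) := by omega
  rw [hX, mul_right_comm, ← zpow_natCast _ (-N).toNat, ← zpow_add₀ hu, hN, zpow_natCast]

include hφψ in
/-- **NODE-ALT, statements (N a), (N b), (N c).**  `y` a node of the chart `C = Chart O u`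
(the output of `NodeC1.node_of_unram_pole` for the reductions `r₁`, `r₂` of the two
`q`-expansions `σ₁`, `σ₂`), `x ≠ 0` in `Ls` with `hord` at `A = C_y[πs]`.  Then there are
`j : ℤ` and `a b c s : C`, `a, b, s ∉ y`, with

* `σs x = ϖs ^ N * v`, `v` a Gauss unit, `dV v * r₁ s = red v * r₁ c` (`ρ_∞ x = r₁ c / r₁ s`) and
  `red v * r₁ b = r₁ a * (r₁ t₂) ^ j * h ^ p`;
* `σs (ws x) = ϖs ^ N' * v'`, `v'` a Gauss unit, `dV v' * r₂ s = red v' * (r₂ c + j e₁ r₂ s)`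
  (`ρ_0 x = r₂ c / r₂ s + j e₁`). -/
theorem node_alt (ϖ : O) (hϖ : Irreducible ϖ) (u : L)
    (σ₁ : L →+* LaurentSeries E)
    (hσO₁ : ∀ r : O, σ₁ (algebraMap O L r) = HahnSeries.C (algebraMap O E r))
    (hσfrac₁ : ∀ x : L, σ₁ x ∈ GaussDVR.fracField O E)
    (U₁ : LaurentSeries O) (hσu₁ : σ₁ u = GaussDVR.iota O E U₁)
    (σ₂ : L →+* LaurentSeries E)
    (hσO₂ : ∀ r : O, σ₂ (algebraMap O L r) = HahnSeries.C (algebraMap O E r))
    (hσfrac₂ : ∀ x : L, σ₂ x ∈ GaussDVR.fracField O E)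
    (U₂ : LaurentSeries O) (hσu₂ : σ₂ u = GaussDVR.iota O E U₂)
    [IsFractionRing (Chart O u) L] (y : Ideal (Chart O u)) [y.IsPrime]
    [IsNoetherianRing (Localization.AtPrime y)]
    (hI : RingHom.ker (redHom σ₁ hσO₁ ϖ hϖ hσfrac₁ u U₁ hσu₁) ≤ y)
    (hZ : RingHom.ker (redHom σ₂ hσO₂ ϖ hϖ hσfrac₂ u U₂ hσu₂) ≤ y)
    (t₁ t₂ g : Chart O u) (hg : g ∉ y) (hmul : t₁ * t₂ = piC u ϖ * g)
    (hp₁ : t₁ ∈ RingHom.ker (redHom σ₁ hσO₁ ϖ hϖ hσfrac₁ u U₁ hσu₁) ∧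
      ∀ x ∈ RingHom.ker (redHom σ₁ hσO₁ ϖ hϖ hσfrac₁ u U₁ hσu₁),
        ∃ s, s ∉ y ∧ s * x ∈ Ideal.span {t₁})
    (hp₂ : t₂ ∈ RingHom.ker (redHom σ₂ hσO₂ ϖ hϖ hσfrac₂ u U₂ hσu₂) ∧
      ∀ x ∈ RingHom.ker (redHom σ₂ hσO₂ ϖ hϖ hσfrac₂ u U₂ hσu₂),
        ∃ s, s ∉ y ∧ s * x ∈ Ideal.span {t₂})
    (hne : t₁ ∉ RingHom.ker (redHom σ₂ hσO₂ ϖ hϖ hσfrac₂ u U₂ hσu₂))
    (hm : ∀ m ∈ y, ∃ s, s ∉ y ∧ s * m ∈ Ideal.span {t₁, t₂})
    {ϖs : Os} {D : Os → IsLocalRing.ResidueField Os}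
    (h : IsFirstOrder (IsLocalRing.residue Os) ϖs D) (hϖs : Irreducible ϖs)
    (hD : ∀ a : O, D (φ a) = 0)
    {p : ℕ} (hp : p ≠ 0) (hpres : (p : IsLocalRing.ResidueField Os) = 0)
    (θ : O[X]) (hθdeg : θ.natDegree < p) (hθ0 : IsUnit (θ.eval 0))
    (hθ : ϖs ^ p = φ ϖ * θ.eval₂ φ ϖs)
    (ε : Os) (n : ℕ) (hε : φ ϖ = ε * ϖs ^ n) (hεr : IsLocalRing.residue Os ε ≠ 0)
    (e₁ : IsLocalRing.ResidueField Os) (he₁ : D ε = e₁ * IsLocalRing.residue Os ε)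
    {Ls : Type*} [Field Ls] [Algebra Os Ls] (β : L →+* Ls)
    (hβO : ∀ r : O, β (algebraMap O L r) = algebraMap Os Ls (φ r))
    (σs : Ls →+* LaurentSeries Ks)
    (hσsO : ∀ r : Os, σs (algebraMap Os Ls r) = HahnSeries.C (algebraMap Os Ks r))
    (hσsfrac : ∀ x : Ls, σs x ∈ GaussDVR.fracField Os Ks)
    (ws : Ls →+* Ls) (hwsO : ∀ r : Os, ws (algebraMap Os Ls r) = algebraMap Os Ls r)
    (hσβ₁ : ∀ x : L, σs (β x) = coeffMap ψ (σ₁ x))
    (hσβ₂ : ∀ x : L, σs (ws (β x)) = coeffMap ψ (σ₂ x))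
    (hspan : ∀ x : Ls, ∃ P : L[X], x = P.eval₂ β (algebraMap Os Ls ϖs))
    [Algebra (Localization.AtPrime y) Ls]
    (hBβ : ∀ c : Chart O u, algebraMap (Localization.AtPrime y) Ls
      (algebraMap (Chart O u) (Localization.AtPrime y) c) = β (c : L))
    {x : Ls} (hx : x ≠ 0)
    (hord : ∀ Q : Ideal (Algebra.adjoin (Localization.AtPrime y)
        ({algebraMap Os Ls ϖs} : Set Ls)), Q.IsPrime →
      (⟨algebraMap Os Ls ϖs, Algebra.self_mem_adjoin_singleton _ _⟩ :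
        Algebra.adjoin (Localization.AtPrime y) ({algebraMap Os Ls ϖs} : Set Ls)) ∉ Q →
      ∃ (a b : Algebra.adjoin (Localization.AtPrime y) ({algebraMap Os Ls ϖs} : Set Ls))
        (τ : Ls), a ∉ Q ∧ b ∉ Q ∧
        algebraMap (Algebra.adjoin (Localization.AtPrime y) ({algebraMap Os Ls ϖs} : Set Ls))
            Ls b * x
          = algebraMap (Algebra.adjoin (Localization.AtPrime y)
            ({algebraMap Os Ls ϖs} : Set Ls)) Ls a * τ ^ p) :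
    ∃ (j : ℤ) (a b c s : Chart O u), a ∉ y ∧ b ∉ y ∧ s ∉ y ∧
      (∃ (v : GaussDVR.V Os Ks) (N : ℤ) (hh : LaurentSeries (IsLocalRing.ResidueField Os)),
        GaussDVR.red Os Ks v ≠ 0 ∧
        σs x = ((GaussDVR.unif Ks ϖs : GaussDVR.V Os Ks) : LaurentSeries Ks) ^ N
          * (v : LaurentSeries Ks) ∧
        dV Os Ks h v * resL φ (redHom σ₁ hσO₁ ϖ hϖ hσfrac₁ u U₁ hσu₁ s)
          = GaussDVR.red Os Ks v * resL φ (redHom σ₁ hσO₁ ϖ hϖ hσfrac₁ u U₁ hσu₁ c) ∧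
        GaussDVR.red Os Ks v * resL φ (redHom σ₁ hσO₁ ϖ hϖ hσfrac₁ u U₁ hσu₁ b)
          = resL φ (redHom σ₁ hσO₁ ϖ hϖ hσfrac₁ u U₁ hσu₁ a)
            * resL φ (redHom σ₁ hσO₁ ϖ hϖ hσfrac₁ u U₁ hσu₁ t₂) ^ j * hh ^ p) ∧
      (∃ (v' : GaussDVR.V Os Ks) (N' : ℤ),
        GaussDVR.red Os Ks v' ≠ 0 ∧
        σs (ws x) = ((GaussDVR.unif Ks ϖs : GaussDVR.V Os Ks) : LaurentSeries Ks) ^ N'
          * (v' : LaurentSeries Ks) ∧
        dV Os Ks h v' * resL φ (redHom σ₂ hσO₂ ϖ hϖ hσfrac₂ u U₂ hσu₂ s)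
          = GaussDVR.red Os Ks v' * (resL φ (redHom σ₂ hσO₂ ϖ hϖ hσfrac₂ u U₂ hσu₂ c)
            + j • (HahnSeries.C e₁ * resL φ (redHom σ₂ hσO₂ ϖ hϖ hσfrac₂ u U₂ hσu₂ s)))) := by
  classical
  haveI : (RingHom.ker (redHom σ₁ hσO₁ ϖ hϖ hσfrac₁ u U₁ hσu₁)).IsPrime := RingHom.ker_isPrime _
  haveI : (RingHom.ker (redHom σ₂ hσO₂ ϖ hϖ hσfrac₂ u U₂ hσu₂)).IsPrime := RingHom.ker_isPrime _
  have hinjO : Function.Injective (algebraMap O L) := by
    intro a b hab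
    have h1 := congrArg σ₁ hab
    rw [hσO₁, hσO₁] at h1
    exact FaithfulSMul.algebraMap_injective O E (HahnSeries.C_injective h1)
  have hπ0 : piC u ϖ ≠ 0 := by
    intro h0
    have h1 : algebraMap O L ϖ = 0 := by
      rw [← coe_piC u ϖ, h0]
      rfl
    exact hϖ.ne_zero (hinjO (h1.trans (map_zero _).symm))
  obtain ⟨oC, hoC⟩ : ∃ oC : O →+* Chart O u, ∀ r : O, ((oC r : Chart O u) : L) = algebraMap O L r
      ∧ oC ϖ = piC u ϖ :=
    ⟨(algebraMap (Algebra.adjoin O {u}) (Chart O u)).comp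
      (algebraMap O (Algebra.adjoin O {u})), fun r => ⟨rfl, rfl⟩⟩
  have hcomp : (β.comp (algebraMap (Chart O u) L)).comp oC = (algebraMap Os Ls).comp φ :=
    RingHom.ext fun r => by
      show β ((oC r : Chart O u) : L) = algebraMap Os Ls (φ r)
      rw [(hoC r).1, hβO]
  have hκ0 : (θ.map oC).eval 0 ∉ y := by
    rw [Polynomial.eval_map, Polynomial.eval₂_at_zero, Polynomial.coeff_zero_eq_eval_zero]
    intro hmem
    exact (Ideal.IsPrime.ne_top inferInstance) (Ideal.eq_top_of_isUnit_mem _ hmem (hθ0.map oC))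
  have hπs : (algebraMap Os Ls ϖs) ^ p = β (algebraMap (Chart O u) L (piC u ϖ))
      * (θ.map oC).eval₂ (β.comp (algebraMap (Chart O u) L)) (algebraMap Os Ls ϖs) := by
    rw [Polynomial.eval₂_map, hcomp, ← Polynomial.hom_eval₂, ← map_pow, hθ, map_mul]
    congr 1
    exact (hβO ϖ).symm
  obtain ⟨ht₂', a₀, b₀, c₁, s₁, gg, ξ, m, j, ha₀, hb₀, hs₁, hgg, hξ, hxe⟩ :=
    exists_node_fraction y β hBβ (algebraMap Os Ls ϖs) hp
      (RingHom.ker (redHom σ₁ hσO₁ ϖ hϖ hσfrac₁ u U₁ hσu₁))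
      (RingHom.ker (redHom σ₂ hσO₂ ϖ hϖ hσfrac₂ u U₂ hσu₂)) hI hZ (piC u ϖ) t₁ t₂ g hπ0 hg hmul
      hp₁.1 hp₁.2 hp₂.1 hp₂.2 hne hm (θ.map oC)
      (lt_of_le_of_lt Polynomial.natDegree_map_le hθdeg) hκ0 hπs hspan hx hord
  have hσπ : σs (algebraMap Os Ls ϖs)
      = ((GaussDVR.unif Ks ϖs : GaussDVR.V Os Ks) : LaurentSeries Ks) := by
    rw [hσsO, GaussDVR.coe_unif]
  have hgI : σs gg ∈ GaussDVR.V Os Ks :=
    mem_V_of_mem_adjoin φ ψ hφψ ϖ hϖ u σ₁ hσO₁ hσfrac₁ U₁ hσu₁ y hI β hBβ σs hσβ₁ _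
      (by rw [hσπ]; exact Subtype.coe_prop _) hgg
  have hgZ : σs (ws gg) ∈ GaussDVR.V Os Ks :=
    mem_V_of_mem_adjoin φ ψ hφψ ϖ hϖ u σ₂ hσO₂ hσfrac₂ U₂ hσu₂ y hZ β hBβ (σs.comp ws) hσβ₂ _
      (by rw [RingHom.comp_apply, hwsO, hσπ]; exact Subtype.coe_prop _) hgg
  obtain ⟨⟨v, N, hh, hv, hvx, hvd, hvr⟩, ⟨v', N', hv', hvx', hvd'⟩⟩ :=
    node_alt_core φ ψ hφψ h hϖs hD hpres y (β.comp (algebraMap (Chart O u) L))
      (algebraMap Os Ls ϖs)
      (toV σ₁ hσO₁ ϖ hϖ hσfrac₁ u U₁ hσu₁) (toV σ₂ hσO₂ ϖ hϖ hσfrac₂ u U₂ hσu₂) σs ws hσsfrac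
      (fun c => hσβ₁ (c : L)) (fun c => hσβ₂ (c : L)) hσπ (hwsO ϖs)
      (fun s hs h0 => hs (hI (RingHom.mem_ker.mpr h0)))
      (fun s hs h0 => hs (hZ (RingHom.mem_ker.mpr h0)))
      t₁ t₂ g (piC u ϖ) hmul hg (fun h0 => ht₂' (RingHom.mem_ker.mpr h0))
      (fun h0 => hne (RingHom.mem_ker.mpr h0)) ϖ
      (by
        show σ₂ ((piC u ϖ : Chart O u) : L) = _
        rw [coe_piC, hσO₂])
      ε n hε hεr e₁ he₁ a₀ b₀ c₁ s₁ ha₀ hb₀ hs₁ gg ξ hgI hgZ hξ m j x hxe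
  exact ⟨j, a₀, b₀, c₁, s₁, ha₀, hb₀, hs₁, ⟨v, N, hh, hv, hvx, hvd, hvr⟩,
    ⟨v', N', hv', hvx', hvd'⟩⟩

include hφψ in
/-- **SMOOTH-ALT, statements (S a), (S b).**  `y` a smooth point of the component of the
`q`-expansion `σ₁` (the output of `NodeC1.smooth_inf_of_unram`: `ker r₁ = (ϖ)` and `y = (ϖ, z)`
locally at `y`), `x ≠ 0` in `Ls` with `hord` at `A = C_y[πs]`.  Then there are `a b c s : C`,
`a, b, s ∉ y`, with `σs x = ϖs ^ N * v`, `v` a Gauss unit, `dV v * r₁ s = red v * r₁ c`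
(`ρ x = r₁ c / r₁ s`) and `red v * r₁ b = r₁ a * h ^ p`. -/
theorem smooth_alt (ϖ : O) (hϖ : Irreducible ϖ) (u : L)
    (σ₁ : L →+* LaurentSeries E)
    (hσO₁ : ∀ r : O, σ₁ (algebraMap O L r) = HahnSeries.C (algebraMap O E r))
    (hσfrac₁ : ∀ x : L, σ₁ x ∈ GaussDVR.fracField O E)
    (U₁ : LaurentSeries O) (hσu₁ : σ₁ u = GaussDVR.iota O E U₁)
    [IsFractionRing (Chart O u) L] (y : Ideal (Chart O u)) [y.IsPrime]
    [IsNoetherianRing (Localization.AtPrime y)]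
    (hI : RingHom.ker (redHom σ₁ hσO₁ ϖ hϖ hσfrac₁ u U₁ hσu₁) ≤ y)
    (hp₁ : piC u ϖ ∈ RingHom.ker (redHom σ₁ hσO₁ ϖ hϖ hσfrac₁ u U₁ hσu₁) ∧
      ∀ x ∈ RingHom.ker (redHom σ₁ hσO₁ ϖ hϖ hσfrac₁ u U₁ hσu₁),
        ∃ s, s ∉ y ∧ s * x ∈ Ideal.span {piC u ϖ})
    (z : Chart O u) (hz : z ∈ y)
    (hm : ∀ m ∈ y, ∃ s, s ∉ y ∧ s * m ∈ Ideal.span {piC u ϖ, z})
    {ϖs : Os} {D : Os → IsLocalRing.ResidueField Os}
    (h : IsFirstOrder (IsLocalRing.residue Os) ϖs D) (hϖs : Irreducible ϖs)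
    (hD : ∀ a : O, D (φ a) = 0)
    {p : ℕ} (hp : p ≠ 0) (hpres : (p : IsLocalRing.ResidueField Os) = 0)
    (θ : O[X]) (hθdeg : θ.natDegree < p) (hθ0 : IsUnit (θ.eval 0))
    (hθ : ϖs ^ p = φ ϖ * θ.eval₂ φ ϖs)
    {Ls : Type*} [Field Ls] [Algebra Os Ls] (β : L →+* Ls)
    (hβO : ∀ r : O, β (algebraMap O L r) = algebraMap Os Ls (φ r))
    (σs : Ls →+* LaurentSeries Ks)
    (hσsO : ∀ r : Os, σs (algebraMap Os Ls r) = HahnSeries.C (algebraMap Os Ks r))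
    (hσsfrac : ∀ x : Ls, σs x ∈ GaussDVR.fracField Os Ks)
    (hσβ₁ : ∀ x : L, σs (β x) = coeffMap ψ (σ₁ x))
    (hspan : ∀ x : Ls, ∃ P : L[X], x = P.eval₂ β (algebraMap Os Ls ϖs))
    [Algebra (Localization.AtPrime y) Ls]
    (hBβ : ∀ c : Chart O u, algebraMap (Localization.AtPrime y) Ls
      (algebraMap (Chart O u) (Localization.AtPrime y) c) = β (c : L))
    {x : Ls} (hx : x ≠ 0)
    (hord : ∀ Q : Ideal (Algebra.adjoin (Localization.AtPrime y)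
        ({algebraMap Os Ls ϖs} : Set Ls)), Q.IsPrime →
      (⟨algebraMap Os Ls ϖs, Algebra.self_mem_adjoin_singleton _ _⟩ :
        Algebra.adjoin (Localization.AtPrime y) ({algebraMap Os Ls ϖs} : Set Ls)) ∉ Q →
      ∃ (a b : Algebra.adjoin (Localization.AtPrime y) ({algebraMap Os Ls ϖs} : Set Ls))
        (τ : Ls), a ∉ Q ∧ b ∉ Q ∧
        algebraMap (Algebra.adjoin (Localization.AtPrime y) ({algebraMap Os Ls ϖs} : Set Ls))
            Ls b * x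
          = algebraMap (Algebra.adjoin (Localization.AtPrime y)
            ({algebraMap Os Ls ϖs} : Set Ls)) Ls a * τ ^ p) :
    ∃ (a b c s : Chart O u), a ∉ y ∧ b ∉ y ∧ s ∉ y ∧
      ∃ (v : GaussDVR.V Os Ks) (N : ℤ) (hh : LaurentSeries (IsLocalRing.ResidueField Os)),
        GaussDVR.red Os Ks v ≠ 0 ∧
        σs x = ((GaussDVR.unif Ks ϖs : GaussDVR.V Os Ks) : LaurentSeries Ks) ^ N
          * (v : LaurentSeries Ks) ∧
        dV Os Ks h v * resL φ (redHom σ₁ hσO₁ ϖ hϖ hσfrac₁ u U₁ hσu₁ s)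
          = GaussDVR.red Os Ks v * resL φ (redHom σ₁ hσO₁ ϖ hϖ hσfrac₁ u U₁ hσu₁ c) ∧
        GaussDVR.red Os Ks v * resL φ (redHom σ₁ hσO₁ ϖ hϖ hσfrac₁ u U₁ hσu₁ b)
          = resL φ (redHom σ₁ hσO₁ ϖ hϖ hσfrac₁ u U₁ hσu₁ a) * hh ^ p := by
  classical
  haveI : (RingHom.ker (redHom σ₁ hσO₁ ϖ hϖ hσfrac₁ u U₁ hσu₁)).IsPrime := RingHom.ker_isPrime _
  have hinjO : Function.Injective (algebraMap O L) := by
    intro a b hab
    have h1 := congrArg σ₁ hab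
    rw [hσO₁, hσO₁] at h1
    exact FaithfulSMul.algebraMap_injective O E (HahnSeries.C_injective h1)
  have hπ0 : piC u ϖ ≠ 0 := by
    intro h0
    have h1 : algebraMap O L ϖ = 0 := by
      rw [← coe_piC u ϖ, h0]
      rfl
    exact hϖ.ne_zero (hinjO (h1.trans (map_zero _).symm))
  obtain ⟨oC, hoC⟩ : ∃ oC : O →+* Chart O u, ∀ r : O, ((oC r : Chart O u) : L) = algebraMap O L r
      ∧ oC ϖ = piC u ϖ :=
    ⟨(algebraMap (Algebra.adjoin O {u}) (Chart O u)).comp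
      (algebraMap O (Algebra.adjoin O {u})), fun r => ⟨rfl, rfl⟩⟩
  have hcomp : (β.comp (algebraMap (Chart O u) L)).comp oC = (algebraMap Os Ls).comp φ :=
    RingHom.ext fun r => by
      show β ((oC r : Chart O u) : L) = algebraMap Os Ls (φ r)
      rw [(hoC r).1, hβO]
  have hκ0 : (θ.map oC).eval 0 ∉ y := by
    rw [Polynomial.eval_map, Polynomial.eval₂_at_zero, Polynomial.coeff_zero_eq_eval_zero]
    intro hmem
    exact (Ideal.IsPrime.ne_top inferInstance) (Ideal.eq_top_of_isUnit_mem _ hmem (hθ0.map oC))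
  have hπs : (algebraMap Os Ls ϖs) ^ p = β (algebraMap (Chart O u) L (piC u ϖ))
      * (θ.map oC).eval₂ (β.comp (algebraMap (Chart O u) L)) (algebraMap Os Ls ϖs) := by
    rw [Polynomial.eval₂_map, hcomp, ← Polynomial.hom_eval₂, ← map_pow, hθ, map_mul]
    congr 1
    exact (hβO ϖ).symm
  obtain ⟨a₀, b₀, c₁, s₁, gg, ξ, m, ha₀, hb₀, hs₁, hgg, hξ, hxe⟩ :=
    exists_smooth_fraction y β hBβ (algebraMap Os Ls ϖs) hp
      (RingHom.ker (redHom σ₁ hσO₁ ϖ hϖ hσfrac₁ u U₁ hσu₁)) hI (piC u ϖ) hπ0 hp₁.1 hp₁.2 z hz hm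
      (θ.map oC) (lt_of_le_of_lt Polynomial.natDegree_map_le hθdeg) hκ0 hπs hspan hx hord
  have hσπ : σs (algebraMap Os Ls ϖs)
      = ((GaussDVR.unif Ks ϖs : GaussDVR.V Os Ks) : LaurentSeries Ks) := by
    rw [hσsO, GaussDVR.coe_unif]
  have hgI : σs gg ∈ GaussDVR.V Os Ks :=
    mem_V_of_mem_adjoin φ ψ hφψ ϖ hϖ u σ₁ hσO₁ hσfrac₁ U₁ hσu₁ y hI β hBβ σs hσβ₁ _
      (by rw [hσπ]; exact Subtype.coe_prop _) hgg
  obtain ⟨v, N, hh, hv, hvx, hvd, hvr⟩ :=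
    smooth_alt_core φ ψ hφψ h hϖs hD hpres y (β.comp (algebraMap (Chart O u) L))
      (algebraMap Os Ls ϖs) (toV σ₁ hσO₁ ϖ hϖ hσfrac₁ u U₁ hσu₁) σs hσsfrac
      (fun c => hσβ₁ (c : L)) hσπ (fun s hs h0 => hs (hI (RingHom.mem_ker.mpr h0)))
      a₀ b₀ c₁ s₁ ha₀ hb₀ hs₁ gg ξ hgI hξ m x hxe
  exact ⟨a₀, b₀, c₁, s₁, ha₀, hb₀, hs₁, v, N, hh, hv, hvx, hvd, hvr⟩

include hφψ in
/-- **NODE-ALT in `IsRho` form**: `ρ_∞ x * r₁ s = r₁ c`, `ρ_0 x * r₂ s = r₂ c + j e₁ r₂ s`, and the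
Gauss reduction of `x` is `r₁ a / r₁ b * (r₁ t₂) ^ j * h ^ p`. -/
theorem node_alt_isRho (ϖ : O) (hϖ : Irreducible ϖ) (u : L)
    (σ₁ : L →+* LaurentSeries E)
    (hσO₁ : ∀ r : O, σ₁ (algebraMap O L r) = HahnSeries.C (algebraMap O E r))
    (hσfrac₁ : ∀ x : L, σ₁ x ∈ GaussDVR.fracField O E)
    (U₁ : LaurentSeries O) (hσu₁ : σ₁ u = GaussDVR.iota O E U₁)
    (σ₂ : L →+* LaurentSeries E)
    (hσO₂ : ∀ r : O, σ₂ (algebraMap O L r) = HahnSeries.C (algebraMap O E r))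
    (hσfrac₂ : ∀ x : L, σ₂ x ∈ GaussDVR.fracField O E)
    (U₂ : LaurentSeries O) (hσu₂ : σ₂ u = GaussDVR.iota O E U₂)
    [IsFractionRing (Chart O u) L] (y : Ideal (Chart O u)) [y.IsPrime]
    [IsNoetherianRing (Localization.AtPrime y)]
    (hI : RingHom.ker (redHom σ₁ hσO₁ ϖ hϖ hσfrac₁ u U₁ hσu₁) ≤ y)
    (hZ : RingHom.ker (redHom σ₂ hσO₂ ϖ hϖ hσfrac₂ u U₂ hσu₂) ≤ y)
    (t₁ t₂ g : Chart O u) (hg : g ∉ y) (hmul : t₁ * t₂ = piC u ϖ * g)
    (hp₁ : t₁ ∈ RingHom.ker (redHom σ₁ hσO₁ ϖ hϖ hσfrac₁ u U₁ hσu₁) ∧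
      ∀ x ∈ RingHom.ker (redHom σ₁ hσO₁ ϖ hϖ hσfrac₁ u U₁ hσu₁),
        ∃ s, s ∉ y ∧ s * x ∈ Ideal.span {t₁})
    (hp₂ : t₂ ∈ RingHom.ker (redHom σ₂ hσO₂ ϖ hϖ hσfrac₂ u U₂ hσu₂) ∧
      ∀ x ∈ RingHom.ker (redHom σ₂ hσO₂ ϖ hϖ hσfrac₂ u U₂ hσu₂),
        ∃ s, s ∉ y ∧ s * x ∈ Ideal.span {t₂})
    (hne : t₁ ∉ RingHom.ker (redHom σ₂ hσO₂ ϖ hϖ hσfrac₂ u U₂ hσu₂))
    (hm : ∀ m ∈ y, ∃ s, s ∉ y ∧ s * m ∈ Ideal.span {t₁, t₂})
    {ϖs : Os} {D : Os → IsLocalRing.ResidueField Os}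
    (h : IsFirstOrder (IsLocalRing.residue Os) ϖs D) (hϖs : Irreducible ϖs)
    (hD : ∀ a : O, D (φ a) = 0)
    {p : ℕ} (hp : p ≠ 0) (hpres : (p : IsLocalRing.ResidueField Os) = 0)
    (θ : O[X]) (hθdeg : θ.natDegree < p) (hθ0 : IsUnit (θ.eval 0))
    (hθ : ϖs ^ p = φ ϖ * θ.eval₂ φ ϖs)
    (ε : Os) (n : ℕ) (hε : φ ϖ = ε * ϖs ^ n) (hεr : IsLocalRing.residue Os ε ≠ 0)
    (e₁ : IsLocalRing.ResidueField Os) (he₁ : D ε = e₁ * IsLocalRing.residue Os ε)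
    {Ls : Type*} [Field Ls] [Algebra Os Ls] (β : L →+* Ls)
    (hβO : ∀ r : O, β (algebraMap O L r) = algebraMap Os Ls (φ r))
    (σs : Ls →+* LaurentSeries Ks)
    (hσsO : ∀ r : Os, σs (algebraMap Os Ls r) = HahnSeries.C (algebraMap Os Ks r))
    (hσsfrac : ∀ x : Ls, σs x ∈ GaussDVR.fracField Os Ks)
    (ws : Ls →+* Ls) (hwsO : ∀ r : Os, ws (algebraMap Os Ls r) = algebraMap Os Ls r)
    (hσβ₁ : ∀ x : L, σs (β x) = coeffMap ψ (σ₁ x))
    (hσβ₂ : ∀ x : L, σs (ws (β x)) = coeffMap ψ (σ₂ x))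
    (hspan : ∀ x : Ls, ∃ P : L[X], x = P.eval₂ β (algebraMap Os Ls ϖs))
    [Algebra (Localization.AtPrime y) Ls]
    (hBβ : ∀ c : Chart O u, algebraMap (Localization.AtPrime y) Ls
      (algebraMap (Chart O u) (Localization.AtPrime y) c) = β (c : L))
    {x : Ls} (hx : x ≠ 0)
    (hord : ∀ Q : Ideal (Algebra.adjoin (Localization.AtPrime y)
        ({algebraMap Os Ls ϖs} : Set Ls)), Q.IsPrime →
      (⟨algebraMap Os Ls ϖs, Algebra.self_mem_adjoin_singleton _ _⟩ :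
        Algebra.adjoin (Localization.AtPrime y) ({algebraMap Os Ls ϖs} : Set Ls)) ∉ Q →
      ∃ (a b : Algebra.adjoin (Localization.AtPrime y) ({algebraMap Os Ls ϖs} : Set Ls))
        (τ : Ls), a ∉ Q ∧ b ∉ Q ∧
        algebraMap (Algebra.adjoin (Localization.AtPrime y) ({algebraMap Os Ls ϖs} : Set Ls))
            Ls b * x
          = algebraMap (Algebra.adjoin (Localization.AtPrime y)
            ({algebraMap Os Ls ϖs} : Set Ls)) Ls a * τ ^ p) :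
    ∃ (j : ℤ) (a b c s : Chart O u) (ρ₁ ρ₂ : LaurentSeries (IsLocalRing.ResidueField Os)),
      a ∉ y ∧ b ∉ y ∧ s ∉ y ∧
      Fermat.Agent.S44.L.RhoGauss.IsRho h (σs x) ρ₁ ∧
      ρ₁ * resL φ (redHom σ₁ hσO₁ ϖ hϖ hσfrac₁ u U₁ hσu₁ s)
        = resL φ (redHom σ₁ hσO₁ ϖ hϖ hσfrac₁ u U₁ hσu₁ c) ∧
      Fermat.Agent.S44.L.RhoGauss.IsRho h (σs (ws x)) ρ₂ ∧
      ρ₂ * resL φ (redHom σ₂ hσO₂ ϖ hϖ hσfrac₂ u U₂ hσu₂ s)
        = resL φ (redHom σ₂ hσO₂ ϖ hϖ hσfrac₂ u U₂ hσu₂ c)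
          + j • (HahnSeries.C e₁ * resL φ (redHom σ₂ hσO₂ ϖ hϖ hσfrac₂ u U₂ hσu₂ s)) ∧
      ∃ (v : GaussDVR.V Os Ks) (N : ℤ) (hh : LaurentSeries (IsLocalRing.ResidueField Os)),
        GaussDVR.red Os Ks v ≠ 0 ∧
        σs x = ((GaussDVR.unif Ks ϖs : GaussDVR.V Os Ks) : LaurentSeries Ks) ^ N
          * (v : LaurentSeries Ks) ∧
        GaussDVR.red Os Ks v * resL φ (redHom σ₁ hσO₁ ϖ hϖ hσfrac₁ u U₁ hσu₁ b)
          = resL φ (redHom σ₁ hσO₁ ϖ hϖ hσfrac₁ u U₁ hσu₁ a)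
            * resL φ (redHom σ₁ hσO₁ ϖ hϖ hσfrac₁ u U₁ hσu₁ t₂) ^ j * hh ^ p := by
  obtain ⟨j, a, b, c, s, ha, hb, hs, ⟨v, N, hh, hv, hvx, hvd, hvr⟩, ⟨v', N', hv', hvx', hvd'⟩⟩ :=
    node_alt φ ψ hφψ ϖ hϖ u σ₁ hσO₁ hσfrac₁ U₁ hσu₁ σ₂ hσO₂ hσfrac₂ U₂ hσu₂ y hI hZ t₁ t₂ g hg
      hmul hp₁ hp₂ hne hm h hϖs hD hp hpres θ hθdeg hθ0 hθ ε n hε hεr e₁ he₁ β hβO σs hσsO
      hσsfrac ws hwsO hσβ₁ hσβ₂ hspan hBβ hx hord
  refine ⟨j, a, b, c, s, dV Os Ks h v / GaussDVR.red Os Ks v,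
    dV Os Ks h v' / GaussDVR.red Os Ks v', ha, hb, hs, isRho_of_zpow h hϖs hv hvx, ?_,
    isRho_of_zpow h hϖs hv' hvx', ?_, v, N, hh, hv, hvx, hvr⟩
  · rw [div_mul_eq_mul_div, hvd, mul_div_cancel_left₀ _ hv]
  · rw [div_mul_eq_mul_div, hvd', mul_div_cancel_left₀ _ hv']

include hφψ in
/-- **SMOOTH-ALT in `IsRho` form**: `ρ x * r₁ s = r₁ c` and the Gauss reduction of `x` is
`r₁ a / r₁ b * h ^ p`. -/
theorem smooth_alt_isRho (ϖ : O) (hϖ : Irreducible ϖ) (u : L)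
    (σ₁ : L →+* LaurentSeries E)
    (hσO₁ : ∀ r : O, σ₁ (algebraMap O L r) = HahnSeries.C (algebraMap O E r))
    (hσfrac₁ : ∀ x : L, σ₁ x ∈ GaussDVR.fracField O E)
    (U₁ : LaurentSeries O) (hσu₁ : σ₁ u = GaussDVR.iota O E U₁)
    [IsFractionRing (Chart O u) L] (y : Ideal (Chart O u)) [y.IsPrime]
    [IsNoetherianRing (Localization.AtPrime y)]
    (hI : RingHom.ker (redHom σ₁ hσO₁ ϖ hϖ hσfrac₁ u U₁ hσu₁) ≤ y)
    (hp₁ : piC u ϖ ∈ RingHom.ker (redHom σ₁ hσO₁ ϖ hϖ hσfrac₁ u U₁ hσu₁) ∧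
      ∀ x ∈ RingHom.ker (redHom σ₁ hσO₁ ϖ hϖ hσfrac₁ u U₁ hσu₁),
        ∃ s, s ∉ y ∧ s * x ∈ Ideal.span {piC u ϖ})
    (z : Chart O u) (hz : z ∈ y)
    (hm : ∀ m ∈ y, ∃ s, s ∉ y ∧ s * m ∈ Ideal.span {piC u ϖ, z})
    {ϖs : Os} {D : Os → IsLocalRing.ResidueField Os}
    (h : IsFirstOrder (IsLocalRing.residue Os) ϖs D) (hϖs : Irreducible ϖs)
    (hD : ∀ a : O, D (φ a) = 0)
    {p : ℕ} (hp : p ≠ 0) (hpres : (p : IsLocalRing.ResidueField Os) = 0)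
    (θ : O[X]) (hθdeg : θ.natDegree < p) (hθ0 : IsUnit (θ.eval 0))
    (hθ : ϖs ^ p = φ ϖ * θ.eval₂ φ ϖs)
    {Ls : Type*} [Field Ls] [Algebra Os Ls] (β : L →+* Ls)
    (hβO : ∀ r : O, β (algebraMap O L r) = algebraMap Os Ls (φ r))
    (σs : Ls →+* LaurentSeries Ks)
    (hσsO : ∀ r : Os, σs (algebraMap Os Ls r) = HahnSeries.C (algebraMap Os Ks r))
    (hσsfrac : ∀ x : Ls, σs x ∈ GaussDVR.fracField Os Ks)
    (hσβ₁ : ∀ x : L, σs (β x) = coeffMap ψ (σ₁ x))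
    (hspan : ∀ x : Ls, ∃ P : L[X], x = P.eval₂ β (algebraMap Os Ls ϖs))
    [Algebra (Localization.AtPrime y) Ls]
    (hBβ : ∀ c : Chart O u, algebraMap (Localization.AtPrime y) Ls
      (algebraMap (Chart O u) (Localization.AtPrime y) c) = β (c : L))
    {x : Ls} (hx : x ≠ 0)
    (hord : ∀ Q : Ideal (Algebra.adjoin (Localization.AtPrime y)
        ({algebraMap Os Ls ϖs} : Set Ls)), Q.IsPrime →
      (⟨algebraMap Os Ls ϖs, Algebra.self_mem_adjoin_singleton _ _⟩ :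
        Algebra.adjoin (Localization.AtPrime y) ({algebraMap Os Ls ϖs} : Set Ls)) ∉ Q →
      ∃ (a b : Algebra.adjoin (Localization.AtPrime y) ({algebraMap Os Ls ϖs} : Set Ls))
        (τ : Ls), a ∉ Q ∧ b ∉ Q ∧
        algebraMap (Algebra.adjoin (Localization.AtPrime y) ({algebraMap Os Ls ϖs} : Set Ls))
            Ls b * x
          = algebraMap (Algebra.adjoin (Localization.AtPrime y)
            ({algebraMap Os Ls ϖs} : Set Ls)) Ls a * τ ^ p) :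
    ∃ (a b c s : Chart O u) (ρ₁ : LaurentSeries (IsLocalRing.ResidueField Os)),
      a ∉ y ∧ b ∉ y ∧ s ∉ y ∧
      Fermat.Agent.S44.L.RhoGauss.IsRho h (σs x) ρ₁ ∧
      ρ₁ * resL φ (redHom σ₁ hσO₁ ϖ hϖ hσfrac₁ u U₁ hσu₁ s)
        = resL φ (redHom σ₁ hσO₁ ϖ hϖ hσfrac₁ u U₁ hσu₁ c) ∧
      ∃ (v : GaussDVR.V Os Ks) (N : ℤ) (hh : LaurentSeries (IsLocalRing.ResidueField Os)),
        GaussDVR.red Os Ks v ≠ 0 ∧
        σs x = ((GaussDVR.unif Ks ϖs : GaussDVR.V Os Ks) : LaurentSeries Ks) ^ N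
          * (v : LaurentSeries Ks) ∧
        GaussDVR.red Os Ks v * resL φ (redHom σ₁ hσO₁ ϖ hϖ hσfrac₁ u U₁ hσu₁ b)
          = resL φ (redHom σ₁ hσO₁ ϖ hϖ hσfrac₁ u U₁ hσu₁ a) * hh ^ p := by
  obtain ⟨a, b, c, s, ha, hb, hs, v, N, hh, hv, hvx, hvd, hvr⟩ :=
    smooth_alt φ ψ hφψ ϖ hϖ u σ₁ hσO₁ hσfrac₁ U₁ hσu₁ y hI hp₁ z hz hm h hϖs hD hp hpres θ hθdeg
      hθ0 hθ β hβO σs hσsO hσsfrac hσβ₁ hspan hBβ hx hord
  refine ⟨a, b, c, s, dV Os Ks h v / GaussDVR.red Os Ks v, ha, hb, hs,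
    isRho_of_zpow h hϖs hv hvx, ?_, v, N, hh, hv, hvx, hvr⟩
  rw [div_mul_eq_mul_div, hvd, mul_div_cancel_left₀ _ hv]

end Gauss

end Fermat.Agent.S44.L.Alt.NodeAlt
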