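import Mathlib
import Fermat.Agent.S44.L.NodeLocInstInf
import Fermat.Agent.S44.L.Alt.NodeAlt

/-!
# PROGRAM MR (S44), strand L, cover-free ALT for SLOPE, row ALT.5: SMOOTH-ALT on the chart at
# infinity `Chart O (α u₄⁻¹)` (helper192)

`S44/L/Alt/NodeAlt.smooth_alt` at the objects of `S44/L/NodeC1InstInf` (`smooth_inf_s4`,
`smooth_zero_s4`; binder block of `NodeC1InstInf` `section Generic`): levels `(M, M q)`, `q` an
odd prime, `q ∤ M`, `4 ∣ M`, `O` a discrete valuation ring of residue characteristic `q` with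
fraction field `E ⊆ ℚ̄`, `2 ∈ Oˣ` (no unramifiedness), `C∞ = Chart O (α u₄⁻¹)`,
`rI = redInf`, `rZ = redZero` at the coordinate `s = u₄⁻¹` (`q`-expansion `posO O s4Z`).

The extension is ABSTRACT (binder block of `NodeAlt.smooth_alt`), as in `Alt/NodeAltU4`.

* `smooth_alt_inf_s4` : (S a), (S b) at every maximal `y ⊇ p_∞`, `y ⊉ p_0` of `C∞`.
* `smooth_alt_zero_s4` : (S a), (S b) for `ws x` at every maximal `y ⊇ p_0`, `y ⊉ p_∞` of `C∞`.

By `NodeC1InstInf.cusp_s4` every maximal `y ∋ π, u₄⁻¹` of `C∞` (the points over `u₄ = ∞`) is of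
one of these two kinds.
-/

set_option autoImplicit false
set_option linter.unusedSectionVars false
set_option linter.unusedVariables false
set_option linter.style.haveILetI false
set_option synthInstance.maxHeartbeats 400000
set_option maxHeartbeats 1000000

open ModularCurve Polynomial IntermediateField

noncomputable section

namespace Fermat.Agent.S44.L.Alt.NodeAltS4

open Fermat.Agent.S30 Fermat.Agent.S34 Fermat.Agent.S34.TwoPrimesGauss
open Fermat.Agent.S36.PrinAt Fermat.Agent.S30.Model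
open Fermat.Agent.S18.K1Defs Fermat.Agent.S18.K1Main
open Fermat.Agent.S34.TwoPrimesRank Fermat.Agent.S34.HauptU.Plug
open Fermat.Agent.S34.HauptU.LevelMAux
open Fermat.Agent.S36.Haupt4 Fermat.Agent.S36.LevelQInstAlt
open Fermat.Agent.S44.L.FirstOrder Fermat.Agent.S44.L.Alt.NodeAltCore

local notation "Qb" => AlgebraicClosure ℚ

/-- The residue characteristic goes up along a local homomorphism. -/
theorem natCast_residue_eq_zero' {O Os : Type*} [CommRing O] [IsLocalRing O] [CommRing Os]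
    [IsLocalRing Os] (φ : O →+* Os) [IsLocalHom φ] (q : ℕ)
    [CharP (IsLocalRing.ResidueField O) q] : ((q : ℕ) : IsLocalRing.ResidueField Os) = 0 := by
  have h1 : ((q : ℕ) : IsLocalRing.ResidueField O) = 0 := CharP.cast_eq_zero _ q
  have h2 := congrArg (IsLocalRing.ResidueField.map φ) h1
  rwa [map_natCast, map_zero] at h2

section Generic

variable (M q : ℕ) [NeZero M] [NeZero q] (E : IntermediateField ℚ Qb)
  {O : Type} [CommRing O] [IsDomain O] [IsDiscreteValuationRing O]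
  [Algebra O E] [IsFractionRing O E]
  {Os Ks : Type*} [CommRing Os] [IsDomain Os] [IsDiscreteValuationRing Os] [Field Ks]
  [Algebra Os Ks] [FaithfulSMul Os Ks]
  (φ : O →+* Os) [IsLocalHom φ] (ψ : E →+* Ks)
  (hφψ : ∀ a : O, ψ (algebraMap O E a) = algebraMap Os Ks (φ a))
  (hq : q.Prime) (hodd : q ≠ 2) (hqM : ¬ q ∣ M) (h4 : 4 ∣ M)
  (h2 : IsUnit (2 : O)) (hFG : FinGaussC M O E) (π : O) (hπ : Irreducible π)
  (hchar : CharP (IsLocalRing.ResidueField O) q)
  (hσfrac : ∀ x : LE (M * q) E, sigmaHom (M * q) E x ∈ GaussDVR.fracField O E)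

local notation "CS" => Chart O (alphaHom M q E (u4E M E h4)⁻¹)
local notation "rI" => redInf π hπ (alphaHom M q E) (sigmaHom (M * q) E)
  (sigmaHom_algebraMap (M * q) E) hσfrac (u4E M E h4)⁻¹
  (HauptU.E.posO O Fermat.Agent.S36.SqChart.Coord4.s4Z)
  (Fermat.Agent.S36.SqChart.Coord4.hσ1u_s4 M E q h4)
local notation "rZ" => redZero π hπ (alphaHom M q E) (sigmaHom (M * q) E)
  (sigmaHom_algebraMap (M * q) E) hσfrac (u4E M E h4)⁻¹
  (HauptU.E.posO O Fermat.Agent.S36.SqChart.Coord4.s4Z)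
  (Fermat.Agent.S36.SqChart.Coord4.hσ1u_s4 M E q h4)
  (wHom M q E hq hqM) (wHom_algebraMap M q E hq hqM) q (sigmaHom_wHom_alpha M q E hq hqM)

include hφψ hodd h2 hFG hchar in
/-- **SMOOTH-ALT at the chart at infinity, `∞`-component, statements (S a), (S b)**: at every
maximal ideal `y` of `C∞ = Chart O (α u₄⁻¹)` on the `∞`-component only. -/
theorem smooth_alt_inf_s4 {ϖs : Os} {D : Os → IsLocalRing.ResidueField Os}
    (h : IsFirstOrder (IsLocalRing.residue Os) ϖs D) (hϖs : Irreducible ϖs)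
    (hD : ∀ a : O, D (φ a) = 0)
    (θ : O[X]) (hθdeg : θ.natDegree < q) (hθ0 : IsUnit (θ.eval 0))
    (hθ : ϖs ^ q = φ π * θ.eval₂ φ ϖs)
    {Ls : Type*} [Field Ls] [Algebra Os Ls] :
    letI := algebraOL O E (LE M E)
    letI := algebraOL O E (LE (M * q) E)
    haveI := isScalarTower_OL O E (LE M E)
    haveI := isScalarTower_OL O E (LE (M * q) E)
    ∀ (β : LE (M * q) E →+* Ls)
      (hβO : ∀ r : O, β (algebraMap O (LE (M * q) E) r) = algebraMap Os Ls (φ r))
      (σs : Ls →+* LaurentSeries Ks)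
      (hσsO : ∀ r : Os, σs (algebraMap Os Ls r) = HahnSeries.C (algebraMap Os Ks r))
      (hσsfrac : ∀ x : Ls, σs x ∈ GaussDVR.fracField Os Ks)
      (hσβ₁ : ∀ x : LE (M * q) E, σs (β x) = coeffMap ψ (sigmaHom (M * q) E x))
      (hspan : ∀ x : Ls, ∃ P : (LE (M * q) E)[X], x = P.eval₂ β (algebraMap Os Ls ϖs))
      (y : Ideal CS) [y.IsMaximal] [Algebra (Localization.AtPrime y) Ls]
      (hBβ : ∀ c : CS, algebraMap (Localization.AtPrime y) Ls
        (algebraMap CS (Localization.AtPrime y) c) = β (c : LE (M * q) E))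
      (hI : RingHom.ker rI ≤ y) (hZ : ¬ RingHom.ker rZ ≤ y)
      (x : Ls) (hx : x ≠ 0)
      (hord : ∀ Q : Ideal (Algebra.adjoin (Localization.AtPrime y)
          ({algebraMap Os Ls ϖs} : Set Ls)), Q.IsPrime →
        (⟨algebraMap Os Ls ϖs, Algebra.self_mem_adjoin_singleton _ _⟩ :
          Algebra.adjoin (Localization.AtPrime y) ({algebraMap Os Ls ϖs} : Set Ls)) ∉ Q →
        ∃ (a b : Algebra.adjoin (Localization.AtPrime y) ({algebraMap Os Ls ϖs} : Set Ls))
          (τ : Ls), a ∉ Q ∧ b ∉ Q ∧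
          algebraMap (Algebra.adjoin (Localization.AtPrime y) ({algebraMap Os Ls ϖs} : Set Ls))
              Ls b * x
            = algebraMap (Algebra.adjoin (Localization.AtPrime y)
              ({algebraMap Os Ls ϖs} : Set Ls)) Ls a * τ ^ q),
      ∃ (a b c s : CS), a ∉ y ∧ b ∉ y ∧ s ∉ y ∧
        ∃ (v : GaussDVR.V Os Ks) (N : ℤ) (hh : LaurentSeries (IsLocalRing.ResidueField Os)),
          GaussDVR.red Os Ks v ≠ 0 ∧
          σs x = ((GaussDVR.unif Ks ϖs : GaussDVR.V Os Ks) : LaurentSeries Ks) ^ N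
            * (v : LaurentSeries Ks) ∧
          dV Os Ks h v * resL φ (rI s) = GaussDVR.red Os Ks v * resL φ (rI c) ∧
          GaussDVR.red Os Ks v * resL φ (rI b) = resL φ (rI a) * hh ^ q := by
  classical
  letI := algebraOL O E (LE M E)
  letI := algebraOL O E (LE (M * q) E)
  haveI := isScalarTower_OL O E (LE M E)
  haveI := isScalarTower_OL O E (LE (M * q) E)
  intro β hβO σs hσsO hσsfrac hσβ₁ hspan y hy _ hBβ hI hZ x hx hord
  have hfg := u4_fin_gauss M E h4 hFG
  have hfin : FiniteDimensional (IntermediateField.adjoin E {u4E M E h4}) (LE M E) := hfg.1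
  haveI := hfin
  haveI hfin' : FiniteDimensional (IntermediateField.adjoin E {(u4E M E h4)⁻¹}) (LE M E) :=
    Fermat.Agent.S36.SqChart.Coord4.finite_u4E_inv M E h4
  have hcf := Fermat.Agent.S36.Haupt4.Fibre.chartFacts_u4 M E h4 h2 hFG π hπ
  haveI : Fact q.Prime := ⟨hq⟩
  haveI := hchar
  have hT : Transcendental E (u4E M E h4)⁻¹ := hcf.transcendental_inv
  haveI := Fermat.Agent.S44.L.NodeLocInstInf.finiteDimensional_alpha_s4 M q E h4
  haveI : IsFractionRing CS (LE (M * q) E) :=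
    Fermat.Agent.S44.L.NodeLocInstInf.isFractionRing_chart_s4 (O := O) M q E h4
  haveI hNoeth : IsNoetherianRing CS :=
    Fermat.Agent.S44.L.NodeLocInst.isNoetherianRing_chart' (O := O) (E := E)
      (alphaHom M q E (u4E M E h4)⁻¹)
      (Fermat.Agent.S36.A2.transcendental_alpha (O := O) (alphaHom M q E)
        (alphaHom_algebraMap M q E)
        (u4E M E h4)⁻¹ hT)
  haveI : IsNoetherianRing (Localization.AtPrime y) :=
    Fermat.Agent.S44.L.NodeLoc.isNoetherianRing_localization y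
  have key := Fermat.Agent.S44.L.NodeC1InstInf.smooth_inf_s4 M q E hq hodd hqM
    h4 h2 hFG π hπ hchar hσfrac y hy hI hZ
  obtain ⟨hprin, z, hz, hm⟩ := key
  have hpres : ((q : ℕ) : IsLocalRing.ResidueField Os) = 0 := natCast_residue_eq_zero' φ q
  exact Fermat.Agent.S44.L.Alt.NodeAlt.smooth_alt φ ψ hφψ π hπ (alphaHom M q E (u4E M E h4)⁻¹)
    (sigmaHom (M * q) E) (sigmaHom_algebraMap (M * q) E) hσfrac
    (HauptU.E.posO O Fermat.Agent.S36.SqChart.Coord4.s4Z)
    (Fermat.Agent.S36.SqChart.Coord4.hσ1u_s4 M E q h4)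
    y hI hprin z hz hm h hϖs hD (NeZero.ne q) hpres θ hθdeg hθ0 hθ β hβO σs hσsO hσsfrac hσβ₁
    hspan hBβ hx hord

include hφψ hodd h2 hFG hchar in
/-- **SMOOTH-ALT at the chart at infinity, `0`-component, statements (S a), (S b) for `ws x`**:
at every maximal ideal `y` of `C∞ = Chart O (α u₄⁻¹)` on the `0`-component only. -/
theorem smooth_alt_zero_s4 {ϖs : Os} {D : Os → IsLocalRing.ResidueField Os}
    (h : IsFirstOrder (IsLocalRing.residue Os) ϖs D) (hϖs : Irreducible ϖs)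
    (hD : ∀ a : O, D (φ a) = 0)
    (θ : O[X]) (hθdeg : θ.natDegree < q) (hθ0 : IsUnit (θ.eval 0))
    (hθ : ϖs ^ q = φ π * θ.eval₂ φ ϖs)
    {Ls : Type*} [Field Ls] [Algebra Os Ls] :
    letI := algebraOL O E (LE M E)
    letI := algebraOL O E (LE (M * q) E)
    haveI := isScalarTower_OL O E (LE M E)
    haveI := isScalarTower_OL O E (LE (M * q) E)
    ∀ (β : LE (M * q) E →+* Ls)
      (hβO : ∀ r : O, β (algebraMap O (LE (M * q) E) r) = algebraMap Os Ls (φ r))
      (σs : Ls →+* LaurentSeries Ks)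
      (hσsO : ∀ r : Os, σs (algebraMap Os Ls r) = HahnSeries.C (algebraMap Os Ks r))
      (hσsfrac : ∀ x : Ls, σs x ∈ GaussDVR.fracField Os Ks)
      (ws : Ls →+* Ls) (hwsO : ∀ r : Os, ws (algebraMap Os Ls r) = algebraMap Os Ls r)
      (hσβ₂ : ∀ x : LE (M * q) E,
        σs (ws (β x)) = coeffMap ψ (sigmaHom (M * q) E (wHom M q E hq hqM x)))
      (hspan : ∀ x : Ls, ∃ P : (LE (M * q) E)[X], x = P.eval₂ β (algebraMap Os Ls ϖs))
      (y : Ideal CS) [y.IsMaximal] [Algebra (Localization.AtPrime y) Ls]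
      (hBβ : ∀ c : CS, algebraMap (Localization.AtPrime y) Ls
        (algebraMap CS (Localization.AtPrime y) c) = β (c : LE (M * q) E))
      (hZ : RingHom.ker rZ ≤ y) (hI : ¬ RingHom.ker rI ≤ y)
      (x : Ls) (hx : x ≠ 0)
      (hord : ∀ Q : Ideal (Algebra.adjoin (Localization.AtPrime y)
          ({algebraMap Os Ls ϖs} : Set Ls)), Q.IsPrime →
        (⟨algebraMap Os Ls ϖs, Algebra.self_mem_adjoin_singleton _ _⟩ :
          Algebra.adjoin (Localization.AtPrime y) ({algebraMap Os Ls ϖs} : Set Ls)) ∉ Q →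
        ∃ (a b : Algebra.adjoin (Localization.AtPrime y) ({algebraMap Os Ls ϖs} : Set Ls))
          (τ : Ls), a ∉ Q ∧ b ∉ Q ∧
          algebraMap (Algebra.adjoin (Localization.AtPrime y) ({algebraMap Os Ls ϖs} : Set Ls))
              Ls b * x
            = algebraMap (Algebra.adjoin (Localization.AtPrime y)
              ({algebraMap Os Ls ϖs} : Set Ls)) Ls a * τ ^ q),
      ∃ (a b c s : CS), a ∉ y ∧ b ∉ y ∧ s ∉ y ∧
        ∃ (v : GaussDVR.V Os Ks) (N : ℤ) (hh : LaurentSeries (IsLocalRing.ResidueField Os)),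
          GaussDVR.red Os Ks v ≠ 0 ∧
          σs (ws x) = ((GaussDVR.unif Ks ϖs : GaussDVR.V Os Ks) : LaurentSeries Ks) ^ N
            * (v : LaurentSeries Ks) ∧
          dV Os Ks h v * resL φ (rZ s) = GaussDVR.red Os Ks v * resL φ (rZ c) ∧
          GaussDVR.red Os Ks v * resL φ (rZ b) = resL φ (rZ a) * hh ^ q := by
  classical
  letI := algebraOL O E (LE M E)
  letI := algebraOL O E (LE (M * q) E)
  haveI := isScalarTower_OL O E (LE M E)
  haveI := isScalarTower_OL O E (LE (M * q) E)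
  intro β hβO σs hσsO hσsfrac ws hwsO hσβ₂ hspan y hy _ hBβ hZ hI x hx hord
  have hfg := u4_fin_gauss M E h4 hFG
  have hfin : FiniteDimensional (IntermediateField.adjoin E {u4E M E h4}) (LE M E) := hfg.1
  haveI := hfin
  haveI hfin' : FiniteDimensional (IntermediateField.adjoin E {(u4E M E h4)⁻¹}) (LE M E) :=
    Fermat.Agent.S36.SqChart.Coord4.finite_u4E_inv M E h4
  have hcf := Fermat.Agent.S36.Haupt4.Fibre.chartFacts_u4 M E h4 h2 hFG π hπ
  haveI : Fact q.Prime := ⟨hq⟩
  haveI := hchar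
  have hT : Transcendental E (u4E M E h4)⁻¹ := hcf.transcendental_inv
  haveI := Fermat.Agent.S44.L.NodeLocInstInf.finiteDimensional_alpha_s4 M q E h4
  haveI : IsFractionRing CS (LE (M * q) E) :=
    Fermat.Agent.S44.L.NodeLocInstInf.isFractionRing_chart_s4 (O := O) M q E h4
  haveI hNoeth : IsNoetherianRing CS :=
    Fermat.Agent.S44.L.NodeLocInst.isNoetherianRing_chart' (O := O) (E := E)
      (alphaHom M q E (u4E M E h4)⁻¹)
      (Fermat.Agent.S36.A2.transcendental_alpha (O := O) (alphaHom M q E)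
        (alphaHom_algebraMap M q E)
        (u4E M E h4)⁻¹ hT)
  haveI : IsNoetherianRing (Localization.AtPrime y) :=
    Fermat.Agent.S44.L.NodeLoc.isNoetherianRing_localization y
  have key := Fermat.Agent.S44.L.NodeC1InstInf.smooth_zero_s4 M q E hq hodd hqM
    h4 h2 hFG π hπ hchar hσfrac y hy hZ hI
  obtain ⟨hprin, z, hz, hm⟩ := key
  have hpres : ((q : ℕ) : IsLocalRing.ResidueField Os) = 0 := natCast_residue_eq_zero' φ q
  have hσsO' : ∀ r : Os,
      (σs.comp ws) (algebraMap Os Ls r) = HahnSeries.C (algebraMap Os Ks r) := by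
    intro r
    rw [RingHom.comp_apply, hwsO, hσsO]
  exact Fermat.Agent.S44.L.Alt.NodeAlt.smooth_alt φ ψ hφψ π hπ (alphaHom M q E (u4E M E h4)⁻¹)
    ((sigmaHom (M * q) E).comp (wHom M q E hq hqM : LE (M * q) E →+* LE (M * q) E))
    (sigmaW_O (sigmaHom (M * q) E) (sigmaHom_algebraMap (M * q) E) (wHom M q E hq hqM)
      (wHom_algebraMap M q E hq hqM))
    (fun x => hσfrac (wHom M q E hq hqM x))
    (qExpand O q (HauptU.E.posO O Fermat.Agent.S36.SqChart.Coord4.s4Z))
    (sigmaW_u (alphaHom M q E) (sigmaHom (M * q) E) (u4E M E h4)⁻¹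
      (HauptU.E.posO O Fermat.Agent.S36.SqChart.Coord4.s4Z)
      (Fermat.Agent.S36.SqChart.Coord4.hσ1u_s4 M E q h4)
      (wHom M q E hq hqM) q (sigmaHom_wHom_alpha M q E hq hqM))
    y hZ hprin z hz hm h hϖs hD (NeZero.ne q) hpres θ hθdeg hθ0 hθ β hβO (σs.comp ws) hσsO'
    (fun x => hσsfrac (ws x)) hσβ₂ hspan hBβ hx hord

end Generic

end Fermat.Agent.S44.L.Alt.NodeAltS4
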