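import Mathlib
import Fermat.Agent.S44.L.Alt.NodeAltU4
import Fermat.Agent.S44.L.Alt.NodeAltS4

/-!
# PROGRAM MR (S44), strand L, cover-free ALT for SLOPE, row ALT.5: NODE-ALT / SMOOTH-ALT with the
# `C_y`-algebra built inside, `IsRho` exits (generic base, helper192)

`Alt/NodeAltU4` and `Alt/NodeAltS4` take an arbitrary `Algebra (Localization.AtPrime y) Ls`
restricting to `β` on the chart ring.  Here that algebra is constructed (`algebraLocBeta`: the
local ring `C_y ⊆ L` followed by `β : L → Ls`), the hypothesis `hord` is asked for ANY such algebra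
(`hordB`; supplier: `Alt/HordInst` at `B := Localization.AtPrime y`), and the exits are in the
`RhoGauss.IsRho` form of `NodeAlt.node_alt_isRho` / `NodeAlt.smooth_alt_isRho` (the literal
pointwise hypotheses of `Alt/ConstChart.isRho_const`).  No statement of this file mentions a
`Localization` outside `hordB`.

* `algebraLocBeta`, `algebraLocBeta_algebraMap` : level-free.
* `node_alt_u4_loc`, `smooth_alt_inf_u4_loc`, `smooth_alt_zero_u4_loc` : the chart
  `Chart O (α u₄)` (binder block of `Alt/NodeAltU4`).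
* `smooth_alt_inf_s4_loc`, `smooth_alt_zero_s4_loc` : the chart at infinity `Chart O (α u₄⁻¹)`
  (binder block of `Alt/NodeAltS4`).
-/

set_option autoImplicit false
set_option linter.unusedSectionVars false
set_option linter.unusedVariables false
set_option linter.style.haveILetI false
set_option synthInstance.maxHeartbeats 400000
set_option maxHeartbeats 1000000

open ModularCurve Polynomial IntermediateField

noncomputable section

namespace Fermat.Agent.S44.L.Alt.NodeAltLoc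

open Fermat.Agent.S30 Fermat.Agent.S34 Fermat.Agent.S34.TwoPrimesGauss
open Fermat.Agent.S36.PrinAt Fermat.Agent.S30.Model
open Fermat.Agent.S18.K1Defs Fermat.Agent.S18.K1Main
open Fermat.Agent.S34.TwoPrimesRank Fermat.Agent.S34.HauptU.Plug
open Fermat.Agent.S34.HauptU.LevelMAux
open Fermat.Agent.S36.Haupt4 Fermat.Agent.S36.LevelQInstAlt
open Fermat.Agent.S44.L.FirstOrder Fermat.Agent.S44.L.Alt.NodeAltCore

local notation "Qb" => AlgebraicClosure ℚ

/-! ### Level-free: the local ring acting through `β` -/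

section Alg

variable {C L Ls : Type*} [CommRing C] [IsDomain C] [Field L] [Algebra C L] [IsFractionRing C L]
  (y : Ideal C) [y.IsPrime] [Field Ls] (β : L →+* Ls)

/-- The local ring `C_y ⊆ L` acting on `Ls` through `β : L → Ls`. -/
@[reducible] def algebraLocBeta : Algebra (Localization.AtPrime y) Ls :=
  (β.comp (IsLocalization.lift (M := y.primeCompl) (g := algebraMap C L)
    (Fermat.Agent.S44.L.NodeLocInst.isUnit_algebraMap_primeCompl L y))).toAlgebra

theorem algebraLocBeta_algebraMap (c : C) :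
    letI := algebraLocBeta y β
    algebraMap (Localization.AtPrime y) Ls (algebraMap C (Localization.AtPrime y) c)
      = β (algebraMap C L c) := by
  letI := algebraLocBeta y β
  show β (IsLocalization.lift (Fermat.Agent.S44.L.NodeLocInst.isUnit_algebraMap_primeCompl L y)
    (algebraMap C (Localization.AtPrime y) c)) = _
  rw [IsLocalization.lift_eq]

end Alg

/-! ### The chart `Chart O (α u₄)` -/

section U4

variable (M q : ℕ) [NeZero M] [NeZero q] (E : IntermediateField ℚ Qb)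
  {O : Type} [CommRing O] [IsDomain O] [IsDiscreteValuationRing O]
  [Algebra O E] [IsFractionRing O E]
  {Os Ks : Type*} [CommRing Os] [IsDomain Os] [IsDiscreteValuationRing Os] [Field Ks]
  [Algebra Os Ks] [FaithfulSMul Os Ks]
  (φ : O →+* Os) [IsLocalHom φ] (ψ : E →+* Ks)
  (hφψ : ∀ a : O, ψ (algebraMap O E a) = algebraMap Os Ks (φ a))
  (hq : q.Prime) (hodd : q ≠ 2) (hqM : ¬ q ∣ M) (h4 : 4 ∣ M)
  (h2 : IsUnit (2 : O)) (hFG : FinGaussC M O E) (π : O) (hπ : Irreducible π)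
  (e : O) (he : IsUnit e) (hqe : ((q : ℕ) : O) = π * e)
  (hσfrac : ∀ x : LE (M * q) E, sigmaHom (M * q) E x ∈ GaussDVR.fracField O E)

local notation "CU" => Chart O (alphaHom M q E (u4E M E h4))
local notation "rI" => redInf π hπ (alphaHom M q E) (sigmaHom (M * q) E)
  (sigmaHom_algebraMap (M * q) E) hσfrac (u4E M E h4) (u4 O) (hσu_u4 M q E h4)
local notation "rZ" => redZero π hπ (alphaHom M q E) (sigmaHom (M * q) E)
  (sigmaHom_algebraMap (M * q) E) hσfrac (u4E M E h4) (u4 O) (hσu_u4 M q E h4)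
  (wHom M q E hq hqM) (wHom_algebraMap M q E hq hqM) q (sigmaHom_wHom_alpha M q E hq hqM)
local notation "uC" => incl (alphaHom M q E) (alphaHom_algebraMap M q E) (u4E M E h4)
  (polyChart (u4E M E h4) X)
local notation "vC" => Fermat.Agent.S34.Modular.ChartZero.wChart (alphaHom M q E) (u4E M E h4)
  (wHom M q E hq hqM) (wHom_algebraMap M q E hq hqM) (wHom_wHom M q E hq hqM)
  (hwu_u4 M q E h2 hq hodd hqM h4)
  (incl (alphaHom M q E) (alphaHom_algebraMap M q E) (u4E M E h4) (polyChart (u4E M E h4) X))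

include hφψ hodd h2 hFG he hqe in
/-- **NODE-ALT at `u₄`, `IsRho` form, algebra built inside**: at every maximal ideal `y` of
`C = Chart O (α u₄)` on both components. -/
theorem node_alt_u4_loc {ϖs : Os} {D : Os → IsLocalRing.ResidueField Os}
    (h : IsFirstOrder (IsLocalRing.residue Os) ϖs D) (hϖs : Irreducible ϖs)
    (hD : ∀ a : O, D (φ a) = 0)
    (θ : O[X]) (hθdeg : θ.natDegree < q) (hθ0 : IsUnit (θ.eval 0))
    (hθ : ϖs ^ q = φ π * θ.eval₂ φ ϖs)
    (ε : Os) (n : ℕ) (hε : φ π = ε * ϖs ^ n) (hεr : IsLocalRing.residue Os ε ≠ 0)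
    (e₁ : IsLocalRing.ResidueField Os) (he₁ : D ε = e₁ * IsLocalRing.residue Os ε)
    {Ls : Type*} [Field Ls] [Algebra Os Ls] :
    letI := algebraOL O E (LE M E)
    letI := algebraOL O E (LE (M * q) E)
    haveI := isScalarTower_OL O E (LE M E)
    haveI := isScalarTower_OL O E (LE (M * q) E)
    ∀ (β : LE (M * q) E →+* Ls)
      (hβO : ∀ r : O, β (algebraMap O (LE (M * q) E) r) = algebraMap Os Ls (φ r))
      (σs : Ls →+* LaurentSeries Ks)
      (hσsO : ∀ r : Os, σs (algebraMap Os Ls r) = HahnSeries.C (algebraMap Os Ks r))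
      (hσsfrac : ∀ x : Ls, σs x ∈ GaussDVR.fracField Os Ks)
      (ws : Ls →+* Ls) (hwsO : ∀ r : Os, ws (algebraMap Os Ls r) = algebraMap Os Ls r)
      (hσβ₁ : ∀ x : LE (M * q) E, σs (β x) = coeffMap ψ (sigmaHom (M * q) E x))
      (hσβ₂ : ∀ x : LE (M * q) E,
        σs (ws (β x)) = coeffMap ψ (sigmaHom (M * q) E (wHom M q E hq hqM x)))
      (hspan : ∀ x : Ls, ∃ P : (LE (M * q) E)[X], x = P.eval₂ β (algebraMap Os Ls ϖs))
      (y : Ideal CU) [y.IsMaximal]
      (hI : RingHom.ker rI ≤ y) (hZ : RingHom.ker rZ ≤ y)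
      (x : Ls) (hx : x ≠ 0)
      (hordB : ∀ [Algebra (Localization.AtPrime y) Ls]
        (hBβ : ∀ c : CU, algebraMap (Localization.AtPrime y) Ls
          (algebraMap CU (Localization.AtPrime y) c) = β (c : LE (M * q) E)),
        ∀ Q : Ideal (Algebra.adjoin (Localization.AtPrime y)
          ({algebraMap Os Ls ϖs} : Set Ls)), Q.IsPrime →
        (⟨algebraMap Os Ls ϖs, Algebra.self_mem_adjoin_singleton _ _⟩ :
          Algebra.adjoin (Localization.AtPrime y) ({algebraMap Os Ls ϖs} : Set Ls)) ∉ Q →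
        ∃ (a b : Algebra.adjoin (Localization.AtPrime y) ({algebraMap Os Ls ϖs} : Set Ls))
          (τ : Ls), a ∉ Q ∧ b ∉ Q ∧
          algebraMap (Algebra.adjoin (Localization.AtPrime y) ({algebraMap Os Ls ϖs} : Set Ls))
              Ls b * x
            = algebraMap (Algebra.adjoin (Localization.AtPrime y)
              ({algebraMap Os Ls ϖs} : Set Ls)) Ls a * τ ^ q),
      ∃ (j : ℤ) (a b c s : CU) (ρ₁ ρ₂ : LaurentSeries (IsLocalRing.ResidueField Os)),
        a ∉ y ∧ b ∉ y ∧ s ∉ y ∧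
        Fermat.Agent.S44.L.RhoGauss.IsRho h (σs x) ρ₁ ∧
        ρ₁ * resL φ (rI s) = resL φ (rI c) ∧
        Fermat.Agent.S44.L.RhoGauss.IsRho h (σs (ws x)) ρ₂ ∧
        ρ₂ * resL φ (rZ s) = resL φ (rZ c) + j • (HahnSeries.C e₁ * resL φ (rZ s)) ∧
        ∃ (v : GaussDVR.V Os Ks) (N : ℤ) (hh : LaurentSeries (IsLocalRing.ResidueField Os)),
          GaussDVR.red Os Ks v ≠ 0 ∧
          σs x = ((GaussDVR.unif Ks ϖs : GaussDVR.V Os Ks) : LaurentSeries Ks) ^ N
            * (v : LaurentSeries Ks) ∧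
          GaussDVR.red Os Ks v * resL φ (rI b)
            = resL φ (rI a) * resL φ (rI (uC - vC ^ q)) ^ j * hh ^ q := by
  classical
  letI := algebraOL O E (LE M E)
  letI := algebraOL O E (LE (M * q) E)
  haveI := isScalarTower_OL O E (LE M E)
  haveI := isScalarTower_OL O E (LE (M * q) E)
  intro β hβO σs hσsO hσsfrac ws hwsO hσβ₁ hσβ₂ hspan y hy hI hZ x hx hordB
  haveI : IsFractionRing CU (LE (M * q) E) :=
    Fermat.Agent.S44.L.NodeLocInst.isFractionRing_chart_u4 (O := O) M q E h4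
  letI algB : Algebra (Localization.AtPrime y) Ls := algebraLocBeta y β
  have hBβ : ∀ c : CU, algebraMap (Localization.AtPrime y) Ls
      (algebraMap CU (Localization.AtPrime y) c) = β (c : LE (M * q) E) :=
    fun c => algebraLocBeta_algebraMap y β c
  have key := Fermat.Agent.S44.L.Alt.NodeAltU4.node_alt_u4 M q E φ ψ hφψ hq hodd hqM h4 h2 hFG
    π hπ e he hqe hσfrac h hϖs hD θ hθdeg hθ0 hθ ε n hε hεr e₁ he₁ β hβO σs hσsO hσsfrac ws hwsO
    hσβ₁ hσβ₂ hspan y hBβ hI hZ x hx (hordB hBβ)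
  obtain ⟨j, a, b, c, s, ha, hb, hs, ⟨v, N, hh, hv, hvx, hvd, hvr⟩, ⟨v', N', hv', hvx', hvd'⟩⟩ :=
    key
  refine ⟨j, a, b, c, s, dV Os Ks h v / GaussDVR.red Os Ks v,
    dV Os Ks h v' / GaussDVR.red Os Ks v', ha, hb, hs,
    Fermat.Agent.S44.L.Alt.NodeAlt.isRho_of_zpow h hϖs hv hvx, ?_,
    Fermat.Agent.S44.L.Alt.NodeAlt.isRho_of_zpow h hϖs hv' hvx', ?_, v, N, hh, hv, hvx, hvr⟩
  · rw [div_mul_eq_mul_div, hvd, mul_div_cancel_left₀ _ hv]
  · exact (div_mul_eq_mul_div _ _ _).trans ((div_eq_iff hv').mpr (hvd'.trans (mul_comm _ _)))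

include hφψ hodd h2 hFG he hqe in
/-- **SMOOTH-ALT at `u₄`, `∞`-component, `IsRho` form, algebra built inside.** -/
theorem smooth_alt_inf_u4_loc {ϖs : Os} {D : Os → IsLocalRing.ResidueField Os}
    (h : IsFirstOrder (IsLocalRing.residue Os) ϖs D) (hϖs : Irreducible ϖs)
    (hD : ∀ a : O, D (φ a) = 0)
    (θ : O[X]) (hθdeg : θ.natDegree < q) (hθ0 : IsUnit (θ.eval 0))
    (hθ : ϖs ^ q = φ π * θ.eval₂ φ ϖs)
    {Ls : Type*} [Field Ls] [Algebra Os Ls] :
    letI := algebraOL O E (LE M E)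
    letI := algebraOL O E (LE (M * q) E)
    haveI := isScalarTower_OL O E (LE M E)
    haveI := isScalarTower_OL O E (LE (M * q) E)
    ∀ (β : LE (M * q) E →+* Ls)
      (hβO : ∀ r : O, β (algebraMap O (LE (M * q) E) r) = algebraMap Os Ls (φ r))
      (σs : Ls →+* LaurentSeries Ks)
      (hσsO : ∀ r : Os, σs (algebraMap Os Ls r) = HahnSeries.C (algebraMap Os Ks r))
      (hσsfrac : ∀ x : Ls, σs x ∈ GaussDVR.fracField Os Ks)
      (hσβ₁ : ∀ x : LE (M * q) E, σs (β x) = coeffMap ψ (sigmaHom (M * q) E x))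
      (hspan : ∀ x : Ls, ∃ P : (LE (M * q) E)[X], x = P.eval₂ β (algebraMap Os Ls ϖs))
      (y : Ideal CU) [y.IsMaximal]
      (hI : RingHom.ker rI ≤ y) (hZ : ¬ RingHom.ker rZ ≤ y)
      (x : Ls) (hx : x ≠ 0)
      (hordB : ∀ [Algebra (Localization.AtPrime y) Ls]
        (hBβ : ∀ c : CU, algebraMap (Localization.AtPrime y) Ls
          (algebraMap CU (Localization.AtPrime y) c) = β (c : LE (M * q) E)),
        ∀ Q : Ideal (Algebra.adjoin (Localization.AtPrime y)
          ({algebraMap Os Ls ϖs} : Set Ls)), Q.IsPrime →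
        (⟨algebraMap Os Ls ϖs, Algebra.self_mem_adjoin_singleton _ _⟩ :
          Algebra.adjoin (Localization.AtPrime y) ({algebraMap Os Ls ϖs} : Set Ls)) ∉ Q →
        ∃ (a b : Algebra.adjoin (Localization.AtPrime y) ({algebraMap Os Ls ϖs} : Set Ls))
          (τ : Ls), a ∉ Q ∧ b ∉ Q ∧
          algebraMap (Algebra.adjoin (Localization.AtPrime y) ({algebraMap Os Ls ϖs} : Set Ls))
              Ls b * x
            = algebraMap (Algebra.adjoin (Localization.AtPrime y)
              ({algebraMap Os Ls ϖs} : Set Ls)) Ls a * τ ^ q),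
      ∃ (a b c s : CU) (ρ₁ : LaurentSeries (IsLocalRing.ResidueField Os)),
        a ∉ y ∧ b ∉ y ∧ s ∉ y ∧
        Fermat.Agent.S44.L.RhoGauss.IsRho h (σs x) ρ₁ ∧
        ρ₁ * resL φ (rI s) = resL φ (rI c) ∧
        ∃ (v : GaussDVR.V Os Ks) (N : ℤ) (hh : LaurentSeries (IsLocalRing.ResidueField Os)),
          GaussDVR.red Os Ks v ≠ 0 ∧
          σs x = ((GaussDVR.unif Ks ϖs : GaussDVR.V Os Ks) : LaurentSeries Ks) ^ N
            * (v : LaurentSeries Ks) ∧
          GaussDVR.red Os Ks v * resL φ (rI b) = resL φ (rI a) * hh ^ q := by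
  classical
  letI := algebraOL O E (LE M E)
  letI := algebraOL O E (LE (M * q) E)
  haveI := isScalarTower_OL O E (LE M E)
  haveI := isScalarTower_OL O E (LE (M * q) E)
  intro β hβO σs hσsO hσsfrac hσβ₁ hspan y hy hI hZ x hx hordB
  haveI : IsFractionRing CU (LE (M * q) E) :=
    Fermat.Agent.S44.L.NodeLocInst.isFractionRing_chart_u4 (O := O) M q E h4
  letI algB : Algebra (Localization.AtPrime y) Ls := algebraLocBeta y β
  have hBβ : ∀ c : CU, algebraMap (Localization.AtPrime y) Ls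
      (algebraMap CU (Localization.AtPrime y) c) = β (c : LE (M * q) E) :=
    fun c => algebraLocBeta_algebraMap y β c
  have key := Fermat.Agent.S44.L.Alt.NodeAltU4.smooth_alt_inf_u4 M q E φ ψ hφψ hq hodd hqM h4 h2
    hFG π hπ e he hqe hσfrac h hϖs hD θ hθdeg hθ0 hθ β hβO σs hσsO hσsfrac hσβ₁ hspan y hBβ hI hZ
    x hx (hordB hBβ)
  obtain ⟨a, b, c, s, ha, hb, hs, v, N, hh, hv, hvx, hvd, hvr⟩ := key
  refine ⟨a, b, c, s, dV Os Ks h v / GaussDVR.red Os Ks v, ha, hb, hs,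
    Fermat.Agent.S44.L.Alt.NodeAlt.isRho_of_zpow h hϖs hv hvx, ?_, v, N, hh, hv, hvx, hvr⟩
  rw [div_mul_eq_mul_div, hvd, mul_div_cancel_left₀ _ hv]

include hφψ hodd h2 hFG he hqe in
/-- **SMOOTH-ALT at `u₄`, `0`-component (for `ws x`), `IsRho` form, algebra built inside.** -/
theorem smooth_alt_zero_u4_loc {ϖs : Os} {D : Os → IsLocalRing.ResidueField Os}
    (h : IsFirstOrder (IsLocalRing.residue Os) ϖs D) (hϖs : Irreducible ϖs)
    (hD : ∀ a : O, D (φ a) = 0)
    (θ : O[X]) (hθdeg : θ.natDegree < q) (hθ0 : IsUnit (θ.eval 0))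
    (hθ : ϖs ^ q = φ π * θ.eval₂ φ ϖs)
    {Ls : Type*} [Field Ls] [Algebra Os Ls] :
    letI := algebraOL O E (LE M E)
    letI := algebraOL O E (LE (M * q) E)
    haveI := isScalarTower_OL O E (LE M E)
    haveI := isScalarTower_OL O E (LE (M * q) E)
    ∀ (β : LE (M * q) E →+* Ls)
      (hβO : ∀ r : O, β (algebraMap O (LE (M * q) E) r) = algebraMap Os Ls (φ r))
      (σs : Ls →+* LaurentSeries Ks)
      (hσsO : ∀ r : Os, σs (algebraMap Os Ls r) = HahnSeries.C (algebraMap Os Ks r))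
      (hσsfrac : ∀ x : Ls, σs x ∈ GaussDVR.fracField Os Ks)
      (ws : Ls →+* Ls) (hwsO : ∀ r : Os, ws (algebraMap Os Ls r) = algebraMap Os Ls r)
      (hσβ₂ : ∀ x : LE (M * q) E,
        σs (ws (β x)) = coeffMap ψ (sigmaHom (M * q) E (wHom M q E hq hqM x)))
      (hspan : ∀ x : Ls, ∃ P : (LE (M * q) E)[X], x = P.eval₂ β (algebraMap Os Ls ϖs))
      (y : Ideal CU) [y.IsMaximal]
      (hZ : RingHom.ker rZ ≤ y) (hI : ¬ RingHom.ker rI ≤ y)
      (x : Ls) (hx : x ≠ 0)
      (hordB : ∀ [Algebra (Localization.AtPrime y) Ls]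
        (hBβ : ∀ c : CU, algebraMap (Localization.AtPrime y) Ls
          (algebraMap CU (Localization.AtPrime y) c) = β (c : LE (M * q) E)),
        ∀ Q : Ideal (Algebra.adjoin (Localization.AtPrime y)
          ({algebraMap Os Ls ϖs} : Set Ls)), Q.IsPrime →
        (⟨algebraMap Os Ls ϖs, Algebra.self_mem_adjoin_singleton _ _⟩ :
          Algebra.adjoin (Localization.AtPrime y) ({algebraMap Os Ls ϖs} : Set Ls)) ∉ Q →
        ∃ (a b : Algebra.adjoin (Localization.AtPrime y) ({algebraMap Os Ls ϖs} : Set Ls))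
          (τ : Ls), a ∉ Q ∧ b ∉ Q ∧
          algebraMap (Algebra.adjoin (Localization.AtPrime y) ({algebraMap Os Ls ϖs} : Set Ls))
              Ls b * x
            = algebraMap (Algebra.adjoin (Localization.AtPrime y)
              ({algebraMap Os Ls ϖs} : Set Ls)) Ls a * τ ^ q),
      ∃ (a b c s : CU) (ρ₂ : LaurentSeries (IsLocalRing.ResidueField Os)),
        a ∉ y ∧ b ∉ y ∧ s ∉ y ∧
        Fermat.Agent.S44.L.RhoGauss.IsRho h (σs (ws x)) ρ₂ ∧
        ρ₂ * resL φ (rZ s) = resL φ (rZ c) ∧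
        ∃ (v : GaussDVR.V Os Ks) (N : ℤ) (hh : LaurentSeries (IsLocalRing.ResidueField Os)),
          GaussDVR.red Os Ks v ≠ 0 ∧
          σs (ws x) = ((GaussDVR.unif Ks ϖs : GaussDVR.V Os Ks) : LaurentSeries Ks) ^ N
            * (v : LaurentSeries Ks) ∧
          GaussDVR.red Os Ks v * resL φ (rZ b) = resL φ (rZ a) * hh ^ q := by
  classical
  letI := algebraOL O E (LE M E)
  letI := algebraOL O E (LE (M * q) E)
  haveI := isScalarTower_OL O E (LE M E)
  haveI := isScalarTower_OL O E (LE (M * q) E)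
  intro β hβO σs hσsO hσsfrac ws hwsO hσβ₂ hspan y hy hZ hI x hx hordB
  haveI : IsFractionRing CU (LE (M * q) E) :=
    Fermat.Agent.S44.L.NodeLocInst.isFractionRing_chart_u4 (O := O) M q E h4
  letI algB : Algebra (Localization.AtPrime y) Ls := algebraLocBeta y β
  have hBβ : ∀ c : CU, algebraMap (Localization.AtPrime y) Ls
      (algebraMap CU (Localization.AtPrime y) c) = β (c : LE (M * q) E) :=
    fun c => algebraLocBeta_algebraMap y β c
  have key := Fermat.Agent.S44.L.Alt.NodeAltU4.smooth_alt_zero_u4 M q E φ ψ hφψ hq hodd hqM h4 h2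
    hFG π hπ e he hqe hσfrac h hϖs hD θ hθdeg hθ0 hθ β hβO σs hσsO hσsfrac ws hwsO hσβ₂ hspan y
    hBβ hZ hI x hx (hordB hBβ)
  obtain ⟨a, b, c, s, ha, hb, hs, v, N, hh, hv, hvx, hvd, hvr⟩ := key
  refine ⟨a, b, c, s, dV Os Ks h v / GaussDVR.red Os Ks v, ha, hb, hs,
    Fermat.Agent.S44.L.Alt.NodeAlt.isRho_of_zpow h hϖs hv hvx, ?_, v, N, hh, hv, hvx, hvr⟩
  rw [div_mul_eq_mul_div, hvd, mul_div_cancel_left₀ _ hv]

end U4

/-! ### The chart at infinity `Chart O (α u₄⁻¹)` -/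

section S4

variable (M q : ℕ) [NeZero M] [NeZero q] (E : IntermediateField ℚ Qb)
  {O : Type} [CommRing O] [IsDomain O] [IsDiscreteValuationRing O]
  [Algebra O E] [IsFractionRing O E]
  {Os Ks : Type*} [CommRing Os] [IsDomain Os] [IsDiscreteValuationRing Os] [Field Ks]
  [Algebra Os Ks] [FaithfulSMul Os Ks]
  (φ : O →+* Os) [IsLocalHom φ] (ψ : E →+* Ks)
  (hφψ : ∀ a : O, ψ (algebraMap O E a) = algebraMap Os Ks (φ a))
  (hq : q.Prime) (hodd : q ≠ 2) (hqM : ¬ q ∣ M) (h4 : 4 ∣ M)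
  (h2 : IsUnit (2 : O)) (hFG : FinGaussC M O E) (π : O) (hπ : Irreducible π)
  (hchar : CharP (IsLocalRing.ResidueField O) q)
  (hσfrac : ∀ x : LE (M * q) E, sigmaHom (M * q) E x ∈ GaussDVR.fracField O E)

local notation "CS" => Chart O (alphaHom M q E (u4E M E h4)⁻¹)
local notation "rI" => redInf π hπ (alphaHom M q E) (sigmaHom (M * q) E)
  (sigmaHom_algebraMap (M * q) E) hσfrac (u4E M E h4)⁻¹
  (HauptU.E.posO O Fermat.Agent.S36.SqChart.Coord4.s4Z)
  (Fermat.Agent.S36.SqChart.Coord4.hσ1u_s4 M E q h4)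
local notation "rZ" => redZero π hπ (alphaHom M q E) (sigmaHom (M * q) E)
  (sigmaHom_algebraMap (M * q) E) hσfrac (u4E M E h4)⁻¹
  (HauptU.E.posO O Fermat.Agent.S36.SqChart.Coord4.s4Z)
  (Fermat.Agent.S36.SqChart.Coord4.hσ1u_s4 M E q h4)
  (wHom M q E hq hqM) (wHom_algebraMap M q E hq hqM) q (sigmaHom_wHom_alpha M q E hq hqM)

include hφψ hodd h2 hFG hchar in
/-- **SMOOTH-ALT at the chart at infinity, `∞`-component, `IsRho` form, algebra built inside.** -/
theorem smooth_alt_inf_s4_loc {ϖs : Os} {D : Os → IsLocalRing.ResidueField Os}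
    (h : IsFirstOrder (IsLocalRing.residue Os) ϖs D) (hϖs : Irreducible ϖs)
    (hD : ∀ a : O, D (φ a) = 0)
    (θ : O[X]) (hθdeg : θ.natDegree < q) (hθ0 : IsUnit (θ.eval 0))
    (hθ : ϖs ^ q = φ π * θ.eval₂ φ ϖs)
    {Ls : Type*} [Field Ls] [Algebra Os Ls] :
    letI := algebraOL O E (LE M E)
    letI := algebraOL O E (LE (M * q) E)
    haveI := isScalarTower_OL O E (LE M E)
    haveI := isScalarTower_OL O E (LE (M * q) E)
    ∀ (β : LE (M * q) E →+* Ls)
      (hβO : ∀ r : O, β (algebraMap O (LE (M * q) E) r) = algebraMap Os Ls (φ r))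
      (σs : Ls →+* LaurentSeries Ks)
      (hσsO : ∀ r : Os, σs (algebraMap Os Ls r) = HahnSeries.C (algebraMap Os Ks r))
      (hσsfrac : ∀ x : Ls, σs x ∈ GaussDVR.fracField Os Ks)
      (hσβ₁ : ∀ x : LE (M * q) E, σs (β x) = coeffMap ψ (sigmaHom (M * q) E x))
      (hspan : ∀ x : Ls, ∃ P : (LE (M * q) E)[X], x = P.eval₂ β (algebraMap Os Ls ϖs))
      (y : Ideal CS) [y.IsMaximal]
      (hI : RingHom.ker rI ≤ y) (hZ : ¬ RingHom.ker rZ ≤ y)
      (x : Ls) (hx : x ≠ 0)
      (hordB : ∀ [Algebra (Localization.AtPrime y) Ls]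
        (hBβ : ∀ c : CS, algebraMap (Localization.AtPrime y) Ls
          (algebraMap CS (Localization.AtPrime y) c) = β (c : LE (M * q) E)),
        ∀ Q : Ideal (Algebra.adjoin (Localization.AtPrime y)
          ({algebraMap Os Ls ϖs} : Set Ls)), Q.IsPrime →
        (⟨algebraMap Os Ls ϖs, Algebra.self_mem_adjoin_singleton _ _⟩ :
          Algebra.adjoin (Localization.AtPrime y) ({algebraMap Os Ls ϖs} : Set Ls)) ∉ Q →
        ∃ (a b : Algebra.adjoin (Localization.AtPrime y) ({algebraMap Os Ls ϖs} : Set Ls))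
          (τ : Ls), a ∉ Q ∧ b ∉ Q ∧
          algebraMap (Algebra.adjoin (Localization.AtPrime y) ({algebraMap Os Ls ϖs} : Set Ls))
              Ls b * x
            = algebraMap (Algebra.adjoin (Localization.AtPrime y)
              ({algebraMap Os Ls ϖs} : Set Ls)) Ls a * τ ^ q),
      ∃ (a b c s : CS) (ρ₁ : LaurentSeries (IsLocalRing.ResidueField Os)),
        a ∉ y ∧ b ∉ y ∧ s ∉ y ∧
        Fermat.Agent.S44.L.RhoGauss.IsRho h (σs x) ρ₁ ∧
        ρ₁ * resL φ (rI s) = resL φ (rI c) ∧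
        ∃ (v : GaussDVR.V Os Ks) (N : ℤ) (hh : LaurentSeries (IsLocalRing.ResidueField Os)),
          GaussDVR.red Os Ks v ≠ 0 ∧
          σs x = ((GaussDVR.unif Ks ϖs : GaussDVR.V Os Ks) : LaurentSeries Ks) ^ N
            * (v : LaurentSeries Ks) ∧
          GaussDVR.red Os Ks v * resL φ (rI b) = resL φ (rI a) * hh ^ q := by
  classical
  letI := algebraOL O E (LE M E)
  letI := algebraOL O E (LE (M * q) E)
  haveI := isScalarTower_OL O E (LE M E)
  haveI := isScalarTower_OL O E (LE (M * q) E)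
  intro β hβO σs hσsO hσsfrac hσβ₁ hspan y hy hI hZ x hx hordB
  haveI : IsFractionRing CS (LE (M * q) E) :=
    Fermat.Agent.S44.L.NodeLocInstInf.isFractionRing_chart_s4 (O := O) M q E h4
  letI algB : Algebra (Localization.AtPrime y) Ls := algebraLocBeta y β
  have hBβ : ∀ c : CS, algebraMap (Localization.AtPrime y) Ls
      (algebraMap CS (Localization.AtPrime y) c) = β (c : LE (M * q) E) :=
    fun c => algebraLocBeta_algebraMap y β c
  have key := Fermat.Agent.S44.L.Alt.NodeAltS4.smooth_alt_inf_s4 M q E φ ψ hφψ hq hodd hqM h4 h2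
    hFG π hπ hchar hσfrac h hϖs hD θ hθdeg hθ0 hθ β hβO σs hσsO hσsfrac hσβ₁ hspan y hBβ hI hZ
    x hx (hordB hBβ)
  obtain ⟨a, b, c, s, ha, hb, hs, v, N, hh, hv, hvx, hvd, hvr⟩ := key
  refine ⟨a, b, c, s, dV Os Ks h v / GaussDVR.red Os Ks v, ha, hb, hs,
    Fermat.Agent.S44.L.Alt.NodeAlt.isRho_of_zpow h hϖs hv hvx, ?_, v, N, hh, hv, hvx, hvr⟩
  rw [div_mul_eq_mul_div, hvd, mul_div_cancel_left₀ _ hv]

include hφψ hodd h2 hFG hchar in
/-- **SMOOTH-ALT at the chart at infinity, `0`-component (for `ws x`), `IsRho` form, algebra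
built inside.** -/
theorem smooth_alt_zero_s4_loc {ϖs : Os} {D : Os → IsLocalRing.ResidueField Os}
    (h : IsFirstOrder (IsLocalRing.residue Os) ϖs D) (hϖs : Irreducible ϖs)
    (hD : ∀ a : O, D (φ a) = 0)
    (θ : O[X]) (hθdeg : θ.natDegree < q) (hθ0 : IsUnit (θ.eval 0))
    (hθ : ϖs ^ q = φ π * θ.eval₂ φ ϖs)
    {Ls : Type*} [Field Ls] [Algebra Os Ls] :
    letI := algebraOL O E (LE M E)
    letI := algebraOL O E (LE (M * q) E)
    haveI := isScalarTower_OL O E (LE M E)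
    haveI := isScalarTower_OL O E (LE (M * q) E)
    ∀ (β : LE (M * q) E →+* Ls)
      (hβO : ∀ r : O, β (algebraMap O (LE (M * q) E) r) = algebraMap Os Ls (φ r))
      (σs : Ls →+* LaurentSeries Ks)
      (hσsO : ∀ r : Os, σs (algebraMap Os Ls r) = HahnSeries.C (algebraMap Os Ks r))
      (hσsfrac : ∀ x : Ls, σs x ∈ GaussDVR.fracField Os Ks)
      (ws : Ls →+* Ls) (hwsO : ∀ r : Os, ws (algebraMap Os Ls r) = algebraMap Os Ls r)
      (hσβ₂ : ∀ x : LE (M * q) E,
        σs (ws (β x)) = coeffMap ψ (sigmaHom (M * q) E (wHom M q E hq hqM x)))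
      (hspan : ∀ x : Ls, ∃ P : (LE (M * q) E)[X], x = P.eval₂ β (algebraMap Os Ls ϖs))
      (y : Ideal CS) [y.IsMaximal]
      (hZ : RingHom.ker rZ ≤ y) (hI : ¬ RingHom.ker rI ≤ y)
      (x : Ls) (hx : x ≠ 0)
      (hordB : ∀ [Algebra (Localization.AtPrime y) Ls]
        (hBβ : ∀ c : CS, algebraMap (Localization.AtPrime y) Ls
          (algebraMap CS (Localization.AtPrime y) c) = β (c : LE (M * q) E)),
        ∀ Q : Ideal (Algebra.adjoin (Localization.AtPrime y)
          ({algebraMap Os Ls ϖs} : Set Ls)), Q.IsPrime →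
        (⟨algebraMap Os Ls ϖs, Algebra.self_mem_adjoin_singleton _ _⟩ :
          Algebra.adjoin (Localization.AtPrime y) ({algebraMap Os Ls ϖs} : Set Ls)) ∉ Q →
        ∃ (a b : Algebra.adjoin (Localization.AtPrime y) ({algebraMap Os Ls ϖs} : Set Ls))
          (τ : Ls), a ∉ Q ∧ b ∉ Q ∧
          algebraMap (Algebra.adjoin (Localization.AtPrime y) ({algebraMap Os Ls ϖs} : Set Ls))
              Ls b * x
            = algebraMap (Algebra.adjoin (Localization.AtPrime y)
              ({algebraMap Os Ls ϖs} : Set Ls)) Ls a * τ ^ q),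
      ∃ (a b c s : CS) (ρ₂ : LaurentSeries (IsLocalRing.ResidueField Os)),
        a ∉ y ∧ b ∉ y ∧ s ∉ y ∧
        Fermat.Agent.S44.L.RhoGauss.IsRho h (σs (ws x)) ρ₂ ∧
        ρ₂ * resL φ (rZ s) = resL φ (rZ c) ∧
        ∃ (v : GaussDVR.V Os Ks) (N : ℤ) (hh : LaurentSeries (IsLocalRing.ResidueField Os)),
          GaussDVR.red Os Ks v ≠ 0 ∧
          σs (ws x) = ((GaussDVR.unif Ks ϖs : GaussDVR.V Os Ks) : LaurentSeries Ks) ^ N
            * (v : LaurentSeries Ks) ∧
          GaussDVR.red Os Ks v * resL φ (rZ b) = resL φ (rZ a) * hh ^ q := by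
  classical
  letI := algebraOL O E (LE M E)
  letI := algebraOL O E (LE (M * q) E)
  haveI := isScalarTower_OL O E (LE M E)
  haveI := isScalarTower_OL O E (LE (M * q) E)
  intro β hβO σs hσsO hσsfrac ws hwsO hσβ₂ hspan y hy hZ hI x hx hordB
  haveI : IsFractionRing CS (LE (M * q) E) :=
    Fermat.Agent.S44.L.NodeLocInstInf.isFractionRing_chart_s4 (O := O) M q E h4
  letI algB : Algebra (Localization.AtPrime y) Ls := algebraLocBeta y β
  have hBβ : ∀ c : CS, algebraMap (Localization.AtPrime y) Ls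
      (algebraMap CS (Localization.AtPrime y) c) = β (c : LE (M * q) E) :=
    fun c => algebraLocBeta_algebraMap y β c
  have key := Fermat.Agent.S44.L.Alt.NodeAltS4.smooth_alt_zero_s4 M q E φ ψ hφψ hq hodd hqM h4 h2
    hFG π hπ hchar hσfrac h hϖs hD θ hθdeg hθ0 hθ β hβO σs hσsO hσsfrac ws hwsO hσβ₂ hspan y
    hBβ hZ hI x hx (hordB hBβ)
  obtain ⟨a, b, c, s, ha, hb, hs, v, N, hh, hv, hvx, hvd, hvr⟩ := key
  refine ⟨a, b, c, s, dV Os Ks h v / GaussDVR.red Os Ks v, ha, hb, hs,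
    Fermat.Agent.S44.L.Alt.NodeAlt.isRho_of_zpow h hϖs hv hvx, ?_, v, N, hh, hv, hvx, hvr⟩
  rw [div_mul_eq_mul_div, hvd, mul_div_cancel_left₀ _ hv]

end S4

end Fermat.Agent.S44.L.Alt.NodeAltLoc
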