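import Mathlib
import Fermat.Agent.S44.L.Alt.NodeAltLoc
import Fermat.Agent.S44.L.Alt.HordInstLoc
import Fermat.Agent.S44.L.Alt.SeamField
import Fermat.Agent.S44.L.AltChartBCInf

/-!
# PROGRAM MR (S44), strand L, cover-free ALT for SLOPE, row ALT.5: NODE-ALT / SMOOTH-ALT,
# the E-level instance (helper192)

`Qb = AlgebraicClosure ℚ`, `A` a valuation subring of `Qb` over `q`, `K ≤ K'` with
`O = OE A K` (unramified: `q = ϖ e`), `Os = OE A K'` discrete valuation rings,
`φ = CycloBase.inclOE A h`, `ψ = inclusion h`, `L = LE (M q) K`, `Ls = LE (M q) K'`,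
`β = BCChart.lvl (M q) h`, `σs = sigmaHom (M q) K'`, `ws = wHom M q K' hq hqM`.

Binder block = the block of `Alt/HordInstLoc.hord_u4` (`b hspanO hres hindL hspanL ϖs hbpow
θ hθdeg hθ`) + `h2` + the number-level block of `Alt/NodeAlt.node_alt` (`hfo hϖs hD hθ0` and, for
the node, `ε n hε hεr e₁ he₁`): every binder is an output of `KummerInst.exists_binders` and
`KummerBasis.basis_binders` (`K' = cyclo K b`, `ϖ = q`, `e = 1`, `b j = ϖs ^ j`).

Input on `x ≠ 0` in `Ls`: the horizontal hypothesis `HorizAdapter.Horiz ϖs q (α u₄) x` over `Os`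
(chart `Chart Os (α u₄)`; at infinity `Chart Os (α u₄⁻¹)`).  Exits in the `IsRho` form of
`NodeAlt.node_alt_isRho` / `smooth_alt_isRho`; NO `Localization` in any statement.

* `exists_eval₂_lvl`, `sigmaHom_wHom_lvl` : the seam binders `hspan`, `hσβ₂` of `NodeAlt`.
* `node_alt_OE` : (N a), (N b), (N c) at every maximal `y ⊇ p_∞ + p_0` of `Chart O (α u₄)`.
* `smooth_alt_inf_OE`, `smooth_alt_zero_OE` : (S a), (S b) at the maximal `y` on one component.
* `smooth_alt_inf_s4_OE`, `smooth_alt_zero_s4_OE` : the same on the chart at infinity.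
-/

set_option autoImplicit false
set_option linter.unusedSectionVars false
set_option linter.unusedVariables false
set_option linter.style.haveILetI false
set_option synthInstance.maxHeartbeats 400000
set_option maxHeartbeats 1000000

open ModularCurve Polynomial IntermediateField

noncomputable section

namespace Fermat.Agent.S44.L.Alt.NodeAltInst

open Fermat.Agent.S30 Fermat.Agent.S34 Fermat.Agent.S34.TwoPrimesGauss
open Fermat.Agent.S36.PrinAt Fermat.Agent.S30.Model
open Fermat.Agent.S18.K1Defs Fermat.Agent.S18.K1Main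
open Fermat.Agent.S34.TwoPrimesRank Fermat.Agent.S34.HauptU.Plug
open Fermat.Agent.S34.HauptU.LevelMAux
open Fermat.Agent.S36.Haupt4 Fermat.Agent.S36.LevelQInstAlt
open Fermat.Agent.S36.CycloBase Fermat.Agent.S19.Cech.BCChart
open Fermat.Agent.S44.L.FirstOrder Fermat.Agent.S44.L.Alt.NodeAltCore

local notation "Qb" => AlgebraicClosure ℚ

/-! ### The seam binders -/

section Seam

variable (A : ValuationSubring Qb) {K K' : IntermediateField ℚ Qb} (h : K ≤ K')

/-- `Ls = lvl(L)[πs]`, polynomial form (binder `hspan` of `NodeAlt`), from the Laurent-level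
coordinates `hspanL` for a family `b` of powers of `ϖs`. -/
theorem exists_eval₂_lvl (N : ℕ) {r : ℕ} (b : Fin r → OE A K') (ϖs : OE A K')
    (hbpow : ∀ j, ∃ n : ℕ, b j = ϖs ^ n)
    (hspanL : ∀ x : LaurentSeries K', x ∈ LE N K' → ∃ c : Fin r → LaurentSeries K,
      (∀ j, c j ∈ LE N K) ∧ x = ∑ j, algebraMap K' (LaurentSeries K') ((b j : OE A K') : K') *
        coeffMap (IntermediateField.inclusion h : K →+* K') (c j)) :
    letI := algebraOL (OE A K') K' (LE N K')
    ∀ x : LE N K', ∃ P : (LE N K)[X],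
      x = P.eval₂ (lvl N h) (algebraMap (OE A K') (LE N K') ϖs) := by
  letI := algebraOL (OE A K') K' (LE N K')
  intro x
  obtain ⟨c, hc, hx⟩ := hspanL (x : LaurentSeries K') x.2
  choose n hn using hbpow
  refine ⟨∑ j : Fin r, C (⟨c j, hc j⟩ : LE N K) * X ^ (n j), Subtype.ext ?_⟩
  rw [eval₂_finsetSum, hx, AddSubmonoidClass.coe_finsetSum]
  refine Finset.sum_congr rfl fun j _ => ?_
  rw [eval₂_mul, eval₂_C, eval₂_X_pow, hn j, ← map_pow, mul_comm]
  rfl

/-- `σs ∘ ws ∘ lvl = (coefficientwise inclusion) ∘ σ ∘ w` (binder `hσβ₂` of `NodeAlt`). -/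
theorem sigmaHom_wHom_lvl (M q : ℕ) [NeZero M] [NeZero q] (hq : q.Prime) (hqM : ¬ q ∣ M)
    (x : LE (M * q) K) :
    sigmaHom (M * q) K' (wHom M q K' hq hqM (lvl (M * q) h x))
      = coeffMap (IntermediateField.inclusion h : K →+* K')
        (sigmaHom (M * q) K (wHom M q K hq hqM x)) := by
  rw [← Fermat.Agent.S44.L.Alt.SeamField.lvl_wHom h M q hq hqM x]
  rfl

end Seam

/-! ### The E-level instance -/

section OE

variable (M q : ℕ) [NeZero M] [NeZero q] (A : ValuationSubring Qb)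
  (hq : q.Prime) (hodd : q ≠ 2) (hqM : ¬ q ∣ M) (h4 : 4 ∣ M)
  (hA : A.LiesOverPrime q) {K K' : IntermediateField ℚ Qb} (h : K ≤ K')
  [FiniteDimensional ℚ K] [IsDiscreteValuationRing (OE A K)]
  [IsDiscreteValuationRing (OE A K')]
  (z : Qb) (hz : IsPrimitiveRoot z M) (hzK : z ∈ K) (h2 : IsUnit (2 : OE A K))
  (ϖ : OE A K) (hϖ : Irreducible ϖ) (e : OE A K) (he : IsUnit e)
  (hqe : ((q : ℕ) : OE A K) = ϖ * e)
  {r : ℕ} (b : Fin r → OE A K')
  (hspanO : ∀ a : OE A K', ∃ a' : Fin r → OE A K, a = ∑ j, inclOE A h (a' j) * b j)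
  (hres : ∀ a : OE A K', ∃ a' : OE A K, ¬ IsUnit (a - inclOE A h a'))
  (hindL : ∀ c : Fin r → LaurentSeries K,
    ∑ j, algebraMap K' (LaurentSeries K') ((b j : OE A K') : K') *
      coeffMap (IntermediateField.inclusion h : K →+* K') (c j) = 0 → ∀ j, c j = 0)
  (hspanL : ∀ x : LaurentSeries K', x ∈ LE (M * q) K' → ∃ c : Fin r → LaurentSeries K,
    (∀ j, c j ∈ LE (M * q) K) ∧ x = ∑ j, algebraMap K' (LaurentSeries K') ((b j : OE A K') : K') *
      coeffMap (IntermediateField.inclusion h : K →+* K') (c j))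
  {ϖs : OE A K'} {D : OE A K' → IsLocalRing.ResidueField (OE A K')}
  (hfo : IsFirstOrder (IsLocalRing.residue (OE A K')) ϖs D) (hϖs : Irreducible ϖs)
  (hD : ∀ a : OE A K, D (inclOE A h a) = 0)
  (hbpow : ∀ j, ∃ n : ℕ, b j = ϖs ^ n)
  (θ : (OE A K)[X]) (hθdeg : θ.natDegree < q) (hθ0 : IsUnit (θ.eval 0))
  (hθ : ϖs ^ q = inclOE A h ϖ * θ.eval₂ (inclOE A h) ϖs)

local notation "CK" => Chart (OE A K) (alphaHom M q K (u4E M K h4))
local notation "rI" => redInf ϖ hϖ (alphaHom M q K) (sigmaHom (M * q) K)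
  (sigmaHom_algebraMap (M * q) K) (sigmaHom_mem_fracField (M * q) K A) (u4E M K h4)
  (u4 (OE A K)) (hσu_u4 M q K h4)
local notation "rZ" => redZero ϖ hϖ (alphaHom M q K) (sigmaHom (M * q) K)
  (sigmaHom_algebraMap (M * q) K) (sigmaHom_mem_fracField (M * q) K A) (u4E M K h4)
  (u4 (OE A K)) (hσu_u4 M q K h4)
  (wHom M q K hq hqM) (wHom_algebraMap M q K hq hqM) q (sigmaHom_wHom_alpha M q K hq hqM)
local notation "uC" => incl (alphaHom M q K) (alphaHom_algebraMap M q K) (u4E M K h4)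
  (polyChart (u4E M K h4) X)
local notation "vC" => Fermat.Agent.S34.Modular.ChartZero.wChart (alphaHom M q K) (u4E M K h4)
  (wHom M q K hq hqM) (wHom_algebraMap M q K hq hqM) (wHom_wHom M q K hq hqM)
  (hwu_u4 M q K h2 hq hodd hqM h4)
  (incl (alphaHom M q K) (alphaHom_algebraMap M q K) (u4E M K h4) (polyChart (u4E M K h4) X))
local notation "CKS" => Chart (OE A K) (alphaHom M q K (u4E M K h4)⁻¹)
local notation "rIS" => redInf ϖ hϖ (alphaHom M q K) (sigmaHom (M * q) K)
  (sigmaHom_algebraMap (M * q) K) (sigmaHom_mem_fracField (M * q) K A) (u4E M K h4)⁻¹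
  (HauptU.E.posO (OE A K) Fermat.Agent.S36.SqChart.Coord4.s4Z)
  (Fermat.Agent.S36.SqChart.Coord4.hσ1u_s4 M K q h4)
local notation "rZS" => redZero ϖ hϖ (alphaHom M q K) (sigmaHom (M * q) K)
  (sigmaHom_algebraMap (M * q) K) (sigmaHom_mem_fracField (M * q) K A) (u4E M K h4)⁻¹
  (HauptU.E.posO (OE A K) Fermat.Agent.S36.SqChart.Coord4.s4Z)
  (Fermat.Agent.S36.SqChart.Coord4.hσ1u_s4 M K q h4)
  (wHom M q K hq hqM) (wHom_algebraMap M q K hq hqM) q (sigmaHom_wHom_alpha M q K hq hqM)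

include hodd hA hz hzK h2 he hqe hspanO hres hindL hspanL hϖs hD hbpow hθdeg hθ0 hθ in
/-- **NODE-ALT, E-level instance**: (N a), (N b), (N c) at every maximal ideal `y` of
`Chart (OE A K) (α u₄)` on both components, for `x ≠ 0` in `LE (M q) K'` horizontal over
`OE A K'`. -/
theorem node_alt_OE
    (ε : OE A K') (n : ℕ) (hε : inclOE A h ϖ = ε * ϖs ^ n)
    (hεr : IsLocalRing.residue (OE A K') ε ≠ 0)
    (e₁ : IsLocalRing.ResidueField (OE A K'))
    (he₁ : D ε = e₁ * IsLocalRing.residue (OE A K') ε) :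
    letI := algebraOL (OE A K) K (LE M K)
    letI := algebraOL (OE A K) K (LE (M * q) K)
    haveI := isScalarTower_OL (OE A K) K (LE M K)
    haveI := isScalarTower_OL (OE A K) K (LE (M * q) K)
    letI := algebraOL (OE A K') K' (LE (M * q) K')
    ∀ y : Ideal CK, y.IsMaximal → RingHom.ker rI ≤ y → RingHom.ker rZ ≤ y →
      ∀ x : LE (M * q) K', x ≠ 0 →
      Fermat.Agent.S36.HorizAdapter.Horiz ϖs q (alphaHom M q K' (u4E M K' h4)) x →
      ∃ (j : ℤ) (a b c s : CK)
        (ρ₁ ρ₂ : LaurentSeries (IsLocalRing.ResidueField (OE A K'))),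
        a ∉ y ∧ b ∉ y ∧ s ∉ y ∧
        Fermat.Agent.S44.L.RhoGauss.IsRho hfo (sigmaHom (M * q) K' x) ρ₁ ∧
        ρ₁ * resL (inclOE A h) (rI s) = resL (inclOE A h) (rI c) ∧
        Fermat.Agent.S44.L.RhoGauss.IsRho hfo
          (sigmaHom (M * q) K' (wHom M q K' hq hqM x)) ρ₂ ∧
        ρ₂ * resL (inclOE A h) (rZ s) = resL (inclOE A h) (rZ c)
          + j • (HahnSeries.C e₁ * resL (inclOE A h) (rZ s)) ∧
        ∃ (v : GaussDVR.V (OE A K') K') (N : ℤ)
          (hh : LaurentSeries (IsLocalRing.ResidueField (OE A K'))),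
          GaussDVR.red (OE A K') K' v ≠ 0 ∧
          sigmaHom (M * q) K' x
            = ((GaussDVR.unif K' ϖs : GaussDVR.V (OE A K') K') : LaurentSeries K') ^ N
              * (v : LaurentSeries K') ∧
          GaussDVR.red (OE A K') K' v * resL (inclOE A h) (rI b)
            = resL (inclOE A h) (rI a) * resL (inclOE A h) (rI (uC - vC ^ q)) ^ j * hh ^ q := by
  classical
  letI := algebraOL (OE A K) K (LE M K)
  letI := algebraOL (OE A K) K (LE (M * q) K)
  haveI := isScalarTower_OL (OE A K) K (LE M K)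
  haveI := isScalarTower_OL (OE A K) K (LE (M * q) K)
  letI := algebraOL (OE A K') K' (LE (M * q) K')
  haveI := isScalarTower_OL (OE A K') K' (LE (M * q) K')
  haveI : Fact q.Prime := ⟨hq⟩
  intro y hy hI hZ x hx hH
  haveI := hy
  exact Fermat.Agent.S44.L.Alt.NodeAltLoc.node_alt_u4_loc (O := OE A K) M q K (inclOE A h)
    (IntermediateField.inclusion h : K →+* K') (fun a => rfl) hq hodd hqM h4 h2
    (Fermat.Agent.S36.Haupt4.Fibre.finGaussC_OE A M hqM hA K z hz hzK) ϖ hϖ e he hqe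
    (sigmaHom_mem_fracField (M * q) K A) hfo hϖs hD θ hθdeg hθ0 hθ ε n hε hεr e₁ he₁
    (lvl (M * q) h) (fun r => lvl_algebraMap (M * q) h (r : K))
    (sigmaHom (M * q) K') (sigmaHom_algebraMap (M * q) K')
    (sigmaHom_mem_fracField (M * q) K' A)
    (wHom M q K' hq hqM : LE (M * q) K' →+* LE (M * q) K')
    (fun r => wHom_algebraMap M q K' hq hqM r)
    (fun x => rfl) (fun x => sigmaHom_wHom_lvl h M q hq hqM x)
    (exists_eval₂_lvl A h (M * q) b ϖs hbpow hspanL) y hI hZ x hx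
    (@fun algB hBβ => @Fermat.Agent.S44.L.Alt.HordInstLoc.hord_u4 M q _ _ A hq hodd hqM h4 hA
      K K' h _ _ _ z hz hzK ϖ hϖ e he hqe r b hspanO hres hindL hspanL ϖs hbpow q θ hθdeg hθ
      y _ algB hBβ q x hH)

include hodd hA hz hzK h2 he hqe hspanO hres hindL hspanL hϖs hD hbpow hθdeg hθ0 hθ in
/-- **SMOOTH-ALT, E-level instance, `∞`-component**: (S a), (S b) at every maximal ideal `y` of
`Chart (OE A K) (α u₄)` on the `∞`-component only. -/
theorem smooth_alt_inf_OE :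
    letI := algebraOL (OE A K) K (LE M K)
    letI := algebraOL (OE A K) K (LE (M * q) K)
    haveI := isScalarTower_OL (OE A K) K (LE M K)
    haveI := isScalarTower_OL (OE A K) K (LE (M * q) K)
    letI := algebraOL (OE A K') K' (LE (M * q) K')
    ∀ y : Ideal CK, y.IsMaximal → RingHom.ker rI ≤ y → ¬ RingHom.ker rZ ≤ y →
      ∀ x : LE (M * q) K', x ≠ 0 →
      Fermat.Agent.S36.HorizAdapter.Horiz ϖs q (alphaHom M q K' (u4E M K' h4)) x →
      ∃ (a b c s : CK) (ρ₁ : LaurentSeries (IsLocalRing.ResidueField (OE A K'))),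
        a ∉ y ∧ b ∉ y ∧ s ∉ y ∧
        Fermat.Agent.S44.L.RhoGauss.IsRho hfo (sigmaHom (M * q) K' x) ρ₁ ∧
        ρ₁ * resL (inclOE A h) (rI s) = resL (inclOE A h) (rI c) ∧
        ∃ (v : GaussDVR.V (OE A K') K') (N : ℤ)
          (hh : LaurentSeries (IsLocalRing.ResidueField (OE A K'))),
          GaussDVR.red (OE A K') K' v ≠ 0 ∧
          sigmaHom (M * q) K' x
            = ((GaussDVR.unif K' ϖs : GaussDVR.V (OE A K') K') : LaurentSeries K') ^ N
              * (v : LaurentSeries K') ∧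
          GaussDVR.red (OE A K') K' v * resL (inclOE A h) (rI b)
            = resL (inclOE A h) (rI a) * hh ^ q := by
  classical
  letI := algebraOL (OE A K) K (LE M K)
  letI := algebraOL (OE A K) K (LE (M * q) K)
  haveI := isScalarTower_OL (OE A K) K (LE M K)
  haveI := isScalarTower_OL (OE A K) K (LE (M * q) K)
  letI := algebraOL (OE A K') K' (LE (M * q) K')
  haveI := isScalarTower_OL (OE A K') K' (LE (M * q) K')
  haveI : Fact q.Prime := ⟨hq⟩
  intro y hy hI hZ x hx hH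
  haveI := hy
  exact Fermat.Agent.S44.L.Alt.NodeAltLoc.smooth_alt_inf_u4_loc (O := OE A K) M q K (inclOE A h)
    (IntermediateField.inclusion h : K →+* K') (fun a => rfl) hq hodd hqM h4 h2
    (Fermat.Agent.S36.Haupt4.Fibre.finGaussC_OE A M hqM hA K z hz hzK) ϖ hϖ e he hqe
    (sigmaHom_mem_fracField (M * q) K A) hfo hϖs hD θ hθdeg hθ0 hθ
    (lvl (M * q) h) (fun r => lvl_algebraMap (M * q) h (r : K))
    (sigmaHom (M * q) K') (sigmaHom_algebraMap (M * q) K')
    (sigmaHom_mem_fracField (M * q) K' A) (fun x => rfl)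
    (exists_eval₂_lvl A h (M * q) b ϖs hbpow hspanL) y hI hZ x hx
    (@fun algB hBβ => @Fermat.Agent.S44.L.Alt.HordInstLoc.hord_u4 M q _ _ A hq hodd hqM h4 hA
      K K' h _ _ _ z hz hzK ϖ hϖ e he hqe r b hspanO hres hindL hspanL ϖs hbpow q θ hθdeg hθ
      y _ algB hBβ q x hH)

include hodd hA hz hzK h2 he hqe hspanO hres hindL hspanL hϖs hD hbpow hθdeg hθ0 hθ in
/-- **SMOOTH-ALT, E-level instance, `0`-component (for `ws x`)**: (S a), (S b) at every maximal
ideal `y` of `Chart (OE A K) (α u₄)` on the `0`-component only. -/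
theorem smooth_alt_zero_OE :
    letI := algebraOL (OE A K) K (LE M K)
    letI := algebraOL (OE A K) K (LE (M * q) K)
    haveI := isScalarTower_OL (OE A K) K (LE M K)
    haveI := isScalarTower_OL (OE A K) K (LE (M * q) K)
    letI := algebraOL (OE A K') K' (LE (M * q) K')
    ∀ y : Ideal CK, y.IsMaximal → RingHom.ker rZ ≤ y → ¬ RingHom.ker rI ≤ y →
      ∀ x : LE (M * q) K', x ≠ 0 →
      Fermat.Agent.S36.HorizAdapter.Horiz ϖs q (alphaHom M q K' (u4E M K' h4)) x →
      ∃ (a b c s : CK) (ρ₂ : LaurentSeries (IsLocalRing.ResidueField (OE A K'))),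
        a ∉ y ∧ b ∉ y ∧ s ∉ y ∧
        Fermat.Agent.S44.L.RhoGauss.IsRho hfo
          (sigmaHom (M * q) K' (wHom M q K' hq hqM x)) ρ₂ ∧
        ρ₂ * resL (inclOE A h) (rZ s) = resL (inclOE A h) (rZ c) ∧
        ∃ (v : GaussDVR.V (OE A K') K') (N : ℤ)
          (hh : LaurentSeries (IsLocalRing.ResidueField (OE A K'))),
          GaussDVR.red (OE A K') K' v ≠ 0 ∧
          sigmaHom (M * q) K' (wHom M q K' hq hqM x)
            = ((GaussDVR.unif K' ϖs : GaussDVR.V (OE A K') K') : LaurentSeries K') ^ N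
              * (v : LaurentSeries K') ∧
          GaussDVR.red (OE A K') K' v * resL (inclOE A h) (rZ b)
            = resL (inclOE A h) (rZ a) * hh ^ q := by
  classical
  letI := algebraOL (OE A K) K (LE M K)
  letI := algebraOL (OE A K) K (LE (M * q) K)
  haveI := isScalarTower_OL (OE A K) K (LE M K)
  haveI := isScalarTower_OL (OE A K) K (LE (M * q) K)
  letI := algebraOL (OE A K') K' (LE (M * q) K')
  haveI := isScalarTower_OL (OE A K') K' (LE (M * q) K')
  haveI : Fact q.Prime := ⟨hq⟩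
  intro y hy hZ hI x hx hH
  haveI := hy
  exact Fermat.Agent.S44.L.Alt.NodeAltLoc.smooth_alt_zero_u4_loc (O := OE A K) M q K
    (inclOE A h) (IntermediateField.inclusion h : K →+* K') (fun a => rfl) hq hodd hqM h4 h2
    (Fermat.Agent.S36.Haupt4.Fibre.finGaussC_OE A M hqM hA K z hz hzK) ϖ hϖ e he hqe
    (sigmaHom_mem_fracField (M * q) K A) hfo hϖs hD θ hθdeg hθ0 hθ
    (lvl (M * q) h) (fun r => lvl_algebraMap (M * q) h (r : K))
    (sigmaHom (M * q) K') (sigmaHom_algebraMap (M * q) K')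
    (sigmaHom_mem_fracField (M * q) K' A)
    (wHom M q K' hq hqM : LE (M * q) K' →+* LE (M * q) K')
    (fun r => wHom_algebraMap M q K' hq hqM r)
    (fun x => sigmaHom_wHom_lvl h M q hq hqM x)
    (exists_eval₂_lvl A h (M * q) b ϖs hbpow hspanL) y hZ hI x hx
    (@fun algB hBβ => @Fermat.Agent.S44.L.Alt.HordInstLoc.hord_u4 M q _ _ A hq hodd hqM h4 hA
      K K' h _ _ _ z hz hzK ϖ hϖ e he hqe r b hspanO hres hindL hspanL ϖs hbpow q θ hθdeg hθ
      y _ algB hBβ q x hH)

include hodd hA hz hzK h2 he hqe hspanO hres hindL hspanL hϖs hD hbpow hθdeg hθ0 hθ in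
/-- **SMOOTH-ALT at infinity, E-level instance, `∞`-component**: (S a), (S b) at every maximal
ideal `y` of `Chart (OE A K) (α u₄⁻¹)` on the `∞`-component only, for `x` horizontal on
`Chart (OE A K') (α u₄⁻¹)`. -/
theorem smooth_alt_inf_s4_OE :
    letI := algebraOL (OE A K) K (LE M K)
    letI := algebraOL (OE A K) K (LE (M * q) K)
    haveI := isScalarTower_OL (OE A K) K (LE M K)
    haveI := isScalarTower_OL (OE A K) K (LE (M * q) K)
    letI := algebraOL (OE A K') K' (LE (M * q) K')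
    ∀ y : Ideal CKS, y.IsMaximal → RingHom.ker rIS ≤ y → ¬ RingHom.ker rZS ≤ y →
      ∀ x : LE (M * q) K', x ≠ 0 →
      Fermat.Agent.S36.HorizAdapter.Horiz ϖs q (alphaHom M q K' (u4E M K' h4)⁻¹) x →
      ∃ (a b c s : CKS) (ρ₁ : LaurentSeries (IsLocalRing.ResidueField (OE A K'))),
        a ∉ y ∧ b ∉ y ∧ s ∉ y ∧
        Fermat.Agent.S44.L.RhoGauss.IsRho hfo (sigmaHom (M * q) K' x) ρ₁ ∧
        ρ₁ * resL (inclOE A h) (rIS s) = resL (inclOE A h) (rIS c) ∧
        ∃ (v : GaussDVR.V (OE A K') K') (N : ℤ)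
          (hh : LaurentSeries (IsLocalRing.ResidueField (OE A K'))),
          GaussDVR.red (OE A K') K' v ≠ 0 ∧
          sigmaHom (M * q) K' x
            = ((GaussDVR.unif K' ϖs : GaussDVR.V (OE A K') K') : LaurentSeries K') ^ N
              * (v : LaurentSeries K') ∧
          GaussDVR.red (OE A K') K' v * resL (inclOE A h) (rIS b)
            = resL (inclOE A h) (rIS a) * hh ^ q := by
  classical
  letI := algebraOL (OE A K) K (LE M K)
  letI := algebraOL (OE A K) K (LE (M * q) K)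
  haveI := isScalarTower_OL (OE A K) K (LE M K)
  haveI := isScalarTower_OL (OE A K) K (LE (M * q) K)
  letI := algebraOL (OE A K') K' (LE (M * q) K')
  haveI := isScalarTower_OL (OE A K') K' (LE (M * q) K')
  haveI : Fact q.Prime := ⟨hq⟩
  intro y hy hI hZ x hx hH
  haveI := hy
  exact Fermat.Agent.S44.L.Alt.NodeAltLoc.smooth_alt_inf_s4_loc (O := OE A K) M q K (inclOE A h)
    (IntermediateField.inclusion h : K →+* K') (fun a => rfl) hq hodd hqM h4 h2
    (Fermat.Agent.S36.Haupt4.Fibre.finGaussC_OE A M hqM hA K z hz hzK) ϖ hϖ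
    (Fermat.Agent.S36.DerUnram.charP_residue ϖ hϖ q ⟨e, hqe⟩)
    (sigmaHom_mem_fracField (M * q) K A) hfo hϖs hD θ hθdeg hθ0 hθ
    (lvl (M * q) h) (fun r => lvl_algebraMap (M * q) h (r : K))
    (sigmaHom (M * q) K') (sigmaHom_algebraMap (M * q) K')
    (sigmaHom_mem_fracField (M * q) K' A) (fun x => rfl)
    (exists_eval₂_lvl A h (M * q) b ϖs hbpow hspanL) y hI hZ x hx
    (@fun algB hBβ => @Fermat.Agent.S44.L.Alt.HordInstLoc.hord_lvl_loc (M * q) A K K' h _ _
      (alphaHom M q K (u4E M K h4)⁻¹) (alphaHom M q K' (u4E M K' h4)⁻¹)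
      (Fermat.Agent.S44.L.AltChartBCInf.lvl_alpha_s4 M q h h4) r b ϖs hbpow
      (Fermat.Agent.S44.L.AltChartBCInf.exists_coords_s4 M q A hq hodd hqM h4 hA h z hz hzK ϖ hϖ
        b hspanO hres hindL hspanL)
      ϖ q θ hθdeg hθ y _ algB hBβ q x hH)

include hodd hA hz hzK h2 he hqe hspanO hres hindL hspanL hϖs hD hbpow hθdeg hθ0 hθ in
/-- **SMOOTH-ALT at infinity, E-level instance, `0`-component (for `ws x`)**: (S a), (S b) at
every maximal ideal `y` of `Chart (OE A K) (α u₄⁻¹)` on the `0`-component only. -/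
theorem smooth_alt_zero_s4_OE :
    letI := algebraOL (OE A K) K (LE M K)
    letI := algebraOL (OE A K) K (LE (M * q) K)
    haveI := isScalarTower_OL (OE A K) K (LE M K)
    haveI := isScalarTower_OL (OE A K) K (LE (M * q) K)
    letI := algebraOL (OE A K') K' (LE (M * q) K')
    ∀ y : Ideal CKS, y.IsMaximal → RingHom.ker rZS ≤ y → ¬ RingHom.ker rIS ≤ y →
      ∀ x : LE (M * q) K', x ≠ 0 →
      Fermat.Agent.S36.HorizAdapter.Horiz ϖs q (alphaHom M q K' (u4E M K' h4)⁻¹) x →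
      ∃ (a b c s : CKS) (ρ₂ : LaurentSeries (IsLocalRing.ResidueField (OE A K'))),
        a ∉ y ∧ b ∉ y ∧ s ∉ y ∧
        Fermat.Agent.S44.L.RhoGauss.IsRho hfo
          (sigmaHom (M * q) K' (wHom M q K' hq hqM x)) ρ₂ ∧
        ρ₂ * resL (inclOE A h) (rZS s) = resL (inclOE A h) (rZS c) ∧
        ∃ (v : GaussDVR.V (OE A K') K') (N : ℤ)
          (hh : LaurentSeries (IsLocalRing.ResidueField (OE A K'))),
          GaussDVR.red (OE A K') K' v ≠ 0 ∧
          sigmaHom (M * q) K' (wHom M q K' hq hqM x)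
            = ((GaussDVR.unif K' ϖs : GaussDVR.V (OE A K') K') : LaurentSeries K') ^ N
              * (v : LaurentSeries K') ∧
          GaussDVR.red (OE A K') K' v * resL (inclOE A h) (rZS b)
            = resL (inclOE A h) (rZS a) * hh ^ q := by
  classical
  letI := algebraOL (OE A K) K (LE M K)
  letI := algebraOL (OE A K) K (LE (M * q) K)
  haveI := isScalarTower_OL (OE A K) K (LE M K)
  haveI := isScalarTower_OL (OE A K) K (LE (M * q) K)
  letI := algebraOL (OE A K') K' (LE (M * q) K')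
  haveI := isScalarTower_OL (OE A K') K' (LE (M * q) K')
  haveI : Fact q.Prime := ⟨hq⟩
  intro y hy hZ hI x hx hH
  haveI := hy
  exact Fermat.Agent.S44.L.Alt.NodeAltLoc.smooth_alt_zero_s4_loc (O := OE A K) M q K
    (inclOE A h) (IntermediateField.inclusion h : K →+* K') (fun a => rfl) hq hodd hqM h4 h2
    (Fermat.Agent.S36.Haupt4.Fibre.finGaussC_OE A M hqM hA K z hz hzK) ϖ hϖ
    (Fermat.Agent.S36.DerUnram.charP_residue ϖ hϖ q ⟨e, hqe⟩)
    (sigmaHom_mem_fracField (M * q) K A) hfo hϖs hD θ hθdeg hθ0 hθ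
    (lvl (M * q) h) (fun r => lvl_algebraMap (M * q) h (r : K))
    (sigmaHom (M * q) K') (sigmaHom_algebraMap (M * q) K')
    (sigmaHom_mem_fracField (M * q) K' A)
    (wHom M q K' hq hqM : LE (M * q) K' →+* LE (M * q) K')
    (fun r => wHom_algebraMap M q K' hq hqM r)
    (fun x => sigmaHom_wHom_lvl h M q hq hqM x)
    (exists_eval₂_lvl A h (M * q) b ϖs hbpow hspanL) y hZ hI x hx
    (@fun algB hBβ => @Fermat.Agent.S44.L.Alt.HordInstLoc.hord_lvl_loc (M * q) A K K' h _ _
      (alphaHom M q K (u4E M K h4)⁻¹) (alphaHom M q K' (u4E M K' h4)⁻¹)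
      (Fermat.Agent.S44.L.AltChartBCInf.lvl_alpha_s4 M q h h4) r b ϖs hbpow
      (Fermat.Agent.S44.L.AltChartBCInf.exists_coords_s4 M q A hq hodd hqM h4 hA h z hz hzK ϖ hϖ
        b hspanO hres hindL hspanL)
      ϖ q θ hθdeg hθ y _ algB hBβ q x hH)

end OE

end Fermat.Agent.S44.L.Alt.NodeAltInst
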