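import Mathlib
import Fermat.Agent.S44.L.RhoGauss

/-!
# PROGRAM MR (S44), strand L, cover-free ALT route for (L.SLOPE) (helper67):
# from the `IsRho` form of the NODE-ALT / SMOOTH-ALT exits to their `dV` form

Level-free (`S30/GaussDVR`, `S44/L/FirstOrder`, `S44/L/RhoGauss`): `O` a discrete valuation ring
with uniformiser `ϖ`, `h` a first-order derivation, `𝔲 = unif E ϖ`.

The exits of `Alt/NodeAlt.node_alt_isRho` / `smooth_alt_isRho` (and of their instances) are
stated with `RhoGauss.IsRho h X ρ` and `ρ * R s = R c`; the exits of `Alt/NodeAlt.node_alt` /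
`smooth_alt`, `Alt/NodeAltU4`, `Alt/NodeAltS4` are stated with a decomposition `X = 𝔲 ^ N * v` and
`dV v * R s = red v * R c`.  The second form follows from the first:

* `exists_zpow_of_isRho` : `IsRho h X ρ` gives `X = 𝔲 ^ N * v`, `v` a Gauss unit, `dV v = ρ * red v`;
* `dV_eq_mul_of_isRho` : for ANY decomposition `X = 𝔲 ^ N * v`, `dV v = ρ * red v`;
* `smooth_dV_of_isRho` : the smooth exit;
* `node_dV_of_isRho` : the node exit (both blocks).

`R, R₂ : C → κ((q))` are arbitrary maps (instances: `fun c => resL φ (redInf .. c)`,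
`fun c => resL φ (redZero .. c)`), `T` is any series (instance: `resL φ (redInf .. t₂)`).
-/

set_option autoImplicit false
set_option linter.unusedSectionVars false
set_option linter.unusedVariables false

open ModularCurve

noncomputable section

namespace Fermat.Agent.S44.L.Alt.RhoDV

open Fermat.Agent.S30 Fermat.Agent.S44.L.FirstOrder Fermat.Agent.S44.L.RhoGauss

variable {O E : Type*} [CommRing O] [IsDomain O] [IsDiscreteValuationRing O] [Field E]
  [Algebra O E] [FaithfulSMul O E]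
  {ϖ : O} {D : O → IsLocalRing.ResidueField O}
  (h : IsFirstOrder (IsLocalRing.residue O) ϖ D) (hϖ : Irreducible ϖ)

include hϖ in
/-- `IsRho h X ρ` gives a decomposition `X = 𝔲 ^ N * v` with `dV v = ρ * red v`. -/
theorem exists_zpow_of_isRho {X : LaurentSeries E}
    {ρ : LaurentSeries (IsLocalRing.ResidueField O)} (hρ : IsRho h X ρ) :
    ∃ (v : GaussDVR.V O E) (N : ℤ), GaussDVR.red O E v ≠ 0 ∧
      X = ((GaussDVR.unif E ϖ : GaussDVR.V O E) : LaurentSeries E) ^ N * (v : LaurentSeries E) ∧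
      dV O E h v = ρ * GaussDVR.red O E v := by
  obtain ⟨i, k, y, hy, hxy, hρy⟩ := hρ
  have hu : ((GaussDVR.unif E ϖ : GaussDVR.V O E) : LaurentSeries E) ≠ 0 :=
    GaussDVR.coe_unif_ne_zero E ϖ hϖ
  refine ⟨y, (i : ℤ) - k, hy, ?_, hρy.symm⟩
  rw [zpow_sub₀ hu, zpow_natCast, zpow_natCast, div_mul_eq_mul_div, eq_div_iff (pow_ne_zero k hu)]
  exact hxy

include hϖ in
/-- For any decomposition `X = 𝔲 ^ N * v` of an `X` with `IsRho h X ρ`: `dV v = ρ * red v`. -/
theorem dV_eq_mul_of_isRho {X : LaurentSeries E}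
    {ρ : LaurentSeries (IsLocalRing.ResidueField O)} (hρ : IsRho h X ρ)
    {v : GaussDVR.V O E} {N : ℤ} (hv : GaussDVR.red O E v ≠ 0)
    (hX : X = ((GaussDVR.unif E ϖ : GaussDVR.V O E) : LaurentSeries E) ^ N
      * (v : LaurentSeries E)) :
    dV O E h v = ρ * GaussDVR.red O E v := by
  have hu : ((GaussDVR.unif E ϖ : GaussDVR.V O E) : LaurentSeries E) ≠ 0 :=
    GaussDVR.coe_unif_ne_zero E ϖ hϖ
  have h2 : IsRho h X (dV O E h v / GaussDVR.red O E v) := by
    refine ⟨N.toNat, (-N).toNat, v, hv, ?_, div_mul_cancel₀ _ hv⟩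
    have hN : N + ((-N).toNat : ℤ) = (N.toNat : ℤ) := by omega
    rw [hX, mul_right_comm, ← zpow_natCast _ (-N).toNat, ← zpow_add₀ hu, hN, zpow_natCast]
  rw [IsRho.unique h hϖ hρ h2, div_mul_cancel₀ _ hv]

section Chart

variable {C : Type*} [CommRing C] (y : Ideal C)
  (R R₂ : C → LaurentSeries (IsLocalRing.ResidueField O))

include hϖ in
/-- **The smooth exit, `dV` form from `IsRho` form.** -/
theorem smooth_dV_of_isRho (q : ℕ) (X : LaurentSeries E)
    (hex : ∃ (a b c s : C) (ρ₁ : LaurentSeries (IsLocalRing.ResidueField O)),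
      a ∉ y ∧ b ∉ y ∧ s ∉ y ∧ IsRho h X ρ₁ ∧ ρ₁ * R s = R c ∧
      ∃ (v : GaussDVR.V O E) (N : ℤ) (hh : LaurentSeries (IsLocalRing.ResidueField O)),
        GaussDVR.red O E v ≠ 0 ∧
        X = ((GaussDVR.unif E ϖ : GaussDVR.V O E) : LaurentSeries E) ^ N
          * (v : LaurentSeries E) ∧
        GaussDVR.red O E v * R b = R a * hh ^ q) :
    ∃ (a b c s : C), a ∉ y ∧ b ∉ y ∧ s ∉ y ∧
      ∃ (v : GaussDVR.V O E) (N : ℤ) (hh : LaurentSeries (IsLocalRing.ResidueField O)),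
        GaussDVR.red O E v ≠ 0 ∧
        X = ((GaussDVR.unif E ϖ : GaussDVR.V O E) : LaurentSeries E) ^ N
          * (v : LaurentSeries E) ∧
        dV O E h v * R s = GaussDVR.red O E v * R c ∧
        GaussDVR.red O E v * R b = R a * hh ^ q := by
  obtain ⟨a, b, c, s, ρ₁, ha, hb, hs, hρ₁, h1, v, N, hh, hv, hX, h2⟩ := hex
  refine ⟨a, b, c, s, ha, hb, hs, v, N, hh, hv, hX, ?_, h2⟩
  rw [dV_eq_mul_of_isRho h hϖ hρ₁ hv hX, mul_right_comm, h1, mul_comm]

include hϖ in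
/-- **The node exit, `dV` form from `IsRho` form.** -/
theorem node_dV_of_isRho (q : ℕ) (X X' : LaurentSeries E)
    (T : LaurentSeries (IsLocalRing.ResidueField O)) (e₁ : IsLocalRing.ResidueField O)
    (hex : ∃ (j : ℤ) (a b c s : C) (ρ₁ ρ₂ : LaurentSeries (IsLocalRing.ResidueField O)),
      a ∉ y ∧ b ∉ y ∧ s ∉ y ∧ IsRho h X ρ₁ ∧ ρ₁ * R s = R c ∧
      IsRho h X' ρ₂ ∧ ρ₂ * R₂ s = R₂ c + j • (HahnSeries.C e₁ * R₂ s) ∧
      ∃ (v : GaussDVR.V O E) (N : ℤ) (hh : LaurentSeries (IsLocalRing.ResidueField O)),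
        GaussDVR.red O E v ≠ 0 ∧
        X = ((GaussDVR.unif E ϖ : GaussDVR.V O E) : LaurentSeries E) ^ N
          * (v : LaurentSeries E) ∧
        GaussDVR.red O E v * R b = R a * T ^ j * hh ^ q) :
    ∃ (j : ℤ) (a b c s : C), a ∉ y ∧ b ∉ y ∧ s ∉ y ∧
      (∃ (v : GaussDVR.V O E) (N : ℤ) (hh : LaurentSeries (IsLocalRing.ResidueField O)),
        GaussDVR.red O E v ≠ 0 ∧
        X = ((GaussDVR.unif E ϖ : GaussDVR.V O E) : LaurentSeries E) ^ N
          * (v : LaurentSeries E) ∧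
        dV O E h v * R s = GaussDVR.red O E v * R c ∧
        GaussDVR.red O E v * R b = R a * T ^ j * hh ^ q) ∧
      (∃ (v' : GaussDVR.V O E) (N' : ℤ),
        GaussDVR.red O E v' ≠ 0 ∧
        X' = ((GaussDVR.unif E ϖ : GaussDVR.V O E) : LaurentSeries E) ^ N'
          * (v' : LaurentSeries E) ∧
        dV O E h v' * R₂ s
          = GaussDVR.red O E v' * (R₂ c + j • (HahnSeries.C e₁ * R₂ s))) := by
  obtain ⟨j, a, b, c, s, ρ₁, ρ₂, ha, hb, hs, hρ₁, h1, hρ₂, h3, v, N, hh, hv, hX, h2⟩ := hex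
  obtain ⟨v', N', hv', hX', hd'⟩ := exists_zpow_of_isRho h hϖ hρ₂
  refine ⟨j, a, b, c, s, ha, hb, hs, ⟨v, N, hh, hv, hX, ?_, h2⟩, ⟨v', N', hv', hX', ?_⟩⟩
  · rw [dV_eq_mul_of_isRho h hϖ hρ₁ hv hX, mul_right_comm, h1, mul_comm]
  · rw [hd', mul_right_comm, h3, mul_comm]

end Chart

end Fermat.Agent.S44.L.Alt.RhoDV
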