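import Mathlib
import Fermat.Agent.S44.L.Alt.BricksE
import Fermat.Agent.S44.L.Alt.NodeAltInst
import Fermat.Agent.S44.L.Alt.RhoDV
import Fermat.Agent.S44.L.KummerBasis
import Fermat.Agent.S44.L.NodeC1InstInf

/-!
# PROGRAM MR (S44), strand L, cover-free ALT route for (L.SLOPE), row FE.1 (last glue, helper67):
# `BricksE.XFormsStatement`

In the Eisenstein situation of `KummerInst.exists_binders` (`K` fixed by inertia, `c, w ∈ K`
units, `(b / c) ^ p = 1 + p w`, `|b / c - 1| ^ p = |p|`), with `Ks = CycloBase.cyclo K b`: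

* `ϖs`, `D`, `θ`, `ε`, `e₁` are those of `KummerInst.exists_binders` (`D` kills `OE A K`);
* the basis binders at `b j = ϖs ^ j` are those of `KummerBasis.basis_binders`;
* `a₁ ∈ OE A K` with `residue (φ a₁) = e₁` comes from the residue-degree-one binder `hres`;
* the three exits are `NodeAltInst.node_alt_OE`, `smooth_alt_inf_OE`, `smooth_alt_inf_s4_OE`
  (helper192) at `ϖ = p`, `e = 1`, `n = p`, read in the `dV` form by `Alt/RhoDV`;
* on the chart at infinity, a closed point of the `∞`-component containing the coordinate is not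
  on the `0`-component (`NodeC1InstInf.cusp_s4_OE`).
-/

set_option autoImplicit false
set_option linter.unusedSectionVars false
set_option linter.unusedVariables false
set_option linter.style.haveILetI false
set_option synthInstance.maxHeartbeats 400000
set_option maxHeartbeats 1000000

open HahnSeries ModularCurve AlgebraicCurve Polynomial

noncomputable section

namespace Fermat.Agent.S44.L.Alt.XFormsInst

open Fermat.Agent.S30 Fermat.Agent.S30.Producer Fermat.Agent.S30.E4 Fermat.Agent.S44.Contract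
open Fermat.Agent.S44.L.Top Fermat.Agent.S44.L
open Fermat.Agent.S34 Fermat.Agent.S34.TwoPrimesGauss Fermat.Agent.S30.Model
open Fermat.Agent.S18.K1Defs Fermat.Agent.S18.K1Main
open Fermat.Agent.S34.TwoPrimesRank Fermat.Agent.S34.HauptU.Plug
open Fermat.Agent.S36.Haupt4 Fermat.Agent.S36.LevelQInstAlt
open Fermat.Agent.S36 Fermat.Agent.S36.HorizAdapter
open Fermat.Agent.S44.L.RedTransfer Fermat.Agent.S44.L.CentreChart
open Fermat.Agent.S44.L.FirstOrder Fermat.Agent.S44.L.Alt.NodeAltCore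

local notation "Qb" => AlgebraicClosure ℚ

/-- The residue-degree-one binder gives a lift of every residue class to `OE A K`. -/
theorem exists_residue_eq (A : ValuationSubring Qb) {K Ks : IntermediateField ℚ Qb} (h : K ≤ Ks)
    (hres : ∀ y : OE A Ks, ∃ a : OE A K, ¬ IsUnit (y - CycloBase.inclOE A h a))
    (e₁ : IsLocalRing.ResidueField (OE A Ks)) :
    ∃ a₁ : OE A K, IsLocalRing.residue (OE A Ks) (CycloBase.inclOE A h a₁) = e₁ := by
  obtain ⟨y, rfl⟩ := IsLocalRing.residue_surjective e₁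
  obtain ⟨a, ha⟩ := hres y
  refine ⟨a, ?_⟩
  rw [eq_comm, ← sub_eq_zero, ← map_sub, IsLocalRing.residue_eq_zero_iff,
    IsLocalRing.mem_maximalIdeal, mem_nonunits_iff]
  exact ha

/-- **(FE.1) `BricksE.XFormsStatement`.** -/
theorem xFormsStatement : BricksE.XFormsStatement := by
  classical
  intro A M p _ _ hp hodd hpM h4 hA K _ _ hK z hz hzK h2 hπ b c w hcK hc hwK hw hbc hval _
  obtain ⟨-, ϖs, D, θ, ε, e₁, hϖsval, hD, hϖs, hD0, hpres, hθdeg, hθ0, hθ, hε, hεr, he₁0, he₁,
    -, -⟩ := KummerInst.exists_binders A hp hA K hK hcK hc hwK hw hbc hval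
  obtain ⟨hspanO, hres, hindL, hspanL⟩ :=
    KummerBasis.basis_binders A hp hA K hK hcK hc hwK hw hbc hval ϖs hϖsval
  obtain ⟨a₁, ha₁⟩ := exists_residue_eq A (CycloBase.le_cyclo K b) hres e₁
  refine ⟨ϖs, D, hD, a₁, hϖs, by rw [ha₁]; exact he₁0, fun x hx => ?_⟩
  rw [ha₁]
  letI := algebraOL (OE A K) K (LE M K)
  letI := algebraOL (OE A K) K (LE (M * p) K)
  haveI := isScalarTower_OL (OE A K) K (LE M K)
  haveI := isScalarTower_OL (OE A K) K (LE (M * p) K)
  letI := algebraOL (OE A (CycloBase.cyclo K b)) (CycloBase.cyclo K b)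
    (LE (M * p) (CycloBase.cyclo K b))
  have hbpow : ∀ j : Fin p, ∃ n : ℕ,
      (fun j : Fin p => ϖs ^ (j : ℕ)) j = ϖs ^ n := fun j => ⟨(j : ℕ), rfl⟩
  unfold BricksE.XForms
  refine ⟨fun hH y hmax hI => ⟨fun hZ => ?_, fun hZ => ?_⟩, fun hH y hmax hI ht => ?_⟩
  · -- nodes of the finite chart
    have hex := NodeAltInst.node_alt_OE M p A hp hodd hpM h4 hA (CycloBase.le_cyclo K b) z hz hzK
      h2 ((p : ℕ) : OE A K) hπ 1 isUnit_one (mul_one _).symm (fun j : Fin p => ϖs ^ (j : ℕ))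
      hspanO hres hindL (hspanL (M * p)) hD hϖs hD0 hbpow θ hθdeg hθ0 hθ ε p hε hεr e₁ he₁
      y hmax hI hZ x hx hH
    exact RhoDV.node_dV_of_isRho hD hϖs y _ _ p _ _ _ e₁ hex
  · -- smooth points of the finite chart
    have hex := NodeAltInst.smooth_alt_inf_OE M p A hp hodd hpM h4 hA (CycloBase.le_cyclo K b) z
      hz hzK h2 ((p : ℕ) : OE A K) hπ 1 isUnit_one (mul_one _).symm
      (fun j : Fin p => ϖs ^ (j : ℕ)) hspanO hres hindL (hspanL (M * p)) hD hϖs hD0 hbpow θ
      hθdeg hθ0 hθ y hmax hI hZ x hx hH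
    exact RhoDV.smooth_dV_of_isRho hD hϖs y _ p _ hex
  · -- the points over `u₄ = ∞`
    have hπy : piC (alphaHom M p K (u4E M K h4)⁻¹) ((p : ℕ) : OE A K) ∈ y :=
      hI (redHom_piC (sigmaHom (M * p) K) (sigmaHom_algebraMap (M * p) K) ((p : ℕ) : OE A K) hπ
        (sigmaHom_mem_fracField (M * p) K A) (alphaHom M p K (u4E M K h4)⁻¹)
        (HauptU.E.posO (OE A K) Fermat.Agent.S36.SqChart.Coord4.s4Z)
        (Fermat.Agent.S36.SqChart.Coord4.hσ1u_s4 M K p h4))
    have hZ : ¬ RingHom.ker (redZero ((p : ℕ) : OE A K) hπ (alphaHom M p K)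
        (sigmaHom (M * p) K) (sigmaHom_algebraMap (M * p) K)
        (sigmaHom_mem_fracField (M * p) K A) (u4E M K h4)⁻¹
        (HauptU.E.posO (OE A K) Fermat.Agent.S36.SqChart.Coord4.s4Z)
        (Fermat.Agent.S36.SqChart.Coord4.hσ1u_s4 M K p h4)
        (wHom M p K hp hpM) (wHom_algebraMap M p K hp hpM) p
        (sigmaHom_wHom_alpha M p K hp hpM)) ≤ y := by
      rcases Fermat.Agent.S44.L.NodeC1InstInf.cusp_s4_OE A M p hp hodd hpM h4 hA K z hz hzK h2
        ((p : ℕ) : OE A K) hπ y hmax hπy ht with ⟨-, h', -, -⟩ | ⟨-, h', -, -⟩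
      · exact h'
      · exact absurd hI h'
    have hH' : Horiz ϖs p (alphaHom M p (CycloBase.cyclo K b)
        (u4E M (CycloBase.cyclo K b) h4)⁻¹) x := by
      rw [map_inv₀]
      exact hH
    have hex := NodeAltInst.smooth_alt_inf_s4_OE M p A hp hodd hpM h4 hA (CycloBase.le_cyclo K b)
      z hz hzK h2 ((p : ℕ) : OE A K) hπ 1 isUnit_one (mul_one _).symm
      (fun j : Fin p => ϖs ^ (j : ℕ)) hspanO hres hindL (hspanL (M * p)) hD hϖs hD0 hbpow θ
      hθdeg hθ0 hθ y hmax hI hZ x hx hH'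
    exact RhoDV.smooth_dV_of_isRho hD hϖs y _ p _ hex

end Fermat.Agent.S44.L.Alt.XFormsInst
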