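import Mathlib
import Fermat.Agent.S44.L.Alt.BricksE
import Fermat.Agent.S44.L.Alt.XFormsInst
import Fermat.Agent.S44.L.EisUnitAtU4
import Fermat.Agent.S44.L.Alt.RedBridge

/-!
# PROGRAM MR (S44), strand L, cover-free ALT route for (L.SLOPE): the final of the SLOPE chain

`Alt.Rho.SlopeRhoEisWStatement` from the three rows of `Alt/BricksE`:
* `xFormsStatement` (FE.1) : `Alt/XFormsInst`;
* `dFormsStatement` (FE.3) : `EisUnitAtU4.eis_dforms_u4`;
* `redLinkStatement` (FE.2) : `Alt/RedBridge.redLink`.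
-/

set_option autoImplicit false
set_option linter.unusedVariables false
set_option synthInstance.maxHeartbeats 400000
set_option maxHeartbeats 1000000

noncomputable section

namespace Fermat.Agent.S44.L.Alt.FinalE

/-- **(FE.3)** the forms of `D̄` at the `u₄`-chart. -/
theorem dFormsStatement : BricksE.DFormsStatement :=
  fun A M p _ _ hp hodd hpM h4 hA K _ _ z hz hzK h2 π hπ e he hpe _ hred h3 Db hDb =>
    Fermat.Agent.S44.L.EisUnitAtU4.eis_dforms_u4 A M p hp hodd hpM h4 hA K z hz hzK h2 π hπ e he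
      hpe hred h3 Db hDb

/-- **(FE.2)** RedLink. -/
theorem redLinkStatement : BricksE.RedLinkStatement :=
  fun p M N _ _ _ hp A hA Ks _ ϖs hϖs hN x₀ fs hh hh0 hlvl f hf v n hv hσ =>
    RedBridge.redLink hp A hA Ks ϖs hϖs hN x₀ fs hh hh0 hlvl f hf v n hv hσ

/-- **The SLOPE half of S44 at the `E`-level**: `Alt.Rho.SlopeRhoEisWStatement`. -/
theorem slopeRhoEisWStatement : Rho.SlopeRhoEisWStatement :=
  BricksE.slopeRhoEisWStatement_of_rows XFormsInst.xFormsStatement dFormsStatement
    redLinkStatement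

end Fermat.Agent.S44.L.Alt.FinalE

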