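import Mathlib
import Fermat.Agent.S44.L.AltChartBC
import Fermat.Agent.S44.L.HordChart
import Fermat.Agent.S36.HorizAdapter
import Fermat.Agent.S36.Haupt4.LevelQ

/-!
# S44 / L, cover-free ALT twin (row ALT.2): the `hord` binder of `NodeAlt`, E-level instance

`Qb = AlgebraicClosure ℚ`, `A` a valuation subring of `Qb`, `K ≤ K'` with `O = OE A K`,
`Os = OE A K'` discrete valuation rings, `β = BCChart.lvl N h : LE N K → LE N K'`,
`C = Chart O u` the chart ring over the (unramified) base, `Cs = Chart Os (β u)` the chart ring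
over the (ramified) base, `B` ANY `C`-algebra acting on `LE N K'` compatibly with `β`
(consumers: `B := Localization.AtPrime y`, `y` a closed point of `C`, with their own
`[Algebra (Localization.AtPrime y) (LE N K')]`).

The conclusion of every theorem is the binder `hord` of `NodeAlt.node_alt` / `NodeAlt.smooth_alt`
(`Ls := LE N K'`, `ϖs` the uniformiser of `Os`, exponent `m`) with `B` in place of
`Localization.AtPrime y`: at every prime `Q ∌ ϖs` of `B[ϖs]`, `b * x = a * τ ^ m`, `a, b ∉ Q`.
The statements are generic in `B` on purpose: instance search for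
`Algebra (Chart (OE A K) u) (Localization.AtPrime y)` over the concrete modular types is slow, so
no statement here mentions the localisation.

* `hord_lvl_of_horiz` : generic chart coordinate `u`; inputs: the coordinates statement
  `Cs = ⊕ j, b j • β C` (output shape of `AltChartBC.exists_coords_u4`) for a family `b` of
  powers of `ϖs`, the Eisenstein relation `ϖs ^ n = ϖ * θ(ϖs)` (`θ ∈ O[X]`, `deg θ < n`), and the
  horizontal hypothesis `HorizAdapter.Horiz ϖs m (β u) x` on the big chart.
* `hord_u4_of_horiz` : the coordinate `α u₄` of level `M q`, coordinates statement from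
  `AltChartBC.exists_coords_u4` (binder block of that theorem verbatim).
* `hord_u4_of_divBy` : the horizontal hypothesis from `E4.DivBy (M q) m (upF x)`
  (`HorizAdapter.horiz_of_divBy`).
-/

set_option autoImplicit false
set_option linter.unusedSectionVars false
set_option linter.unusedVariables false
set_option linter.style.haveILetI false
set_option synthInstance.maxHeartbeats 400000
set_option maxHeartbeats 1000000

open ModularCurve Polynomial

noncomputable section

namespace Fermat.Agent.S44.L.Alt.HordInst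

open Fermat.Agent.S18.K1Defs Fermat.Agent.S18.K1Main Fermat.Agent.S30 Fermat.Agent.S30.Model
open Fermat.Agent.S34 Fermat.Agent.S34.TwoPrimesGauss Fermat.Agent.S34.TwoPrimesRank
open Fermat.Agent.S34.HauptU.Plug Fermat.Agent.S34.HauptU.LevelMAux
open Fermat.Agent.S36.Haupt4 Fermat.Agent.S36.CycloBase
open Fermat.Agent.Lib.ChartBaseChange Fermat.Agent.S19.Cech.BCChart

local notation "Qb" => AlgebraicClosure ℚ

/-! ### Generic chart coordinate -/

section Generic

variable (N : ℕ) (A : ValuationSubring Qb) {K K' : IntermediateField ℚ Qb} (h : K ≤ K')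
  [IsDiscreteValuationRing (OE A K)] [IsDiscreteValuationRing (OE A K')]

/-- **`hord` at the primes of `B[ϖs]`**, generic chart coordinate `u` with `lvl u = us`. -/
theorem hord_lvl_of_horiz (u : LE N K) (us : LE N K') (hlu : lvl N h u = us)
    {r : ℕ} (b : Fin r → OE A K') (ϖs : OE A K') (hbpow : ∀ j, ∃ n : ℕ, b j = ϖs ^ n)
    (hcoords :
      letI := algebraOL (OE A K) K (LE N K)
      letI := algebraOL (OE A K') K' (LE N K')
      ∀ x : LE N K', IsIntegral (Algebra.adjoin (OE A K') ({us} : Set (LE N K'))) x →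
        ∃ c : Fin r → LE N K,
          (∀ j, IsIntegral (Algebra.adjoin (OE A K) ({u} : Set (LE N K))) (c j)) ∧
          x = ∑ j, algebraMap (OE A K') (LE N K') (b j) * lvl N h (c j))
    (ϖ : OE A K) (n : ℕ) (θ : (OE A K)[X]) (hθdeg : θ.natDegree < n)
    (hθ : ϖs ^ n = inclOE A h ϖ * θ.eval₂ (inclOE A h) ϖs) :
    letI := algebraOL (OE A K) K (LE N K)
    letI := algebraOL (OE A K') K' (LE N K')
    ∀ {B : Type*} [CommRing B] [Algebra (Chart (OE A K) u) B] [Algebra B (LE N K')]
      (hBβ : ∀ c : Chart (OE A K) u,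
        algebraMap B (LE N K') (algebraMap (Chart (OE A K) u) B c) = lvl N h (c : LE N K))
      (m : ℕ) (x : LE N K')
      (hH : Fermat.Agent.S36.HorizAdapter.Horiz ϖs m us x)
      (Q : Ideal (Algebra.adjoin B ({algebraMap (OE A K') (LE N K') ϖs} : Set (LE N K')))),
      Q.IsPrime →
      (⟨algebraMap (OE A K') (LE N K') ϖs, Algebra.self_mem_adjoin_singleton _ _⟩ :
        Algebra.adjoin B ({algebraMap (OE A K') (LE N K') ϖs} : Set (LE N K'))) ∉ Q →
      ∃ (a b' : Algebra.adjoin B ({algebraMap (OE A K') (LE N K') ϖs} : Set (LE N K')))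
          (τ : LE N K'),
        a ∉ Q ∧ b' ∉ Q ∧
        algebraMap (Algebra.adjoin B ({algebraMap (OE A K') (LE N K') ϖs} : Set (LE N K')))
            (LE N K') b' * x
          = algebraMap (Algebra.adjoin B ({algebraMap (OE A K') (LE N K') ϖs} : Set (LE N K')))
            (LE N K') a * τ ^ m := by
  letI := algebraOL (OE A K) K (LE N K)
  letI := algebraOL (OE A K') K' (LE N K')
  intro B _ _ _ hBβ m x hH Q hQ hπQ
  subst hlu
  exact Fermat.Agent.S44.L.HordChart.hord_chart_of_coords (inclOE A h) (lvl N h)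
    (fun a => lvl_algebraMap N h (a : K)) u b ϖs hbpow hcoords ϖ n θ hθdeg hθ hBβ m x hH
    Q hQ hπQ

end Generic

/-! ### The coordinate `α u₄` -/

section U4

variable (M q : ℕ) [NeZero M] [NeZero q] (A : ValuationSubring Qb)

/-- **`hord` at the primes of `B[ϖs]` for the chart of `α u₄`**, from the horizontal hypothesis
on the big chart.  Binder block of `AltChartBC.exists_coords_u4` with a family `b` of powers of
`ϖs`, plus the Eisenstein relation of `ϖs`. -/
theorem hord_u4_of_horiz (hq : q.Prime) (hodd : q ≠ 2) (hqM : ¬ q ∣ M) (h4 : 4 ∣ M)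
    (hA : A.LiesOverPrime q) {K K' : IntermediateField ℚ Qb} (h : K ≤ K')
    [FiniteDimensional ℚ K] [IsDiscreteValuationRing (OE A K)]
    [IsDiscreteValuationRing (OE A K')]
    (z : Qb) (hz : IsPrimitiveRoot z M) (hzK : z ∈ K)
    (ϖ : OE A K) (hϖ : Irreducible ϖ) (e : OE A K) (he : IsUnit e)
    (hqe : ((q : ℕ) : OE A K) = ϖ * e)
    {r : ℕ} (b : Fin r → OE A K')
    (hspanO : ∀ a : OE A K', ∃ a' : Fin r → OE A K, a = ∑ j, inclOE A h (a' j) * b j)
    (hres : ∀ a : OE A K', ∃ a' : OE A K, ¬ IsUnit (a - inclOE A h a'))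
    (hindL : ∀ c : Fin r → LaurentSeries K,
      ∑ j, algebraMap K' (LaurentSeries K') ((b j : OE A K') : K') *
        coeffMap (IntermediateField.inclusion h : K →+* K') (c j) = 0 → ∀ j, c j = 0)
    (hspanL : ∀ x : LaurentSeries K', x ∈ LE (M * q) K' → ∃ c : Fin r → LaurentSeries K,
      (∀ j, c j ∈ LE (M * q) K) ∧ x = ∑ j, algebraMap K' (LaurentSeries K') ((b j : OE A K') : K') *
        coeffMap (IntermediateField.inclusion h : K →+* K') (c j))
    (ϖs : OE A K') (hbpow : ∀ j, ∃ n : ℕ, b j = ϖs ^ n)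
    (n : ℕ) (θ : (OE A K)[X]) (hθdeg : θ.natDegree < n)
    (hθ : ϖs ^ n = inclOE A h ϖ * θ.eval₂ (inclOE A h) ϖs) :
    letI := algebraOL (OE A K) K (LE (M * q) K)
    letI := algebraOL (OE A K') K' (LE (M * q) K')
    ∀ {B : Type*} [CommRing B] [Algebra (Chart (OE A K) (alphaHom M q K (u4E M K h4))) B]
      [Algebra B (LE (M * q) K')]
      (hBβ : ∀ c : Chart (OE A K) (alphaHom M q K (u4E M K h4)),
        algebraMap B (LE (M * q) K')
          (algebraMap (Chart (OE A K) (alphaHom M q K (u4E M K h4))) B c)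
          = lvl (M * q) h (c : LE (M * q) K))
      (m : ℕ) (x : LE (M * q) K')
      (hH : Fermat.Agent.S36.HorizAdapter.Horiz ϖs m (alphaHom M q K' (u4E M K' h4)) x)
      (Q : Ideal (Algebra.adjoin B
        ({algebraMap (OE A K') (LE (M * q) K') ϖs} : Set (LE (M * q) K')))),
      Q.IsPrime →
      (⟨algebraMap (OE A K') (LE (M * q) K') ϖs, Algebra.self_mem_adjoin_singleton _ _⟩ :
        Algebra.adjoin B ({algebraMap (OE A K') (LE (M * q) K') ϖs} : Set (LE (M * q) K'))) ∉ Q →
      ∃ (a b' : Algebra.adjoin B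
          ({algebraMap (OE A K') (LE (M * q) K') ϖs} : Set (LE (M * q) K')))
          (τ : LE (M * q) K'),
        a ∉ Q ∧ b' ∉ Q ∧
        algebraMap (Algebra.adjoin B
            ({algebraMap (OE A K') (LE (M * q) K') ϖs} : Set (LE (M * q) K')))
            (LE (M * q) K') b' * x
          = algebraMap (Algebra.adjoin B
            ({algebraMap (OE A K') (LE (M * q) K') ϖs} : Set (LE (M * q) K')))
            (LE (M * q) K') a * τ ^ m := by
  letI := algebraOL (OE A K) K (LE (M * q) K)
  letI := algebraOL (OE A K') K' (LE (M * q) K')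
  intro B _ _ _ hBβ m x hH Q hQ hπQ
  exact hord_lvl_of_horiz (M * q) A h (alphaHom M q K (u4E M K h4))
    (alphaHom M q K' (u4E M K' h4)) (Fermat.Agent.S44.L.AltChartBC.lvl_alpha_u4 M q h h4)
    b ϖs hbpow
    (Fermat.Agent.S44.L.AltChartBC.exists_coords_u4 M q A hq hodd hqM h4 hA h z hz hzK ϖ hϖ e he
      hqe b hspanO hres hindL hspanL)
    ϖ n θ hθdeg hθ hBβ m x hH Q hQ hπQ

/-- **`hord` at the primes of `B[ϖs]` for the chart of `α u₄`**, from `m ∣ div x` over `Qb`. -/
theorem hord_u4_of_divBy (hq : q.Prime) (hodd : q ≠ 2) (hqM : ¬ q ∣ M) (h4 : 4 ∣ M)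
    (hA : A.LiesOverPrime q) {K K' : IntermediateField ℚ Qb} (h : K ≤ K')
    [FiniteDimensional ℚ K] [IsDiscreteValuationRing (OE A K)]
    [IsDiscreteValuationRing (OE A K')]
    (z : Qb) (hz : IsPrimitiveRoot z M) (hzK : z ∈ K)
    (ϖ : OE A K) (hϖ : Irreducible ϖ) (e : OE A K) (he : IsUnit e)
    (hqe : ((q : ℕ) : OE A K) = ϖ * e)
    {r : ℕ} (b : Fin r → OE A K')
    (hspanO : ∀ a : OE A K', ∃ a' : Fin r → OE A K, a = ∑ j, inclOE A h (a' j) * b j)
    (hres : ∀ a : OE A K', ∃ a' : OE A K, ¬ IsUnit (a - inclOE A h a'))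
    (hindL : ∀ c : Fin r → LaurentSeries K,
      ∑ j, algebraMap K' (LaurentSeries K') ((b j : OE A K') : K') *
        coeffMap (IntermediateField.inclusion h : K →+* K') (c j) = 0 → ∀ j, c j = 0)
    (hspanL : ∀ x : LaurentSeries K', x ∈ LE (M * q) K' → ∃ c : Fin r → LaurentSeries K,
      (∀ j, c j ∈ LE (M * q) K) ∧ x = ∑ j, algebraMap K' (LaurentSeries K') ((b j : OE A K') : K') *
        coeffMap (IntermediateField.inclusion h : K →+* K') (c j))
    (ϖs : OE A K') (hϖs : Irreducible ϖs) (hbpow : ∀ j, ∃ n : ℕ, b j = ϖs ^ n)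
    (n : ℕ) (θ : (OE A K)[X]) (hθdeg : θ.natDegree < n)
    (hθ : ϖs ^ n = inclOE A h ϖ * θ.eval₂ (inclOE A h) ϖs) :
    letI := algebraOL (OE A K) K (LE (M * q) K)
    letI := algebraOL (OE A K') K' (LE (M * q) K')
    ∀ {B : Type*} [CommRing B] [Algebra (Chart (OE A K) (alphaHom M q K (u4E M K h4))) B]
      [Algebra B (LE (M * q) K')]
      (hBβ : ∀ c : Chart (OE A K) (alphaHom M q K (u4E M K h4)),
        algebraMap B (LE (M * q) K')
          (algebraMap (Chart (OE A K) (alphaHom M q K (u4E M K h4))) B c)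
          = lvl (M * q) h (c : LE (M * q) K))
      (m : ℕ) (x : LE (M * q) K') (hx : x ≠ 0)
      (hdiv : E4.DivBy (M * q) m (Fermat.Agent.S36.InvFun.upF (M * q) K' x))
      (Q : Ideal (Algebra.adjoin B
        ({algebraMap (OE A K') (LE (M * q) K') ϖs} : Set (LE (M * q) K')))),
      Q.IsPrime →
      (⟨algebraMap (OE A K') (LE (M * q) K') ϖs, Algebra.self_mem_adjoin_singleton _ _⟩ :
        Algebra.adjoin B ({algebraMap (OE A K') (LE (M * q) K') ϖs} : Set (LE (M * q) K'))) ∉ Q →
      ∃ (a b' : Algebra.adjoin B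
          ({algebraMap (OE A K') (LE (M * q) K') ϖs} : Set (LE (M * q) K')))
          (τ : LE (M * q) K'),
        a ∉ Q ∧ b' ∉ Q ∧
        algebraMap (Algebra.adjoin B
            ({algebraMap (OE A K') (LE (M * q) K') ϖs} : Set (LE (M * q) K')))
            (LE (M * q) K') b' * x
          = algebraMap (Algebra.adjoin B
            ({algebraMap (OE A K') (LE (M * q) K') ϖs} : Set (LE (M * q) K')))
            (LE (M * q) K') a * τ ^ m := by
  letI := algebraOL (OE A K) K (LE (M * q) K)
  letI := algebraOL (OE A K') K' (LE (M * q) K')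
  haveI := isScalarTower_OL (OE A K') K' (LE (M * q) K')
  haveI := Fermat.Agent.S36.Haupt4.LevelQ.finiteDimensional_alpha_u4E M q K' h4
  intro B _ _ _ hBβ m x hx hdiv Q hQ hπQ
  exact hord_u4_of_horiz M q A hq hodd hqM h4 hA h z hz hzK ϖ hϖ e he hqe b hspanO hres hindL
    hspanL ϖs hbpow n θ hθdeg hθ hBβ m x
    (Fermat.Agent.S36.HorizAdapter.horiz_of_divBy (M * q) K' ϖs hϖs
      (alphaHom M q K' (u4E M K' h4))
      (Fermat.Agent.S36.Haupt4.LevelQ.transcendental_alpha_u4E M q K' h4) m x hx hdiv)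
    Q hQ hπQ

end U4

end Fermat.Agent.S44.L.Alt.HordInst
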