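import Mathlib
import Fermat.Agent.S44.L.Alt.NodeAlt

/-!
# PROGRAM MR (S44), strand L: `A = C_y[πs]` satisfies the binders of `NodeNF` / `SmoothNF`
# (standalone export of the construction inside `S44/L/Alt/NodeAlt`, helper192)

`C` a domain with fraction field `L`, `y` a prime, `B = Localization.AtPrime y`, `β : L → Ls`,
`[Algebra B Ls]` restricting to `β` on `C`, `πs : Ls` with the Eisenstein equation
`πs ^ p = β ϖ * κ₀(πs)`, `κ₀ ∈ C[X]`, `deg κ₀ < p`, `κ₀(0) ∉ y`; `A = Algebra.adjoin B {πs}`.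

* `node_binders` : at a node (`t₁ t₂ = ϖ g`, `g ∉ y`, `P₁ = (t₁)`, `P₂ = (t₂)`, `y = (t₁, t₂)`
  locally at `y`) the binders `ht₁ ht₂ hne hm hκ hκ0 hBA hπ hgen` of
  `NodeNF.exists_eq_first_order` hold for `B`, `A`, `π = πs`, `κ = C (unit) * κ₀`.
* `smooth_binders` : at a smooth point (`P = (ϖ)`, `y = (ϖ, z)` locally at `y`) the binders
  `hϖ hm hκ hκ0 hBA hπ hgen` of `SmoothNF.exists_eq_first_order_smooth` hold, `κ = κ₀`.
* `node_binders_chart`, `smooth_binders_chart` : the same in the chart binder block of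
  `NodeAlt.node_alt` / `NodeAlt.smooth_alt` (`C = Chart O u`, `πs = algebraMap Os Ls ϖs`,
  `ϖs ^ p = φ ϖ * θ(ϖs)`).

The instance `IsFractionRing A Ls` is `NodeAlt.isFractionRing_adjoin`.
-/

set_option autoImplicit false
set_option linter.unusedSectionVars false
set_option linter.unusedVariables false
set_option linter.style.haveILetI false

open ModularCurve Polynomial

noncomputable section

namespace Fermat.Agent.S44.L.Alt.NodeAltBinders

open Fermat.Agent.S30 Fermat.Agent.S34 Fermat.Agent.S34.TwoPrimesGauss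
open Fermat.Agent.S44.L.Alt.NodeAlt

section Alg

variable {C L Ls : Type*} [CommRing C] [IsDomain C] [Field L] [Algebra C L] [IsFractionRing C L]
  (y : Ideal C) [y.IsPrime] [Field Ls] (β : L →+* Ls) [Algebra (Localization.AtPrime y) Ls]
  (hBβ : ∀ c : C, algebraMap (Localization.AtPrime y) Ls
    (algebraMap C (Localization.AtPrime y) c) = β (algebraMap C L c))
  (πs : Ls)

include hBβ

theorem injective_algebraMap_adjoin :
    Function.Injective (algebraMap (Localization.AtPrime y)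
      (Algebra.adjoin (Localization.AtPrime y) ({πs} : Set Ls))) := by
  intro b b' hbb
  apply algebraMap_loc_injective y β hBβ
  exact congrArg (fun z : Algebra.adjoin (Localization.AtPrime y) ({πs} : Set Ls) => (z : Ls))
    hbb

omit hBβ [IsDomain C] [IsFractionRing C L] [Algebra C L] in
theorem adjoin_gen_eq_top :
    Algebra.adjoin (Localization.AtPrime y)
      ({(⟨πs, Algebra.self_mem_adjoin_singleton _ πs⟩ :
        Algebra.adjoin (Localization.AtPrime y) ({πs} : Set Ls))} :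
        Set (Algebra.adjoin (Localization.AtPrime y) ({πs} : Set Ls))) = ⊤ := by
  have h := Algebra.adjoin_adjoin_coe_preimage (R := Localization.AtPrime y)
    (s := ({πs} : Set Ls))
  have hset : ((↑) : Algebra.adjoin (Localization.AtPrime y) ({πs} : Set Ls) → Ls) ⁻¹'
      ({πs} : Set Ls) = {(⟨πs, Algebra.self_mem_adjoin_singleton _ πs⟩ :
      Algebra.adjoin (Localization.AtPrime y) ({πs} : Set Ls))} := by
    ext z
    simp only [Set.mem_preimage, Set.mem_singleton_iff]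
    exact ⟨fun h => Subtype.ext h, fun h => by rw [h]⟩
  rw [hset] at h
  exact h

/-- **The binders of `NodeNF` at a node**, for `B = C_y`, `A = B[πs]`. -/
theorem node_binders {p : ℕ}
    (P₁ P₂ : Ideal C) [P₁.IsPrime] [P₂.IsPrime] (hP₁ : P₁ ≤ y) (hP₂ : P₂ ≤ y)
    (ϖC t₁ t₂ g : C) (hϖC : ϖC ≠ 0) (hg : g ∉ y) (hmul : t₁ * t₂ = ϖC * g)
    (ht₁ : t₁ ∈ P₁) (hgen₁ : ∀ x ∈ P₁, ∃ s, s ∉ y ∧ s * x ∈ Ideal.span {t₁})
    (ht₂ : t₂ ∈ P₂) (hgen₂ : ∀ x ∈ P₂, ∃ s, s ∉ y ∧ s * x ∈ Ideal.span {t₂})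
    (hne : t₁ ∉ P₂)
    (hm : ∀ m ∈ y, ∃ s, s ∉ y ∧ s * m ∈ Ideal.span {t₁, t₂})
    (κ₀ : C[X]) (hκdeg : κ₀.natDegree < p) (hκ0 : κ₀.eval 0 ∉ y)
    (hπs : πs ^ p = β (algebraMap C L ϖC) * κ₀.eval₂ (β.comp (algebraMap C L)) πs) :
    ∃ κ : (Localization.AtPrime y)[X], κ.natDegree < p ∧ IsUnit (κ.eval 0) ∧
      Prime (algebraMap C (Localization.AtPrime y) t₁) ∧
      Prime (algebraMap C (Localization.AtPrime y) t₂) ∧
      ¬ Associated (algebraMap C (Localization.AtPrime y) t₁)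
        (algebraMap C (Localization.AtPrime y) t₂) ∧
      IsLocalRing.maximalIdeal (Localization.AtPrime y)
        = Ideal.span {algebraMap C (Localization.AtPrime y) t₁,
            algebraMap C (Localization.AtPrime y) t₂} ∧
      Function.Injective (algebraMap (Localization.AtPrime y)
        (Algebra.adjoin (Localization.AtPrime y) ({πs} : Set Ls))) ∧
      (⟨πs, Algebra.self_mem_adjoin_singleton _ πs⟩ :
          Algebra.adjoin (Localization.AtPrime y) ({πs} : Set Ls)) ^ p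
        = algebraMap (Localization.AtPrime y)
            (Algebra.adjoin (Localization.AtPrime y) ({πs} : Set Ls))
            (algebraMap C (Localization.AtPrime y) t₁ * algebraMap C (Localization.AtPrime y) t₂)
          * Polynomial.aeval (⟨πs, Algebra.self_mem_adjoin_singleton _ πs⟩ :
              Algebra.adjoin (Localization.AtPrime y) ({πs} : Set Ls)) κ ∧
      Algebra.adjoin (Localization.AtPrime y)
        ({(⟨πs, Algebra.self_mem_adjoin_singleton _ πs⟩ :
          Algebra.adjoin (Localization.AtPrime y) ({πs} : Set Ls))} :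
          Set (Algebra.adjoin (Localization.AtPrime y) ({πs} : Set Ls))) = ⊤ ∧
      t₂ ∉ P₁ := by
  classical
  obtain ⟨hpr₁, hpr₂, hna, hmax, -⟩ := Fermat.Agent.S44.L.NodeLoc.node_localization y P₁ P₂ hP₁
    hP₂ ϖC t₁ t₂ g hϖC hg hmul ht₁ hgen₁ ht₂ hgen₂ hne hm
  have ht₂P : t₂ ∉ P₁ := by
    intro hmem
    obtain ⟨s, hs, hsx⟩ := hgen₁ t₂ hmem
    have h1 := Fermat.Agent.S44.L.NodeLoc.algebraMap_mem_span_singleton y hs hsx
    rw [Ideal.mem_span_singleton] at h1
    exact hna (hpr₁.irreducible.associated_of_dvd hpr₂.irreducible h1)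
  obtain ⟨ug, hug⟩ := Fermat.Agent.S44.L.NodeLoc.isUnit_algebraMap_of_notMem y hg
  refine ⟨Polynomial.C ((ug⁻¹ : (Localization.AtPrime y)ˣ) : Localization.AtPrime y)
      * κ₀.map (algebraMap C (Localization.AtPrime y)), ?_, ?_, hpr₁, hpr₂, hna, hmax,
    injective_algebraMap_adjoin y β hBβ πs, ?_, adjoin_gen_eq_top y πs, ht₂P⟩
  · exact lt_of_le_of_lt ((Polynomial.natDegree_C_mul_le _ _).trans
      Polynomial.natDegree_map_le) hκdeg
  · rw [Polynomial.eval_mul, Polynomial.eval_C, Polynomial.eval_map,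
      Polynomial.eval₂_at_zero, Polynomial.coeff_zero_eq_eval_zero]
    exact (Units.isUnit _).mul (Fermat.Agent.S44.L.NodeLoc.isUnit_algebraMap_of_notMem y hκ0)
  · apply Subtype.ext
    show πs ^ p = algebraMap (Localization.AtPrime y) Ls
        (algebraMap C (Localization.AtPrime y) t₁ * algebraMap C (Localization.AtPrime y) t₂)
      * ((Polynomial.aeval (⟨πs, Algebra.self_mem_adjoin_singleton _ πs⟩ :
            Algebra.adjoin (Localization.AtPrime y) ({πs} : Set Ls))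
          (Polynomial.C ((ug⁻¹ : (Localization.AtPrime y)ˣ) : Localization.AtPrime y)
            * κ₀.map (algebraMap C (Localization.AtPrime y))) :
          Algebra.adjoin (Localization.AtPrime y) ({πs} : Set Ls)) : Ls)
    rw [Polynomial.aeval_subalgebra_coe]
    have e1 : Polynomial.aeval πs
          (Polynomial.C ((ug⁻¹ : (Localization.AtPrime y)ˣ) : Localization.AtPrime y)
            * κ₀.map (algebraMap C (Localization.AtPrime y)))
        = algebraMap (Localization.AtPrime y) Ls ((ug⁻¹ : (Localization.AtPrime y)ˣ) :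
            Localization.AtPrime y) * κ₀.eval₂ (β.comp (algebraMap C L)) πs := by
      rw [map_mul, Polynomial.aeval_C, Polynomial.aeval_def, Polynomial.eval₂_map,
        comp_eq y β hBβ]
    have e2 : algebraMap (Localization.AtPrime y) Ls (ug : Localization.AtPrime y)
        * algebraMap (Localization.AtPrime y) Ls ((ug⁻¹ : (Localization.AtPrime y)ˣ) :
            Localization.AtPrime y) = 1 := by
      rw [← map_mul, Units.mul_inv, map_one]
    have e3 : algebraMap (Localization.AtPrime y) Ls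
        (algebraMap C (Localization.AtPrime y) t₁ * algebraMap C (Localization.AtPrime y) t₂)
        = β (algebraMap C L ϖC) * algebraMap (Localization.AtPrime y) Ls
            (ug : Localization.AtPrime y) := by
      rw [← map_mul (algebraMap C (Localization.AtPrime y)), hmul,
        map_mul (algebraMap C (Localization.AtPrime y)), map_mul, hBβ ϖC, hug]
    rw [e1, e3, hπs]
    linear_combination (-(β (algebraMap C L ϖC) * κ₀.eval₂ (β.comp (algebraMap C L)) πs)) * e2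

/-- **The binders of `SmoothNF` at a smooth point**, for `B = C_y`, `A = B[πs]`. -/
theorem smooth_binders {p : ℕ}
    (P : Ideal C) [P.IsPrime] (hP : P ≤ y) (ϖC : C) (hϖC : ϖC ≠ 0) (hϖP : ϖC ∈ P)
    (hgen₁ : ∀ x ∈ P, ∃ s, s ∉ y ∧ s * x ∈ Ideal.span {ϖC})
    (z : C) (hz : z ∈ y) (hm : ∀ m ∈ y, ∃ s, s ∉ y ∧ s * m ∈ Ideal.span {ϖC, z})
    (κ₀ : C[X]) (hκdeg : κ₀.natDegree < p) (hκ0 : κ₀.eval 0 ∉ y)
    (hπs : πs ^ p = β (algebraMap C L ϖC) * κ₀.eval₂ (β.comp (algebraMap C L)) πs) :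
    Prime (algebraMap C (Localization.AtPrime y) ϖC) ∧
      IsLocalRing.maximalIdeal (Localization.AtPrime y)
        = Ideal.span {algebraMap C (Localization.AtPrime y) ϖC,
            algebraMap C (Localization.AtPrime y) z} ∧
      (κ₀.map (algebraMap C (Localization.AtPrime y))).natDegree < p ∧
      IsUnit ((κ₀.map (algebraMap C (Localization.AtPrime y))).eval 0) ∧
      Function.Injective (algebraMap (Localization.AtPrime y)
        (Algebra.adjoin (Localization.AtPrime y) ({πs} : Set Ls))) ∧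
      (⟨πs, Algebra.self_mem_adjoin_singleton _ πs⟩ :
          Algebra.adjoin (Localization.AtPrime y) ({πs} : Set Ls)) ^ p
        = algebraMap (Localization.AtPrime y)
            (Algebra.adjoin (Localization.AtPrime y) ({πs} : Set Ls))
            (algebraMap C (Localization.AtPrime y) ϖC)
          * Polynomial.aeval (⟨πs, Algebra.self_mem_adjoin_singleton _ πs⟩ :
              Algebra.adjoin (Localization.AtPrime y) ({πs} : Set Ls))
            (κ₀.map (algebraMap C (Localization.AtPrime y))) ∧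
      Algebra.adjoin (Localization.AtPrime y)
        ({(⟨πs, Algebra.self_mem_adjoin_singleton _ πs⟩ :
          Algebra.adjoin (Localization.AtPrime y) ({πs} : Set Ls))} :
          Set (Algebra.adjoin (Localization.AtPrime y) ({πs} : Set Ls))) = ⊤ := by
  classical
  obtain ⟨hpr, hmax⟩ := Fermat.Agent.S44.L.NodeLoc.smooth_localization y P hP ϖC hϖC hϖP hgen₁
    z hz hm
  refine ⟨hpr, hmax, lt_of_le_of_lt Polynomial.natDegree_map_le hκdeg, ?_,
    injective_algebraMap_adjoin y β hBβ πs, ?_, adjoin_gen_eq_top y πs⟩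
  · rw [Polynomial.eval_map, Polynomial.eval₂_at_zero, Polynomial.coeff_zero_eq_eval_zero]
    exact Fermat.Agent.S44.L.NodeLoc.isUnit_algebraMap_of_notMem y hκ0
  · apply Subtype.ext
    show πs ^ p = algebraMap (Localization.AtPrime y) Ls
        (algebraMap C (Localization.AtPrime y) ϖC)
      * ((Polynomial.aeval (⟨πs, Algebra.self_mem_adjoin_singleton _ πs⟩ :
            Algebra.adjoin (Localization.AtPrime y) ({πs} : Set Ls))
          (κ₀.map (algebraMap C (Localization.AtPrime y))) :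
          Algebra.adjoin (Localization.AtPrime y) ({πs} : Set Ls)) : Ls)
    rw [Polynomial.aeval_subalgebra_coe, Polynomial.aeval_def, Polynomial.eval₂_map,
      comp_eq y β hBβ, hBβ ϖC, hπs]

end Alg

section Chart

variable {O E : Type*} [CommRing O] [IsDomain O] [IsDiscreteValuationRing O] [Field E]
  [Algebra O E] [FaithfulSMul O E] {L : Type*} [Field L] [Algebra O L]
  {Os : Type*} [CommRing Os] (φ : O →+* Os)

/-- The Eisenstein equation in the chart: from `ϖs ^ p = φ ϖ * θ(ϖs)` in `Os` to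
`πs ^ p = β ϖ * κ₀(πs)` in `Ls`, `κ₀ = θ` read in `C[X]`, with `κ₀(0) ∉ y`. -/
theorem exists_kappa (ϖ : O) (u : L) (y : Ideal (Chart O u)) [y.IsPrime]
    {ϖs : Os} {p : ℕ} (θ : O[X]) (hθdeg : θ.natDegree < p) (hθ0 : IsUnit (θ.eval 0))
    (hθ : ϖs ^ p = φ ϖ * θ.eval₂ φ ϖs)
    {Ls : Type*} [Field Ls] [Algebra Os Ls] (β : L →+* Ls)
    (hβO : ∀ r : O, β (algebraMap O L r) = algebraMap Os Ls (φ r)) :
    ∃ κ₀ : (Chart O u)[X], κ₀.natDegree < p ∧ κ₀.eval 0 ∉ y ∧
      (algebraMap Os Ls ϖs) ^ p = β (algebraMap (Chart O u) L (piC u ϖ))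
        * κ₀.eval₂ (β.comp (algebraMap (Chart O u) L)) (algebraMap Os Ls ϖs) := by
  obtain ⟨oC, hoC⟩ : ∃ oC : O →+* Chart O u, ∀ r : O, ((oC r : Chart O u) : L) = algebraMap O L r
      ∧ oC ϖ = piC u ϖ :=
    ⟨(algebraMap (Algebra.adjoin O {u}) (Chart O u)).comp
      (algebraMap O (Algebra.adjoin O {u})), fun r => ⟨rfl, rfl⟩⟩
  have hcomp : (β.comp (algebraMap (Chart O u) L)).comp oC = (algebraMap Os Ls).comp φ :=
    RingHom.ext fun r => by
      show β ((oC r : Chart O u) : L) = algebraMap Os Ls (φ r)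
      rw [(hoC r).1, hβO]
  refine ⟨θ.map oC, lt_of_le_of_lt Polynomial.natDegree_map_le hθdeg, ?_, ?_⟩
  · rw [Polynomial.eval_map, Polynomial.eval₂_at_zero, Polynomial.coeff_zero_eq_eval_zero]
    intro hmem
    exact (Ideal.IsPrime.ne_top inferInstance) (Ideal.eq_top_of_isUnit_mem _ hmem (hθ0.map oC))
  · rw [Polynomial.eval₂_map, hcomp, ← Polynomial.hom_eval₂, ← map_pow, hθ, map_mul]
    congr 1
    exact (hβO ϖ).symm

/-- `piC u ϖ ≠ 0`. -/
theorem piC_ne_zero (ϖ : O) (hϖ : Irreducible ϖ) (u : L) (σ₁ : L →+* LaurentSeries E)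
    (hσO₁ : ∀ r : O, σ₁ (algebraMap O L r) = HahnSeries.C (algebraMap O E r)) :
    piC u ϖ ≠ 0 := by
  have hinjO : Function.Injective (algebraMap O L) := by
    intro a b hab
    have h1 := congrArg σ₁ hab
    rw [hσO₁, hσO₁] at h1
    exact FaithfulSMul.algebraMap_injective O E (HahnSeries.C_injective h1)
  intro h0
  have h1 : algebraMap O L ϖ = 0 := by
    rw [← coe_piC u ϖ, h0]
    rfl
  exact hϖ.ne_zero (hinjO (h1.trans (map_zero _).symm))

/-- **The binders of `NodeNF` in the chart binder block of `NodeAlt.node_alt`.** -/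
theorem node_binders_chart (ϖ : O) (hϖ : Irreducible ϖ) (u : L)
    (σ₁ : L →+* LaurentSeries E)
    (hσO₁ : ∀ r : O, σ₁ (algebraMap O L r) = HahnSeries.C (algebraMap O E r))
    (hσfrac₁ : ∀ x : L, σ₁ x ∈ GaussDVR.fracField O E)
    (U₁ : LaurentSeries O) (hσu₁ : σ₁ u = GaussDVR.iota O E U₁)
    (σ₂ : L →+* LaurentSeries E)
    (hσO₂ : ∀ r : O, σ₂ (algebraMap O L r) = HahnSeries.C (algebraMap O E r))
    (hσfrac₂ : ∀ x : L, σ₂ x ∈ GaussDVR.fracField O E)
    (U₂ : LaurentSeries O) (hσu₂ : σ₂ u = GaussDVR.iota O E U₂)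
    [IsFractionRing (Chart O u) L] (y : Ideal (Chart O u)) [y.IsPrime]
    (hI : RingHom.ker (redHom σ₁ hσO₁ ϖ hϖ hσfrac₁ u U₁ hσu₁) ≤ y)
    (hZ : RingHom.ker (redHom σ₂ hσO₂ ϖ hϖ hσfrac₂ u U₂ hσu₂) ≤ y)
    (t₁ t₂ g : Chart O u) (hg : g ∉ y) (hmul : t₁ * t₂ = piC u ϖ * g)
    (hp₁ : t₁ ∈ RingHom.ker (redHom σ₁ hσO₁ ϖ hϖ hσfrac₁ u U₁ hσu₁) ∧
      ∀ x ∈ RingHom.ker (redHom σ₁ hσO₁ ϖ hϖ hσfrac₁ u U₁ hσu₁),
        ∃ s, s ∉ y ∧ s * x ∈ Ideal.span {t₁})
    (hp₂ : t₂ ∈ RingHom.ker (redHom σ₂ hσO₂ ϖ hϖ hσfrac₂ u U₂ hσu₂) ∧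
      ∀ x ∈ RingHom.ker (redHom σ₂ hσO₂ ϖ hϖ hσfrac₂ u U₂ hσu₂),
        ∃ s, s ∉ y ∧ s * x ∈ Ideal.span {t₂})
    (hne : t₁ ∉ RingHom.ker (redHom σ₂ hσO₂ ϖ hϖ hσfrac₂ u U₂ hσu₂))
    (hm : ∀ m ∈ y, ∃ s, s ∉ y ∧ s * m ∈ Ideal.span {t₁, t₂})
    {ϖs : Os} {p : ℕ} (θ : O[X]) (hθdeg : θ.natDegree < p) (hθ0 : IsUnit (θ.eval 0))
    (hθ : ϖs ^ p = φ ϖ * θ.eval₂ φ ϖs)
    {Ls : Type*} [Field Ls] [Algebra Os Ls] (β : L →+* Ls)
    (hβO : ∀ r : O, β (algebraMap O L r) = algebraMap Os Ls (φ r))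
    [Algebra (Localization.AtPrime y) Ls]
    (hBβ : ∀ c : Chart O u, algebraMap (Localization.AtPrime y) Ls
      (algebraMap (Chart O u) (Localization.AtPrime y) c) = β (c : L)) :
    ∃ κ : (Localization.AtPrime y)[X], κ.natDegree < p ∧ IsUnit (κ.eval 0) ∧
      Prime (algebraMap (Chart O u) (Localization.AtPrime y) t₁) ∧
      Prime (algebraMap (Chart O u) (Localization.AtPrime y) t₂) ∧
      ¬ Associated (algebraMap (Chart O u) (Localization.AtPrime y) t₁)
        (algebraMap (Chart O u) (Localization.AtPrime y) t₂) ∧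
      IsLocalRing.maximalIdeal (Localization.AtPrime y)
        = Ideal.span {algebraMap (Chart O u) (Localization.AtPrime y) t₁,
            algebraMap (Chart O u) (Localization.AtPrime y) t₂} ∧
      Function.Injective (algebraMap (Localization.AtPrime y)
        (Algebra.adjoin (Localization.AtPrime y) ({algebraMap Os Ls ϖs} : Set Ls))) ∧
      (⟨algebraMap Os Ls ϖs, Algebra.self_mem_adjoin_singleton _ _⟩ :
          Algebra.adjoin (Localization.AtPrime y) ({algebraMap Os Ls ϖs} : Set Ls)) ^ p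
        = algebraMap (Localization.AtPrime y)
            (Algebra.adjoin (Localization.AtPrime y) ({algebraMap Os Ls ϖs} : Set Ls))
            (algebraMap (Chart O u) (Localization.AtPrime y) t₁
              * algebraMap (Chart O u) (Localization.AtPrime y) t₂)
          * Polynomial.aeval (⟨algebraMap Os Ls ϖs, Algebra.self_mem_adjoin_singleton _ _⟩ :
              Algebra.adjoin (Localization.AtPrime y) ({algebraMap Os Ls ϖs} : Set Ls)) κ ∧
      Algebra.adjoin (Localization.AtPrime y)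
        ({(⟨algebraMap Os Ls ϖs, Algebra.self_mem_adjoin_singleton _ _⟩ :
          Algebra.adjoin (Localization.AtPrime y) ({algebraMap Os Ls ϖs} : Set Ls))} :
          Set (Algebra.adjoin (Localization.AtPrime y) ({algebraMap Os Ls ϖs} : Set Ls))) = ⊤ ∧
      t₂ ∉ RingHom.ker (redHom σ₁ hσO₁ ϖ hϖ hσfrac₁ u U₁ hσu₁) := by
  classical
  haveI : (RingHom.ker (redHom σ₁ hσO₁ ϖ hϖ hσfrac₁ u U₁ hσu₁)).IsPrime := RingHom.ker_isPrime _
  haveI : (RingHom.ker (redHom σ₂ hσO₂ ϖ hϖ hσfrac₂ u U₂ hσu₂)).IsPrime := RingHom.ker_isPrime _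
  obtain ⟨κ₀, hκdeg, hκ0, hπs⟩ := exists_kappa φ ϖ u y θ hθdeg hθ0 hθ β hβO
  exact node_binders y β hBβ (algebraMap Os Ls ϖs)
    (RingHom.ker (redHom σ₁ hσO₁ ϖ hϖ hσfrac₁ u U₁ hσu₁))
    (RingHom.ker (redHom σ₂ hσO₂ ϖ hϖ hσfrac₂ u U₂ hσu₂)) hI hZ (piC u ϖ) t₁ t₂ g
    (piC_ne_zero ϖ hϖ u σ₁ hσO₁) hg hmul hp₁.1 hp₁.2 hp₂.1 hp₂.2 hne hm κ₀ hκdeg hκ0 hπs

/-- **The binders of `SmoothNF` in the chart binder block of `NodeAlt.smooth_alt`.** -/
theorem smooth_binders_chart (ϖ : O) (hϖ : Irreducible ϖ) (u : L)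
    (σ₁ : L →+* LaurentSeries E)
    (hσO₁ : ∀ r : O, σ₁ (algebraMap O L r) = HahnSeries.C (algebraMap O E r))
    (hσfrac₁ : ∀ x : L, σ₁ x ∈ GaussDVR.fracField O E)
    (U₁ : LaurentSeries O) (hσu₁ : σ₁ u = GaussDVR.iota O E U₁)
    [IsFractionRing (Chart O u) L] (y : Ideal (Chart O u)) [y.IsPrime]
    (hI : RingHom.ker (redHom σ₁ hσO₁ ϖ hϖ hσfrac₁ u U₁ hσu₁) ≤ y)
    (hp₁ : piC u ϖ ∈ RingHom.ker (redHom σ₁ hσO₁ ϖ hϖ hσfrac₁ u U₁ hσu₁) ∧
      ∀ x ∈ RingHom.ker (redHom σ₁ hσO₁ ϖ hϖ hσfrac₁ u U₁ hσu₁),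
        ∃ s, s ∉ y ∧ s * x ∈ Ideal.span {piC u ϖ})
    (z : Chart O u) (hz : z ∈ y)
    (hm : ∀ m ∈ y, ∃ s, s ∉ y ∧ s * m ∈ Ideal.span {piC u ϖ, z})
    {ϖs : Os} {p : ℕ} (θ : O[X]) (hθdeg : θ.natDegree < p) (hθ0 : IsUnit (θ.eval 0))
    (hθ : ϖs ^ p = φ ϖ * θ.eval₂ φ ϖs)
    {Ls : Type*} [Field Ls] [Algebra Os Ls] (β : L →+* Ls)
    (hβO : ∀ r : O, β (algebraMap O L r) = algebraMap Os Ls (φ r))
    [Algebra (Localization.AtPrime y) Ls]
    (hBβ : ∀ c : Chart O u, algebraMap (Localization.AtPrime y) Ls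
      (algebraMap (Chart O u) (Localization.AtPrime y) c) = β (c : L)) :
    ∃ κ : (Localization.AtPrime y)[X], κ.natDegree < p ∧ IsUnit (κ.eval 0) ∧
      Prime (algebraMap (Chart O u) (Localization.AtPrime y) (piC u ϖ)) ∧
      IsLocalRing.maximalIdeal (Localization.AtPrime y)
        = Ideal.span {algebraMap (Chart O u) (Localization.AtPrime y) (piC u ϖ),
            algebraMap (Chart O u) (Localization.AtPrime y) z} ∧
      Function.Injective (algebraMap (Localization.AtPrime y)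
        (Algebra.adjoin (Localization.AtPrime y) ({algebraMap Os Ls ϖs} : Set Ls))) ∧
      (⟨algebraMap Os Ls ϖs, Algebra.self_mem_adjoin_singleton _ _⟩ :
          Algebra.adjoin (Localization.AtPrime y) ({algebraMap Os Ls ϖs} : Set Ls)) ^ p
        = algebraMap (Localization.AtPrime y)
            (Algebra.adjoin (Localization.AtPrime y) ({algebraMap Os Ls ϖs} : Set Ls))
            (algebraMap (Chart O u) (Localization.AtPrime y) (piC u ϖ))
          * Polynomial.aeval (⟨algebraMap Os Ls ϖs, Algebra.self_mem_adjoin_singleton _ _⟩ :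
              Algebra.adjoin (Localization.AtPrime y) ({algebraMap Os Ls ϖs} : Set Ls)) κ ∧
      Algebra.adjoin (Localization.AtPrime y)
        ({(⟨algebraMap Os Ls ϖs, Algebra.self_mem_adjoin_singleton _ _⟩ :
          Algebra.adjoin (Localization.AtPrime y) ({algebraMap Os Ls ϖs} : Set Ls))} :
          Set (Algebra.adjoin (Localization.AtPrime y) ({algebraMap Os Ls ϖs} : Set Ls))) = ⊤ := by
  classical
  haveI : (RingHom.ker (redHom σ₁ hσO₁ ϖ hϖ hσfrac₁ u U₁ hσu₁)).IsPrime := RingHom.ker_isPrime _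
  obtain ⟨κ₀, hκdeg, hκ0, hπs⟩ := exists_kappa φ ϖ u y θ hθdeg hθ0 hθ β hβO
  obtain ⟨hpr, hmax, hκ, hκ0', hinj, hπ, hgen⟩ := smooth_binders y β hBβ (algebraMap Os Ls ϖs)
    (RingHom.ker (redHom σ₁ hσO₁ ϖ hϖ hσfrac₁ u U₁ hσu₁)) hI (piC u ϖ)
    (piC_ne_zero ϖ hϖ u σ₁ hσO₁) hp₁.1 hp₁.2 z hz hm κ₀ hκdeg hκ0 hπs
  exact ⟨_, hκ, hκ0', hpr, hmax, hinj, hπ, hgen⟩

end Chart

end Fermat.Agent.S44.L.Alt.NodeAltBinders
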