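import Mathlib
import Fermat.Agent.S44.L.Alt.Bricks
import Fermat.Agent.S44.L.CentreChartU4

/-!
# PROGRAM MR (S44), strand L, cover-free ALT route: `NodeForms` from the two concrete charts

The seam between the statement-level gate file `Alt/Bricks` (abstract charts
`r : C → redField M A`, `r' : C' → redField M A` with their package clauses) and the `E`-level
rows, which live on the two CONCRETE chart rings of level `M p` at ONE finite level `K`:
`C = Chart (OE A K) (α u₄)` with `r = CentreChartU4.rInf4` and `C' = Chart (OE A K) (α u₄)⁻¹` with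
`r' = CentreChartU4.rInf4Inf`.

* `nodeForms_of_abstract` : `Bricks.NodeForms` from two abstract chart rings `Chart O u`,
  `Chart O' u'` (all clauses as hypotheses).  Stated for abstract `O`, `L` so that at the concrete
  charts the instance arguments match syntactically (no `isDefEq` through the chart tower).
* `nodeForms_of_charts` : `Bricks.NodeForms p M A h4 f D̄` from the three point clauses (FIN),
  (CUSP), (INF) on the concrete charts; `κ₀ := CentreChart.constSub M A K`, the seven package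
  clauses are `constSub_le`, `hκr4`, `hur4`, `hint4`, `hκr4Inf`, `hur4Inf`, `hint4Inf`.
-/

set_option autoImplicit false
set_option linter.unusedSectionVars false
set_option linter.unusedVariables false
set_option linter.style.haveILetI false
set_option synthInstance.maxHeartbeats 400000
set_option maxHeartbeats 1000000

open ModularCurve Polynomial

noncomputable section

namespace Fermat.Agent.S44.L.Alt.ChartSeam

open Fermat.Agent.S18.K1Defs Fermat.Agent.S18.K1Main Fermat.Agent.S18.K1Top
open Fermat.Agent.S30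
open Fermat.Agent.S34 Fermat.Agent.S34.TwoPrimesRank Fermat.Agent.S34.HauptU.Plug
open Fermat.Agent.S34.TwoPrimesGauss
open Fermat.Agent.S44.Contract Fermat.Agent.S44.L.RedTransfer
open Fermat.Agent.S36.Haupt4 Fermat.Agent.S36.LevelQInstAlt
open Fermat.Agent.S44.L Fermat.Agent.S44.L.CentreChart Fermat.Agent.S44.L.CentreChartU4
open Fermat.Agent.S44.L.Slope Fermat.Agent.S44.L.Alt

local notation "Qb" => AlgebraicClosure ℚ

/-- `NodeForms` from two ABSTRACT charts (instance arguments then match syntactically at the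
concrete charts). -/
theorem nodeForms_of_abstract {p M : ℕ} [NeZero M] {A : ValuationSubring Qb} {h4 : 4 ∣ M}
    {f Db : redField M A}
    {O L : Type} [CommRing O] [Field L] [Algebra O L] (u : L) (r : Chart O u →+* redField M A)
    {O' L' : Type} [CommRing O'] [Field L'] [Algebra O' L'] (u' : L')
    (r' : Chart O' u' →+* redField M A)
    (κ₀ : Subfield (redField M A)) (e d : IsLocalRing.ResidueField A) (he : e ≠ 0)
    (hκ₀ : ∀ s ∈ κ₀, ∃ c : IsLocalRing.ResidueField A,
      ((s : redField M A) : LaurentSeries (IsLocalRing.ResidueField A)) = HahnSeries.C c)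
    (hκr : ∀ s ∈ κ₀, ∃ c : Chart O u, r c = s)
    (hur : ∃ c : Chart O u, r c = CentreU4.ub M A h4)
    (hint : ∀ c : Chart O u, IsIntegral ↥(Algebra.adjoin κ₀ {CentreU4.ub M A h4}) (r c))
    (hκr' : ∀ s ∈ κ₀, ∃ c : Chart O' u', r' c = s)
    (hur' : ∃ c : Chart O' u', r' c = (CentreU4.ub M A h4)⁻¹)
    (hint' : ∀ c : Chart O' u',
      IsIntegral ↥(Algebra.adjoin κ₀ {(CentreU4.ub M A h4)⁻¹}) (r' c))
    (hfin : ∀ y : Ideal (Chart O u), y.IsMaximal → RingHom.ker r ≤ y →
      (∀ c : Chart O u, r c = CentreU4.ub M A h4 → c ∉ y) →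
      (∀ c : Chart O u, r c = CentreU4.ub M A h4 + 16 → c ∉ y) →
      (∃ h h' : redField M A, Loc.UnitAt r y f (h ^ p) ∧ Loc.UnitAt r y Db (h' ^ p)) ∨
      (∃ (τ h h' : redField M A) (j : ℤ), τ ≠ 0 ∧
        (j : IsLocalRing.ResidueField A) * e = d ∧
        Loc.UnitAt r y f (τ ^ j * h ^ p) ∧ Loc.UnitAt r y Db (τ ^ (12 : ℤ) * h' ^ p)))
    (hcusp : ∀ y : Ideal (Chart O u), y.IsMaximal → RingHom.ker r ≤ y →
      ((∀ c : Chart O u, r c = CentreU4.ub M A h4 → c ∈ y) ∨
        (∀ c : Chart O u, r c = CentreU4.ub M A h4 + 16 → c ∈ y)) →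
      ∃ h : redField M A, Loc.UnitAt r y f (h ^ p))
    (hinf : ∀ y : Ideal (Chart O' u'), y.IsMaximal → RingHom.ker r' ≤ y →
      (∀ c : Chart O' u', r' c = (CentreU4.ub M A h4)⁻¹ → c ∈ y) →
      ∃ h : redField M A, Loc.UnitAt r' y f (h ^ p)) :
    Bricks.NodeForms p M A h4 f Db :=
  ⟨κ₀, Chart O u, inferInstance, r, Chart O' u', inferInstance, r', e, d, he, hκ₀, hκr, hur, hint,
    hκr', hur', hint', hfin, hcusp, hinf⟩

/-- **`NodeForms` from the point clauses on the two concrete charts** of level `M p` over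
`OE A K`. -/
theorem nodeForms_of_charts (M p : ℕ) [NeZero M] [NeZero p] (A : ValuationSubring Qb)
    (K : IntermediateField ℚ Qb) [IsDiscreteValuationRing (OE A K)] [Fact p.Prime]
    (hA : A.LiesOverPrime p) (hred : HRed M p A K) (π : OE A K) (hπ : Irreducible π)
    (h4 : 4 ∣ M) (f Db : redField M A) (e d : IsLocalRing.ResidueField A) (he : e ≠ 0)
    (hfin : letI := algebraOL (OE A K) K (LE (M * p) K)
      ∀ y : Ideal (Chart (OE A K) (alphaHom M p K (u4E M K h4))), y.IsMaximal →
        RingHom.ker (rInf4 M p A K hA hred π hπ h4) ≤ y →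
        (∀ c, rInf4 M p A K hA hred π hπ h4 c = CentreU4.ub M A h4 → c ∉ y) →
        (∀ c, rInf4 M p A K hA hred π hπ h4 c = CentreU4.ub M A h4 + 16 → c ∉ y) →
        (∃ h h' : redField M A, Loc.UnitAt (rInf4 M p A K hA hred π hπ h4) y f (h ^ p) ∧
          Loc.UnitAt (rInf4 M p A K hA hred π hπ h4) y Db (h' ^ p)) ∨
        (∃ (τ h h' : redField M A) (j : ℤ), τ ≠ 0 ∧
          (j : IsLocalRing.ResidueField A) * e = d ∧
          Loc.UnitAt (rInf4 M p A K hA hred π hπ h4) y f (τ ^ j * h ^ p) ∧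
          Loc.UnitAt (rInf4 M p A K hA hred π hπ h4) y Db (τ ^ (12 : ℤ) * h' ^ p)))
    (hcusp : letI := algebraOL (OE A K) K (LE (M * p) K)
      ∀ y : Ideal (Chart (OE A K) (alphaHom M p K (u4E M K h4))), y.IsMaximal →
        RingHom.ker (rInf4 M p A K hA hred π hπ h4) ≤ y →
        ((∀ c, rInf4 M p A K hA hred π hπ h4 c = CentreU4.ub M A h4 → c ∈ y) ∨
          (∀ c, rInf4 M p A K hA hred π hπ h4 c = CentreU4.ub M A h4 + 16 → c ∈ y)) →
        ∃ h : redField M A, Loc.UnitAt (rInf4 M p A K hA hred π hπ h4) y f (h ^ p))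
    (hinf : letI := algebraOL (OE A K) K (LE (M * p) K)
      ∀ y : Ideal (Chart (OE A K) (alphaHom M p K (u4E M K h4)⁻¹)), y.IsMaximal →
        RingHom.ker (rInf4Inf M p A K hA hred π hπ h4) ≤ y →
        (∀ c, rInf4Inf M p A K hA hred π hπ h4 c = (CentreU4.ub M A h4)⁻¹ → c ∈ y) →
        ∃ h : redField M A, Loc.UnitAt (rInf4Inf M p A K hA hred π hπ h4) y f (h ^ p)) :
    Bricks.NodeForms p M A h4 f Db := by
  letI := algebraOL (OE A K) K (LE (M * p) K)
  exact nodeForms_of_abstract (alphaHom M p K (u4E M K h4)) (rInf4 M p A K hA hred π hπ h4)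
    (alphaHom M p K (u4E M K h4)⁻¹) (rInf4Inf M p A K hA hred π hπ h4)
    (constSub M A K) e d he
    (fun s hs => by
      obtain ⟨x, hx⟩ := constSub_le M A K s hs
      exact ⟨_, hx⟩)
    (hκr4 M p A K hA hred π hπ h4 _ (constSub_le M A K))
    (hur4 M p A K hA hred π hπ h4 _ (CentreU4.coe_ub M A h4))
    (hint4 M p A K hA hred π hπ h4 _ (le_constSub M A K) _ (CentreU4.coe_ub M A h4))
    (hκr4Inf M p A K hA hred π hπ h4 _ (constSub_le M A K))
    (hur4Inf M p A K hA hred π hπ h4 _ (CentreU4.coe_ub M A h4))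
    (hint4Inf M p A K hA hred π hπ h4 _ (le_constSub M A K) _ (CentreU4.coe_ub M A h4))
    hfin hcusp hinf

end Fermat.Agent.S44.L.Alt.ChartSeam
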