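import Mathlib
import Fermat.Agent.S30.Model.LaurentConst

/-!
# Program MR (S44), strand L, cover-free ALT for (L.SLOPE), row ALT.6: the core of (K)

Level-free (helper67).  "A function which is regular at every closed point of a complete curve
is a constant", in the chart vocabulary of ALT POST #2.  Integrality over `k[u]` is stated in
RING-HOM form (`(Polynomial.eval₂RingHom f u).IsIntegralElem x`, `f : k →+* F` the constants),
so that no `Algebra k (LaurentSeries k)` instance appears in a statement.

* `exists_eq_of_forall_maximal` : **local ⟹ global representability.**  `R : C →+* F`,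
  `ρ : F`.  If at every maximal ideal `y ⊇ ker R` (containing a given set `S` of admissible
  denominators) `ρ` is a fraction `R c / R s` with `s ∉ y`, then `ρ = R c` for ONE `c : C`.
* `isIntegralElem_of_forall_mem_valSubring` : an element of a field lying in every valuation
  subring containing the constants `f k` is integral over `k`.
* `mem_valuationSubring_of_isIntegralElem` : a valuation subring containing the constants and
  `u` contains everything integral over `k[u]`.
* `isIntegralElem_of_isIntegralElem_pair` : integral over `k[u]` and over `k[u⁻¹]` ⟹ integral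
  over `k`.
* `exists_eq_C_of_isIntegralElem_pair` : a Laurent series integral over `k[ū]` and over
  `k[ū⁻¹]` is a constant.
* `exists_const_of_two_charts` : **the core of (K).**  Two charts `r : C → k₀((q))`,
  `r' : C' → k₀((q))` of a component, integral over `k₀[ū]` resp. `k₀[ū⁻¹]`; `ρ` (in an
  extension `F` of `k₀((q))`, `ι : k₀((q)) → F`) is locally a fraction `ι (r c) / ι (r s)` at
  every closed point of the first chart and at the closed points at infinity (`s₀ ∈ y`) of the
  second.  Then `ρ = ι (C a)` for a constant `a : k₀`.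
-/

set_option autoImplicit false

namespace Fermat.Agent.S44.L.Alt.ConstCore

open Polynomial

/-! ### Local ⟹ global representability -/

/-- **Local ⟹ global.**  If at every maximal ideal `y ⊇ ker R` containing `S` the element `ρ`
is a fraction `R c / R s` with `s ∉ y`, and every `s ∈ S` is an admissible denominator, then
`ρ` lies in the range of `R`. -/
theorem exists_eq_of_forall_maximal {C F : Type*} [CommRing C] [CommRing F] (R : C →+* F)
    (ρ : F) (S : Set C) (hS : ∀ s ∈ S, ∃ c : C, ρ * R s = R c)
    (h : ∀ y : Ideal C, y.IsMaximal → RingHom.ker R ≤ y → S ⊆ y →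
      ∃ c s : C, s ∉ y ∧ ρ * R s = R c) :
    ∃ c : C, ρ = R c := by
  -- the ideal of admissible denominators
  let I : Ideal C :=
    { carrier := {s | ∃ c : C, ρ * R s = R c}
      add_mem' := by
        rintro s s' ⟨c, hc⟩ ⟨c', hc'⟩
        exact ⟨c + c', by rw [map_add, mul_add, hc, hc', map_add]⟩
      zero_mem' := ⟨0, by rw [map_zero, mul_zero]⟩
      smul_mem' := by
        rintro a s ⟨c, hc⟩
        exact ⟨a * c, by rw [smul_eq_mul, map_mul, mul_left_comm, hc, map_mul]⟩ }
  have hI : ∀ s, s ∈ I ↔ ∃ c : C, ρ * R s = R c := fun s => Iff.rfl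
  by_cases htop : I = ⊤
  · have h1 : (1 : C) ∈ I := by rw [htop]; trivial
    obtain ⟨c, hc⟩ := (hI 1).1 h1
    exact ⟨c, by rw [← hc, map_one, mul_one]⟩
  · obtain ⟨y, hy, hIy⟩ := Ideal.exists_le_maximal I htop
    have hker : RingHom.ker R ≤ y := fun s hs => hIy ((hI s).2 ⟨0, by
      rw [RingHom.mem_ker.1 hs, mul_zero, map_zero]⟩)
    have hSy : S ⊆ y := fun s hs => hIy ((hI s).2 (hS s hs))
    obtain ⟨c, s, hs, hc⟩ := h y hy hker hSy
    exact absurd (hIy ((hI s).2 ⟨c, hc⟩)) hs

/-- `ker (ι ∘ g) ≤ y` implies `ker g ≤ y`. -/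
theorem ker_le_of_ker_comp_le {D G F : Type*} [CommRing D] [CommRing G] [CommRing F]
    (ι : G →+* F) (g : D →+* G) (y : Ideal D) (hy : RingHom.ker (ι.comp g) ≤ y) :
    RingHom.ker g ≤ y := fun s hs =>
  hy (by rw [RingHom.mem_ker, RingHom.comp_apply, RingHom.mem_ker.1 hs, map_zero])

/-! ### Integral over `k[u]` and over `k[u⁻¹]` ⟹ integral over `k` -/

/-- An element of a field `F` lying in every valuation subring of `F` containing the constants
`f k` is integral over `k`. -/
theorem isIntegralElem_of_forall_mem_valSubring {k F : Type*} [Field k] [Field F]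
    (f : k →+* F) (x : F) (hw : ∀ w : ValuationSubring F, (∀ c : k, f c ∈ w) → x ∈ w) :
    f.IsIntegralElem x := by
  have h1 : x ∈ (⨅ V : {V : ValuationSubring F //
      (f.range : Set F) ⊆ V.toSubring}, V.1.toSubring) := by
    rw [Subring.mem_iInf]
    rintro ⟨V, hV⟩
    exact hw V (fun c => hV ⟨c, rfl⟩)
  rw [iInf_valuationSubring_superset] at h1
  have h2 : IsIntegral (Subring.closure (f.range : Set F)) x := h1
  rw [Subring.closure_eq] at h2
  obtain ⟨P, hP, hPx⟩ := h2
  obtain ⟨Q, hQ⟩ := Polynomial.map_surjective f.rangeRestrict f.rangeRestrict_surjective P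
  have hinj : Function.Injective f.rangeRestrict := by
    intro a b hab
    exact f.injective (congrArg Subtype.val hab)
  refine ⟨Q, monic_of_injective hinj (by rw [hQ]; exact hP), ?_⟩
  have h3 : (algebraMap f.range F).comp f.rangeRestrict = f := by
    ext c; rfl
  rw [← h3, ← eval₂_map, hQ]
  exact hPx

/-- A valuation subring containing the constants and `u` contains `k[u]`. -/
theorem eval₂_mem_valuationSubring {k F : Type*} [CommRing k] [Field F] (f : k →+* F)
    (w : ValuationSubring F) (hk : ∀ c : k, f c ∈ w) {u : F} (hu : u ∈ w) (p : k[X]) :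
    p.eval₂ f u ∈ w := by
  rw [Polynomial.eval₂_eq_sum_range]
  exact sum_mem (fun i _ => mul_mem (hk _) (pow_mem hu i))

/-- A valuation subring containing the constants and `u` contains everything integral over
`k[u]`. -/
theorem mem_valuationSubring_of_isIntegralElem {k F : Type*} [CommRing k] [Field F]
    (f : k →+* F) (w : ValuationSubring F) (hk : ∀ c : k, f c ∈ w) {u x : F} (hu : u ∈ w)
    (hx : (Polynomial.eval₂RingHom f u).IsIntegralElem x) : x ∈ w := by
  obtain ⟨P, hP, hPx⟩ := hx
  let g : k[X] →+* w := (Polynomial.eval₂RingHom f u).codRestrict w.toSubring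
    (fun p => eval₂_mem_valuationSubring f w hk hu p)
  have hcomp : (algebraMap w F).comp g = Polynomial.eval₂RingHom f u :=
    RingHom.ext fun _ => rfl
  have hint : IsIntegral w x := ⟨P.map g, hP.map g, by rw [eval₂_map, hcomp]; exact hPx⟩
  obtain ⟨y, hy⟩ := IsIntegrallyClosed.isIntegral_iff.mp hint
  rw [← hy]
  exact y.2

/-- **Integral over `k[u]` and over `k[u⁻¹]` ⟹ integral over `k`.** -/
theorem isIntegralElem_of_isIntegralElem_pair {k F : Type*} [Field k] [Field F] (f : k →+* F)
    {u u' x : F} (huu' : u * u' = 1) (hx : (Polynomial.eval₂RingHom f u).IsIntegralElem x)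
    (hx' : (Polynomial.eval₂RingHom f u').IsIntegralElem x) : f.IsIntegralElem x := by
  refine isIntegralElem_of_forall_mem_valSubring f x (fun w hk => ?_)
  have hinv : u' = u⁻¹ := eq_inv_of_mul_eq_one_right huu'
  rcases w.mem_or_inv_mem u with hu | hu
  · exact mem_valuationSubring_of_isIntegralElem f w hk hu hx
  · exact mem_valuationSubring_of_isIntegralElem f w hk (by rw [hinv]; exact hu) hx'

/-- The constants of `k((q))`, in the two spellings. -/
theorem algebraMap_eq_C {k : Type*} [Field k] (a : k) :
    algebraMap k (LaurentSeries k) a = HahnSeries.C a := by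
  rw [HahnSeries.algebraMap_apply', PowerSeries.algebraMap_apply, Algebra.algebraMap_self_apply,
    HahnSeries.ofPowerSeries_C]

/-- **A Laurent series integral over `k[ū]` and over `k[ū']`, `ū ū' = 1`, is a constant.** -/
theorem exists_eq_C_of_isIntegralElem_pair {k : Type*} [Field k] {u u' x : LaurentSeries k}
    (huu' : u * u' = 1)
    (hx : (Polynomial.eval₂RingHom (HahnSeries.C : k →+* LaurentSeries k) u).IsIntegralElem x)
    (hx' : (Polynomial.eval₂RingHom (HahnSeries.C : k →+* LaurentSeries k) u').IsIntegralElem x) :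
    ∃ a : k, x = HahnSeries.C a := by
  obtain ⟨P, hP, hPx⟩ := isIntegralElem_of_isIntegralElem_pair
    (HahnSeries.C : k →+* LaurentSeries k) huu' hx hx'
  have hCalg : (HahnSeries.C : k →+* LaurentSeries k) = algebraMap k (LaurentSeries k) :=
    RingHom.ext fun a => (algebraMap_eq_C a).symm
  have halg : IsAlgebraic k x := ⟨P, hP.ne_zero, by rw [aeval_def, ← hCalg]; exact hPx⟩
  obtain ⟨a, ha⟩ :=
    Fermat.Agent.S30.Model.LaurentConst.exists_eq_algebraMap_of_isAlgebraic x halg
  exact ⟨a, by rw [ha, algebraMap_eq_C]⟩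

/-! ### The core of (K) -/

/-- **The core of (K): regular at every closed point of the two charts ⟹ constant.**

`r : C → k₀((q))`, `r' : C' → k₀((q))` two charts of one component, integral over `k₀[ū]`
resp. `k₀[ū']` with `ū ū' = 1`; `s₀ : C'` the coordinate at infinity, with the transfer
`r c * r' s₀ ^ n ∈ r' C'`.  `ι : k₀((q)) → F` a ring hom (a coefficient extension), `ρ : F`.
If `ρ` is a fraction `ι (r c) / ι (r s)`, `s ∉ y`, at every maximal `y ⊇ ker r`, and a fraction
`ι (r' c) / ι (r' s)`, `s ∉ y`, at every maximal `y ⊇ ker r'` with `s₀ ∈ y`, then `ρ` is a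
constant `ι (C a)`, `a : k₀`. -/
theorem exists_const_of_two_charts {k₀ : Type*} [Field k₀] {F : Type*} [CommRing F]
    [Nontrivial F] (ι : LaurentSeries k₀ →+* F) {C C' : Type*} [CommRing C] [CommRing C']
    (r : C →+* LaurentSeries k₀) (r' : C' →+* LaurentSeries k₀)
    (ub ub' : LaurentSeries k₀) (hub : ub * ub' = 1)
    (hint : ∀ c : C, (Polynomial.eval₂RingHom
      (HahnSeries.C : k₀ →+* LaurentSeries k₀) ub).IsIntegralElem (r c))
    (hint' : ∀ c : C', (Polynomial.eval₂RingHom
      (HahnSeries.C : k₀ →+* LaurentSeries k₀) ub').IsIntegralElem (r' c))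
    (s₀ : C') (htrans : ∀ c : C, ∃ (n : ℕ) (c' : C'), r' c' = r c * r' s₀ ^ n)
    (ρ : F)
    (hfin : ∀ y : Ideal C, y.IsMaximal → RingHom.ker r ≤ y →
      ∃ c s : C, s ∉ y ∧ ρ * ι (r s) = ι (r c))
    (hinf : ∀ y : Ideal C', y.IsMaximal → RingHom.ker r' ≤ y → s₀ ∈ y →
      ∃ c s : C', s ∉ y ∧ ρ * ι (r' s) = ι (r' c)) :
    ∃ a : k₀, ρ = ι (HahnSeries.C a) := by
  have hιinj : Function.Injective ι := ι.injective
  -- the finite chart
  obtain ⟨c₁, hc₁⟩ := exists_eq_of_forall_maximal (ι.comp r) ρ ∅ (fun s hs => absurd hs (by simp))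
    (fun y hy hky _ => hfin y hy (ker_le_of_ker_comp_le ι r y hky))
  -- the chart at infinity
  obtain ⟨n, c', hc'⟩ := htrans c₁
  obtain ⟨c₂, hc₂⟩ := exists_eq_of_forall_maximal (ι.comp r') ρ {s₀ ^ n}
    (fun s hs => by
      rw [Set.mem_singleton_iff] at hs
      refine ⟨c', ?_⟩
      rw [hs, hc₁, RingHom.comp_apply, RingHom.comp_apply, RingHom.comp_apply, hc', map_pow,
        map_mul, map_pow])
    (fun y hy hky hSy => hinf y hy (ker_le_of_ker_comp_le ι r' y hky)
      (hy.isPrime.mem_of_pow_mem n (hSy (Set.mem_singleton _))))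
  -- one series, integral over `k₀[ū]` and over `k₀[ū']`
  have hx : r c₁ = r' c₂ := hιinj (by
    rw [← RingHom.comp_apply, ← hc₁, hc₂, RingHom.comp_apply])
  obtain ⟨a, ha⟩ := exists_eq_C_of_isIntegralElem_pair hub (hint c₁) (by rw [hx]; exact hint' c₂)
  exact ⟨a, by rw [hc₁, RingHom.comp_apply, ha]⟩

end Fermat.Agent.S44.L.Alt.ConstCore
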