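import Mathlib
import Fermat.Agent.S34.TwoPrimesGauss
import Fermat.Agent.S34.Bridge2
import Fermat.Agent.S44.L.RhoGauss
import Fermat.Agent.S44.L.Alt.NodeAltCore
import Fermat.Agent.S44.L.Alt.ConstCore

/-!
# Program MR (S44), strand L, cover-free ALT for (L.SLOPE), row ALT.6: (K) on a chart pair

Chart-generic form of the constancy (K) of ALT POST #2 (helper67), in the vocabulary of
`S34/TwoPrimesGauss` `section Chart` (`Chart O u`, `redHom`, `polyChart`), `S44/L/RhoGauss`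
(`IsRho`) and `S44/L/Alt/NodeAltCore` (`resL φ`, the coefficient map of residue fields).

`O` a discrete valuation ring, `L` a field over `O` with a `q`-expansion `σ`, `u ≠ 0` in `L`
with integral expansions `σ u = ι U`, `σ u⁻¹ = ι U'`; `r = redHom σ … u`, `r' = redHom σ … u⁻¹`
the reductions of the two charts of ONE component.

* `redHom_polyChart` : the reduction of `p(u)` is `p̄(ρ U)`.
* `redHom_isIntegralElem` : `r c` is integral over `k[ū]` (ring-hom form).
* `rho_mul_rho_eq_one` : `ū ū' = 1`.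
* `exists_transfer` : `r c * r' (u⁻¹) ^ n ∈ r' (Chart O u⁻¹)`.
* `exists_const` : **(K), chart-generic.**  If `ρ ∈ κs((q))` is a fraction
  `resL φ (r c) / resL φ (r s)`, `s ∉ y`, at every maximal `y ⊇ ker r` of `Chart O u`, and a
  fraction `resL φ (r' c) / resL φ (r' s)`, `s ∉ y`, at every maximal `y ⊇ ker r'` of
  `Chart O u⁻¹` containing the coordinate `u⁻¹`, then `ρ = C (residue (φ a))` for some `a : O`.
* `isRho_const` : the same for `ρ` with `IsRho h X ρ`, the pointwise hypotheses in the literal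
  exit shape of `NodeAlt.smooth_alt_isRho` / `NodeAlt.node_alt_isRho` (ALT.5).
-/

set_option autoImplicit false
set_option linter.unusedSectionVars false
set_option linter.unusedVariables false

open ModularCurve Polynomial

noncomputable section

namespace Fermat.Agent.S44.L.Alt.ConstChart

open Fermat.Agent.S30 Fermat.Agent.S34 Fermat.Agent.S34.TwoPrimesGauss
open Fermat.Agent.S44.L.FirstOrder Fermat.Agent.S44.L.Alt.NodeAltCore

variable {O E : Type*} [CommRing O] [IsDomain O] [IsDiscreteValuationRing O] [Field E]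
  [Algebra O E] [FaithfulSMul O E] {L : Type*} [Field L] [Algebra O L]
  (ϖ : O) (hϖ : Irreducible ϖ) (σ : L →+* LaurentSeries E)
  (hσO : ∀ r : O, σ (algebraMap O L r) = HahnSeries.C (algebraMap O E r))
  (hσfrac : ∀ x : L, σ x ∈ GaussDVR.fracField O E)
  (u : L) (U : LaurentSeries O) (hσu : σ u = GaussDVR.iota O E U)

/-- The reduction of `p(u)` is `p̄(ρ U)`. -/
theorem redHom_polyChart (p : O[X]) :
    redHom σ hσO ϖ hϖ hσfrac u U hσu (polyChart u p) =
      (p.map (IsLocalRing.residue O)).eval₂ HahnSeries.C (GaussDVR.rho O U) := by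
  rw [redHom_of_int σ hσO ϖ hϖ hσfrac u U hσu (polyChart u p) (p.eval₂ HahnSeries.C U)
    (by rw [coe_polyChart]; exact sigma_aeval σ hσO u U hσu p), hom_eval₂, eval₂_map]
  congr 1
  refine RingHom.ext fun r => ?_
  rw [RingHom.comp_apply, RingHom.comp_apply, GaussDVR.rho_C]

/-- The reduction of the chart ring is integral over `k[ū]`, `ū = ρ U` (ring-hom form). -/
theorem redHom_isIntegralElem (c : Chart O u) :
    (Polynomial.eval₂RingHom (HahnSeries.C : IsLocalRing.ResidueField O →+*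
        LaurentSeries (IsLocalRing.ResidueField O)) (GaussDVR.rho O U)).IsIntegralElem
      (redHom σ hσO ϖ hϖ hσfrac u U hσu c) := by
  obtain ⟨q, hq, hqc⟩ := polyChart_isIntegralElem u c
  refine ⟨q.map (Polynomial.mapRingHom (IsLocalRing.residue O)), hq.map _, ?_⟩
  have hcomp : (Polynomial.eval₂RingHom (HahnSeries.C : IsLocalRing.ResidueField O →+*
      LaurentSeries (IsLocalRing.ResidueField O)) (GaussDVR.rho O U)).comp
        (Polynomial.mapRingHom (IsLocalRing.residue O))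
      = (redHom σ hσO ϖ hϖ hσfrac u U hσu).comp (polyChart u) := by
    refine RingHom.ext fun p => ?_
    rw [RingHom.comp_apply, RingHom.comp_apply, redHom_polyChart, Polynomial.coe_mapRingHom,
      Polynomial.coe_eval₂RingHom]
  rw [eval₂_map, hcomp, ← hom_eval₂, hqc, map_zero]

include hσu in
/-- `ū ū' = 1`. -/
theorem rho_mul_rho_eq_one (hu : u ≠ 0) (U' : LaurentSeries O)
    (hσu' : σ u⁻¹ = GaussDVR.iota O E U') :
    GaussDVR.rho O U * GaussDVR.rho O U' = 1 := by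
  have h1 : GaussDVR.iota O E (U * U') = GaussDVR.iota O E 1 := by
    rw [map_mul, ← hσu, ← hσu', ← map_mul, mul_inv_cancel₀ hu, map_one, map_one]
  have h2 : U * U' = 1 := GaussDVR.iota_injective O E h1
  rw [← map_mul, h2, map_one]

/-- The transfer from the chart `u` to the chart `u⁻¹`: `r c * r' (u⁻¹) ^ n` is the reduction
of an element of the chart `u⁻¹`. -/
theorem exists_transfer (hu : u ≠ 0) (U' : LaurentSeries O)
    (hσu' : σ u⁻¹ = GaussDVR.iota O E U') (c : Chart O u) :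
    ∃ (n : ℕ) (c' : Chart O u⁻¹),
      redHom σ hσO ϖ hϖ hσfrac u⁻¹ U' hσu' c'
        = redHom σ hσO ϖ hϖ hσfrac u U hσu c
          * redHom σ hσO ϖ hϖ hσfrac u⁻¹ U' hσu' (polyChart u⁻¹ X) ^ n := by
  obtain ⟨n, hn⟩ := Bridge2.exists_pow_mul_isIntegral (O := O) (mul_inv_cancel₀ hu) (c : L) c.2
  refine ⟨n, ⟨u⁻¹ ^ n * (c : L), hn⟩, ?_⟩
  have hV : toV σ hσO ϖ hϖ hσfrac u⁻¹ U' hσu' ⟨u⁻¹ ^ n * (c : L), hn⟩
      = toV σ hσO ϖ hϖ hσfrac u U hσu c
        * toV σ hσO ϖ hϖ hσfrac u⁻¹ U' hσu' (polyChart u⁻¹ X) ^ n := by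
    apply Subtype.ext
    rw [Subring.coe_mul, Subring.coe_pow, coe_toV, coe_toV, coe_toV, coe_polyChart, aeval_X,
      map_mul, map_pow, mul_comm]
  show GaussDVR.red O E _ = GaussDVR.red O E _ * GaussDVR.red O E _ ^ n
  rw [hV, map_mul, map_pow]

variable {Os : Type*} [CommRing Os] [IsDomain Os] [IsDiscreteValuationRing Os]
  (φ : O →+* Os) [IsLocalHom φ]

/-- **(K), chart-generic: regular at every closed point of the component ⟹ constant.**
`ρ` a series over the residue field of `Os` which is a fraction `resL φ (r c) / resL φ (r s)`,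
`s ∉ y`, at every maximal ideal `y ⊇ ker r` of the chart `u`, and a fraction
`resL φ (r' c) / resL φ (r' s)`, `s ∉ y`, at every maximal ideal `y ⊇ ker r'` of the chart `u⁻¹`
containing the coordinate `u⁻¹`.  Then `ρ = C (residue (φ a))` for some `a : O`. -/
theorem exists_const (hu : u ≠ 0) (U' : LaurentSeries O) (hσu' : σ u⁻¹ = GaussDVR.iota O E U')
    (ρ : LaurentSeries (IsLocalRing.ResidueField Os))
    (hfin : ∀ y : Ideal (Chart O u), y.IsMaximal →
      RingHom.ker (redHom σ hσO ϖ hϖ hσfrac u U hσu) ≤ y →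
      ∃ c s : Chart O u, s ∉ y ∧
        ρ * resL φ (redHom σ hσO ϖ hϖ hσfrac u U hσu s)
          = resL φ (redHom σ hσO ϖ hϖ hσfrac u U hσu c))
    (hinf : ∀ y : Ideal (Chart O u⁻¹), y.IsMaximal →
      RingHom.ker (redHom σ hσO ϖ hϖ hσfrac u⁻¹ U' hσu') ≤ y →
      (∀ c : Chart O u⁻¹, (c : L) = u⁻¹ → c ∈ y) →
      ∃ c s : Chart O u⁻¹, s ∉ y ∧
        ρ * resL φ (redHom σ hσO ϖ hϖ hσfrac u⁻¹ U' hσu' s)
          = resL φ (redHom σ hσO ϖ hϖ hσfrac u⁻¹ U' hσu' c)) :
    ∃ a : O, ρ = HahnSeries.C (IsLocalRing.residue Os (φ a)) := by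
  obtain ⟨a₀, ha₀⟩ := ConstCore.exists_const_of_two_charts (resL φ)
    (redHom σ hσO ϖ hϖ hσfrac u U hσu) (redHom σ hσO ϖ hϖ hσfrac u⁻¹ U' hσu')
    (GaussDVR.rho O U) (GaussDVR.rho O U') (rho_mul_rho_eq_one σ u U hσu hu U' hσu')
    (redHom_isIntegralElem ϖ hϖ σ hσO hσfrac u U hσu)
    (redHom_isIntegralElem ϖ hϖ σ hσO hσfrac u⁻¹ U' hσu')
    (polyChart u⁻¹ X) (exists_transfer ϖ hϖ σ hσO hσfrac u U hσu hu U' hσu') ρ hfin
    (fun y hy hker hs₀ => hinf y hy hker (fun c hc => by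
      have hcs : c = polyChart u⁻¹ X := Subtype.ext (by rw [hc, coe_polyChart, aeval_X])
      rw [hcs]
      exact hs₀))
  obtain ⟨a, rfl⟩ := IsLocalRing.residue_surjective a₀
  refine ⟨a, ?_⟩
  rw [ha₀, HahnSeries.C_apply, coeffMap_single, IsLocalRing.ResidueField.map_residue,
    ← HahnSeries.C_apply]

/-- **(K) for the first-order invariant `ρ(X)`**, pointwise hypotheses in the exit shape of
`NodeAlt.smooth_alt_isRho` / `NodeAlt.node_alt_isRho`: at every closed point of the component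
(maximal `y ⊇ ker r` of the chart `u`; maximal `y ⊇ ker r'` of the chart `u⁻¹` containing the
coordinate `u⁻¹`) `ρ(X)` is a fraction `resL φ (r c) / resL φ (r s)`, `s ∉ y`.  Then `ρ(X)` is a
constant `C (residue (φ a))`, `a : O`. -/
theorem isRho_const {Ks : Type*} [Field Ks] [Algebra Os Ks] [FaithfulSMul Os Ks]
    {ϖs : Os} {D : Os → IsLocalRing.ResidueField Os}
    (h : IsFirstOrder (IsLocalRing.residue Os) ϖs D) (hϖs : Irreducible ϖs)
    (hu : u ≠ 0) (U' : LaurentSeries O) (hσu' : σ u⁻¹ = GaussDVR.iota O E U')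
    (X : LaurentSeries Ks) (ρ : LaurentSeries (IsLocalRing.ResidueField Os))
    (hρ : Fermat.Agent.S44.L.RhoGauss.IsRho h X ρ)
    (hfin : ∀ y : Ideal (Chart O u), y.IsMaximal →
      RingHom.ker (redHom σ hσO ϖ hϖ hσfrac u U hσu) ≤ y →
      ∃ (c s : Chart O u) (ρ₁ : LaurentSeries (IsLocalRing.ResidueField Os)), s ∉ y ∧
        Fermat.Agent.S44.L.RhoGauss.IsRho h X ρ₁ ∧
        ρ₁ * resL φ (redHom σ hσO ϖ hϖ hσfrac u U hσu s)
          = resL φ (redHom σ hσO ϖ hϖ hσfrac u U hσu c))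
    (hinf : ∀ y : Ideal (Chart O u⁻¹), y.IsMaximal →
      RingHom.ker (redHom σ hσO ϖ hϖ hσfrac u⁻¹ U' hσu') ≤ y →
      (∀ c : Chart O u⁻¹, (c : L) = u⁻¹ → c ∈ y) →
      ∃ (c s : Chart O u⁻¹) (ρ₁ : LaurentSeries (IsLocalRing.ResidueField Os)), s ∉ y ∧
        Fermat.Agent.S44.L.RhoGauss.IsRho h X ρ₁ ∧
        ρ₁ * resL φ (redHom σ hσO ϖ hϖ hσfrac u⁻¹ U' hσu' s)
          = resL φ (redHom σ hσO ϖ hϖ hσfrac u⁻¹ U' hσu' c)) :
    ∃ a : O, ρ = HahnSeries.C (IsLocalRing.residue Os (φ a)) := by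
  refine exists_const ϖ hϖ σ hσO hσfrac u U hσu φ hu U' hσu' ρ ?_ ?_
  · intro y hy hker
    obtain ⟨c, s, ρ₁, hs, hρ₁, he⟩ := hfin y hy hker
    exact ⟨c, s, hs, by rw [Fermat.Agent.S44.L.RhoGauss.IsRho.unique h hϖs hρ hρ₁]; exact he⟩
  · intro y hy hker hy0
    obtain ⟨c, s, ρ₁, hs, hρ₁, he⟩ := hinf y hy hker hy0
    exact ⟨c, s, hs, by rw [Fermat.Agent.S44.L.RhoGauss.IsRho.unique h hϖs hρ hρ₁]; exact he⟩

end Fermat.Agent.S44.L.Alt.ConstChart
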