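import Mathlib
import Fermat.Agent.S44.L.CentreChart

/-!
# PROGRAM MR (S44), strand L, cover-free ALT route for (L.SLOPE): constants of a chart are
# constants of the base (the clause (CONST₂) of `Alt.Rho.RhoForms`; flag (RH-1) of MR QA)

`A` a valuation subring of `ℚ̄`, `K` a number field with `O = OE A K` a discrete valuation ring.
An element `ρ` of the reduced function field `redField M A` which is a CONSTANT series and a
fraction `r c / r s` of two reductions of chart elements (whose `q`-coefficients lie in the
residue field of `O`) is a constant coming from the residue field of `O`: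
`ρ ∈ CentreChart.constSub M A K`.  (No geometric irreducibility is involved: compare one
nonzero coefficient.)

* `exists_resMap_of_C_mul` : `C e * kmap x = kmap y`, `x ≠ 0` ⟹ `e = resMap a`.
* `mem_constSub_of_kmap`   : the same for `ρ ∈ redField M A` with `ρ = C e`.
* `mem_constSub_of_frac`   : abstract chart form: `r : C → redField M A` with
  `(r c : κ_A((q))) = kmap (rK c)` (e.g. `r = CentreChart.rInf ..`, `rK = redInf ..`, by
  `coe_rInf`, or `r = CentreChartU4.rInf4 ..` by `coe_rInf4`), `ρ * r s = r c`, `r s ≠ 0`.
* `mem_constSub_of_reg`    : the same from ONE closed point `y ⊇ ker r` at which `ρ` is regular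
  (`ρ * r s = r c`, `s ∉ y`) — the shape in which `RhoForms` asks for it.
-/

set_option autoImplicit false

open ModularCurve

noncomputable section

namespace Fermat.Agent.S44.L.Alt.ConstMem

open Fermat.Agent.S18.K1Defs Fermat.Agent.S30
open Fermat.Agent.S44.Contract Fermat.Agent.S44.L.RedTransfer Fermat.Agent.S44.L.CentreChart

local notation "Qb" => AlgebraicClosure ℚ

variable (A : ValuationSubring Qb) (K : IntermediateField ℚ Qb)

/-- A constant `e` of `κ_A` with `C e * kmap x = kmap y`, `x ≠ 0`, comes from the residue field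
of `O = A ∩ K`. -/
theorem exists_resMap_of_C_mul (x y : LaurentSeries (IsLocalRing.ResidueField (OE A K)))
    (hx : x ≠ 0) (e : IsLocalRing.ResidueField A)
    (h : (HahnSeries.C e : LaurentSeries (IsLocalRing.ResidueField A)) * kmap A K x
      = kmap A K y) :
    ∃ a : IsLocalRing.ResidueField (OE A K), e = resMap A K a := by
  obtain ⟨n, hn⟩ : ∃ n : ℤ, x.coeff n ≠ 0 := by
    by_contra hall
    push Not at hall
    exact hx (HahnSeries.ext (funext fun n => by rw [hall n]; rfl))
  have hc := congrArg (fun t : LaurentSeries (IsLocalRing.ResidueField A) => t.coeff n) h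
  have h1 : ((HahnSeries.C e : LaurentSeries (IsLocalRing.ResidueField A)) * kmap A K x).coeff n
      = e * resMap A K (x.coeff n) := by
    rw [HahnSeries.C_mul_eq_smul, HahnSeries.coeff_smul, smul_eq_mul]
    rfl
  have h2 : (kmap A K y).coeff n = resMap A K (y.coeff n) := rfl
  have h3 : e * resMap A K (x.coeff n) = resMap A K (y.coeff n) := by
    rw [← h1, ← h2]
    exact hc
  have hne : resMap A K (x.coeff n) ≠ 0 := (map_ne_zero (resMap A K)).mpr hn
  refine ⟨y.coeff n / x.coeff n, ?_⟩
  rw [map_div₀, eq_div_iff hne]
  exact h3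

variable (M : ℕ) [NeZero M] [IsDiscreteValuationRing (OE A K)]

/-- A constant series of `redField M A` which is a fraction of two `kmap`-images lies in
`constSub M A K`. -/
theorem mem_constSub_of_kmap (ρ : redField M A)
    (hρ : ∃ e : IsLocalRing.ResidueField A,
      ((ρ : redField M A) : LaurentSeries (IsLocalRing.ResidueField A)) = HahnSeries.C e)
    (x y : LaurentSeries (IsLocalRing.ResidueField (OE A K))) (hx : x ≠ 0)
    (h : ((ρ : redField M A) : LaurentSeries (IsLocalRing.ResidueField A)) * kmap A K x
      = kmap A K y) :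
    ρ ∈ constSub M A K := by
  obtain ⟨e, he⟩ := hρ
  rw [he] at h
  obtain ⟨a, ha⟩ := exists_resMap_of_C_mul A K x y hx e h
  exact (mem_constSub_iff M A K ρ).mpr ⟨a, by rw [he, ha]⟩

/-- **(CONST₂), abstract chart form.**  `r : C → redField M A` a reduction whose values have
their coefficients in the residue field of `O` (`hr`); a constant series `ρ` with
`ρ * r s = r c`, `r s ≠ 0`, lies in `constSub M A K`. -/
theorem mem_constSub_of_frac {C : Type*} [CommRing C] (r : C →+* redField M A)
    (rK : C → LaurentSeries (IsLocalRing.ResidueField (OE A K)))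
    (hr : ∀ c : C, ((r c : redField M A) : LaurentSeries (IsLocalRing.ResidueField A))
      = kmap A K (rK c))
    (ρ : redField M A)
    (hρ : ∃ e : IsLocalRing.ResidueField A,
      ((ρ : redField M A) : LaurentSeries (IsLocalRing.ResidueField A)) = HahnSeries.C e)
    (c s : C) (hs : r s ≠ 0) (h : ρ * r s = r c) : ρ ∈ constSub M A K := by
  have hx : rK s ≠ 0 := by
    intro h0
    apply hs
    apply Subtype.ext
    rw [hr s, h0, map_zero]
    rfl
  refine mem_constSub_of_kmap A K M ρ hρ (rK s) (rK c) hx ?_
  rw [← hr s, ← hr c, ← h]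
  rfl

/-- **(CONST₂) from one closed point.**  If `ρ` is regular at ONE prime `y ⊇ ker r`
(`ρ * r s = r c` with `s ∉ y`), then `ρ` a constant series implies `ρ ∈ constSub M A K`. -/
theorem mem_constSub_of_reg {C : Type*} [CommRing C] (r : C →+* redField M A)
    (rK : C → LaurentSeries (IsLocalRing.ResidueField (OE A K)))
    (hr : ∀ c : C, ((r c : redField M A) : LaurentSeries (IsLocalRing.ResidueField A))
      = kmap A K (rK c))
    (ρ : redField M A) (y : Ideal C) (hker : RingHom.ker r ≤ y)
    (hreg : ∃ c s : C, s ∉ y ∧ ρ * r s = r c)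
    (hρ : ∃ e : IsLocalRing.ResidueField A,
      ((ρ : redField M A) : LaurentSeries (IsLocalRing.ResidueField A)) = HahnSeries.C e) :
    ρ ∈ constSub M A K := by
  obtain ⟨c, s, hs, h⟩ := hreg
  exact mem_constSub_of_frac A K M r rK hr ρ hρ c s (fun h0 => hs (hker h0)) h

end Fermat.Agent.S44.L.Alt.ConstMem
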