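import Mathlib

/-!
# Program MR (S44), strand L, cover-free ALT for (L.SLOPE), row ALT.6: the assembly (Δ)

Level-free (helper67).  Abstract setting of ALT POST #2 (helper61):

* `O` the base ring (`OE A K`), `r₀ : O →+* κ` its residue map followed by a coefficient
  extension of residue fields, `κ` a field of characteristic `p`;
* `C` an `O`-algebra (the chart `Chart O (α u₄)`), `ρInf ρZero : C →+* F` the two reductions
  (`ι ∘ redInf`, `ι ∘ redZero` with values in `F = κ((q))`), which send a constant `a : O` to the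
  constant `r₀ a`;
* `y` a prime ideal of `C` containing both kernels (a NODE: `p_∞ + p_0 ≤ y`) and meeting `O` in
  `ker r₀`.

At a node the normal form (N b), (N c) reads, for some `c s : C`, `s ∉ y`, and `j : ℤ`:

  `ρ_∞(x) * ρInf s = ρInf c`,     `ρ_0(x) * ρZero s = ρZero c + j • (e₁ * ρZero s)`,

and the constancy (K) says `ρ_∞(x) = r₀ aInf`, `ρ_0(x) = r₀ aZero` are CONSTANTS.  Then

* `slope_mul_eq_of_node` : `j * e₁ = r₀ aZero - r₀ aInf` in `κ`  (so `j mod p` does not depend on the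
  node, as `e₁ ≠ 0`);
* `slope_mul_eq_of_node'` : the same with the three constants given in `κ` (in the range of `r₀`);
* `dvd_sub_of_mul_eq` : `j * e₁ = j' * e₁`, `e₁ ≠ 0` ⟹ `p ∣ j - j'`;
* `dvd_sub_of_two_nodes` : two nodes give `p ∣ j - j'`;
* `exists_delta` : ONE slope `δ` for a whole family of nodes;
* `exists_zpow_eq_pow_of_dvd` : `p ∣ n` ⟹ `t ^ n` is a `p`-th power (the exit to `PDivAt`).
-/

set_option autoImplicit false

namespace Fermat.Agent.S44.L.Alt.Delta

section Node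

variable {O C F κ : Type*} [CommRing O] [CommRing C] [Algebra O C] [CommRing F] [Field κ]
  [Algebra κ F]

/-- **(Δ) at one node.**  If `ρ_∞(x) = r₀ aInf` and `ρ_0(x) = r₀ aZero` are constants, the local
exponent `j` of the node normal form satisfies `j * e₁ = r₀ aZero - r₀ aInf` (`e₁ = r₀ e`). -/
theorem slope_mul_eq_of_node (r₀ : O →+* κ) (ρInf ρZero : C →+* F)
    (hρInf : ∀ a : O, ρInf (algebraMap O C a) = algebraMap κ F (r₀ a))
    (hρZero : ∀ a : O, ρZero (algebraMap O C a) = algebraMap κ F (r₀ a))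
    (y : Ideal C) (hy : y.IsPrime) (hinf : RingHom.ker ρInf ≤ y)
    (hzero : RingHom.ker ρZero ≤ y)
    (hyO : ∀ a : O, algebraMap O C a ∈ y → r₀ a = 0)
    (aInf aZero e : O) (j : ℤ) (c s : C) (hs : s ∉ y)
    (hb : algebraMap κ F (r₀ aInf) * ρInf s = ρInf c)
    (hc : algebraMap κ F (r₀ aZero) * ρZero s
      = ρZero c + j • (algebraMap κ F (r₀ e) * ρZero s)) :
    (j : κ) * r₀ e = r₀ aZero - r₀ aInf := by
  -- the two relations, inside `C`
  have h1 : algebraMap O C aInf * s - c ∈ y := by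
    apply hinf
    rw [RingHom.mem_ker, map_sub, map_mul, hρInf, hb, sub_self]
  have h2 : algebraMap O C aZero * s - c - (j : C) * (algebraMap O C e * s) ∈ y := by
    apply hzero
    rw [RingHom.mem_ker, map_sub, map_sub, map_mul, map_mul, map_mul, hρZero, hρZero,
      map_intCast, hc, zsmul_eq_mul]
    ring
  -- subtract
  have h3 : algebraMap O C ((j : O) * e - (aZero - aInf)) * s ∈ y := by
    have e3 : algebraMap O C ((j : O) * e - (aZero - aInf)) * s
        = (algebraMap O C aInf * s - c)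
          - (algebraMap O C aZero * s - c - (j : C) * (algebraMap O C e * s)) := by
      rw [map_sub, map_sub, map_mul, map_intCast]
      ring
    rw [e3]
    exact y.sub_mem h1 h2
  have h4 : algebraMap O C ((j : O) * e - (aZero - aInf)) ∈ y :=
    (hy.mem_or_mem h3).resolve_right hs
  have h5 := hyO _ h4
  rw [map_sub, map_sub, map_mul, map_intCast] at h5
  exact sub_eq_zero.mp h5

/-- **(Δ) at one node**, constants given in `κ`. -/
theorem slope_mul_eq_of_node' (r₀ : O →+* κ) (ρInf ρZero : C →+* F)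
    (hρInf : ∀ a : O, ρInf (algebraMap O C a) = algebraMap κ F (r₀ a))
    (hρZero : ∀ a : O, ρZero (algebraMap O C a) = algebraMap κ F (r₀ a))
    (y : Ideal C) (hy : y.IsPrime) (hinf : RingHom.ker ρInf ≤ y)
    (hzero : RingHom.ker ρZero ≤ y)
    (hyO : ∀ a : O, algebraMap O C a ∈ y → r₀ a = 0)
    (αInf αZero e₁ : κ) (hαInf : ∃ a : O, r₀ a = αInf) (hαZero : ∃ a : O, r₀ a = αZero)
    (he₁ : ∃ a : O, r₀ a = e₁) (j : ℤ) (c s : C) (hs : s ∉ y)
    (hb : algebraMap κ F αInf * ρInf s = ρInf c)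
    (hc : algebraMap κ F αZero * ρZero s = ρZero c + j • (algebraMap κ F e₁ * ρZero s)) :
    (j : κ) * e₁ = αZero - αInf := by
  obtain ⟨aInf, rfl⟩ := hαInf
  obtain ⟨aZero, rfl⟩ := hαZero
  obtain ⟨e, rfl⟩ := he₁
  exact slope_mul_eq_of_node r₀ ρInf ρZero hρInf hρZero y hy hinf hzero hyO aInf aZero e j c s hs
    hb hc

end Node

section Char

variable {κ : Type*} [Field κ]

/-- `j * e₁ = j' * e₁` with `e₁ ≠ 0` in characteristic `p` gives `p ∣ j - j'`. -/
theorem dvd_sub_of_mul_eq (p : ℕ) [CharP κ p] {e₁ : κ} (he : e₁ ≠ 0) {j j' : ℤ}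
    (h : (j : κ) * e₁ = (j' : κ) * e₁) : (p : ℤ) ∣ j - j' := by
  have h1 : ((j - j' : ℤ) : κ) = 0 := by
    rw [Int.cast_sub, sub_eq_zero]
    exact mul_right_cancel₀ he h
  exact (CharP.intCast_eq_zero_iff κ p (j - j')).mp h1

/-- **(Δ), two nodes**: the exponents of the node normal form at two nodes are congruent
modulo `p`. -/
theorem dvd_sub_of_two_nodes (p : ℕ) [CharP κ p] {e₁ α : κ} (he : e₁ ≠ 0) {j j' : ℤ}
    (h : (j : κ) * e₁ = α) (h' : (j' : κ) * e₁ = α) : (p : ℤ) ∣ j - j' :=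
  dvd_sub_of_mul_eq p he (h.trans h'.symm)

/-- **(Δ), the slope.**  If every admissible exponent `j` at every node `i` satisfies
`j * e₁ = α` with the same `α` and `e₁ ≠ 0`, there is ONE `δ` with `p ∣ j - δ` throughout. -/
theorem exists_delta (p : ℕ) [CharP κ p] {ι : Type*} (P : ι → ℤ → Prop) {e₁ α : κ}
    (he : e₁ ≠ 0) (h : ∀ i j, P i j → (j : κ) * e₁ = α) :
    ∃ δ : ℤ, ∀ i j, P i j → (p : ℤ) ∣ j - δ := by
  by_cases hex : ∃ i j, P i j
  · obtain ⟨i₀, j₀, h₀⟩ := hex
    exact ⟨j₀, fun i j hij => dvd_sub_of_two_nodes p he (h i j hij) (h i₀ j₀ h₀)⟩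
  · exact ⟨0, fun i j hij => (hex ⟨i, j, hij⟩).elim⟩

end Char

/-- An integer power with exponent divisible by `p` is a `p`-th power. -/
theorem exists_zpow_eq_pow_of_dvd {k : Type*} [Field k] (p : ℕ) (t : k) {n : ℤ}
    (h : (p : ℤ) ∣ n) : ∃ g : k, t ^ n = g ^ p := by
  obtain ⟨m, rfl⟩ := h
  exact ⟨t ^ m, by rw [mul_comm, zpow_mul, zpow_natCast]⟩

end Fermat.Agent.S44.L.Alt.Delta
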