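import Mathlib
import Fermat.Agent.S44.L.TopLemmas

/-!
# PROGRAM MR (S44), strand L, cover-free ALT route for (L.SLOPE): the level-free funnel

Level-free tools (helper61) with which every branch of the cover-free route ends in
`Slope.Cut.SlopeMStatement` (the case split and the Qb-level Props are in `S44/L/Alt/Cases`).

* `slope_core` : local certificates at the places of a field `k` — at each "finite" place
  either a SMOOTH certificate (`p ∣ ord_w f`, `D̄` a unit at `w`) or a NODE certificate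
  (`p ∣ ord_w (f^12 D̄^(-j))` with `j e = d` in a field `κ` of characteristic `p`, `e ≠ 0`) —
  give ONE `δ` with `p ∣ ord_w (f^12 D̄^(-δ))` at all finite places.
* `smooth_cert` : the smooth certificate at the centre `y` of `w`: `f = unit · h^p`,
  `D̄ = unit`.
* `node_pdiv`   : the node certificate at the centre `y` of `w`: `f = unit · t^j · h^p` and
  `D̄ = unit · t^12` give `p ∣ ord_w (f^12 D̄^(-j))`.
* `delta_eq`, `delta_eq_const` : **(Δ)**.  A local function `a / b` at a point `y` on both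
  branches which is the constant `ō_∞` along the first branch and `ō_0 - j ε̄` along the second
  branch: `j ε̄ = ō_0 - ō_∞`.
-/

set_option autoImplicit false

namespace Fermat.Agent.S44.L.Alt.Funnel

open Fermat.Agent.S44.L.Top Fermat.Agent.S44.L

/-! ### Level-free -/

/-- **The core.**  Smooth / node certificates at the finite places give a global slope. -/
theorem slope_core {k κ : Type*} [Field k] [Field κ] {p : ℕ} [CharP κ p]
    (f Db : k) (hD0 : Db ≠ 0) (e d : κ) (he : e ≠ 0) (Fin : ValuationSubring k → Prop)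
    (hfin : ∀ w, Fin w → (PDivAt p w f ∧ Db ∈ w ∧ Db⁻¹ ∈ w) ∨
      ∃ j : ℤ, PDivAt p w (f ^ 12 * Db ^ (-j)) ∧ (j : κ) * e = d) :
    ∃ δ : ℤ, ∀ w, Fin w → PDivAt p w (f ^ 12 * Db ^ (-δ)) := by
  by_cases hex : ∃ w, Fin w ∧ ∃ j : ℤ, PDivAt p w (f ^ 12 * Db ^ (-j)) ∧ (j : κ) * e = d
  · obtain ⟨w₀, -, j₀, -, hj₀⟩ := hex
    refine ⟨j₀, fun w hw => ?_⟩
    rcases hfin w hw with ⟨hf, hD, hD'⟩ | ⟨j, hj, hje⟩
    · exact TopLemmas.PDivAt.mul (TopLemmas.PDivAt.pow hf 12)
        (TopLemmas.PDivAt.zpow (TopLemmas.PDivAt.of_unit hD hD') (-j₀))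
    · have h1 : ((j - j₀ : ℤ) : κ) = 0 := by
        have h2 : ((j - j₀ : ℤ) : κ) * e = 0 := by
          push_cast
          rw [sub_mul, hje, hj₀, sub_self]
        exact (mul_eq_zero.mp h2).resolve_right he
      obtain ⟨m, hm⟩ := (CharP.intCast_eq_zero_iff κ p (j - j₀)).mp h1
      have h3 : Db ^ (-j₀) = Db ^ (-j) * (Db ^ m) ^ p := by
        rw [← zpow_natCast (Db ^ m) p, ← zpow_mul, ← zpow_add₀ hD0]
        congr 1
        linarith
      rw [h3, ← mul_assoc]
      exact TopLemmas.PDivAt.mul hj (TopLemmas.PDivAt.pow_self _)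
  · refine ⟨0, fun w hw => ?_⟩
    rcases hfin w hw with ⟨hf, -, -⟩ | h
    · rw [neg_zero, zpow_zero, mul_one]
      exact TopLemmas.PDivAt.pow hf 12
    · exact absurd ⟨w, hw, h⟩ hex

/-- Units at the centre: for `c ∉ y`, `r c` is a unit of `w`. -/
theorem pDivAt_of_notMem {k : Type*} [Field k] {p : ℕ} (w : ValuationSubring k)
    {C : Type*} [CommRing C] (r : C →+* k) (y : Ideal C)
    (hy : ∀ c : C, r c ∈ w) (hy' : ∀ c : C, c ∉ y → (r c)⁻¹ ∈ w) {c : C} (hc : c ∉ y) :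
    PDivAt p w (r c) :=
  TopLemmas.PDivAt.of_unit (hy c) (hy' c hc)

/-- **The smooth certificate**: at a point `y` (centre of `w`) where `f = unit · h^p` and
`D̄ = unit`. -/
theorem smooth_cert {k : Type*} [Field k] {p : ℕ} (w : ValuationSubring k)
    {C : Type*} [CommRing C] (r : C →+* k) (y : Ideal C) (hker : RingHom.ker r ≤ y)
    (hy : ∀ c : C, r c ∈ w) (hy' : ∀ c : C, c ∉ y → (r c)⁻¹ ∈ w)
    (f Db h : k) (a₁ b₁ a₂ b₂ : C)
    (ha₁ : a₁ ∉ y) (hb₁ : b₁ ∉ y) (ha₂ : a₂ ∉ y) (hb₂ : b₂ ∉ y)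
    (hf : f * r b₁ = r a₁ * h ^ p) (hD : Db * r b₂ = r a₂) :
    PDivAt p w f ∧ Db ∈ w ∧ Db⁻¹ ∈ w := by
  have hne : ∀ c : C, c ∉ y → r c ≠ 0 := fun c hc h0 => hc (hker ((RingHom.mem_ker).mpr h0))
  have hf' : f = r a₁ / r b₁ * h ^ p := by
    rw [div_mul_eq_mul_div, eq_div_iff (hne b₁ hb₁)]
    exact hf
  have hD' : Db = r a₂ * (r b₂)⁻¹ := by
    rw [← div_eq_mul_inv, eq_div_iff (hne b₂ hb₂)]
    exact hD
  refine ⟨?_, ?_, ?_⟩
  · rw [hf']
    exact TopLemmas.PDivAt.mul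
      (TopLemmas.PDivAt.div (pDivAt_of_notMem w r y hy hy' ha₁) (pDivAt_of_notMem w r y hy hy' hb₁))
      (TopLemmas.PDivAt.pow_self h)
  · rw [hD']
    exact w.mul_mem _ _ (hy a₂) (hy' b₂ hb₂)
  · rw [hD', mul_inv, inv_inv]
    exact w.mul_mem _ _ (hy' a₂ ha₂) (hy b₂)

/-- **The node certificate, divisibility part.**  `y` the centre of `w` along the branch `r`.
From `f = unit · t^j · h^p` and `D̄ = unit · t^12` at `y`: `p ∣ ord_w (f^12 D̄^(-j))`. -/
theorem node_pdiv {k : Type*} [Field k] {p : ℕ} (w : ValuationSubring k)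
    {C : Type*} [CommRing C] (r : C →+* k) (y : Ideal C) (hker : RingHom.ker r ≤ y)
    (hy : ∀ c : C, r c ∈ w) (hy' : ∀ c : C, c ∉ y → (r c)⁻¹ ∈ w)
    (f Db h : k) (hD0 : Db ≠ 0) (t a₁ b₁ a₂ b₂ : C) (j : ℤ)
    (ha₁ : a₁ ∉ y) (hb₁ : b₁ ∉ y) (ha₂ : a₂ ∉ y) (hb₂ : b₂ ∉ y)
    (hf : f * r b₁ = r a₁ * r t ^ j * h ^ p)
    (hD : Db * r b₂ = r a₂ * r t ^ 12) :
    PDivAt p w (f ^ 12 * Db ^ (-j)) := by
  have hne : ∀ c : C, c ∉ y → r c ≠ 0 := fun c hc h0 => hc (hker ((RingHom.mem_ker).mpr h0))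
  have hT : r t ≠ 0 := by
    intro h0
    rw [h0, zero_pow (by norm_num), mul_zero] at hD
    exact (mul_ne_zero hD0 (hne b₂ hb₂)) hD
  have hf' : f = r a₁ / r b₁ * r t ^ j * h ^ p := by
    rw [mul_assoc, div_mul_eq_mul_div, eq_div_iff (hne b₁ hb₁), ← mul_assoc]
    exact hf
  have hD' : Db = r a₂ / r b₂ * r t ^ 12 := by
    rw [div_mul_eq_mul_div, eq_div_iff (hne b₂ hb₂)]
    exact hD
  have key : f ^ 12 * Db ^ (-j)
      = (r a₁ / r b₁) ^ 12 * (r a₂ / r b₂) ^ (-j) * (h ^ 12) ^ p := by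
    have hcancel : (r t ^ j) ^ 12 * (r t ^ 12) ^ (-j) = 1 := by
      rw [← zpow_natCast (r t ^ j) 12, ← zpow_mul, ← zpow_natCast (r t) 12, ← zpow_mul,
        ← zpow_add₀ hT]
      have : j * ((12 : ℕ) : ℤ) + ((12 : ℕ) : ℤ) * -j = 0 := by ring
      rw [this, zpow_zero]
    rw [hf', hD', mul_pow, mul_pow, mul_zpow, ← pow_mul, ← pow_mul, mul_comm p 12]
    linear_combination ((r a₁ / r b₁) ^ 12 * (r a₂ / r b₂) ^ (-j) * h ^ (12 * p)) * hcancel
  rw [key]
  exact TopLemmas.PDivAt.mul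
    (TopLemmas.PDivAt.mul
      (TopLemmas.PDivAt.pow (TopLemmas.PDivAt.div (pDivAt_of_notMem w r y hy hy' ha₁)
        (pDivAt_of_notMem w r y hy hy' hb₁)) 12)
      (TopLemmas.PDivAt.zpow (TopLemmas.PDivAt.div (pDivAt_of_notMem w r y hy hy' ha₂)
        (pDivAt_of_notMem w r y hy hy' hb₂)) (-j)))
    (TopLemmas.PDivAt.pow_self _)

/-- **(Δ)**, level-free.  `y` a prime on both branches (`ker rI ≤ y`, `ker rZ ≤ y`) of a chart
ring `C` over `O`; `rI`, `rZ` agree on the constants `O` and kill `y ∩ O`.  If a local function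
`a / b` at `y` (`b ∉ y`) reduces to the constant `ō_∞` along the first branch and to
`ō_0 - j ε̄` along the second branch, then `j ε̄ = ō_0 - ō_∞`.
(Application: `S = κ_s((q))`, `rI = ι ∘ redInf`, `rZ = ι ∘ redZero`; `a / b` the first-order
coefficient `c` of the node normal form at `y`; `ō_∞ = ρ_∞(x)`, `ō_0 = ρ_0(x)`, `ε̄ = e₁`.) -/
theorem delta_eq {C O S : Type*} [CommRing C] [CommRing O] [CommRing S] [Algebra O C]
    (rI rZ : C →+* S) (y : Ideal C) [y.IsPrime]
    (hkerI : RingHom.ker rI ≤ y) (hkerZ : RingHom.ker rZ ≤ y)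
    (hO : ∀ o : O, rZ (algebraMap O C o) = rI (algebraMap O C o))
    (hyO : ∀ o : O, algebraMap O C o ∈ y → rI (algebraMap O C o) = 0)
    (a b : C) (hb : b ∉ y) (j : ℤ) (oI oZ ε : O)
    (hρI : rI (algebraMap O C oI) * rI b = rI a)
    (hρZ : (rI (algebraMap O C oZ) - (j : S) * rI (algebraMap O C ε)) * rZ b = rZ a) :
    (j : S) * rI (algebraMap O C ε) = rI (algebraMap O C oZ) - rI (algebraMap O C oI) := by
  have h1 : a - algebraMap O C oI * b ∈ y := by
    apply hkerI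
    rw [RingHom.mem_ker, map_sub, map_mul, hρI, sub_self]
  have h2 : a - algebraMap O C (oZ - (j : O) * ε) * b ∈ y := by
    apply hkerZ
    have e1 : rZ (algebraMap O C (oZ - (j : O) * ε))
        = rI (algebraMap O C oZ) - (j : S) * rI (algebraMap O C ε) := by
      rw [hO, map_sub (algebraMap O C), map_mul (algebraMap O C), map_intCast (algebraMap O C),
        map_sub rI, map_mul rI, map_intCast rI]
    rw [RingHom.mem_ker, map_sub, map_mul, e1, hρZ, sub_self]
  have h3 : algebraMap O C (oZ - (j : O) * ε - oI) * b ∈ y := by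
    have h4 := y.sub_mem h1 h2
    have h5 : a - algebraMap O C oI * b - (a - algebraMap O C (oZ - (j : O) * ε) * b)
        = algebraMap O C (oZ - (j : O) * ε - oI) * b := by
      rw [map_sub (algebraMap O C) (oZ - (j : O) * ε) oI]
      ring
    rwa [h5] at h4
  have h6 : algebraMap O C (oZ - (j : O) * ε - oI) ∈ y :=
    ((Ideal.IsPrime.mem_or_mem inferInstance h3).resolve_right hb)
  have h7 := hyO _ h6
  rw [map_sub (algebraMap O C), map_sub (algebraMap O C), map_mul (algebraMap O C),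
    map_intCast (algebraMap O C), map_sub rI, map_sub rI, map_mul rI, map_intCast rI] at h7
  linear_combination -h7

/-- The same with the constants in a field of constants `κ` embedded in `S` by `cst`
(`S = κ((q))`, `cst = HahnSeries.C`): `(j : κ) * e = d_0 - d_∞`. -/
theorem delta_eq_const {C O S κ : Type*} [CommRing C] [CommRing O] [CommRing S] [Field κ]
    [Algebra O C] (rI rZ : C →+* S) (y : Ideal C) [y.IsPrime]
    (hkerI : RingHom.ker rI ≤ y) (hkerZ : RingHom.ker rZ ≤ y)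
    (cst : κ →+* S) (hcst : Function.Injective cst) (res : O →+* κ)
    (hres : Function.Surjective res)
    (hOI : ∀ o : O, rI (algebraMap O C o) = cst (res o))
    (hOZ : ∀ o : O, rZ (algebraMap O C o) = cst (res o))
    (hyO : ∀ o : O, algebraMap O C o ∈ y → res o = 0)
    (a b : C) (hb : b ∉ y) (j : ℤ) (dI dZ e : κ)
    (hρI : cst dI * rI b = rI a)
    (hρZ : (cst dZ - (j : S) * cst e) * rZ b = rZ a) :
    (j : κ) * e = dZ - dI := by
  obtain ⟨oI, rfl⟩ := hres dI
  obtain ⟨oZ, rfl⟩ := hres dZ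
  obtain ⟨ε, rfl⟩ := hres e
  have h := delta_eq rI rZ y hkerI hkerZ (fun o => by rw [hOZ, hOI])
    (fun o ho => by rw [hOI, hyO o ho, map_zero]) a b hb j oI oZ ε
    (by rw [hOI]; exact hρI) (by rw [hOI, hOI]; exact hρZ)
  apply hcst
  rw [hOI, hOI, hOI] at h
  rw [map_mul, map_intCast, map_sub]
  exact h

end Fermat.Agent.S44.L.Alt.Funnel
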