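import Mathlib
import Fermat.Agent.S36.CycloBase
import Fermat.Agent.S44.L.Alt.RhoBridge

/-!
# PROGRAM MR (S44), strand L, cover-free ALT route for (L.SLOPE), row FE.K (helper67):
# the constants seam `κ_K → κ_s → κ_A` at `φ = CycloBase.inclOE A h`

`A` a valuation subring of `ℚ̄`, `K ≤ Ks` (`h`) two number fields with `OE A K`, `OE A Ks` discrete
valuation rings.  Literals of the SLOPE chain owner's deal (FE.K):

* `kmap_resL` (k1) : `kmap A Ks (resL (inclOE A h) X) = kmap A K X`;
* `exists_mem_constSub_of_kmap_eq_C` (k2) : a series of `κ_K((q))` whose image in `κ_A((q))` is a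
  constant series `C e` gives an element of `CentreChart.constSub M A K` with series `C e`;
* `exists_mem_constSub_of_hres` (k3) : if the residue field does not grow from `K` to `Ks`
  (`hres`), every constant `e₁ ∈ κ_s` gives an element of `constSub M A K` with series
  `kmap A Ks (C e₁)`;
* `exists_const_of_hres`, `kmap_C` : the same in the vocabulary of `Alt/RhoBridge`.

(k4) of the deal is `Alt/RedPow.exists_zpow_mul` / `zpow_mul_inj` (on main).
-/

set_option autoImplicit false
set_option linter.unusedSectionVars false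
set_option linter.unusedVariables false
set_option linter.style.haveILetI false

open ModularCurve

noncomputable section

namespace Fermat.Agent.S44.L.Alt.KSeam

open Fermat.Agent.S18.K1Defs Fermat.Agent.S18.K1Top Fermat.Agent.S18.Wiring Fermat.Agent.S30
open Fermat.Agent.S44.Contract Fermat.Agent.S44.L.RedTransfer Fermat.Agent.S44.L.CentreChart
open Fermat.Agent.S44.L.Alt.NodeAltCore Fermat.Agent.S36

local notation "Qb" => AlgebraicClosure ℚ

variable (A : ValuationSubring Qb)

/-- The inclusions into `A` are compatible. -/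
theorem inclOA_inclOE {K Ks : IntermediateField ℚ Qb} (h : K ≤ Ks) (a : OE A K) :
    inclOA A Ks (CycloBase.inclOE A h a) = inclOA A K a := rfl

/-- **(k1)** `kmap A Ks ∘ resL (inclOE A h) = kmap A K`. -/
theorem kmap_resL {K Ks : IntermediateField ℚ Qb} (h : K ≤ Ks)
    [IsDiscreteValuationRing (OE A K)] [IsDiscreteValuationRing (OE A Ks)]
    (X : LaurentSeries (IsLocalRing.ResidueField (OE A K))) :
    kmap A Ks (resL (CycloBase.inclOE A h) X) = kmap A K X :=
  RhoBridge.kmap_resL A K Ks (CycloBase.inclOE A h) (inclOA_inclOE A h) X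

/-- `kmap` of a constant series. -/
theorem kmap_C (E : IntermediateField ℚ Qb) (e : IsLocalRing.ResidueField (OE A E)) :
    kmap A E (HahnSeries.C e) = HahnSeries.C (resMap A E e) :=
  coeffMap_C _ _

/-- **(k2)** A series of `κ_K((q))` whose image in `κ_A((q))` is a constant series gives an element
of `constSub M A K`. -/
theorem exists_mem_constSub_of_kmap_eq_C (K : IntermediateField ℚ Qb)
    [IsDiscreteValuationRing (OE A K)] (M : ℕ) [NeZero M]
    (X : LaurentSeries (IsLocalRing.ResidueField (OE A K))) (e : IsLocalRing.ResidueField A)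
    (hX : kmap A K X = HahnSeries.C e) :
    ∃ s ∈ constSub M A K,
      ((s : redField M A) : LaurentSeries (IsLocalRing.ResidueField A)) = HahnSeries.C e := by
  have h0 : resMap A K (X.coeff 0) = e := by
    have h1 : (kmap A K X).coeff 0
        = (HahnSeries.C e : LaurentSeries (IsLocalRing.ResidueField A)).coeff 0 := by rw [hX]
    rw [HahnSeries.C_apply, HahnSeries.coeff_single_same] at h1
    exact h1
  refine ⟨constHom M A K (X.coeff 0), ⟨_, rfl⟩, ?_⟩
  rw [coe_constHom, h0]

/-- **(k3)** If the residue field does not grow from `K` to `Ks`, every constant of `κ_s` gives an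
element of `constSub M A K`. -/
theorem exists_mem_constSub_of_hres {K Ks : IntermediateField ℚ Qb} (h : K ≤ Ks)
    [IsDiscreteValuationRing (OE A K)] [IsDiscreteValuationRing (OE A Ks)] (M : ℕ) [NeZero M]
    (hres : ∀ y : OE A Ks, ∃ a : OE A K, ¬ IsUnit (y - CycloBase.inclOE A h a))
    (e₁ : IsLocalRing.ResidueField (OE A Ks)) :
    ∃ s ∈ constSub M A K,
      ((s : redField M A) : LaurentSeries (IsLocalRing.ResidueField A))
        = kmap A Ks (HahnSeries.C e₁) := by
  obtain ⟨y, rfl⟩ := IsLocalRing.residue_surjective e₁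
  obtain ⟨a, ha⟩ := hres y
  have h1 : IsLocalRing.residue (OE A Ks) y
      = IsLocalRing.residue (OE A Ks) (CycloBase.inclOE A h a) := by
    rw [← sub_eq_zero, ← map_sub, IsLocalRing.residue_eq_zero_iff, IsLocalRing.mem_maximalIdeal,
      mem_nonunits_iff]
    exact ha
  obtain ⟨s, hs, hse⟩ := le_constSub M A K a
  refine ⟨s, hs, ?_⟩
  rw [hse, kmap_C, h1, resMap_residue, inclOA_inclOE]

/-- The same with the constant named: `e₁ = residue (inclOE A h a)`, and the element is nonzero
if `e₁` is. -/
theorem exists_const_of_hres {K Ks : IntermediateField ℚ Qb} (h : K ≤ Ks)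
    [IsDiscreteValuationRing (OE A K)] [IsDiscreteValuationRing (OE A Ks)] (M : ℕ) [NeZero M]
    (hres : ∀ y : OE A Ks, ∃ a : OE A K, ¬ IsUnit (y - CycloBase.inclOE A h a))
    (e₁ : IsLocalRing.ResidueField (OE A Ks)) (he₁ : e₁ ≠ 0) :
    ∃ s ∈ constSub M A K, s ≠ 0 ∧
      ((s : redField M A) : LaurentSeries (IsLocalRing.ResidueField A))
        = HahnSeries.C (resMap A Ks e₁) := by
  obtain ⟨s, hs, hse⟩ := exists_mem_constSub_of_hres A h M hres e₁
  rw [kmap_C] at hse
  refine ⟨s, hs, fun h0 => he₁ ?_, hse⟩
  have h2 : (HahnSeries.C (resMap A Ks e₁) : LaurentSeries (IsLocalRing.ResidueField A)) = 0 := by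
    rw [← hse, h0]
    rfl
  exact (map_eq_zero (resMap A Ks)).mp ((map_eq_zero_iff _ HahnSeries.C_injective).mp h2)

end Fermat.Agent.S44.L.Alt.KSeam
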