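import Mathlib
import Fermat.Agent.S44.L.Slope.LocPt

/-!
# PROGRAM MR (S44), strand L, (L.SLOPE) on the cover-free route: the chart-level funnel

The chart-level twin of `Alt/Funnel.slope_core` (which ends in `PDivAt` at the places of the
reduced field): local CERTIFICATES at the maximal ideals of the two charts give
`Slope.LocPt.LocForm`, i.e. the conclusion of `Slope.Loc.SlopeLocStatement` for one pair
`(f, D̄)`.

At a non-cuspidal closed point `y` of the finite chart `r : C → redField M A` one of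

* SMOOTH certificate : `f = unit_y · h ^ p` and `D̄ = unit_y · h' ^ p`   (rows (S a) + ALT.9);
* NODE certificate   : `f = unit_y · τ ^ j · h ^ p`, `D̄ = unit_y · τ ^ 12 · h' ^ p` and
  `j * e = d` in a field `κ` of characteristic `p`  (rows (N a) + ALT.9 + `Alt/Delta`:
  `e ≠ 0` and `d` do not depend on `y`);

at the cusps (both charts): `f = unit_y · h ^ p`.  The slope `δ` is chosen HERE (any node
exponent, `0` if there is no node), so the producers never name it.

* `locForm_of_certs` : certificates with `j * e = d` ⟹ `LocForm`.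
* `locForm_of_certs_dvd` : the same with the node certificate `p ∣ j - δ₀` for a GIVEN integer
  `δ₀` (e.g. the unramified / split case, row ALT.10: `δ₀ = v₀(f') - v_∞(f')`).
* `locForm_of_mul_pow` : `LocForm` is insensitive to `p`-th powers: the local forms of `f'` give
  those of `f' * g ^ p` (same charts, same `δ`) — the shift `R ↦ R - i T` of the split case.
* `unitAt_mul_right`, `unitAt_congr` : bookkeeping for `Loc.UnitAt`.
-/

set_option autoImplicit false

open HahnSeries ModularCurve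

namespace Fermat.Agent.S44.L.Alt.LocFunnel

open Fermat.Agent.S30 Fermat.Agent.S44.Contract
open Fermat.Agent.S44.L.Top Fermat.Agent.S44.L
open Fermat.Agent.S44.L.Slope.Loc Fermat.Agent.S44.L.Slope.LocPt

local notation "Qb" => AlgebraicClosure ℚ

/-- "`f = unit_y · g`" is insensitive to a common factor. -/
theorem unitAt_mul_right {k : Type*} [Field k] {C : Type*} [CommRing C] {r : C →+* k}
    {y : Ideal C} {f g : k} (h : UnitAt r y f g) (x : k) : UnitAt r y (f * x) (g * x) := by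
  obtain ⟨a, b, ha, hb, hf⟩ := h
  refine ⟨a, b, ha, hb, ?_⟩
  rw [mul_right_comm, hf, mul_assoc]

/-- "`f = unit_y · g`" rewritten along `g = g'`. -/
theorem unitAt_congr {k : Type*} [Field k] {C : Type*} [CommRing C] {r : C →+* k}
    {y : Ideal C} {f g g' : k} (h : UnitAt r y f g) (hg : g = g') : UnitAt r y f g' :=
  hg ▸ h

/-- **`LocForm` is insensitive to `p`-th powers**: the local forms of `f'` give the local forms
of `f' * g ^ p` (same charts, same `δ`, same `τ`, `j`, `e`; `h ↦ h * g`). -/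
theorem locForm_of_mul_pow {p M : ℕ} [NeZero M] {A : ValuationSubring Qb} {h4 : 4 ∣ M}
    {f' Db : redField M A} (H : LocForm p M A h4 f' Db) (g : redField M A) :
    LocForm p M A h4 (f' * g ^ p) Db := by
  obtain ⟨κ₀, C, iC, r, C', iC', r', δ, h1, h2, h3, h4', h5, h6, h7, hFin, hCusp, hInf⟩ := H
  refine ⟨κ₀, C, iC, r, C', iC', r', δ, h1, h2, h3, h4', h5, h6, h7, ?_, ?_, ?_⟩
  · intro y hy hker hu hu16
    obtain ⟨τ, h, h', j, e, hτ, hdvd, hf, hD⟩ := hFin y hy hker hu hu16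
    refine ⟨τ, h * g, h', j, e, hτ, hdvd, ?_, hD⟩
    have := unitAt_mul_right hf (g ^ p)
    rwa [mul_assoc, ← mul_pow] at this
  · intro y hy hker hc
    obtain ⟨h, hf⟩ := hCusp y hy hker hc
    refine ⟨h * g, ?_⟩
    have := unitAt_mul_right hf (g ^ p)
    rwa [← mul_pow] at this
  · intro y hy hker hc
    obtain ⟨h, hf⟩ := hInf y hy hker hc
    refine ⟨h * g, ?_⟩
    have := unitAt_mul_right hf (g ^ p)
    rwa [← mul_pow] at this

/-- **The chart-level funnel, given slope.**  Smooth / node certificates at the non-cuspidal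
closed points of the finite chart, with the node exponents congruent to ONE integer `δ₀` modulo
`p`, and `p`-th power certificates at the cusps, give `LocForm`. -/
theorem locForm_of_certs_dvd {p M : ℕ} [NeZero M] {A : ValuationSubring Qb}
    {h4 : 4 ∣ M} {f Db : redField M A} (δ₀ : ℤ)
    (κ₀ : Subfield (redField M A))
    (hκ₀ : ∀ s ∈ κ₀, ∃ e : IsLocalRing.ResidueField A,
      ((s : redField M A) : LaurentSeries (IsLocalRing.ResidueField A)) = HahnSeries.C e)
    {C : Type} [CommRing C] (r : C →+* redField M A)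
    (hκr : ∀ s ∈ κ₀, ∃ c : C, r c = s) (hur : ∃ c : C, r c = CentreU4.ub M A h4)
    (hint : ∀ c : C, IsIntegral ↥(Algebra.adjoin κ₀ {CentreU4.ub M A h4}) (r c))
    {C' : Type} [CommRing C'] (r' : C' →+* redField M A)
    (hκr' : ∀ s ∈ κ₀, ∃ c : C', r' c = s) (hur' : ∃ c : C', r' c = (CentreU4.ub M A h4)⁻¹)
    (hint' : ∀ c : C', IsIntegral ↥(Algebra.adjoin κ₀ {(CentreU4.ub M A h4)⁻¹}) (r' c))
    (hFin : ∀ y : Ideal C, y.IsMaximal → RingHom.ker r ≤ y →
      (∀ c : C, r c = CentreU4.ub M A h4 → c ∉ y) →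
      (∀ c : C, r c = CentreU4.ub M A h4 + 16 → c ∉ y) →
      (∃ h h' : redField M A, UnitAt r y f (h ^ p) ∧ UnitAt r y Db (h' ^ p)) ∨
      (∃ (τ h h' : redField M A) (j : ℤ), τ ≠ 0 ∧ UnitAt r y f (τ ^ j * h ^ p) ∧
        UnitAt r y Db (τ ^ (12 : ℕ) * h' ^ p) ∧ (p : ℤ) ∣ j - δ₀))
    (hCusp : ∀ y : Ideal C, y.IsMaximal → RingHom.ker r ≤ y →
      ((∀ c : C, r c = CentreU4.ub M A h4 → c ∈ y) ∨
        (∀ c : C, r c = CentreU4.ub M A h4 + 16 → c ∈ y)) →
      ∃ h : redField M A, UnitAt r y f (h ^ p))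
    (hInf : ∀ y : Ideal C', y.IsMaximal → RingHom.ker r' ≤ y →
      (∀ c : C', r' c = (CentreU4.ub M A h4)⁻¹ → c ∈ y) →
      ∃ h : redField M A, UnitAt r' y f (h ^ p)) :
    LocForm p M A h4 f Db := by
  refine LocForm.of_fin_cusp_inf κ₀ hκ₀ r hκr hur hint r' hκr' hur' hint' δ₀ ?_ hCusp hInf
  intro y hy hker hu hu16
  rcases hFin y hy hker hu hu16 with ⟨h, h', hf, hD⟩ | ⟨τ, h, h', j, hτ, hf, hD, hdvd⟩
  · refine ⟨1, h, h', 0, 0, one_ne_zero, ?_, ?_, ?_⟩
    · rw [mul_zero, mul_zero, sub_zero]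
      exact dvd_zero _
    · exact unitAt_congr hf (by rw [zpow_zero, one_mul])
    · exact unitAt_congr hD (by rw [zpow_zero, one_mul])
  · refine ⟨τ, h, h', j, 12, hτ, ?_, hf, ?_⟩
    · have h12 : 12 * j - δ₀ * 12 = 12 * (j - δ₀) := by ring
      rw [h12]
      exact Dvd.dvd.mul_left hdvd 12
    · exact unitAt_congr hD (by rw [zpow_ofNat])

/-- **The chart-level funnel.**  Smooth / node certificates at the non-cuspidal closed points of
the finite chart, the node exponents satisfying `j * e = d` in a field `κ` of characteristic `p`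
with `e ≠ 0` (the output of `Alt/Delta.slope_mul_eq_of_node'`), and `p`-th power certificates
at the cusps, give `LocForm`. -/
theorem locForm_of_certs {p M : ℕ} [NeZero M] {A : ValuationSubring Qb}
    {h4 : 4 ∣ M} {f Db : redField M A} {κ : Type*} [Field κ] [CharP κ p] {e d : κ}
    (he : e ≠ 0)
    (κ₀ : Subfield (redField M A))
    (hκ₀ : ∀ s ∈ κ₀, ∃ e : IsLocalRing.ResidueField A,
      ((s : redField M A) : LaurentSeries (IsLocalRing.ResidueField A)) = HahnSeries.C e)
    {C : Type} [CommRing C] (r : C →+* redField M A)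
    (hκr : ∀ s ∈ κ₀, ∃ c : C, r c = s) (hur : ∃ c : C, r c = CentreU4.ub M A h4)
    (hint : ∀ c : C, IsIntegral ↥(Algebra.adjoin κ₀ {CentreU4.ub M A h4}) (r c))
    {C' : Type} [CommRing C'] (r' : C' →+* redField M A)
    (hκr' : ∀ s ∈ κ₀, ∃ c : C', r' c = s) (hur' : ∃ c : C', r' c = (CentreU4.ub M A h4)⁻¹)
    (hint' : ∀ c : C', IsIntegral ↥(Algebra.adjoin κ₀ {(CentreU4.ub M A h4)⁻¹}) (r' c))
    (hFin : ∀ y : Ideal C, y.IsMaximal → RingHom.ker r ≤ y →
      (∀ c : C, r c = CentreU4.ub M A h4 → c ∉ y) →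
      (∀ c : C, r c = CentreU4.ub M A h4 + 16 → c ∉ y) →
      (∃ h h' : redField M A, UnitAt r y f (h ^ p) ∧ UnitAt r y Db (h' ^ p)) ∨
      (∃ (τ h h' : redField M A) (j : ℤ), τ ≠ 0 ∧ UnitAt r y f (τ ^ j * h ^ p) ∧
        UnitAt r y Db (τ ^ (12 : ℕ) * h' ^ p) ∧ (j : κ) * e = d))
    (hCusp : ∀ y : Ideal C, y.IsMaximal → RingHom.ker r ≤ y →
      ((∀ c : C, r c = CentreU4.ub M A h4 → c ∈ y) ∨
        (∀ c : C, r c = CentreU4.ub M A h4 + 16 → c ∈ y)) →
      ∃ h : redField M A, UnitAt r y f (h ^ p))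
    (hInf : ∀ y : Ideal C', y.IsMaximal → RingHom.ker r' ≤ y →
      (∀ c : C', r' c = (CentreU4.ub M A h4)⁻¹ → c ∈ y) →
      ∃ h : redField M A, UnitAt r' y f (h ^ p)) :
    LocForm p M A h4 f Db := by
  -- the slope: any exponent `j₀` with `j₀ * e = d`, or `0` if there is none
  have key : ∀ {j j' : ℤ}, (j : κ) * e = d → (j' : κ) * e = d → (p : ℤ) ∣ j - j' := by
    intro j j' hj hj'
    have h1 : ((j - j' : ℤ) : κ) = 0 := by
      rw [Int.cast_sub, sub_eq_zero]
      exact mul_right_cancel₀ he (hj.trans hj'.symm)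
    exact (CharP.intCast_eq_zero_iff κ p (j - j')).mp h1
  obtain ⟨δ₀, hδ₀⟩ : ∃ δ₀ : ℤ, ∀ j : ℤ, (j : κ) * e = d → (p : ℤ) ∣ j - δ₀ := by
    by_cases hex : ∃ j₀ : ℤ, (j₀ : κ) * e = d
    · obtain ⟨j₀, hj₀⟩ := hex
      exact ⟨j₀, fun j hj => key hj hj₀⟩
    · exact ⟨0, fun j hj => (hex ⟨j, hj⟩).elim⟩
  refine locForm_of_certs_dvd δ₀ κ₀ hκ₀ r hκr hur hint r' hκr' hur' hint' ?_ hCusp hInf
  intro y hy hker hu hu16
  rcases hFin y hy hker hu hu16 with hsm | ⟨τ, h, h', j, hτ, hf, hD, hj⟩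
  · exact Or.inl hsm
  · exact Or.inr ⟨τ, h, h', j, hτ, hf, hD, hδ₀ j hj⟩

end Fermat.Agent.S44.L.Alt.LocFunnel
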