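import Mathlib
import Fermat.Agent.S44.L.NodeFormula
import Fermat.Agent.S44.L.NodeLoc

/-!
# S44 (Mazur–Ribet), strand L, ALT twin, split case: local factorisation on a chart

Level-free, Mathlib + `S44/L/Node` + `S44/L/LocalPrincipal` + `S44/L/NodeLoc` only.

`C` a domain (a chart ring) with fraction field `L`, `y` a prime of `C`, `R₀ = C_y` noetherian.
`x ∈ Lˣ` is HORIZONTAL for `ϖ ∈ C` and `p`: at every prime `Q ∌ ϖ` of `C`,
`x * s = τ ^ p * b` with `s, b ∉ Q` (the literal shape of `S36.HorizAdapter.Horiz`).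

* `exists_node_factor` : at a node (`t₁`, `t₂` non-associated primes of `R₀` generating the
  maximal ideal, `t₁ t₂ ∼ ϖ`: the output of `NodeLoc.node_localization`)
  `x * (b * d ^ p * t₁ ^ i⁻ * t₂ ^ j⁻) = a * c ^ p * t₁ ^ i⁺ * t₂ ^ j⁺` in `L` with `a, b ∉ y` and
  `c, d` prime to `t₁` and `t₂` in `R₀`.
* `exists_smooth_factor` : at a smooth point (`ϖ` prime in `R₀`, `𝔪 = (ϖ, θ)`: the output of
  `NodeLoc.smooth_localization`) `x * (b * d ^ p * ϖ ^ i⁻) = a * c ^ p * ϖ ^ i⁺` with `a, b ∉ y`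
  and `c, d` prime to `ϖ` in `R₀`.

Both are stated without any algebra structure `R₀ → L` (it is built inside: `locAlgebra`); the
primed versions are the same statements for any localisation `R` of `C` at `y` inside `L`.
-/

set_option autoImplicit false
set_option linter.style.haveILetI false

noncomputable section

namespace Fermat.Agent.S44.L.Alt.NodeUnramCore

open IsLocalRing

/-! ### The local ring inside the fraction field -/

section LocFrac

variable {C : Type*} [CommRing C] [IsDomain C] (L : Type*) [Field L] [Algebra C L]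
  [IsFractionRing C L] (y : Ideal C) [y.IsPrime]

theorem isUnit_algebraMap_frac (s : y.primeCompl) : IsUnit (algebraMap C L (s : C)) := by
  have hs0 : (s : C) ≠ 0 := fun h => s.2 (h ▸ y.zero_mem)
  exact (IsFractionRing.to_map_ne_zero_of_mem_nonZeroDivisors
    (mem_nonZeroDivisors_of_ne_zero hs0)).isUnit

/-- The local ring `C_y` as a subring of the fraction field `L` of `C`. -/
def locAlgebra : Algebra (Localization.AtPrime y) L :=
  (IsLocalization.lift (M := y.primeCompl) (g := algebraMap C L)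
    (isUnit_algebraMap_frac L y)).toAlgebra

theorem locAlgebra_isScalarTower :
    letI := locAlgebra L y
    IsScalarTower C (Localization.AtPrime y) L := by
  letI := locAlgebra L y
  exact IsScalarTower.of_algebraMap_eq fun x =>
    (IsLocalization.lift_eq (isUnit_algebraMap_frac L y) x).symm

theorem locAlgebra_isFractionRing :
    letI := locAlgebra L y
    IsFractionRing (Localization.AtPrime y) L := by
  letI := locAlgebra L y
  haveI := locAlgebra_isScalarTower L y
  exact IsFractionRing.isFractionRing_of_isDomain_of_isLocalization y.primeCompl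
    (Localization.AtPrime y) L

end LocFrac

/-! ### Any localisation of `C` at `y` inside `L` -/

section Generic

variable {C : Type*} [CommRing C] [IsDomain C] {L : Type*} [Field L] [Algebra C L]
  (y : Ideal C) [y.IsPrime]
  {R : Type*} [CommRing R] [Algebra C R] [IsLocalization.AtPrime R y] [Algebra R L]
  [IsScalarTower C R L]

/-- A unit of `C_y` is `a / b` with `a, b ∉ y`. -/
theorem exists_unit_frac (u : Rˣ) :
    ∃ a b : C, a ∉ y ∧ b ∉ y ∧ (u : R) * algebraMap C R b = algebraMap C R a := by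
  obtain ⟨a, s, h⟩ := IsLocalization.exists_mk'_eq y.primeCompl (u : R)
  refine ⟨a, s, ?_, s.2, ?_⟩
  · have hu : IsUnit (IsLocalization.mk' R a s) := by rw [h]; exact u.isUnit
    exact (IsLocalization.AtPrime.isUnit_mk'_iff R y a s).mp hu
  · rw [← h, IsLocalization.mk'_spec]

/-- An element of `C_y` is `c / s` with `s ∉ y`. -/
theorem exists_frac (X : R) : ∃ c s : C, s ∉ y ∧ X * algebraMap C R s = algebraMap C R c := by
  obtain ⟨c, s, h⟩ := IsLocalization.exists_mk'_eq y.primeCompl X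
  exact ⟨c, s, s.2, by rw [← h, IsLocalization.mk'_spec]⟩

/-- Divisibility in `C_y` is insensitive to factors `s ∉ y`. -/
theorem dvd_mul_algebraMap_iff {g X : R} {s : C} (hs : s ∉ y) :
    g ∣ X * algebraMap C R s ↔ g ∣ X :=
  (IsLocalization.map_units R (⟨s, hs⟩ : y.primeCompl)).dvd_mul_right

omit [IsDomain C] [y.IsPrime] [IsLocalization.AtPrime R y] in
/-- **Horizontal transport**: the `Horiz` form on the chart gives the horizontal hypothesis of
the node / smooth-point lemmas on `R`. -/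
theorem hhor_of_chart {p : ℕ} {ϖ : C} {x : L}
    (hH : ∀ Q : Ideal C, Q.IsPrime → ϖ ∉ Q →
      ∃ (τ : L) (s b : C), τ ≠ 0 ∧ s ∉ Q ∧ b ∉ Q ∧
        x * algebraMap C L s = τ ^ p * algebraMap C L b) :
    ∀ g : R, Prime g → ¬ g ∣ algebraMap C R ϖ →
      ∃ (a b : R) (h : L), ¬ g ∣ a ∧ ¬ g ∣ b ∧
        algebraMap R L b * x = algebraMap R L a * h ^ p := by
  intro g hg hgϖ
  have hprime : (Ideal.span {g} : Ideal R).IsPrime :=
    (Ideal.span_singleton_prime hg.ne_zero).mpr hg
  have hQ : (Ideal.comap (algebraMap C R) (Ideal.span {g})).IsPrime := Ideal.comap_isPrime _ _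
  have hmem : ∀ c : C, c ∈ Ideal.comap (algebraMap C R) (Ideal.span {g}) ↔
      g ∣ algebraMap C R c := fun c => by
    rw [Ideal.mem_comap, Ideal.mem_span_singleton]
  obtain ⟨τ, s, b, -, hs, hb, e⟩ := hH _ hQ (fun h => hgϖ ((hmem ϖ).mp h))
  refine ⟨algebraMap C R b, algebraMap C R s, τ, fun h => hb ((hmem b).mpr h),
    fun h => hs ((hmem s).mpr h), ?_⟩
  rw [← IsScalarTower.algebraMap_apply C R L, ← IsScalarTower.algebraMap_apply C R L, mul_comm,
    e, mul_comm]

variable [IsDomain R] [IsFractionRing R L]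

/-- Clearing the denominators of `u * M * (X / Y) ^ p` (`u` a unit of `C_y`, `X, Y ∈ C_y`)
by elements of the chart. -/
theorem exists_clear (u : Rˣ) (X : R) {Y : R} (hY : Y ≠ 0) (p : ℕ) :
    ∃ a b c d : C, a ∉ y ∧ b ∉ y ∧
      (∀ g : R, ¬ g ∣ X → ¬ g ∣ algebraMap C R c) ∧
      (∀ g : R, ¬ g ∣ Y → ¬ g ∣ algebraMap C R d) ∧
      ∀ M : L, algebraMap R L u * M * (algebraMap R L X / algebraMap R L Y) ^ p
          * algebraMap C L b * algebraMap C L d ^ p
        = algebraMap C L a * M * algebraMap C L c ^ p := by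
  obtain ⟨a, b, ha, hb, hab⟩ := exists_unit_frac y u
  obtain ⟨c, s₁, hs₁, hc⟩ := exists_frac y X
  obtain ⟨d, s₂, hs₂, hd⟩ := exists_frac y Y
  refine ⟨a, b, c * s₂, d * s₁, ha, hb, ?_, ?_, ?_⟩
  · intro g hg
    rw [map_mul, dvd_mul_algebraMap_iff y hs₂, ← hc, dvd_mul_algebraMap_iff y hs₁]
    exact hg
  · intro g hg
    rw [map_mul, dvd_mul_algebraMap_iff y hs₁, ← hd, dvd_mul_algebraMap_iff y hs₂]
    exact hg
  · intro M
    have hmap : ∀ c : C, algebraMap R L (algebraMap C R c) = algebraMap C L c := fun c =>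
      (IsScalarTower.algebraMap_apply C R L c).symm
    have e1 : algebraMap R L u * algebraMap C L b = algebraMap C L a := by
      rw [← hmap b, ← hmap a, ← map_mul, hab]
    have e2 : algebraMap R L X * algebraMap C L s₁ = algebraMap C L c := by
      rw [← hmap s₁, ← hmap c, ← map_mul, hc]
    have e3 : algebraMap R L Y * algebraMap C L s₂ = algebraMap C L d := by
      rw [← hmap s₂, ← hmap d, ← map_mul, hd]
    have hY0 : algebraMap R L Y ≠ 0 :=
      (map_ne_zero_iff _ (IsFractionRing.injective R L)).mpr hY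
    have key : (algebraMap R L X / algebraMap R L Y) ^ p
        * (algebraMap R L Y * algebraMap C L s₂ * algebraMap C L s₁) ^ p
        = (algebraMap R L X * algebraMap C L s₁ * algebraMap C L s₂) ^ p := by
      rw [← mul_pow]
      congr 1
      rw [div_mul_eq_mul_div, div_eq_iff hY0]
      ring
    rw [map_mul (algebraMap C L) c s₂, map_mul (algebraMap C L) d s₁, ← e1, ← e2, ← e3]
    calc algebraMap R L u * M * (algebraMap R L X / algebraMap R L Y) ^ p * algebraMap C L b
          * (algebraMap R L Y * algebraMap C L s₂ * algebraMap C L s₁) ^ p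
        = algebraMap R L u * algebraMap C L b * M
          * ((algebraMap R L X / algebraMap R L Y) ^ p
            * (algebraMap R L Y * algebraMap C L s₂ * algebraMap C L s₁) ^ p) := by ring
      _ = algebraMap R L u * algebraMap C L b * M
          * (algebraMap R L X * algebraMap C L s₁ * algebraMap C L s₂) ^ p := by rw [key]

omit [IsDomain C] [y.IsPrime] [IsLocalization.AtPrime R y] [IsDomain R] [IsFractionRing R L]
  [Algebra C L] [Algebra C R] [CommRing R] [Algebra R L] [IsScalarTower C R L] [CommRing C] in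
/-- `T ^ i * T ^ (-i).toNat = T ^ i.toNat`. -/
theorem zpow_mul_pow_toNat {T : L} (hT : T ≠ 0) (i : ℤ) :
    T ^ i * T ^ (-i).toNat = T ^ i.toNat := by
  rw [← zpow_natCast T (-i).toNat, ← zpow_natCast T i.toNat, ← zpow_add₀ hT]
  congr 1
  omega

variable [IsLocalRing R] [IsNoetherianRing R]

/-- **Node factorisation on the chart** (any localisation `R` of `C` at `y` inside `L`). -/
theorem exists_node_factor' {p : ℕ} (hp : p ≠ 0) {ϖ t₁ t₂ : C}
    (h₁ : Prime (algebraMap C R t₁)) (h₂ : Prime (algebraMap C R t₂))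
    (hne : ¬ Associated (algebraMap C R t₁) (algebraMap C R t₂))
    (hm : maximalIdeal R = Ideal.span {algebraMap C R t₁, algebraMap C R t₂})
    (hϖ : Associated (algebraMap C R t₁ * algebraMap C R t₂) (algebraMap C R ϖ))
    {x : L} (hx : x ≠ 0)
    (hH : ∀ Q : Ideal C, Q.IsPrime → ϖ ∉ Q →
      ∃ (τ : L) (s b : C), τ ≠ 0 ∧ s ∉ Q ∧ b ∉ Q ∧
        x * algebraMap C L s = τ ^ p * algebraMap C L b) :
    ∃ (ip im jp jm : ℕ) (a b c d : C), a ∉ y ∧ b ∉ y ∧
      ¬ algebraMap C R t₁ ∣ algebraMap C R c ∧ ¬ algebraMap C R t₂ ∣ algebraMap C R c ∧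
      ¬ algebraMap C R t₁ ∣ algebraMap C R d ∧ ¬ algebraMap C R t₂ ∣ algebraMap C R d ∧
      x * algebraMap C L (b * d ^ p * t₁ ^ im * t₂ ^ jm)
        = algebraMap C L (a * c ^ p * t₁ ^ ip * t₂ ^ jp) := by
  have hhor : ∀ g : R, Prime g → ¬ Associated g (algebraMap C R t₁) →
      ¬ Associated g (algebraMap C R t₂) →
      ∃ (a b : R) (h : L), ¬ g ∣ a ∧ ¬ g ∣ b ∧
        algebraMap R L b * x = algebraMap R L a * h ^ p := by
    intro g hg hg1 hg2
    refine hhor_of_chart hH g hg ?_
    intro hd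
    obtain ⟨v, hv⟩ := hϖ
    rw [← hv] at hd
    rcases hg.dvd_or_dvd hd with hd | hd
    · rcases hg.dvd_or_dvd hd with hd | hd
      · exact hg1 (hg.associated_of_dvd h₁ hd)
      · exact hg2 (hg.associated_of_dvd h₂ hd)
    · exact hg.not_isUnit (isUnit_of_dvd_unit hd v.isUnit)
  obtain ⟨u, i, j, X, Y, hX1, hX2, hY1, hY2, hf⟩ :=
    Fermat.Agent.S44.L.Node.node_formula hp h₁ h₂ hne hm hx hhor
  have hY0 : Y ≠ 0 := fun h0 => hY1 (h0 ▸ dvd_zero _)
  obtain ⟨a, b, c, d, ha, hb, hc, hd, hcl⟩ := exists_clear (L := L) y u X hY0 p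
  refine ⟨i.toNat, (-i).toNat, j.toNat, (-j).toNat, a, b, c, d, ha, hb, hc _ hX1, hc _ hX2,
    hd _ hY1, hd _ hY2, ?_⟩
  have hinj := IsFractionRing.injective R L
  have hT1 : algebraMap R L (algebraMap C R t₁) = algebraMap C L t₁ :=
    (IsScalarTower.algebraMap_apply C R L t₁).symm
  have hT2 : algebraMap R L (algebraMap C R t₂) = algebraMap C L t₂ :=
    (IsScalarTower.algebraMap_apply C R L t₂).symm
  have hT10 : algebraMap C L t₁ ≠ 0 := by
    rw [← hT1]
    exact (map_ne_zero_iff _ hinj).mpr h₁.ne_zero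
  have hT20 : algebraMap C L t₂ ≠ 0 := by
    rw [← hT2]
    exact (map_ne_zero_iff _ hinj).mpr h₂.ne_zero
  rw [hT1, hT2] at hf
  have h3 := hcl (algebraMap C L t₁ ^ i * algebraMap C L t₂ ^ j)
  simp only [map_mul, map_pow]
  calc x * (algebraMap C L b * algebraMap C L d ^ p * algebraMap C L t₁ ^ (-i).toNat
          * algebraMap C L t₂ ^ (-j).toNat)
      = (algebraMap R L u * (algebraMap C L t₁ ^ i * algebraMap C L t₂ ^ j)
          * (algebraMap R L X / algebraMap R L Y) ^ p * algebraMap C L b * algebraMap C L d ^ p)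
          * algebraMap C L t₁ ^ (-i).toNat * algebraMap C L t₂ ^ (-j).toNat := by
        rw [hf]; ring
    _ = algebraMap C L a * algebraMap C L c ^ p
          * (algebraMap C L t₁ ^ i * algebraMap C L t₁ ^ (-i).toNat)
          * (algebraMap C L t₂ ^ j * algebraMap C L t₂ ^ (-j).toNat) := by
        rw [h3]; ring
    _ = algebraMap C L a * algebraMap C L c ^ p * algebraMap C L t₁ ^ i.toNat
          * algebraMap C L t₂ ^ j.toNat := by
        rw [zpow_mul_pow_toNat hT10, zpow_mul_pow_toNat hT20]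

/-- **Smooth-point factorisation on the chart** (any localisation `R` of `C` at `y` inside
`L`). -/
theorem exists_smooth_factor' {p : ℕ} (hp : p ≠ 0) {ϖ : C} {θ : R}
    (h₁ : Prime (algebraMap C R ϖ))
    (hm : maximalIdeal R = Ideal.span {algebraMap C R ϖ, θ})
    {x : L} (hx : x ≠ 0)
    (hH : ∀ Q : Ideal C, Q.IsPrime → ϖ ∉ Q →
      ∃ (τ : L) (s b : C), τ ≠ 0 ∧ s ∉ Q ∧ b ∉ Q ∧
        x * algebraMap C L s = τ ^ p * algebraMap C L b) :
    ∃ (ip im : ℕ) (a b c d : C), a ∉ y ∧ b ∉ y ∧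
      ¬ algebraMap C R ϖ ∣ algebraMap C R c ∧ ¬ algebraMap C R ϖ ∣ algebraMap C R d ∧
      x * algebraMap C L (b * d ^ p * ϖ ^ im) = algebraMap C L (a * c ^ p * ϖ ^ ip) := by
  haveI : IsDomain (R ⧸ Ideal.span {algebraMap C R ϖ}) :=
    Fermat.Agent.S44.L.Node.isDomain_quot h₁
  haveI : IsPrincipalIdealRing (R ⧸ Ideal.span {algebraMap C R ϖ}) :=
    Fermat.Agent.S44.L.Node.isPrincipalIdealRing_quot h₁ hm
  obtain ⟨u, k, h, hf⟩ :=
    Fermat.Agent.S44.L.LocalPrincipal.quot_exists_eq_unit_mul_pow_mul_pow (K := L) h₁.ne_zero hp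
      hx (hhor_of_chart hH)
  have hh : h ≠ 0 := by
    rintro rfl
    rw [zero_pow hp, mul_zero] at hf
    exact hx hf
  obtain ⟨X, Y, hY, rfl⟩ := IsFractionRing.div_surjective R h
  have hY0 : Y ≠ 0 := nonZeroDivisors.ne_zero hY
  have hX0 : X ≠ 0 := by
    rintro rfl
    exact hh (by simp)
  obtain ⟨a₁, X', hX', rfl⟩ := WfDvdMonoid.max_power_factor hX0 h₁.irreducible
  obtain ⟨a₂, Y', hY', rfl⟩ := WfDvdMonoid.max_power_factor hY0 h₁.irreducible
  have hY'0 : Y' ≠ 0 := right_ne_zero_of_mul hY0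
  obtain ⟨a, b, c, d, ha, hb, hc, hd, hcl⟩ := exists_clear (L := L) y u X' hY'0 p
  refine ⟨k + p * a₁, p * a₂, a, b, c, d, ha, hb, hc _ hX', hd _ hY', ?_⟩
  have hinj := IsFractionRing.injective R L
  have hPi : algebraMap R L (algebraMap C R ϖ) = algebraMap C L ϖ :=
    (IsScalarTower.algebraMap_apply C R L ϖ).symm
  have hPi0 : algebraMap C L ϖ ≠ 0 := by
    rw [← hPi]
    exact (map_ne_zero_iff _ hinj).mpr h₁.ne_zero
  have hY'L : algebraMap R L Y' ≠ 0 := (map_ne_zero_iff _ hinj).mpr hY'0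
  have hx' : x * algebraMap C L ϖ ^ (p * a₂)
      = algebraMap R L u * algebraMap C L ϖ ^ (k + p * a₁)
        * (algebraMap R L X' / algebraMap R L Y') ^ p := by
    have h1 : algebraMap C L ϖ ^ a₁ * algebraMap R L X'
          / (algebraMap C L ϖ ^ a₂ * algebraMap R L Y') * algebraMap C L ϖ ^ a₂
        = algebraMap C L ϖ ^ a₁ * (algebraMap R L X' / algebraMap R L Y') := by
      rw [div_mul_eq_mul_div, mul_comm (algebraMap C L ϖ ^ a₁ * algebraMap R L X')
        (algebraMap C L ϖ ^ a₂), mul_div_mul_left _ _ (pow_ne_zero a₂ hPi0), mul_div_assoc]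
    have e : (algebraMap C L ϖ ^ a₁ * algebraMap R L X'
          / (algebraMap C L ϖ ^ a₂ * algebraMap R L Y')) ^ p * algebraMap C L ϖ ^ (p * a₂)
        = algebraMap C L ϖ ^ (p * a₁) * (algebraMap R L X' / algebraMap R L Y') ^ p := by
      calc (algebraMap C L ϖ ^ a₁ * algebraMap R L X'
              / (algebraMap C L ϖ ^ a₂ * algebraMap R L Y')) ^ p * algebraMap C L ϖ ^ (p * a₂)
          = (algebraMap C L ϖ ^ a₁ * algebraMap R L X'
              / (algebraMap C L ϖ ^ a₂ * algebraMap R L Y') * algebraMap C L ϖ ^ a₂) ^ p := by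
            rw [mul_pow, ← pow_mul, mul_comm a₂ p]
        _ = (algebraMap C L ϖ ^ a₁ * (algebraMap R L X' / algebraMap R L Y')) ^ p := by rw [h1]
        _ = algebraMap C L ϖ ^ (p * a₁) * (algebraMap R L X' / algebraMap R L Y') ^ p := by
            rw [mul_pow, ← pow_mul, mul_comm a₁ p]
    rw [hf]
    simp only [map_mul, map_pow, hPi]
    rw [mul_assoc, e, pow_add]
    ring
  simp only [map_mul, map_pow]
  calc x * (algebraMap C L b * algebraMap C L d ^ p * algebraMap C L ϖ ^ (p * a₂))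
      = (x * algebraMap C L ϖ ^ (p * a₂)) * algebraMap C L b * algebraMap C L d ^ p := by ring
    _ = algebraMap R L u * algebraMap C L ϖ ^ (k + p * a₁)
          * (algebraMap R L X' / algebraMap R L Y') ^ p
          * algebraMap C L b * algebraMap C L d ^ p := by rw [hx']
    _ = algebraMap C L a * algebraMap C L ϖ ^ (k + p * a₁) * algebraMap C L c ^ p := hcl _
    _ = algebraMap C L a * algebraMap C L c ^ p * algebraMap C L ϖ ^ (k + p * a₁) := by ring

end Generic

/-! ### The statements on `Localization.AtPrime y` -/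

section AtPrime

variable {C : Type*} [CommRing C] [IsDomain C] {L : Type*} [Field L] [Algebra C L]
  [IsFractionRing C L] (y : Ideal C) [y.IsPrime] [IsNoetherianRing (Localization.AtPrime y)]

local notation "aL" => algebraMap C (Localization.AtPrime y)

/-- **Node factorisation on the chart.**  Hypotheses on `C_y`: the output of
`NodeLoc.node_localization`. -/
theorem exists_node_factor {p : ℕ} (hp : p ≠ 0) {ϖ t₁ t₂ : C}
    (h₁ : Prime (aL t₁)) (h₂ : Prime (aL t₂)) (hne : ¬ Associated (aL t₁) (aL t₂))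
    (hm : maximalIdeal (Localization.AtPrime y) = Ideal.span {aL t₁, aL t₂})
    (hϖ : Associated (aL t₁ * aL t₂) (aL ϖ))
    {x : L} (hx : x ≠ 0)
    (hH : ∀ Q : Ideal C, Q.IsPrime → ϖ ∉ Q →
      ∃ (τ : L) (s b : C), τ ≠ 0 ∧ s ∉ Q ∧ b ∉ Q ∧
        x * algebraMap C L s = τ ^ p * algebraMap C L b) :
    ∃ (ip im jp jm : ℕ) (a b c d : C), a ∉ y ∧ b ∉ y ∧
      ¬ aL t₁ ∣ aL c ∧ ¬ aL t₂ ∣ aL c ∧ ¬ aL t₁ ∣ aL d ∧ ¬ aL t₂ ∣ aL d ∧
      x * algebraMap C L (b * d ^ p * t₁ ^ im * t₂ ^ jm)
        = algebraMap C L (a * c ^ p * t₁ ^ ip * t₂ ^ jp) := by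
  letI := locAlgebra L y
  haveI := locAlgebra_isScalarTower L y
  haveI := locAlgebra_isFractionRing L y
  haveI : IsDomain (Localization.AtPrime y) :=
    IsLocalization.isDomain_of_atPrime (Localization.AtPrime y) y
  exact exists_node_factor' y (R := Localization.AtPrime y) hp h₁ h₂ hne hm hϖ hx hH

/-- **Smooth-point factorisation on the chart.**  Hypotheses on `C_y`: the output of
`NodeLoc.smooth_localization`. -/
theorem exists_smooth_factor {p : ℕ} (hp : p ≠ 0) {ϖ : C} {θ : Localization.AtPrime y}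
    (h₁ : Prime (aL ϖ))
    (hm : maximalIdeal (Localization.AtPrime y) = Ideal.span {aL ϖ, θ})
    {x : L} (hx : x ≠ 0)
    (hH : ∀ Q : Ideal C, Q.IsPrime → ϖ ∉ Q →
      ∃ (τ : L) (s b : C), τ ≠ 0 ∧ s ∉ Q ∧ b ∉ Q ∧
        x * algebraMap C L s = τ ^ p * algebraMap C L b) :
    ∃ (ip im : ℕ) (a b c d : C), a ∉ y ∧ b ∉ y ∧ ¬ aL ϖ ∣ aL c ∧ ¬ aL ϖ ∣ aL d ∧
      x * algebraMap C L (b * d ^ p * ϖ ^ im) = algebraMap C L (a * c ^ p * ϖ ^ ip) := by
  letI := locAlgebra L y
  haveI := locAlgebra_isScalarTower L y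
  haveI := locAlgebra_isFractionRing L y
  haveI : IsDomain (Localization.AtPrime y) :=
    IsLocalization.isDomain_of_atPrime (Localization.AtPrime y) y
  exact exists_smooth_factor' y (R := Localization.AtPrime y) hp h₁ hm hx hH

end AtPrime

end Fermat.Agent.S44.L.Alt.NodeUnramCore
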