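import Mathlib
import Fermat.Agent.S44.L.Alt.NodeUnramCore
import Fermat.Agent.S34.TwoPrimesGauss

/-!
# S44 (Mazur–Ribet), strand L, ALT twin, split case: the node / smooth formula over the
UNRAMIFIED base, Gauss-reduction form

Level-free in the vocabulary of `S34/TwoPrimesGauss` (`section Chart`): `O` a discrete valuation
ring with uniformiser `ϖ`, `L` a function field, `σ : L → E((q))` a `q`-expansion embedding,
`C = Chart O u` a chart ring, `r = redHom σ … : C → κ((q))` the reduction attached to `σ`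
(`redInf` is `redHom` at `σ`, `redZero` is `redHom` at `σ ∘ w`, both by definition).

* `red_eq_of_factor` : if `σ x = ϖ ^ (n - k) v` with `v` a Gauss unit and
  `x * B * ϖ ^ m⁻ = A * ϖ ^ m⁺` with `A`, `B` chart elements with nonzero reduction, then
  `m⁺ - m⁻ = n - k` and `red v * r B = r A`.
* `node_unram` : at a node `y` of the chart (two expansions `σ₁`, `σ₂` with reductions `r₁`, `r₂`;
  `t₁ t₂ = ϖ g`, `g ∉ y`, `ker r₁ = (t₁)`, `ker r₂ = (t₂)`, `y = (t₁, t₂)` locally at `y`), for a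
  horizontal `x` with Gauss data `σ₁ x = ϖ ^ (n₁ - k₁) v₁`, `σ₂ x = ϖ ^ (n₂ - k₂) v₂`:
  `red v₁ * r₁ b * r₁ d ^ p = r₁ a * r₁ t₂ ^ ((n₂ - k₂) - (n₁ - k₁)) * r₁ c ^ p`, `a, b ∉ y`.
  The exponent is read from the two GLOBAL Gauss valuations of `x`: it is the same at every node.
* `smooth_unram` : at a smooth point `y` of the component of `σ` (`ker r = (ϖ)`, `y = (ϖ, z)`
  locally at `y`): `red v * r b * r d ^ p = r a * r c ^ p`, `a, b ∉ y`.
-/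

set_option autoImplicit false
set_option linter.unusedSectionVars false

noncomputable section

namespace Fermat.Agent.S44.L.Alt.NodeUnram

open IsLocalRing
open Fermat.Agent.S30 Fermat.Agent.S34 Fermat.Agent.S34.TwoPrimesGauss

/-! ### One expansion -/

section One

variable {O E : Type*} [CommRing O] [IsDomain O] [IsDiscreteValuationRing O] [Field E]
  [Algebra O E] [FaithfulSMul O E] {L : Type*} [Field L] [Algebra O L]
  (σ : L →+* LaurentSeries E)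
  (hσO : ∀ r : O, σ (algebraMap O L r) = HahnSeries.C (algebraMap O E r))
  (ϖ : O) (hϖ : Irreducible ϖ) (hσfrac : ∀ x : L, σ x ∈ GaussDVR.fracField O E)
  (u : L) (U : LaurentSeries O) (hσu : σ u = GaussDVR.iota O E U)

local notation "rr" => redHom σ hσO ϖ hϖ hσfrac u U hσu
local notation "cϖ" => ((GaussDVR.unif E ϖ : GaussDVR.V O E) : LaurentSeries E)

include hσO hϖ in
theorem sigma_piC : σ ((piC u ϖ : Chart O u) : L) = cϖ := by
  rw [coe_piC, hσO, GaussDVR.coe_unif]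

include hσO hϖ in
theorem piC_ne_zero : piC u ϖ ≠ 0 := by
  intro h
  have h1 := sigma_piC σ hσO ϖ hϖ u
  rw [h] at h1
  have h2 : σ ((0 : Chart O u) : L) = 0 := map_zero σ
  exact GaussDVR.coe_unif_ne_zero E ϖ hϖ (h1.symm.trans h2)

/-- **The Gauss valuation and the leading reduction of `x`, read off from a fraction.** -/
theorem red_eq_of_factor {x : L} {n k : ℕ} {v : GaussDVR.V O E}
    (hv : GaussDVR.red O E v ≠ 0)
    (hx : σ x * cϖ ^ k = cϖ ^ n * (v : LaurentSeries E))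
    {mp mm : ℕ} {A B : Chart O u} (hA : rr A ≠ 0) (hB : rr B ≠ 0)
    (h : x * ((B * piC u ϖ ^ mm : Chart O u) : L) = ((A * piC u ϖ ^ mp : Chart O u) : L)) :
    (mp : ℤ) - mm = (n : ℤ) - k ∧ GaussDVR.red O E v * rr B = rr A := by
  have hc0 : cϖ ≠ 0 := GaussDVR.coe_unif_ne_zero E ϖ hϖ
  have hσπ := sigma_piC σ hσO ϖ hϖ u
  have h' : σ x * (σ (B : L) * cϖ ^ mm) = σ (A : L) * cϖ ^ mp := by
    have h0 := congrArg σ h
    rw [map_mul] at h0
    have e1 : ((B * piC u ϖ ^ mm : Chart O u) : L) = (B : L) * ((piC u ϖ : Chart O u) : L) ^ mm :=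
      rfl
    have e2 : ((A * piC u ϖ ^ mp : Chart O u) : L) = (A : L) * ((piC u ϖ : Chart O u) : L) ^ mp :=
      rfl
    rw [e1, e2, map_mul, map_mul, map_pow, map_pow, hσπ] at h0
    exact h0
  set vA : GaussDVR.V O E := toV σ hσO ϖ hϖ hσfrac u U hσu A with hvA
  set vB : GaussDVR.V O E := toV σ hσO ϖ hϖ hσfrac u U hσu B with hvB
  have hrA : rr A = GaussDVR.red O E vA := rfl
  have hrB : rr B = GaussDVR.red O E vB := rfl
  have hcA : (vA : LaurentSeries E) = σ (A : L) := rfl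
  have hcB : (vB : LaurentSeries E) = σ (B : L) := rfl
  have key : cϖ ^ (n + mm) * ((v : LaurentSeries E) * σ (B : L))
      = cϖ ^ (mp + k) * σ (A : L) := by
    calc cϖ ^ (n + mm) * ((v : LaurentSeries E) * σ (B : L))
        = (cϖ ^ n * (v : LaurentSeries E)) * (σ (B : L) * cϖ ^ mm) := by rw [pow_add]; ring
      _ = (σ x * cϖ ^ k) * (σ (B : L) * cϖ ^ mm) := by rw [hx]
      _ = (σ x * (σ (B : L) * cϖ ^ mm)) * cϖ ^ k := by ring
      _ = σ (A : L) * cϖ ^ mp * cϖ ^ k := by rw [h']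
      _ = cϖ ^ (mp + k) * σ (A : L) := by rw [pow_add]; ring
  rcases lt_trichotomy (n + mm) (mp + k) with hlt | heq | hgt
  · exfalso
    obtain ⟨e, he⟩ := Nat.exists_eq_add_of_lt hlt
    have key2 : (v : LaurentSeries E) * σ (B : L) = cϖ ^ (e + 1) * σ (A : L) := by
      apply mul_left_cancel₀ (pow_ne_zero (n + mm) hc0)
      rw [key, he]
      ring
    have key3 : v * vB = GaussDVR.unif E ϖ ^ (e + 1) * vA := Subtype.ext key2
    have h4 := congrArg (GaussDVR.red O E) key3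
    rw [map_mul, map_mul, map_pow, GaussDVR.red_unif E ϖ hϖ, zero_pow (Nat.succ_ne_zero e),
      zero_mul] at h4
    exact mul_ne_zero hv hB h4
  · refine ⟨by omega, ?_⟩
    have key2 : (v : LaurentSeries E) * σ (B : L) = σ (A : L) := by
      apply mul_left_cancel₀ (pow_ne_zero (n + mm) hc0)
      rw [key, heq]
    have key3 : v * vB = vA := Subtype.ext key2
    have h4 := congrArg (GaussDVR.red O E) key3
    rw [map_mul] at h4
    exact h4
  · exfalso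
    obtain ⟨e, he⟩ := Nat.exists_eq_add_of_lt hgt
    have key2 : cϖ ^ (e + 1) * ((v : LaurentSeries E) * σ (B : L)) = σ (A : L) := by
      apply mul_left_cancel₀ (pow_ne_zero (mp + k) hc0)
      rw [← key, he]
      ring
    have key3 : GaussDVR.unif E ϖ ^ (e + 1) * (v * vB) = vA := Subtype.ext key2
    have h4 := congrArg (GaussDVR.red O E) key3
    rw [map_mul, map_pow, GaussDVR.red_unif E ϖ hϖ, zero_pow (Nat.succ_ne_zero e),
      zero_mul] at h4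
    exact hA h4.symm

/-- **The smooth-point formula over the unramified base.**  `y` a prime of the chart on the
component of `σ`, with `ker r = (ϖ)` and `y = (ϖ, z)` locally at `y` (the output of
`NodeC1.smooth_inf_of_unram`); `x` horizontal with Gauss datum `σ x = ϖ ^ (n - k) v`.  Then the
leading reduction of `x` is a unit at `y` times a `p`-th power. -/
theorem smooth_unram [IsFractionRing (Chart O u) L]
    (y : Ideal (Chart O u)) [y.IsPrime] [IsNoetherianRing (Localization.AtPrime y)]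
    (hI : RingHom.ker rr ≤ y)
    (hp₁ : piC u ϖ ∈ RingHom.ker rr ∧
      ∀ x ∈ RingHom.ker rr, ∃ s, s ∉ y ∧ s * x ∈ Ideal.span {piC u ϖ})
    (z : Chart O u) (hz : z ∈ y)
    (hm : ∀ m ∈ y, ∃ s, s ∉ y ∧ s * m ∈ Ideal.span {piC u ϖ, z})
    {p : ℕ} (hp : p ≠ 0) {x : L} (hx : x ≠ 0)
    (hH : ∀ Q : Ideal (Chart O u), Q.IsPrime → piC u ϖ ∉ Q →
      ∃ (τ : L) (s b : Chart O u), τ ≠ 0 ∧ s ∉ Q ∧ b ∉ Q ∧
        x * algebraMap (Chart O u) L s = τ ^ p * algebraMap (Chart O u) L b)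
    {n k : ℕ} {v : GaussDVR.V O E} (hv : GaussDVR.red O E v ≠ 0)
    (h : σ x * cϖ ^ k = cϖ ^ n * (v : LaurentSeries E)) :
    ∃ a b c d : Chart O u, a ∉ y ∧ b ∉ y ∧ rr c ≠ 0 ∧ rr d ≠ 0 ∧
      GaussDVR.red O E v * rr b * rr d ^ p = rr a * rr c ^ p := by
  classical
  haveI : (RingHom.ker rr).IsPrime := RingHom.ker_isPrime _
  have hπ0 : piC u ϖ ≠ 0 := piC_ne_zero σ hσO ϖ hϖ u
  obtain ⟨hprime, hmax⟩ := Fermat.Agent.S44.L.NodeLoc.smooth_localization y (RingHom.ker rr) hI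
    (piC u ϖ) hπ0 hp₁.1 hp₁.2 z hz hm
  obtain ⟨ip, im, a, b, c, d, ha, hb, hc, hd, hE⟩ :=
    Fermat.Agent.S44.L.Alt.NodeUnramCore.exists_smooth_factor y hp hprime hmax hx hH
  -- elements prime to `ϖ` at `y` have nonzero reduction
  have hk : ∀ w : Chart O u,
      ¬ algebraMap (Chart O u) (Localization.AtPrime y) (piC u ϖ) ∣
        algebraMap (Chart O u) (Localization.AtPrime y) w → rr w ≠ 0 := by
    intro w hw h0
    apply hw
    have h1 : algebraMap (Chart O u) (Localization.AtPrime y) w ∈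
        Ideal.span {algebraMap (Chart O u) (Localization.AtPrime y) (piC u ϖ)} := by
      rw [← Fermat.Agent.S44.L.NodeLoc.map_eq_span_singleton y (RingHom.ker rr) (piC u ϖ)
        hp₁.1 hp₁.2]
      exact Ideal.mem_map_of_mem _ (RingHom.mem_ker.mpr h0)
    exact Ideal.mem_span_singleton.mp h1
  have hyr : ∀ w : Chart O u, w ∉ y → rr w ≠ 0 := fun w hw h0 =>
    hw (hI (RingHom.mem_ker.mpr h0))
  have hA : rr (a * c ^ p) ≠ 0 := by
    rw [map_mul, map_pow]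
    exact mul_ne_zero (hyr a ha) (pow_ne_zero _ (hk c hc))
  have hB : rr (b * d ^ p) ≠ 0 := by
    rw [map_mul, map_pow]
    exact mul_ne_zero (hyr b hb) (pow_ne_zero _ (hk d hd))
  have hE' : x * ((b * d ^ p * piC u ϖ ^ im : Chart O u) : L)
      = ((a * c ^ p * piC u ϖ ^ ip : Chart O u) : L) := hE
  obtain ⟨-, hred⟩ := red_eq_of_factor σ hσO ϖ hϖ hσfrac u U hσu hv h hA hB hE'
  refine ⟨a, b, c, d, ha, hb, hk c hc, hk d hd, ?_⟩
  simp only [map_mul, map_pow] at hred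
  rw [mul_assoc]
  exact hred

end One

/-! ### Two expansions: the node -/

section Two

variable {O E : Type*} [CommRing O] [IsDomain O] [IsDiscreteValuationRing O] [Field E]
  [Algebra O E] [FaithfulSMul O E] {L : Type*} [Field L] [Algebra O L]
  (σ₁ σ₂ : L →+* LaurentSeries E)
  (hσ₁O : ∀ r : O, σ₁ (algebraMap O L r) = HahnSeries.C (algebraMap O E r))
  (hσ₂O : ∀ r : O, σ₂ (algebraMap O L r) = HahnSeries.C (algebraMap O E r))
  (ϖ : O) (hϖ : Irreducible ϖ)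
  (hσ₁frac : ∀ x : L, σ₁ x ∈ GaussDVR.fracField O E)
  (hσ₂frac : ∀ x : L, σ₂ x ∈ GaussDVR.fracField O E)
  (u : L) (U₁ U₂ : LaurentSeries O)
  (hσ₁u : σ₁ u = GaussDVR.iota O E U₁) (hσ₂u : σ₂ u = GaussDVR.iota O E U₂)

local notation "r₁" => redHom σ₁ hσ₁O ϖ hϖ hσ₁frac u U₁ hσ₁u
local notation "r₂" => redHom σ₂ hσ₂O ϖ hϖ hσ₂frac u U₂ hσ₂u
local notation "cϖ" => ((GaussDVR.unif E ϖ : GaussDVR.V O E) : LaurentSeries E)

/-- **The node formula over the unramified base, with the GLOBAL slope.**  `y` a prime of the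
chart on both components, with `t₁ * t₂ = ϖ * g`, `g ∉ y`, `ker r₁ = (t₁)`, `ker r₂ = (t₂)`,
`y = (t₁, t₂)` locally at `y` (the output of `NodeC1.node_of_unram_pole`); `x` horizontal with
Gauss data `σ₁ x = ϖ ^ (n₁ - k₁) v₁`, `σ₂ x = ϖ ^ (n₂ - k₂) v₂`.  Then the leading reduction of
`x` on the first component is a unit at `y` times `r₁ t₂ ^ ((n₂ - k₂) - (n₁ - k₁))` times a
`p`-th power. -/
theorem node_unram [IsFractionRing (Chart O u) L]
    (y : Ideal (Chart O u)) [y.IsPrime] [IsNoetherianRing (Localization.AtPrime y)]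
    (hI : RingHom.ker r₁ ≤ y) (hZ : RingHom.ker r₂ ≤ y)
    (t₁ t₂ g : Chart O u) (hg : g ∉ y) (hmul : t₁ * t₂ = piC u ϖ * g)
    (hp₁ : t₁ ∈ RingHom.ker r₁ ∧ ∀ x ∈ RingHom.ker r₁, ∃ s, s ∉ y ∧ s * x ∈ Ideal.span {t₁})
    (hp₂ : t₂ ∈ RingHom.ker r₂ ∧ ∀ x ∈ RingHom.ker r₂, ∃ s, s ∉ y ∧ s * x ∈ Ideal.span {t₂})
    (hne : t₁ ∉ RingHom.ker r₂)
    (hm : ∀ m ∈ y, ∃ s, s ∉ y ∧ s * m ∈ Ideal.span {t₁, t₂})
    {p : ℕ} (hp : p ≠ 0) {x : L} (hx : x ≠ 0)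
    (hH : ∀ Q : Ideal (Chart O u), Q.IsPrime → piC u ϖ ∉ Q →
      ∃ (τ : L) (s b : Chart O u), τ ≠ 0 ∧ s ∉ Q ∧ b ∉ Q ∧
        x * algebraMap (Chart O u) L s = τ ^ p * algebraMap (Chart O u) L b)
    {n₁ k₁ n₂ k₂ : ℕ} {v₁ v₂ : GaussDVR.V O E}
    (hv₁ : GaussDVR.red O E v₁ ≠ 0) (hv₂ : GaussDVR.red O E v₂ ≠ 0)
    (h₁ : σ₁ x * cϖ ^ k₁ = cϖ ^ n₁ * (v₁ : LaurentSeries E))
    (h₂ : σ₂ x * cϖ ^ k₂ = cϖ ^ n₂ * (v₂ : LaurentSeries E)) :
    ∃ a b c d : Chart O u, a ∉ y ∧ b ∉ y ∧ r₁ c ≠ 0 ∧ r₁ d ≠ 0 ∧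
      GaussDVR.red O E v₁ * r₁ b * r₁ d ^ p
        = r₁ a * r₁ t₂ ^ (((n₂ : ℤ) - k₂) - ((n₁ : ℤ) - k₁)) * r₁ c ^ p := by
  classical
  haveI : (RingHom.ker r₁).IsPrime := RingHom.ker_isPrime _
  haveI : (RingHom.ker r₂).IsPrime := RingHom.ker_isPrime _
  have hπ0 : piC u ϖ ≠ 0 := piC_ne_zero σ₁ hσ₁O ϖ hϖ u
  obtain ⟨hP1, hP2, hna, hmax, hass⟩ := Fermat.Agent.S44.L.NodeLoc.node_localization y
    (RingHom.ker r₁) (RingHom.ker r₂) hI hZ (piC u ϖ) t₁ t₂ g hπ0 hg hmul hp₁.1 hp₁.2 hp₂.1 hp₂.2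
    hne hm
  obtain ⟨ip, im, jp, jm, a, b, c, d, ha, hb, hc1, hc2, hd1, hd2, hE⟩ :=
    Fermat.Agent.S44.L.Alt.NodeUnramCore.exists_node_factor y hp hP1 hP2 hna hmax hass hx hH
  -- elements prime to `t₁` (resp. `t₂`) at `y` have nonzero reduction `r₁` (resp. `r₂`)
  have hk₁ : ∀ w : Chart O u,
      ¬ algebraMap (Chart O u) (Localization.AtPrime y) t₁ ∣
        algebraMap (Chart O u) (Localization.AtPrime y) w → r₁ w ≠ 0 := by
    intro w hw h0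
    apply hw
    have h1 : algebraMap (Chart O u) (Localization.AtPrime y) w ∈
        Ideal.span {algebraMap (Chart O u) (Localization.AtPrime y) t₁} := by
      rw [← Fermat.Agent.S44.L.NodeLoc.map_eq_span_singleton y (RingHom.ker r₁) t₁ hp₁.1 hp₁.2]
      exact Ideal.mem_map_of_mem _ (RingHom.mem_ker.mpr h0)
    exact Ideal.mem_span_singleton.mp h1
  have hk₂ : ∀ w : Chart O u,
      ¬ algebraMap (Chart O u) (Localization.AtPrime y) t₂ ∣
        algebraMap (Chart O u) (Localization.AtPrime y) w → r₂ w ≠ 0 := by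
    intro w hw h0
    apply hw
    have h1 : algebraMap (Chart O u) (Localization.AtPrime y) w ∈
        Ideal.span {algebraMap (Chart O u) (Localization.AtPrime y) t₂} := by
      rw [← Fermat.Agent.S44.L.NodeLoc.map_eq_span_singleton y (RingHom.ker r₂) t₂ hp₂.1 hp₂.2]
      exact Ideal.mem_map_of_mem _ (RingHom.mem_ker.mpr h0)
    exact Ideal.mem_span_singleton.mp h1
  have hy₁ : ∀ w : Chart O u, w ∉ y → r₁ w ≠ 0 := fun w hw h0 =>
    hw (hI (RingHom.mem_ker.mpr h0))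
  have hy₂ : ∀ w : Chart O u, w ∉ y → r₂ w ≠ 0 := fun w hw h0 =>
    hw (hZ (RingHom.mem_ker.mpr h0))
  have ht₂ : r₁ t₂ ≠ 0 := hk₁ t₂ (fun hd => hna (hP1.associated_of_dvd hP2 hd))
  have ht₁ : r₂ t₁ ≠ 0 := fun h0 => hne (RingHom.mem_ker.mpr h0)
  have hE' : x * ((b * d ^ p * t₁ ^ im * t₂ ^ jm : Chart O u) : L)
      = ((a * c ^ p * t₁ ^ ip * t₂ ^ jp : Chart O u) : L) := hE
  -- the first component: eliminate `t₁`
  have eB₁ : b * d ^ p * g ^ im * t₂ ^ (jm + ip) * piC u ϖ ^ im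
      = b * d ^ p * t₁ ^ im * t₂ ^ jm * t₂ ^ (ip + im) := by
    calc b * d ^ p * g ^ im * t₂ ^ (jm + ip) * piC u ϖ ^ im
        = b * d ^ p * t₂ ^ (jm + ip) * (piC u ϖ * g) ^ im := by ring
      _ = b * d ^ p * t₁ ^ im * t₂ ^ jm * t₂ ^ (ip + im) := by rw [← hmul]; ring
  have eA₁ : a * g ^ ip * t₂ ^ (jp + im) * c ^ p * piC u ϖ ^ ip
      = a * c ^ p * t₁ ^ ip * t₂ ^ jp * t₂ ^ (ip + im) := by
    calc a * g ^ ip * t₂ ^ (jp + im) * c ^ p * piC u ϖ ^ ip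
        = a * c ^ p * t₂ ^ (jp + im) * (piC u ϖ * g) ^ ip := by ring
      _ = a * c ^ p * t₁ ^ ip * t₂ ^ jp * t₂ ^ (ip + im) := by rw [← hmul]; ring
  have hE₁ : x * ((b * d ^ p * g ^ im * t₂ ^ (jm + ip) * piC u ϖ ^ im : Chart O u) : L)
      = ((a * g ^ ip * t₂ ^ (jp + im) * c ^ p * piC u ϖ ^ ip : Chart O u) : L) := by
    rw [eB₁, eA₁]
    have e1 : ((b * d ^ p * t₁ ^ im * t₂ ^ jm * t₂ ^ (ip + im) : Chart O u) : L)
        = ((b * d ^ p * t₁ ^ im * t₂ ^ jm : Chart O u) : L) * ((t₂ ^ (ip + im) : Chart O u) : L) :=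
      rfl
    have e2 : ((a * c ^ p * t₁ ^ ip * t₂ ^ jp * t₂ ^ (ip + im) : Chart O u) : L)
        = ((a * c ^ p * t₁ ^ ip * t₂ ^ jp : Chart O u) : L) * ((t₂ ^ (ip + im) : Chart O u) : L) :=
      rfl
    rw [e1, e2, ← mul_assoc, hE']
  have hA₁ : r₁ (a * g ^ ip * t₂ ^ (jp + im) * c ^ p) ≠ 0 := by
    simp only [map_mul, map_pow]
    exact mul_ne_zero (mul_ne_zero (mul_ne_zero (hy₁ a ha) (pow_ne_zero _ (hy₁ g hg)))
      (pow_ne_zero _ ht₂)) (pow_ne_zero _ (hk₁ c hc1))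
  have hB₁ : r₁ (b * d ^ p * g ^ im * t₂ ^ (jm + ip)) ≠ 0 := by
    simp only [map_mul, map_pow]
    exact mul_ne_zero (mul_ne_zero (mul_ne_zero (hy₁ b hb) (pow_ne_zero _ (hk₁ d hd1)))
      (pow_ne_zero _ (hy₁ g hg))) (pow_ne_zero _ ht₂)
  obtain ⟨hi, hred⟩ := red_eq_of_factor σ₁ hσ₁O ϖ hϖ hσ₁frac u U₁ hσ₁u hv₁ h₁ hA₁ hB₁ hE₁
  -- the second component: eliminate `t₂`
  have eB₂ : b * d ^ p * g ^ jm * t₁ ^ (im + jp) * piC u ϖ ^ jm
      = b * d ^ p * t₁ ^ im * t₂ ^ jm * t₁ ^ (jp + jm) := by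
    calc b * d ^ p * g ^ jm * t₁ ^ (im + jp) * piC u ϖ ^ jm
        = b * d ^ p * t₁ ^ (im + jp) * (piC u ϖ * g) ^ jm := by ring
      _ = b * d ^ p * t₁ ^ im * t₂ ^ jm * t₁ ^ (jp + jm) := by rw [← hmul]; ring
  have eA₂ : a * g ^ jp * t₁ ^ (ip + jm) * c ^ p * piC u ϖ ^ jp
      = a * c ^ p * t₁ ^ ip * t₂ ^ jp * t₁ ^ (jp + jm) := by
    calc a * g ^ jp * t₁ ^ (ip + jm) * c ^ p * piC u ϖ ^ jp
        = a * c ^ p * t₁ ^ (ip + jm) * (piC u ϖ * g) ^ jp := by ring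
      _ = a * c ^ p * t₁ ^ ip * t₂ ^ jp * t₁ ^ (jp + jm) := by rw [← hmul]; ring
  have hE₂ : x * ((b * d ^ p * g ^ jm * t₁ ^ (im + jp) * piC u ϖ ^ jm : Chart O u) : L)
      = ((a * g ^ jp * t₁ ^ (ip + jm) * c ^ p * piC u ϖ ^ jp : Chart O u) : L) := by
    rw [eB₂, eA₂]
    have e1 : ((b * d ^ p * t₁ ^ im * t₂ ^ jm * t₁ ^ (jp + jm) : Chart O u) : L)
        = ((b * d ^ p * t₁ ^ im * t₂ ^ jm : Chart O u) : L) * ((t₁ ^ (jp + jm) : Chart O u) : L) :=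
      rfl
    have e2 : ((a * c ^ p * t₁ ^ ip * t₂ ^ jp * t₁ ^ (jp + jm) : Chart O u) : L)
        = ((a * c ^ p * t₁ ^ ip * t₂ ^ jp : Chart O u) : L) * ((t₁ ^ (jp + jm) : Chart O u) : L) :=
      rfl
    rw [e1, e2, ← mul_assoc, hE']
  have hA₂ : r₂ (a * g ^ jp * t₁ ^ (ip + jm) * c ^ p) ≠ 0 := by
    simp only [map_mul, map_pow]
    exact mul_ne_zero (mul_ne_zero (mul_ne_zero (hy₂ a ha) (pow_ne_zero _ (hy₂ g hg)))
      (pow_ne_zero _ ht₁)) (pow_ne_zero _ (hk₂ c hc2))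
  have hB₂ : r₂ (b * d ^ p * g ^ jm * t₁ ^ (im + jp)) ≠ 0 := by
    simp only [map_mul, map_pow]
    exact mul_ne_zero (mul_ne_zero (mul_ne_zero (hy₂ b hb) (pow_ne_zero _ (hk₂ d hd2)))
      (pow_ne_zero _ (hy₂ g hg))) (pow_ne_zero _ ht₁)
  obtain ⟨hj, -⟩ := red_eq_of_factor σ₂ hσ₂O ϖ hϖ hσ₂frac u U₂ hσ₂u hv₂ h₂ hA₂ hB₂ hE₂
  -- conclusion
  have hyp : ∀ (w : Chart O u) (e : ℕ), w ∉ y → w * g ^ e ∉ y := fun w e hw hmem =>
    (Ideal.IsPrime.mem_or_mem ‹y.IsPrime› hmem).elim hw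
      (fun h' => hg (Ideal.IsPrime.mem_of_pow_mem ‹y.IsPrime› e h'))
  refine ⟨a * g ^ ip, b * g ^ im, c, d, hyp a ip ha, hyp b im hb, hk₁ c hc1, hk₁ d hd1, ?_⟩
  have hδ : r₁ t₂ ^ (((n₂ : ℤ) - k₂) - ((n₁ : ℤ) - k₁)) * r₁ t₂ ^ (jm + ip)
      = r₁ t₂ ^ (jp + im) := by
    rw [← hj, ← hi, ← zpow_natCast (r₁ t₂) (jm + ip), ← zpow_natCast (r₁ t₂) (jp + im),
      ← zpow_add₀ ht₂]
    congr 1
    push_cast
    ring
  simp only [map_mul, map_pow] at hred ⊢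
  apply mul_right_cancel₀ (pow_ne_zero (jm + ip) ht₂)
  linear_combination hred - (r₁ a * r₁ g ^ ip * r₁ c ^ p) * hδ

end Two

end Fermat.Agent.S44.L.Alt.NodeUnram
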