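import Mathlib
import Fermat.Agent.S44.L.RhoGauss
import Fermat.Agent.S44.L.Alt.RedPow

/-!
# PROGRAM MR (S44), strand L, cover-free ALT route for (L.SLOPE): from the `IsRho` form of the
# pointwise exits of NODE-ALT / SMOOTH-ALT to their `dV / red` form (level-free)

`O` a discrete valuation ring with uniformiser `ϖ` and first-order derivation `D` (`h`), `E` a
field over `O`, `V = GaussDVR.V O E`, `𝔲 = C ϖ`.  `C` any commutative ring (a chart ring), `y` an
ideal of `C`, `g, g₂ : C → κ((q))` any maps (the chart reductions pushed to `κ((q))`).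

The exits of `Alt/NodeAltInst` are stated with `RhoGauss.IsRho h X ρ` (`X * 𝔲 ^ k = 𝔲 ^ i * w`,
`ρ * red w = dV w`); the transports of `Alt/RhoTransport` and the row `Alt/BricksE.XForms` use the
normal form `X = 𝔲 ^ N * v` with `dV v * g s = red v * g c`.  This file passes from the first to
the second (helper61):

* `exists_of_isRho`, `dV_of_isRho` : `IsRho h X ρ` at a normal form `X = 𝔲 ^ N * v`;
* `node_of_isRho` : the node exit (N a), (N b), (N c);
* `smooth_of_isRho` : the smooth exit (S a), (S b).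
-/

set_option autoImplicit false
set_option linter.unusedSectionVars false
set_option linter.unusedVariables false

open ModularCurve

noncomputable section

namespace Fermat.Agent.S44.L.Alt.RhoExit

open Fermat.Agent.S30 Fermat.Agent.S44.L.FirstOrder

variable {O E : Type*} [CommRing O] [IsDomain O] [IsDiscreteValuationRing O] [Field E]
  [Algebra O E] [FaithfulSMul O E] {ϖ : O} {D : O → IsLocalRing.ResidueField O}
  (h : IsFirstOrder (IsLocalRing.residue O) ϖ D) (hϖ : Irreducible ϖ)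

include hϖ in
/-- `IsRho h X ρ` gives a normal form `X = 𝔲 ^ N * v` with `ρ * red v = dV v`. -/
theorem exists_of_isRho {X : LaurentSeries E} {ρ : LaurentSeries (IsLocalRing.ResidueField O)}
    (hρ : Fermat.Agent.S44.L.RhoGauss.IsRho h X ρ) :
    ∃ (v : GaussDVR.V O E) (N : ℤ), GaussDVR.red O E v ≠ 0 ∧
      X = ((GaussDVR.unif E ϖ : GaussDVR.V O E) : LaurentSeries E) ^ N * (v : LaurentSeries E) ∧
      ρ * GaussDVR.red O E v = dV O E h v := by
  obtain ⟨i, k, y, hy, hxy, hρy⟩ := hρ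
  have hu : ((GaussDVR.unif E ϖ : GaussDVR.V O E) : LaurentSeries E) ≠ 0 :=
    GaussDVR.coe_unif_ne_zero E ϖ hϖ
  refine ⟨y, (i : ℤ) - k, hy, ?_, hρy⟩
  rw [eq_comm, zpow_sub₀ hu, zpow_natCast, zpow_natCast, div_mul_eq_mul_div,
    div_eq_iff (pow_ne_zero k hu)]
  exact hxy.symm

include hϖ in
/-- `IsRho h X ρ` read at ANY normal form `X = 𝔲 ^ N * v` of `X`. -/
theorem dV_of_isRho {X : LaurentSeries E} {ρ : LaurentSeries (IsLocalRing.ResidueField O)}
    (hρ : Fermat.Agent.S44.L.RhoGauss.IsRho h X ρ) (v : GaussDVR.V O E) (N : ℤ)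
    (hv : GaussDVR.red O E v ≠ 0)
    (hX : X = ((GaussDVR.unif E ϖ : GaussDVR.V O E) : LaurentSeries E) ^ N
      * (v : LaurentSeries E)) :
    ρ * GaussDVR.red O E v = dV O E h v := by
  obtain ⟨v', N', hv', hX', hρ'⟩ := exists_of_isRho h hϖ hρ
  have hvv : v = v' := (RedPow.zpow_mul_inj E ϖ hϖ hv hv' (hX.symm.trans hX')).2
  rw [hvv]
  exact hρ'

/-- `ρ r = d`, `ρ S = T` ⟹ `d S = r T`. -/
theorem mul_eq_of_rho {R : Type*} [CommRing R] {ρ r d S T : R} (h1 : ρ * r = d)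
    (h2 : ρ * S = T) : d * S = r * T := by
  rw [← h1, ← h2]
  ring

section Chart

variable {C : Type*} [CommRing C]
  (g g₂ : C → LaurentSeries (IsLocalRing.ResidueField O))
  (X X' : LaurentSeries E) (p : ℕ) (y : Ideal C)

include hϖ in
/-- **The node exit**, from the `IsRho` form to the `dV / red` form. -/
theorem node_of_isRho (t : C) (e₁ : IsLocalRing.ResidueField O)
    (hex : ∃ (j : ℤ) (a b c s : C) (ρ₁ ρ₂ : LaurentSeries (IsLocalRing.ResidueField O)),
      a ∉ y ∧ b ∉ y ∧ s ∉ y ∧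
      Fermat.Agent.S44.L.RhoGauss.IsRho h X ρ₁ ∧
      ρ₁ * g s = g c ∧
      Fermat.Agent.S44.L.RhoGauss.IsRho h X' ρ₂ ∧
      ρ₂ * g₂ s = g₂ c + j • (HahnSeries.C e₁ * g₂ s) ∧
      ∃ (v : GaussDVR.V O E) (N : ℤ) (hh : LaurentSeries (IsLocalRing.ResidueField O)),
        GaussDVR.red O E v ≠ 0 ∧
        X = ((GaussDVR.unif E ϖ : GaussDVR.V O E) : LaurentSeries E) ^ N
          * (v : LaurentSeries E) ∧
        GaussDVR.red O E v * g b = g a * g t ^ j * hh ^ p) :
    ∃ (j : ℤ) (a b c s : C), a ∉ y ∧ b ∉ y ∧ s ∉ y ∧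
      (∃ (v : GaussDVR.V O E) (N : ℤ) (hh : LaurentSeries (IsLocalRing.ResidueField O)),
        GaussDVR.red O E v ≠ 0 ∧
        X = ((GaussDVR.unif E ϖ : GaussDVR.V O E) : LaurentSeries E) ^ N
          * (v : LaurentSeries E) ∧
        dV O E h v * g s = GaussDVR.red O E v * g c ∧
        GaussDVR.red O E v * g b = g a * g t ^ j * hh ^ p) ∧
      (∃ (v' : GaussDVR.V O E) (N' : ℤ),
        GaussDVR.red O E v' ≠ 0 ∧
        X' = ((GaussDVR.unif E ϖ : GaussDVR.V O E) : LaurentSeries E) ^ N'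
          * (v' : LaurentSeries E) ∧
        dV O E h v' * g₂ s = GaussDVR.red O E v' * (g₂ c + j • (HahnSeries.C e₁ * g₂ s))) := by
  obtain ⟨j, a, b, c, s, ρ₁, ρ₂, ha, hb, hs, hρ₁, e1, hρ₂, e3, v, N, hh, hv, hσ, e2⟩ := hex
  obtain ⟨v', N', hv', hσ', hρv'⟩ := exists_of_isRho h hϖ hρ₂
  exact ⟨j, a, b, c, s, ha, hb, hs,
    ⟨v, N, hh, hv, hσ, mul_eq_of_rho (dV_of_isRho h hϖ hρ₁ v N hv hσ) e1, e2⟩,
    ⟨v', N', hv', hσ', mul_eq_of_rho hρv' e3⟩⟩

include hϖ in
/-- **The smooth exit**, from the `IsRho` form to the `dV / red` form. -/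
theorem smooth_of_isRho
    (hex : ∃ (a b c s : C) (ρ₁ : LaurentSeries (IsLocalRing.ResidueField O)),
      a ∉ y ∧ b ∉ y ∧ s ∉ y ∧
      Fermat.Agent.S44.L.RhoGauss.IsRho h X ρ₁ ∧
      ρ₁ * g s = g c ∧
      ∃ (v : GaussDVR.V O E) (N : ℤ) (hh : LaurentSeries (IsLocalRing.ResidueField O)),
        GaussDVR.red O E v ≠ 0 ∧
        X = ((GaussDVR.unif E ϖ : GaussDVR.V O E) : LaurentSeries E) ^ N
          * (v : LaurentSeries E) ∧
        GaussDVR.red O E v * g b = g a * hh ^ p) :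
    ∃ (a b c s : C), a ∉ y ∧ b ∉ y ∧ s ∉ y ∧
      ∃ (v : GaussDVR.V O E) (N : ℤ) (hh : LaurentSeries (IsLocalRing.ResidueField O)),
        GaussDVR.red O E v ≠ 0 ∧
        X = ((GaussDVR.unif E ϖ : GaussDVR.V O E) : LaurentSeries E) ^ N
          * (v : LaurentSeries E) ∧
        dV O E h v * g s = GaussDVR.red O E v * g c ∧
        GaussDVR.red O E v * g b = g a * hh ^ p := by
  obtain ⟨a, b, c, s, ρ₁, ha, hb, hs, hρ₁, e1, v, N, hh, hv, hσ, e2⟩ := hex
  exact ⟨a, b, c, s, ha, hb, hs, v, N, hh, hv, hσ,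
    mul_eq_of_rho (dV_of_isRho h hϖ hρ₁ v N hv hσ) e1, e2⟩

end Chart

end Fermat.Agent.S44.L.Alt.RhoExit
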