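import Mathlib
import Fermat.Agent.S44.L.Alt.KSeam
import Fermat.Agent.S44.L.Alt.RedPow

/-!
# PROGRAM MR (S44), strand L, cover-free ALT route for (L.SLOPE) (helper67):
# globalisation and `kmap`-transport of the pointwise exits of NODE-ALT / SMOOTH-ALT

`A` a valuation subring of `ℚ̄`, `K ≤ Ks` (`h`) number fields with `OE A K`, `OE A Ks` discrete
valuation rings, `ϖs` a uniformiser of `OE A Ks`, `hD` a first-order derivation of `OE A Ks`;
`r : C → redField M A` a chart reduction with `(r c : κ_A((q))) = kmap A K (rK c)`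
(`CentreChart.coe_rInf`, `CentreChartZero.coe_rZero`).

A nonzero `X ∈ Ks((q))` of the Gauss fraction field has ONE decomposition `X = 𝔲 ^ N₀ * v₀`
(`RedPow.exists_zpow_mul`, `RedPow.zpow_mul_inj`); put `F := kmap A Ks (red v₀)`,
`G := kmap A Ks (dV v₀)`.  The exits of `Alt/NodeAltU4`, `Alt/NodeAltS4` (and of their `OE`
instances) at a closed point `y` carry their own decomposition `X = 𝔲 ^ N * v`; the lemmas below
identify it with the global one and push the identities to `κ_A((q))`, in the shapes of the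
hypotheses of `Alt/RhoSeries.rhoForms_of_series`:

* `smooth_transport` : the exit of `smooth_alt_*` ⟹ `G * r s = F * r c` and
  `F * r b = r a * H ^ p`  (`hsmooth`, `hinf`);
* `reg_of_smooth` : the same exit ⟹ `∃ c s, s ∉ y ∧ G * r s = F * r c`  (`hregw`, `hinfw`);
* `node_transport` : the exit of `node_alt_*` ⟹ `G * r s = F * r c`,
  `F * r b = r a * r t ^ j * H ^ p`, `G' * r₂ s = F' * (r₂ c + j • (e₁' * r₂ s))`  (`hnode`);
* `reg_of_node` : the first block of the node exit ⟹ `∃ c s, s ∉ y ∧ G * r s = F * r c`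
  (`hregw` at a node, for `X := σs (ws x)`);
* `kmap_red_ne_zero` : `F ≠ 0`.
-/

set_option autoImplicit false
set_option linter.unusedSectionVars false
set_option linter.unusedVariables false
set_option linter.style.haveILetI false

open ModularCurve

noncomputable section

namespace Fermat.Agent.S44.L.Alt.RhoTransport

open Fermat.Agent.S18.K1Defs Fermat.Agent.S18.K1Top Fermat.Agent.S18.Wiring Fermat.Agent.S30
open Fermat.Agent.S44.Contract Fermat.Agent.S44.L.RedTransfer Fermat.Agent.S44.L.CentreChart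
open Fermat.Agent.S44.L.Alt.NodeAltCore Fermat.Agent.S44.L.FirstOrder Fermat.Agent.S36

local notation "Qb" => AlgebraicClosure ℚ

variable (A : ValuationSubring Qb) {K Ks : IntermediateField ℚ Qb} (h : K ≤ Ks)
  [IsDiscreteValuationRing (OE A K)] [IsDiscreteValuationRing (OE A Ks)]
  (ϖs : OE A Ks) (hϖs : Irreducible ϖs)
  {D : OE A Ks → IsLocalRing.ResidueField (OE A Ks)}
  (hD : IsFirstOrder (IsLocalRing.residue (OE A Ks)) ϖs D)
  (M : ℕ) [NeZero M]

/-- The reduction of a Gauss unit stays nonzero in `κ_A((q))`. -/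
theorem kmap_red_ne_zero (E : IntermediateField ℚ Qb) [IsDiscreteValuationRing (OE A E)]
    (v : GaussDVR.V (OE A E) E) (hv : GaussDVR.red (OE A E) E v ≠ 0) :
    kmap A E (GaussDVR.red (OE A E) E v) ≠ 0 :=
  fun h0 => hv (kmap_injective A E (by rw [h0, map_zero]))

section Chart

variable {C : Type*} [CommRing C] (r : C →+* redField M A)
  (rK : C → LaurentSeries (IsLocalRing.ResidueField (OE A K)))
  (hr : ∀ c : C, ((r c : redField M A) : LaurentSeries (IsLocalRing.ResidueField A))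
    = kmap A K (rK c))
  (X : LaurentSeries Ks) (v₀ : GaussDVR.V (OE A Ks) Ks) (N₀ : ℤ)
  (hv₀ : GaussDVR.red (OE A Ks) Ks v₀ ≠ 0)
  (hX : X = ((GaussDVR.unif Ks ϖs : GaussDVR.V (OE A Ks) Ks) : LaurentSeries Ks) ^ N₀
    * (v₀ : LaurentSeries Ks))

include hϖs hr hv₀ hX in
/-- **SMOOTH transport**: the exit of `smooth_alt_*` at `y`, read at the global decomposition
and pushed to `κ_A((q))`. -/
theorem smooth_transport (p : ℕ) (y : Ideal C)
    (hex : ∃ (a b c s : C), a ∉ y ∧ b ∉ y ∧ s ∉ y ∧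
      ∃ (v : GaussDVR.V (OE A Ks) Ks) (N : ℤ)
        (hh : LaurentSeries (IsLocalRing.ResidueField (OE A Ks))),
        GaussDVR.red (OE A Ks) Ks v ≠ 0 ∧
        X = ((GaussDVR.unif Ks ϖs : GaussDVR.V (OE A Ks) Ks) : LaurentSeries Ks) ^ N
          * (v : LaurentSeries Ks) ∧
        dV (OE A Ks) Ks hD v * resL (CycloBase.inclOE A h) (rK s)
          = GaussDVR.red (OE A Ks) Ks v * resL (CycloBase.inclOE A h) (rK c) ∧
        GaussDVR.red (OE A Ks) Ks v * resL (CycloBase.inclOE A h) (rK b)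
          = resL (CycloBase.inclOE A h) (rK a) * hh ^ p) :
    ∃ (a b c s : C) (H : LaurentSeries (IsLocalRing.ResidueField A)), a ∉ y ∧ b ∉ y ∧ s ∉ y ∧
      kmap A Ks (dV (OE A Ks) Ks hD v₀)
          * ((r s : redField M A) : LaurentSeries (IsLocalRing.ResidueField A))
        = kmap A Ks (GaussDVR.red (OE A Ks) Ks v₀)
          * ((r c : redField M A) : LaurentSeries (IsLocalRing.ResidueField A)) ∧
      kmap A Ks (GaussDVR.red (OE A Ks) Ks v₀)
          * ((r b : redField M A) : LaurentSeries (IsLocalRing.ResidueField A))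
        = ((r a : redField M A) : LaurentSeries (IsLocalRing.ResidueField A)) * H ^ p := by
  obtain ⟨a, b, c, s, ha, hb, hs, v, N, hh, hv, hXv, h1, h2⟩ := hex
  obtain ⟨-, rfl⟩ := RedPow.zpow_mul_inj Ks ϖs hϖs hv hv₀ (hXv.symm.trans hX)
  refine ⟨a, b, c, s, kmap A Ks hh, ha, hb, hs, ?_, ?_⟩
  · rw [hr, hr, ← KSeam.kmap_resL A h, ← KSeam.kmap_resL A h, ← map_mul, ← map_mul, h1]
  · rw [hr, hr, ← KSeam.kmap_resL A h, ← KSeam.kmap_resL A h, ← map_pow, ← map_mul, ← map_mul,
      h2]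

include hϖs hr hv₀ hX in
/-- **(REG) from a smooth exit.** -/
theorem reg_of_smooth (p : ℕ) (y : Ideal C)
    (hex : ∃ (a b c s : C), a ∉ y ∧ b ∉ y ∧ s ∉ y ∧
      ∃ (v : GaussDVR.V (OE A Ks) Ks) (N : ℤ)
        (hh : LaurentSeries (IsLocalRing.ResidueField (OE A Ks))),
        GaussDVR.red (OE A Ks) Ks v ≠ 0 ∧
        X = ((GaussDVR.unif Ks ϖs : GaussDVR.V (OE A Ks) Ks) : LaurentSeries Ks) ^ N
          * (v : LaurentSeries Ks) ∧
        dV (OE A Ks) Ks hD v * resL (CycloBase.inclOE A h) (rK s)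
          = GaussDVR.red (OE A Ks) Ks v * resL (CycloBase.inclOE A h) (rK c) ∧
        GaussDVR.red (OE A Ks) Ks v * resL (CycloBase.inclOE A h) (rK b)
          = resL (CycloBase.inclOE A h) (rK a) * hh ^ p) :
    ∃ c s : C, s ∉ y ∧
      kmap A Ks (dV (OE A Ks) Ks hD v₀)
          * ((r s : redField M A) : LaurentSeries (IsLocalRing.ResidueField A))
        = kmap A Ks (GaussDVR.red (OE A Ks) Ks v₀)
          * ((r c : redField M A) : LaurentSeries (IsLocalRing.ResidueField A)) := by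
  obtain ⟨a, b, c, s, H, -, -, hs, h1, -⟩ :=
    smooth_transport A h ϖs hϖs hD M r rK hr X v₀ N₀ hv₀ hX p y hex
  exact ⟨c, s, hs, h1⟩

include hϖs hr hv₀ hX in
/-- **(REG) from the first block of a node exit** (the second block is not used: apply it to
`X := σs (ws x)` with any statement `Q` in its place). -/
theorem reg_of_node (p : ℕ) (y : Ideal C) (t : C) (Q : ℤ → C → C → Prop)
    (hex : ∃ (j : ℤ) (a b c s : C), a ∉ y ∧ b ∉ y ∧ s ∉ y ∧
      (∃ (v : GaussDVR.V (OE A Ks) Ks) (N : ℤ)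
        (hh : LaurentSeries (IsLocalRing.ResidueField (OE A Ks))),
        GaussDVR.red (OE A Ks) Ks v ≠ 0 ∧
        X = ((GaussDVR.unif Ks ϖs : GaussDVR.V (OE A Ks) Ks) : LaurentSeries Ks) ^ N
          * (v : LaurentSeries Ks) ∧
        dV (OE A Ks) Ks hD v * resL (CycloBase.inclOE A h) (rK s)
          = GaussDVR.red (OE A Ks) Ks v * resL (CycloBase.inclOE A h) (rK c) ∧
        GaussDVR.red (OE A Ks) Ks v * resL (CycloBase.inclOE A h) (rK b)
          = resL (CycloBase.inclOE A h) (rK a) * resL (CycloBase.inclOE A h) (rK t) ^ j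
            * hh ^ p) ∧ Q j c s) :
    ∃ c s : C, s ∉ y ∧
      kmap A Ks (dV (OE A Ks) Ks hD v₀)
          * ((r s : redField M A) : LaurentSeries (IsLocalRing.ResidueField A))
        = kmap A Ks (GaussDVR.red (OE A Ks) Ks v₀)
          * ((r c : redField M A) : LaurentSeries (IsLocalRing.ResidueField A)) := by
  obtain ⟨j, a, b, c, s, ha, hb, hs, ⟨v, N, hh, hv, hXv, h1, h2⟩, -⟩ := hex
  obtain ⟨-, rfl⟩ := RedPow.zpow_mul_inj Ks ϖs hϖs hv hv₀ (hXv.symm.trans hX)
  refine ⟨c, s, hs, ?_⟩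
  rw [hr, hr, ← KSeam.kmap_resL A h, ← KSeam.kmap_resL A h, ← map_mul, ← map_mul, h1]

variable (r₂ : C →+* redField M A)
  (rK₂ : C → LaurentSeries (IsLocalRing.ResidueField (OE A K)))
  (hr₂ : ∀ c : C, ((r₂ c : redField M A) : LaurentSeries (IsLocalRing.ResidueField A))
    = kmap A K (rK₂ c))
  (X' : LaurentSeries Ks) (v₀' : GaussDVR.V (OE A Ks) Ks) (N₀' : ℤ)
  (hv₀' : GaussDVR.red (OE A Ks) Ks v₀' ≠ 0)
  (hX' : X' = ((GaussDVR.unif Ks ϖs : GaussDVR.V (OE A Ks) Ks) : LaurentSeries Ks) ^ N₀'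
    * (v₀' : LaurentSeries Ks))

include hϖs hr hv₀ hX hr₂ hv₀' hX' in
/-- **NODE transport**: the exit of `node_alt_*` at `y` (`X = σs x`, `X' = σs (ws x)`), read at
the two global decompositions and pushed to `κ_A((q))`; `e₁'` is the element of the reduced
function field with series `kmap A Ks (C e₁)` (`KSeam.exists_mem_constSub_of_hres`). -/
theorem node_transport (p : ℕ) (y : Ideal C) (t : C)
    (e₁ : IsLocalRing.ResidueField (OE A Ks)) (e₁' : redField M A)
    (he₁ : ((e₁' : redField M A) : LaurentSeries (IsLocalRing.ResidueField A))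
      = kmap A Ks (HahnSeries.C e₁))
    (hex : ∃ (j : ℤ) (a b c s : C), a ∉ y ∧ b ∉ y ∧ s ∉ y ∧
      (∃ (v : GaussDVR.V (OE A Ks) Ks) (N : ℤ)
        (hh : LaurentSeries (IsLocalRing.ResidueField (OE A Ks))),
        GaussDVR.red (OE A Ks) Ks v ≠ 0 ∧
        X = ((GaussDVR.unif Ks ϖs : GaussDVR.V (OE A Ks) Ks) : LaurentSeries Ks) ^ N
          * (v : LaurentSeries Ks) ∧
        dV (OE A Ks) Ks hD v * resL (CycloBase.inclOE A h) (rK s)
          = GaussDVR.red (OE A Ks) Ks v * resL (CycloBase.inclOE A h) (rK c) ∧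
        GaussDVR.red (OE A Ks) Ks v * resL (CycloBase.inclOE A h) (rK b)
          = resL (CycloBase.inclOE A h) (rK a) * resL (CycloBase.inclOE A h) (rK t) ^ j
            * hh ^ p) ∧
      (∃ (v' : GaussDVR.V (OE A Ks) Ks) (N' : ℤ),
        GaussDVR.red (OE A Ks) Ks v' ≠ 0 ∧
        X' = ((GaussDVR.unif Ks ϖs : GaussDVR.V (OE A Ks) Ks) : LaurentSeries Ks) ^ N'
          * (v' : LaurentSeries Ks) ∧
        dV (OE A Ks) Ks hD v' * resL (CycloBase.inclOE A h) (rK₂ s)
          = GaussDVR.red (OE A Ks) Ks v' * (resL (CycloBase.inclOE A h) (rK₂ c)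
            + j • (HahnSeries.C e₁ * resL (CycloBase.inclOE A h) (rK₂ s))))) :
    ∃ (j : ℤ) (a b c s : C) (H : LaurentSeries (IsLocalRing.ResidueField A)),
      a ∉ y ∧ b ∉ y ∧ s ∉ y ∧
      kmap A Ks (dV (OE A Ks) Ks hD v₀)
          * ((r s : redField M A) : LaurentSeries (IsLocalRing.ResidueField A))
        = kmap A Ks (GaussDVR.red (OE A Ks) Ks v₀)
          * ((r c : redField M A) : LaurentSeries (IsLocalRing.ResidueField A)) ∧
      kmap A Ks (GaussDVR.red (OE A Ks) Ks v₀)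
          * ((r b : redField M A) : LaurentSeries (IsLocalRing.ResidueField A))
        = ((r a : redField M A) : LaurentSeries (IsLocalRing.ResidueField A))
          * ((r t : redField M A) : LaurentSeries (IsLocalRing.ResidueField A)) ^ j * H ^ p ∧
      kmap A Ks (dV (OE A Ks) Ks hD v₀')
          * ((r₂ s : redField M A) : LaurentSeries (IsLocalRing.ResidueField A))
        = kmap A Ks (GaussDVR.red (OE A Ks) Ks v₀')
          * (((r₂ c : redField M A) : LaurentSeries (IsLocalRing.ResidueField A))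
            + j • (((e₁' : redField M A) : LaurentSeries (IsLocalRing.ResidueField A))
              * ((r₂ s : redField M A) : LaurentSeries (IsLocalRing.ResidueField A)))) := by
  obtain ⟨j, a, b, c, s, ha, hb, hs, ⟨v, N, hh, hv, hXv, h1, h2⟩, ⟨v', N', hv', hXv', h3⟩⟩ := hex
  obtain ⟨-, rfl⟩ := RedPow.zpow_mul_inj Ks ϖs hϖs hv hv₀ (hXv.symm.trans hX)
  obtain ⟨-, rfl⟩ := RedPow.zpow_mul_inj Ks ϖs hϖs hv' hv₀' (hXv'.symm.trans hX')
  refine ⟨j, a, b, c, s, kmap A Ks hh, ha, hb, hs, ?_, ?_, ?_⟩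
  · rw [hr, hr, ← KSeam.kmap_resL A h, ← KSeam.kmap_resL A h, ← map_mul, ← map_mul, h1]
  · rw [hr, hr, hr, ← KSeam.kmap_resL A h, ← KSeam.kmap_resL A h, ← KSeam.kmap_resL A h (rK t),
      ← map_zpow₀, ← map_pow, ← map_mul, ← map_mul, ← map_mul, h2]
  · have h4 := congrArg (kmap A Ks) h3
    rw [map_mul, map_mul, map_add, map_zsmul, map_mul, KSeam.kmap_resL A h,
      KSeam.kmap_resL A h, ← hr₂, ← hr₂, ← he₁] at h4
    exact h4

end Chart

end Fermat.Agent.S44.L.Alt.RhoTransport
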