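import Mathlib

/-!
# Program MR (S44), strand L, cover-free ALT, row ALT.3 (seam `Ls / L`), level-free half

`B` a domain with fraction field `L`, `ι : L →+* Ls` a field extension, `π : Ls` such that every
element of `Ls` is `∑ j < r, π ^ j * ι (c j)` (`Ls = L(π)`, `π` algebraic of degree `≤ r`).  Then
the `B`-subalgebra `A = B[π]` of `Ls` has fraction field `Ls`:

* `isFractionRing_adjoin_of_coords` : `IsFractionRing (Algebra.adjoin B {π}) Ls`
  (the binder `[IsFractionRing A K]` of `S44/L/NodeNF.exists_eq_first_order` and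
  `S44/L/SmoothNF.exists_eq_first_order_smooth` at `K := Ls`);
* `adjoin_gen_eq_top` : inside `A = Algebra.adjoin B {π}` the generator `π` generates everything
  (the binder `hgen : Algebra.adjoin B {π} = ⊤` of the same two theorems);
* `algebraMap_adjoin_injective` : `B → A` is injective when `B → Ls` is (the binder `hBA`).

Mathlib only.
-/

set_option autoImplicit false

namespace Fermat.Agent.S44.L.Alt.SeamFrac

/-- **`B[π]` has fraction field `Ls = L(π)`.** -/
theorem isFractionRing_adjoin_of_coords {B L Ls : Type*} [CommRing B] [IsDomain B] [Field L]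
    [Field Ls] [Algebra B L] [IsFractionRing B L] [Algebra B Ls] (ι : L →+* Ls)
    (hι : ∀ b : B, algebraMap B Ls b = ι (algebraMap B L b)) (π : Ls) {r : ℕ}
    (hspan : ∀ x : Ls, ∃ c : Fin r → L, x = ∑ j : Fin r, π ^ (j : ℕ) * ι (c j)) :
    IsFractionRing (Algebra.adjoin B ({π} : Set Ls)) Ls := by
  have : FaithfulSMul (Algebra.adjoin B ({π} : Set Ls)) Ls :=
    (faithfulSMul_iff_algebraMap_injective _ _).mpr Subtype.val_injective
  refine IsFractionRing.of_field _ _ fun z => ?_
  obtain ⟨c, hc⟩ := hspan z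
  obtain ⟨b, hb⟩ := IsLocalization.exist_integer_multiples_of_finite (nonZeroDivisors B) c
  choose a ha using hb
  have hb0 : algebraMap B Ls (b : B) ≠ 0 := by
    rw [hι]
    exact (map_ne_zero ι).mpr ((map_ne_zero_iff _ (IsFractionRing.injective B L)).mpr
      (nonZeroDivisors.coe_ne_zero b))
  have hπ : π ∈ Algebra.adjoin B ({π} : Set Ls) := Algebra.subset_adjoin (Set.mem_singleton π)
  refine ⟨⟨∑ j : Fin r, π ^ (j : ℕ) * algebraMap B Ls (a j),
      Subalgebra.sum_mem _ fun j _ => Subalgebra.mul_mem _ (Subalgebra.pow_mem _ hπ _)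
        (Subalgebra.algebraMap_mem _ _)⟩,
    ⟨algebraMap B Ls (b : B), Subalgebra.algebraMap_mem _ _⟩, ?_⟩
  show z = (∑ j : Fin r, π ^ (j : ℕ) * algebraMap B Ls (a j)) / algebraMap B Ls (b : B)
  rw [eq_div_iff hb0, hc, Finset.sum_mul]
  refine Finset.sum_congr rfl fun j _ => ?_
  rw [hι (a j), ha j, Algebra.smul_def, map_mul, hι]
  ring

/-- Inside `A = Algebra.adjoin B {π}` the generator generates everything. -/
theorem adjoin_gen_eq_top {B Ls : Type*} [CommRing B] [CommRing Ls] [Algebra B Ls] (π : Ls) :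
    Algebra.adjoin B
      ({(⟨π, Algebra.subset_adjoin (Set.mem_singleton π)⟩ : Algebra.adjoin B ({π} : Set Ls))} :
        Set (Algebra.adjoin B ({π} : Set Ls))) = ⊤ := by
  have h := Algebra.adjoin_adjoin_coe_preimage (R := B) (s := ({π} : Set Ls))
  have hset : ((↑) : Algebra.adjoin B ({π} : Set Ls) → Ls) ⁻¹' ({π} : Set Ls)
      = {(⟨π, Algebra.subset_adjoin (Set.mem_singleton π)⟩ : Algebra.adjoin B ({π} : Set Ls))} := by
    ext x
    simp only [Set.mem_preimage, Set.mem_singleton_iff]
    exact ⟨fun hx => Subtype.ext hx, fun hx => congrArg Subtype.val hx⟩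
  rwa [hset] at h

/-- `B → B[π]` is injective when `B → Ls` is. -/
theorem algebraMap_adjoin_injective {B Ls : Type*} [CommRing B] [CommRing Ls] [Algebra B Ls]
    (hinj : Function.Injective (algebraMap B Ls)) (π : Ls) :
    Function.Injective (algebraMap B (Algebra.adjoin B ({π} : Set Ls))) := by
  intro x y hxy
  apply hinj
  exact congrArg (fun t : Algebra.adjoin B ({π} : Set Ls) => (t : Ls)) hxy

end Fermat.Agent.S44.L.Alt.SeamFrac
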