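import Mathlib

/-!
# Program MR (S44), strand L, cover-free ALT, row ALT.3 (seam `Ls / L`): coordinates as a polynomial

Adapter between the two spellings of `Ls = β(L)[π]` used on the ALT chain:

* the `Fin`-sum form `x = ∑ j : Fin r, π ^ j * β (c j)` (`S19/Cech/LaurentBC.exists_coords`,
  `SeamFrac.isFractionRing_adjoin_of_coords`), and
* the polynomial form `x = P.eval₂ β π` (binder `(Sd)` of `Alt/NodeAlt`).

`exists_eval₂_of_coords` / `forall_exists_eval₂_of_coords` : `Fin`-sum ⟹ polynomial (with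
`natDegree < r` when `0 < r`);  `exists_coords_of_eval₂` : polynomial of degree `< r` ⟹ `Fin`-sum.
Mathlib only.
-/

set_option autoImplicit false

namespace Fermat.Agent.S44.L.Alt.SeamPoly

open Polynomial

/-- `Fin`-sum coordinates give a polynomial expression. -/
theorem exists_eval₂_of_coords {L Ls : Type*} [CommRing L] [CommRing Ls] (β : L →+* Ls) (π : Ls)
    {r : ℕ} {x : Ls} (hx : ∃ c : Fin r → L, x = ∑ j : Fin r, π ^ (j : ℕ) * β (c j)) :
    ∃ P : L[X], P.degree < r ∧ x = P.eval₂ β π := by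
  obtain ⟨c, hc⟩ := hx
  refine ⟨∑ j : Fin r, C (c j) * X ^ (j : ℕ), ?_, ?_⟩
  · refine (degree_sum_le _ _).trans_lt ?_
    refine (Finset.sup_lt_iff (WithBot.bot_lt_coe r)).mpr fun j _ => ?_
    refine (degree_C_mul_X_pow_le _ _).trans_lt ?_
    exact WithBot.coe_lt_coe.mpr j.2
  · rw [hc, eval₂_finsetSum]
    refine Finset.sum_congr rfl fun j _ => ?_
    rw [eval₂_mul, eval₂_C, eval₂_X_pow, mul_comm]

/-- `Ls = β(L)[π]`, polynomial form, from the `Fin`-sum form. -/
theorem forall_exists_eval₂_of_coords {L Ls : Type*} [CommRing L] [CommRing Ls] (β : L →+* Ls)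
    (π : Ls) {r : ℕ}
    (hspan : ∀ x : Ls, ∃ c : Fin r → L, x = ∑ j : Fin r, π ^ (j : ℕ) * β (c j)) :
    ∀ x : Ls, ∃ P : L[X], x = P.eval₂ β π := fun x =>
  let ⟨P, _, hP⟩ := exists_eval₂_of_coords β π (hspan x)
  ⟨P, hP⟩

/-- A polynomial expression of degree `< r` gives `Fin`-sum coordinates. -/
theorem exists_coords_of_eval₂ {L Ls : Type*} [CommRing L] [CommRing Ls] (β : L →+* Ls) (π : Ls)
    {r : ℕ} (P : L[X]) (hP : P.degree < r) :
    ∃ c : Fin r → L, P.eval₂ β π = ∑ j : Fin r, π ^ (j : ℕ) * β (c j) := by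
  refine ⟨fun j => P.coeff (j : ℕ), ?_⟩
  by_cases hP0 : P = 0
  · subst hP0
    simp
  · rw [eval₂_eq_sum_range' β ((natDegree_lt_iff_degree_lt hP0).mpr hP) π,
      Finset.sum_range fun i => β (P.coeff i) * π ^ i]
    exact Finset.sum_congr rfl fun j _ => mul_comm _ _

end Fermat.Agent.S44.L.Alt.SeamPoly
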