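import Mathlib
import Fermat.Agent.S44.L.Alt.ConstChart

/-!
# Program MR (S44), strand L, cover-free ALT for (L.SLOPE), row ALT.6: (K) + (Δ) on a chart

Chart-generic (helper67): the SLOPE RELATION `j * e₁ = d` at every node, with ONE `d`, from the
pointwise exits of ALT.5 (`NodeAlt.node_alt_isRho`, `NodeAlt.smooth_alt_isRho`).  Vocabulary:
`S34/TwoPrimesGauss` `section Chart` with TWO expansions `σ₁`, `σ₂` of `L` (`r₁ = redHom σ₁ … u`
the reduction on the `∞`-component, `r₂ = redHom σ₂ … u` on the `0`-component; primed: the same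
on the chart `u⁻¹`), `RhoGauss.IsRho`, `NodeAltCore.resL`.

* `redHom_const`, `resL_redHom_const` : the reduction of a constant `a : O`.
* `residue_eq_zero_of_mem` : a constant lying in a prime ideal of the chart has zero residue.
* `slope_mul_eq` : **(Δ) at one node** in chart vocabulary: from
  `C ā_∞ * r₁ s = r₁ c` and `C ā_0 * r₂ s = r₂ c + j • (C ē * r₂ s)`, `s ∉ y`, `y` a prime on
  both components: `j * ē = ā_0 - ā_∞` in the residue field of `Os`.
* `exists_slope` : **(K) + (Δ).**  `X₁ = σs x`, `X₂ = σs (ws x)`.  If `ρ(X₁)` is locally a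
  fraction at every closed point of the `∞`-component and `ρ(X₂)` is locally a fraction, up to
  the node term `j • (C e₁ * r₂ s)`, at every closed point of the `0`-component, then there is
  ONE `d` with `j * e₁ = d` at every node, for every node datum `(j, c, s)`.
-/

set_option autoImplicit false
set_option linter.unusedSectionVars false
set_option linter.unusedVariables false

open ModularCurve Polynomial

noncomputable section

namespace Fermat.Agent.S44.L.Alt.SlopeChart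

open Fermat.Agent.S30 Fermat.Agent.S34 Fermat.Agent.S34.TwoPrimesGauss
open Fermat.Agent.S44.L.FirstOrder Fermat.Agent.S44.L.Alt.NodeAltCore
open Fermat.Agent.S44.L.Alt.ConstChart

section One

variable {O E : Type*} [CommRing O] [IsDomain O] [IsDiscreteValuationRing O] [Field E]
  [Algebra O E] [FaithfulSMul O E] {L : Type*} [Field L] [Algebra O L]
  (ϖ : O) (hϖ : Irreducible ϖ) (σ : L →+* LaurentSeries E)
  (hσO : ∀ r : O, σ (algebraMap O L r) = HahnSeries.C (algebraMap O E r))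
  (hσfrac : ∀ x : L, σ x ∈ GaussDVR.fracField O E)
  (u : L) (U : LaurentSeries O) (hσu : σ u = GaussDVR.iota O E U)

/-- The reduction of a constant. -/
theorem redHom_const (a : O) :
    redHom σ hσO ϖ hϖ hσfrac u U hσu (polyChart u (C a))
      = HahnSeries.C (IsLocalRing.residue O a) := by
  rw [redHom_polyChart, Polynomial.map_C, eval₂_C]

variable {Os : Type*} [CommRing Os] [IsDomain Os] [IsDiscreteValuationRing Os]
  (φ : O →+* Os) [IsLocalHom φ]

/-- The reduction of a constant, over the residue field of `Os`. -/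
theorem resL_redHom_const (a : O) :
    resL φ (redHom σ hσO ϖ hϖ hσfrac u U hσu (polyChart u (C a)))
      = HahnSeries.C (IsLocalRing.residue Os (φ a)) := by
  rw [redHom_const, HahnSeries.C_apply, coeffMap_single, IsLocalRing.ResidueField.map_residue,
    ← HahnSeries.C_apply]

omit [FaithfulSMul O E] in
/-- A constant lying in a prime ideal of the chart ring has zero residue. -/
theorem residue_eq_zero_of_mem (y : Ideal (Chart O u)) (hy : y.IsPrime) (a : O)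
    (ha : polyChart u (C a) ∈ y) : IsLocalRing.residue O a = 0 := by
  by_contra hne
  have hunit : IsUnit a := (IsLocalRing.residue_ne_zero_iff_isUnit a).1 hne
  have hu2 : IsUnit (polyChart u (C a) : Chart O u) :=
    (hunit.map (C : O →+* O[X])).map (polyChart (O := O) u)
  exact hy.ne_top (Ideal.eq_top_of_isUnit_mem _ ha hu2)

end One

section Two

variable {O E : Type*} [CommRing O] [IsDomain O] [IsDiscreteValuationRing O] [Field E]
  [Algebra O E] [FaithfulSMul O E] {L : Type*} [Field L] [Algebra O L]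
  (ϖ : O) (hϖ : Irreducible ϖ) (u : L)
  (σ₁ : L →+* LaurentSeries E)
  (hσO₁ : ∀ r : O, σ₁ (algebraMap O L r) = HahnSeries.C (algebraMap O E r))
  (hσfrac₁ : ∀ x : L, σ₁ x ∈ GaussDVR.fracField O E)
  (U₁ : LaurentSeries O) (hσu₁ : σ₁ u = GaussDVR.iota O E U₁)
  (σ₂ : L →+* LaurentSeries E)
  (hσO₂ : ∀ r : O, σ₂ (algebraMap O L r) = HahnSeries.C (algebraMap O E r))
  (hσfrac₂ : ∀ x : L, σ₂ x ∈ GaussDVR.fracField O E)
  (U₂ : LaurentSeries O) (hσu₂ : σ₂ u = GaussDVR.iota O E U₂)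
  {Os : Type*} [CommRing Os] [IsDomain Os] [IsDiscreteValuationRing Os]
  (φ : O →+* Os) [IsLocalHom φ]

/-- **(Δ) at one node**, chart vocabulary.  `y` a prime ideal of the chart on both components;
if `C ā_∞ * r₁ s = r₁ c` and `C ā_0 * r₂ s = r₂ c + j • (C ē * r₂ s)` with `s ∉ y` (all read
over the residue field of `Os`), then `j * ē = ā_0 - ā_∞`. -/
theorem slope_mul_eq (y : Ideal (Chart O u)) (hy : y.IsPrime)
    (hI : RingHom.ker (redHom σ₁ hσO₁ ϖ hϖ hσfrac₁ u U₁ hσu₁) ≤ y)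
    (hZ : RingHom.ker (redHom σ₂ hσO₂ ϖ hϖ hσfrac₂ u U₂ hσu₂) ≤ y)
    (aI aZ e : O) (j : ℤ) (c s : Chart O u) (hs : s ∉ y)
    (hb : HahnSeries.C (IsLocalRing.residue Os (φ aI))
        * resL φ (redHom σ₁ hσO₁ ϖ hϖ hσfrac₁ u U₁ hσu₁ s)
      = resL φ (redHom σ₁ hσO₁ ϖ hϖ hσfrac₁ u U₁ hσu₁ c))
    (hc : HahnSeries.C (IsLocalRing.residue Os (φ aZ))
        * resL φ (redHom σ₂ hσO₂ ϖ hϖ hσfrac₂ u U₂ hσu₂ s)
      = resL φ (redHom σ₂ hσO₂ ϖ hϖ hσfrac₂ u U₂ hσu₂ c)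
        + j • (HahnSeries.C (IsLocalRing.residue Os (φ e))
          * resL φ (redHom σ₂ hσO₂ ϖ hϖ hσfrac₂ u U₂ hσu₂ s))) :
    (j : IsLocalRing.ResidueField Os) * IsLocalRing.residue Os (φ e)
      = IsLocalRing.residue Os (φ aZ) - IsLocalRing.residue Os (φ aI) := by
  have h1 : polyChart u (C aI) * s - c ∈ y := by
    apply hI
    rw [RingHom.mem_ker]
    apply resL_injective φ
    simp only [map_sub, map_mul, map_zero]
    rw [resL_redHom_const, hb, sub_self]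
  have h2 : polyChart u (C aZ) * s - c - (j : Chart O u) * (polyChart u (C e) * s) ∈ y := by
    apply hZ
    rw [RingHom.mem_ker]
    apply resL_injective φ
    simp only [map_sub, map_mul, map_zero, map_intCast]
    rw [resL_redHom_const, resL_redHom_const, hc, zsmul_eq_mul]
    ring
  have h3 : polyChart u (C ((j : O) * e - (aZ - aI))) * s ∈ y := by
    have e3 : polyChart u (C ((j : O) * e - (aZ - aI))) * s
        = (polyChart u (C aI) * s - c)
          - (polyChart u (C aZ) * s - c - (j : Chart O u) * (polyChart u (C e) * s)) := by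
      simp only [map_sub, map_mul, map_intCast]
      ring
    rw [e3]
    exact y.sub_mem h1 h2
  have h4 := (hy.mem_or_mem h3).resolve_right hs
  have h5 := residue_eq_zero_of_mem u y hy _ h4
  have h6 := congrArg (IsLocalRing.ResidueField.map φ) h5
  rw [IsLocalRing.ResidueField.map_residue, map_zero] at h6
  simp only [map_sub, map_mul, map_intCast] at h6
  exact sub_eq_zero.mp h6

/-- **(K) + (Δ): one slope for all nodes.**  `X₁`, `X₂` the expansions of `x` on the two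
components (`σs x`, `σs (ws x)`), `e₁` the first-order constant (in the range of `O`).

* `hfin₁`, `hinf₁` : `ρ(X₁)` is locally a fraction at every closed point of the `∞`-component
  (maximal `y ⊇ ker r₁` of the chart `u`; maximal `y ⊇ ker r₁'` of the chart `u⁻¹` containing
  the coordinate `u⁻¹`) — exits of `smooth_alt_isRho` / first block of `node_alt_isRho`;
* `hfin₂`, `hinf₂` : `ρ(X₂)` is locally a fraction at every closed point of the `0`-component,
  up to the node term `j • (C e₁ * r₂ s)` on the chart `u` (`j = 0` at smooth points) — exits of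
  `smooth_alt_isRho` at `σ₂` / second block of `node_alt_isRho`.

Then there is ONE `d` in the residue field of `Os` such that `j * e₁ = d` for every node datum
`(j, c, s)` at every prime `y` on both components. -/
theorem exists_slope {Ks : Type*} [Field Ks] [Algebra Os Ks] [FaithfulSMul Os Ks]
    {ϖs : Os} {D : Os → IsLocalRing.ResidueField Os}
    (h : IsFirstOrder (IsLocalRing.residue Os) ϖs D) (hϖs : Irreducible ϖs)
    (hu : u ≠ 0)
    (U₁' : LaurentSeries O) (hσu₁' : σ₁ u⁻¹ = GaussDVR.iota O E U₁')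
    (U₂' : LaurentSeries O) (hσu₂' : σ₂ u⁻¹ = GaussDVR.iota O E U₂')
    (e₁ : IsLocalRing.ResidueField Os) (he₁ : ∃ e : O, IsLocalRing.residue Os (φ e) = e₁)
    (X₁ X₂ : LaurentSeries Ks)
    (hX₁ : ∃ ρ, Fermat.Agent.S44.L.RhoGauss.IsRho h X₁ ρ)
    (hX₂ : ∃ ρ, Fermat.Agent.S44.L.RhoGauss.IsRho h X₂ ρ)
    (hfin₁ : ∀ y : Ideal (Chart O u), y.IsMaximal →
      RingHom.ker (redHom σ₁ hσO₁ ϖ hϖ hσfrac₁ u U₁ hσu₁) ≤ y →
      ∃ (c s : Chart O u) (ρ : LaurentSeries (IsLocalRing.ResidueField Os)), s ∉ y ∧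
        Fermat.Agent.S44.L.RhoGauss.IsRho h X₁ ρ ∧
        ρ * resL φ (redHom σ₁ hσO₁ ϖ hϖ hσfrac₁ u U₁ hσu₁ s)
          = resL φ (redHom σ₁ hσO₁ ϖ hϖ hσfrac₁ u U₁ hσu₁ c))
    (hinf₁ : ∀ y : Ideal (Chart O u⁻¹), y.IsMaximal →
      RingHom.ker (redHom σ₁ hσO₁ ϖ hϖ hσfrac₁ u⁻¹ U₁' hσu₁') ≤ y →
      (∀ c : Chart O u⁻¹, (c : L) = u⁻¹ → c ∈ y) →
      ∃ (c s : Chart O u⁻¹) (ρ : LaurentSeries (IsLocalRing.ResidueField Os)), s ∉ y ∧
        Fermat.Agent.S44.L.RhoGauss.IsRho h X₁ ρ ∧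
        ρ * resL φ (redHom σ₁ hσO₁ ϖ hϖ hσfrac₁ u⁻¹ U₁' hσu₁' s)
          = resL φ (redHom σ₁ hσO₁ ϖ hϖ hσfrac₁ u⁻¹ U₁' hσu₁' c))
    (hfin₂ : ∀ y : Ideal (Chart O u), y.IsMaximal →
      RingHom.ker (redHom σ₂ hσO₂ ϖ hϖ hσfrac₂ u U₂ hσu₂) ≤ y →
      ∃ (c s : Chart O u) (ρ : LaurentSeries (IsLocalRing.ResidueField Os)) (j : ℤ), s ∉ y ∧
        Fermat.Agent.S44.L.RhoGauss.IsRho h X₂ ρ ∧
        ρ * resL φ (redHom σ₂ hσO₂ ϖ hϖ hσfrac₂ u U₂ hσu₂ s)
          = resL φ (redHom σ₂ hσO₂ ϖ hϖ hσfrac₂ u U₂ hσu₂ c)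
            + j • (HahnSeries.C e₁ * resL φ (redHom σ₂ hσO₂ ϖ hϖ hσfrac₂ u U₂ hσu₂ s)))
    (hinf₂ : ∀ y : Ideal (Chart O u⁻¹), y.IsMaximal →
      RingHom.ker (redHom σ₂ hσO₂ ϖ hϖ hσfrac₂ u⁻¹ U₂' hσu₂') ≤ y →
      (∀ c : Chart O u⁻¹, (c : L) = u⁻¹ → c ∈ y) →
      ∃ (c s : Chart O u⁻¹) (ρ : LaurentSeries (IsLocalRing.ResidueField Os)), s ∉ y ∧
        Fermat.Agent.S44.L.RhoGauss.IsRho h X₂ ρ ∧
        ρ * resL φ (redHom σ₂ hσO₂ ϖ hϖ hσfrac₂ u⁻¹ U₂' hσu₂' s)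
          = resL φ (redHom σ₂ hσO₂ ϖ hϖ hσfrac₂ u⁻¹ U₂' hσu₂' c)) :
    ∃ d : IsLocalRing.ResidueField Os,
      ∀ y : Ideal (Chart O u), y.IsPrime →
        RingHom.ker (redHom σ₁ hσO₁ ϖ hϖ hσfrac₁ u U₁ hσu₁) ≤ y →
        RingHom.ker (redHom σ₂ hσO₂ ϖ hϖ hσfrac₂ u U₂ hσu₂) ≤ y →
        ∀ (j : ℤ) (c s : Chart O u) (ρ₁ ρ₂ : LaurentSeries (IsLocalRing.ResidueField Os)),
          s ∉ y →
          Fermat.Agent.S44.L.RhoGauss.IsRho h X₁ ρ₁ →
          ρ₁ * resL φ (redHom σ₁ hσO₁ ϖ hϖ hσfrac₁ u U₁ hσu₁ s)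
            = resL φ (redHom σ₁ hσO₁ ϖ hϖ hσfrac₁ u U₁ hσu₁ c) →
          Fermat.Agent.S44.L.RhoGauss.IsRho h X₂ ρ₂ →
          ρ₂ * resL φ (redHom σ₂ hσO₂ ϖ hϖ hσfrac₂ u U₂ hσu₂ s)
            = resL φ (redHom σ₂ hσO₂ ϖ hϖ hσfrac₂ u U₂ hσu₂ c)
              + j • (HahnSeries.C e₁ * resL φ (redHom σ₂ hσO₂ ϖ hϖ hσfrac₂ u U₂ hσu₂ s)) →
          (j : IsLocalRing.ResidueField Os) * e₁ = d := by
  obtain ⟨e, rfl⟩ := he₁
  obtain ⟨ρI, hρI⟩ := hX₁
  obtain ⟨ρZ, hρZ⟩ := hX₂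
  -- (K) on the `∞`-component
  obtain ⟨aI, haI⟩ := isRho_const ϖ hϖ σ₁ hσO₁ hσfrac₁ u U₁ hσu₁ φ h hϖs hu U₁' hσu₁' X₁ ρI hρI
    hfin₁ hinf₁
  -- (K) on the `0`-component: the node term is a fraction
  obtain ⟨aZ, haZ⟩ := isRho_const ϖ hϖ σ₂ hσO₂ hσfrac₂ u U₂ hσu₂ φ h hϖs hu U₂' hσu₂' X₂ ρZ hρZ
    (fun y hy hker => by
      obtain ⟨c, s, ρ, j, hs, hρ, he⟩ := hfin₂ y hy hker
      refine ⟨c + polyChart u (C ((j : O) * e)) * s, s, ρ, hs, hρ, ?_⟩
      rw [he, map_add, map_add, map_mul, map_mul, resL_redHom_const, map_mul, map_intCast,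
        map_mul, map_intCast, map_mul, map_intCast, zsmul_eq_mul]
      ring)
    hinf₂
  refine ⟨IsLocalRing.residue Os (φ aZ) - IsLocalRing.residue Os (φ aI), ?_⟩
  intro y hy hI hZ j c s ρ₁ ρ₂ hs hρ₁ hb hρ₂ hc
  have e1 : ρ₁ = HahnSeries.C (IsLocalRing.residue Os (φ aI)) := by
    rw [← haI]
    exact Fermat.Agent.S44.L.RhoGauss.IsRho.unique h hϖs hρ₁ hρI
  have e2 : ρ₂ = HahnSeries.C (IsLocalRing.residue Os (φ aZ)) := by
    rw [← haZ]
    exact Fermat.Agent.S44.L.RhoGauss.IsRho.unique h hϖs hρ₂ hρZ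
  rw [e1] at hb
  rw [e2] at hc
  exact slope_mul_eq ϖ hϖ u σ₁ hσO₁ hσfrac₁ U₁ hσu₁ σ₂ hσO₂ hσfrac₂ U₂ hσu₂ φ y hy hI hZ aI aZ e j c
    s hs hb hc

end Two

end Fermat.Agent.S44.L.Alt.SlopeChart
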